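import Fermat.Agent.LT.Dihedral.QuadExt
import Fermat.Agent.LT.Adelic.Space
import Mathlib.NumberTheory.NumberField.Ideal.Basic

/-!
# The data from which the dihedral form is built

A quadratic extension `M/K` tame (trace one element), a nonzero `cond` and a character of the
ideals of `M` prime to `cond`, periodic modulo `cond`, restricting to the quadratic character of
`M/K` on the primes of `K` away from `cond`.
-/

set_option autoImplicit false
set_option maxHeartbeats 400000

noncomputable section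

namespace Fermat.Agent.LT.Dihedral

open NumberField IsDedekindDomain
open scoped nonZeroDivisors

variable {K M : Type*} [Field K] [NumberField K] [Field M] [NumberField M] [Algebra K M]

namespace Quad

variable (D : Quad K M)

/-- The involution on the ring of integers. -/
def conjO : 𝓞 M ≃+* 𝓞 M where
  toFun a := ⟨D.conj (a : M), a.isIntegral_coe.map ((D.conj : M →ₐ[K] M).toRingHom.toIntAlgHom)⟩
  invFun a := ⟨D.conj (a : M), a.isIntegral_coe.map ((D.conj : M →ₐ[K] M).toRingHom.toIntAlgHom)⟩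
  left_inv a := RingOfIntegers.ext (D.conj_conj _)
  right_inv a := RingOfIntegers.ext (D.conj_conj _)
  map_mul' a b := RingOfIntegers.ext (map_mul D.conj _ _)
  map_add' a b := RingOfIntegers.ext (map_add D.conj _ _)

@[simp] theorem coe_conjO (a : 𝓞 M) : ((D.conjO a : 𝓞 M) : M) = D.conj (a : M) := rfl

@[simp] theorem conjO_conjO (a : 𝓞 M) : D.conjO (D.conjO a) = a :=
  RingOfIntegers.ext (D.conj_conj _)

/-- The conjugate ideal. -/
def conjI (I : Ideal (𝓞 M)) : Ideal (𝓞 M) := I.map D.conjO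

theorem mem_conjI {I : Ideal (𝓞 M)} {a : 𝓞 M} : a ∈ D.conjI I ↔ D.conjO a ∈ I := by
  rw [conjI, Ideal.mem_map_of_equiv]
  refine ⟨?_, fun h => ⟨_, h, D.conjO_conjO a⟩⟩
  rintro ⟨x, hx, rfl⟩
  rwa [conjO_conjO]

@[simp] theorem conjI_conjI (I : Ideal (𝓞 M)) : D.conjI (D.conjI I) = I := by
  ext a; rw [mem_conjI, mem_conjI, conjO_conjO]

theorem conjI_mul (I J : Ideal (𝓞 M)) : D.conjI (I * J) = D.conjI I * D.conjI J :=
  Ideal.map_mul _ _ _

end Quad

variable (K) in
/-- The extension of an ideal of `K` to `M`. -/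
abbrev extI (M : Type*) [Field M] [NumberField M] [Algebra K M] (I : Ideal (𝓞 K)) :
    Ideal (𝓞 M) :=
  I.map (algebraMap (𝓞 K) (𝓞 M))

variable (K M) in
/-- The data of a dihedral form. -/
structure DihData extends Quad K M where
  /-- an element of trace one -/
  theta : 𝓞 M
  trace_theta : Algebra.trace K M (theta : M) = 1
  /-- the period of the character -/
  cond : 𝓞 K
  cond_ne : cond ≠ 0
  /-- `cond` kills the inverse different of `M/K` -/
  diff : ∀ z : M, (∀ a : 𝓞 M, IsIntegral ℤ (Algebra.trace K M (z * (a : M)))) →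
    IsIntegral ℤ (algebraMap K M (cond : K) * z)
  /-- the character on ideals, zero off the ideals prime to `cond` -/
  chi : Ideal (𝓞 M) →* ℂ
  chi_bot : chi ⊥ = 0
  chi_eq_zero : ∀ I, I ⊔ Ideal.span {algebraMap (𝓞 K) (𝓞 M) cond} ≠ ⊤ → chi I = 0
  norm_chi : ∀ I, I ≠ ⊥ → I ⊔ Ideal.span {algebraMap (𝓞 K) (𝓞 M) cond} = ⊤ → ‖chi I‖ = 1
  chi_periodic : ∀ p q : 𝓞 M, p ≠ 0 → q ≠ 0 → algebraMap (𝓞 K) (𝓞 M) cond ∣ p - q →
    chi (Ideal.span {p}) = chi (Ideal.span {q})
  /-- the places prime to `cond` are inert with character `-1` or split with inverse values -/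
  inert_or_split : ∀ v : HeightOneSpectrum (𝓞 K), cond ∉ v.asIdeal →
    ((extI K M v.asIdeal).IsPrime ∧ chi (extI K M v.asIdeal) = -1 ∧
      ∃ a : 𝓞 M, toQuad.conjO a - a ∉ extI K M v.asIdeal) ∨
    (∃ Q : Ideal (𝓞 M), Q.IsPrime ∧ toQuad.conjI Q ≠ Q ∧
      extI K M v.asIdeal = Q * toQuad.conjI Q ∧ chi Q * chi (toQuad.conjI Q) = 1)
  /-- infinitely many split places where the character is not quadratic -/
  nontrivial : ∀ T : Finset (HeightOneSpectrum (𝓞 K)), ∃ v, v ∉ T ∧ cond ∉ v.asIdeal ∧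
    ∃ Q : Ideal (𝓞 M), Q.IsPrime ∧ toQuad.conjI Q ≠ Q ∧
      extI K M v.asIdeal = Q * toQuad.conjI Q ∧ chi Q ^ 2 ≠ 1

namespace DihData

variable (D : DihData K M)

/-- The coefficient at an ideal: sum of the character over the ideals with that norm. -/
def bcoef (J : Ideal (𝓞 M)) : ℂ :=
  ∑ᶠ I ∈ {I : Ideal (𝓞 M) | I * D.toQuad.conjI I = J}, D.chi I

/-- The eigenvalue at `v`. -/
def eig (v : HeightOneSpectrum (𝓞 K)) : ℂ := D.bcoef (extI K M v.asIdeal)

end DihData

end Fermat.Agent.LT.Dihedral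

end
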