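import Fermat.Agent.LT.Dihedral.Embed
import Fermat.Agent.LT.Dihedral.Data
import Mathlib.NumberTheory.NumberField.Units.DirichletTheorem

/-!
The logarithms of the norm-one units of `M` over the places of `K` form a full lattice.
-/

set_option autoImplicit false
set_option linter.unusedSectionVars false

noncomputable section

namespace Fermat.Agent.LT.Dihedral

open NumberField Adelic
open NumberField.Units.dirichletUnitTheorem (logSpace w₀)
open scoped nonZeroDivisors

variable {K M : Type*} [Field K] [NumberField K] [Field M] [NumberField M] [Algebra K M]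
  {ι : Type*} [Fintype ι] (Φ : Frame K ι) (D : Quad K M)

theorem frame_nonempty (Φ : Frame K ι) : Nonempty ι :=
  ⟨(Equiv.ofBijective _ Φ.bij).symm (Classical.arbitrary (InfinitePlace K))⟩

/-! ### Embeddings of `M` -/

/-- In absolute value every embedding of `M` takes one of the values `e x`, `e x̄`. -/
theorem norm_embedding_cases (φ : M →+* ℂ) (x : M) :
    ∃ i, ‖φ x‖ = ‖liftEmb Φ i x‖ ∨ ‖φ x‖ = ‖liftEmb Φ i (D.conj x)‖ := by
  have key : ∀ (ψ : M →+* ℂ) (i : ι), ψ.comp (algebraMap K M) = Φ.emb i →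
      ψ x = liftEmb Φ i x ∨ ψ x = liftEmb Φ i (D.conj x) := by
    intro ψ i h
    have h' : ∀ z, ψ (algebraMap K M z) = liftEmb Φ i (algebraMap K M z) := fun z => by
      rw [liftEmb_algebraMap, ← h]; rfl
    have hT := h' (Algebra.trace K M x)
    have hN := h' (Algebra.norm K x)
    rw [D.trace_eq, map_add, map_add] at hT
    rw [D.norm_eq, map_mul, map_mul] at hN
    have : (ψ x - liftEmb Φ i x) * (ψ x - liftEmb Φ i (D.conj x)) = 0 := by
      linear_combination ψ x * hT - hN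
    rcases mul_eq_zero.mp this with h | h
    · exact Or.inl (sub_eq_zero.mp h)
    · exact Or.inr (sub_eq_zero.mp h)
  obtain ⟨⟨i, b⟩, hb⟩ := (frameEmbEquiv Φ).surjective (φ.comp (algebraMap K M))
  refine ⟨i, ?_⟩
  cases b
  · have h : (ComplexEmbedding.conjugate φ).comp (algebraMap K M) = Φ.emb i := by
      have hb' : ComplexEmbedding.conjugate (Φ.emb i) = φ.comp (algebraMap K M) := hb
      ext z
      have := RingHom.congr_fun hb' z
      simp only [ComplexEmbedding.conjugate_coe_eq, RingHom.comp_apply] at this ⊢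
      rw [← this, Complex.conj_conj]
    have hn : ‖φ x‖ = ‖ComplexEmbedding.conjugate φ x‖ := by
      rw [ComplexEmbedding.conjugate_coe_eq, Complex.norm_conj]
    rcases key _ i h with h | h <;> rw [hn, h] <;> simp
  · rcases key φ i hb.symm with h | h <;> rw [h] <;> simp

theorem mk_liftEmb_eq {g g' : M →ₐ[K] M} {i j : ι}
    (h : InfinitePlace.mk ((liftEmb Φ i).comp g.toRingHom) =
      InfinitePlace.mk ((liftEmb Φ j).comp g'.toRingHom)) : i = j ∧ g = g' := by
  have hr : ∀ (k : ι) (f : M →ₐ[K] M),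
      ((liftEmb Φ k).comp f.toRingHom).comp (algebraMap K M) = Φ.emb k := fun k f => by
    ext z
    show liftEmb Φ k (f (algebraMap K M z)) = _
    rw [AlgHom.commutes, liftEmb_algebraMap]
  have hij : i = j := by
    have := congrArg (fun w : InfinitePlace M => w.comap (algebraMap K M)) h
    simp only [InfinitePlace.comap_mk, hr] at this
    exact Φ.bij.injective this
  subst hij
  refine ⟨rfl, AlgHom.ext fun x => ?_⟩
  rcases InfinitePlace.mk_eq_iff.mp h with h | h
  · exact (liftEmb Φ i).injective (RingHom.congr_fun h x)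
  · exfalso
    refine InfinitePlace.isComplex_mk_iff.mp (Φ.complex i) (ComplexEmbedding.isReal_iff.mpr ?_)
    ext z
    have hz := RingHom.congr_fun h (algebraMap K M z)
    simp only [ComplexEmbedding.conjugate_coe_eq, RingHom.comp_apply, AlgHom.toRingHom_eq_coe,
      RingHom.coe_coe, AlgHom.commutes, liftEmb_algebraMap] at hz
    simpa [ComplexEmbedding.conjugate_coe_eq] using hz

theorem mult_mk_liftEmb (g : M →ₐ[K] M) (i : ι) :
    InfinitePlace.mult (InfinitePlace.mk ((liftEmb Φ i).comp g.toRingHom)) = 2 := by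
  rw [InfinitePlace.mult, if_neg]
  rw [InfinitePlace.not_isReal_iff_isComplex, InfinitePlace.isComplex_mk_iff]
  intro h
  refine InfinitePlace.isComplex_mk_iff.mp (Φ.complex i) ?_
  have h' := ComplexEmbedding.IsReal.comp (algebraMap K M) h
  rwa [show ((liftEmb Φ i).comp g.toRingHom).comp (algebraMap K M) = Φ.emb i by
    ext z
    show liftEmb Φ i (g (algebraMap K M z)) = _
    rw [AlgHom.commutes, liftEmb_algebraMap]] at h'

/-! ### The logarithm -/

/-- `log |e u| - log |e ū|` at the places of the frame. -/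
def unitLog : Additive (𝓞 M)ˣ →+ (ι → ℝ) where
  toFun u i := Real.log ‖liftEmb Φ i ((u.toMul : 𝓞 M) : M)‖ -
    Real.log ‖liftEmb Φ i (D.conj ((u.toMul : 𝓞 M) : M))‖
  map_zero' := funext fun i => by simp
  map_add' u v := funext fun i => by
    have h : ∀ w : Additive (𝓞 M)ˣ, ((w.toMul : 𝓞 M) : M) ≠ 0 := fun w =>
      NumberField.Units.coe_ne_zero w.toMul
    simp [h, Real.log_mul]
    ring

theorem unitLog_apply (u : (𝓞 M)ˣ) (i : ι) :
    unitLog Φ D (Additive.ofMul u) i =
      Real.log ‖(mPt Φ D (u : M) i).1‖ - Real.log ‖(mPt Φ D (u : M) i).2‖ := rfl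

theorem span_range_unitLog :
    Submodule.span ℝ (Set.range (unitLog Φ D)) = ⊤ := by
  classical
  let F : logSpace M →ₗ[ℝ] (InfinitePlace M → ℝ) :=
    { toFun := fun f w => if h : w = w₀ then -∑ v, f v else f ⟨w, h⟩
      map_add' := fun f g => funext fun w => by
        by_cases h : w = w₀ <;> simp [h, Finset.sum_add_distrib, add_comm]
      map_smul' := fun c f => funext fun w => by
        by_cases h : w = w₀ <;> simp [h, Finset.mul_sum] }
  let p : ι → InfinitePlace M := fun i =>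
    InfinitePlace.mk ((liftEmb Φ i).comp (AlgHom.id K M).toRingHom)
  let q : ι → InfinitePlace M := fun i =>
    InfinitePlace.mk ((liftEmb Φ i).comp (D.conj : M →ₐ[K] M).toRingHom)
  let T : logSpace M →ₗ[ℝ] (ι → ℝ) :=
    LinearMap.pi fun i => (2⁻¹ : ℝ) • ((LinearMap.proj (p i)).comp F - (LinearMap.proj (q i)).comp F)
  have hne : (AlgHom.id K M) ≠ (D.conj : M →ₐ[K] M) := fun h =>
    D.conj_ne (AlgEquiv.ext fun x => (AlgHom.congr_fun h x).symm)
  have hTlog : ∀ u, T (NumberField.Units.logEmbedding M u) = unitLog Φ D u := by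
    intro u
    have hF : ∀ w : InfinitePlace M, F (NumberField.Units.logEmbedding M u) w =
        w.mult * Real.log (w ((u.toMul : 𝓞 M) : M)) := fun w => by
      show (if h : w = w₀ then _ else _) = _
      split_ifs with h
      · rw [h, ← ofMul_toMul u, NumberField.Units.dirichletUnitTheorem.sum_logEmbedding_component,
          neg_mul, neg_neg]
        rfl
      · rfl
    funext i
    show (2⁻¹ : ℝ) • (F _ (p i) - F _ (q i)) = _
    rw [hF, hF, mult_mk_liftEmb, mult_mk_liftEmb, InfinitePlace.apply, InfinitePlace.apply,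
      smul_eq_mul]
    show _ = Real.log _ - Real.log _
    simp only [RingHom.comp_apply, Nat.cast_ofNat]
    ring_nf
    rfl
  have hT : Function.Surjective T := by
    intro d
    let G : InfinitePlace M → ℝ := fun w =>
      ∑ i, ((if w = p i then d i else 0) - (if w = q i then d i else 0))
    have hG0 : ∑ w, G w = 0 := by
      simp only [G]
      rw [Finset.sum_comm]
      refine Finset.sum_eq_zero fun i _ => ?_
      rw [Finset.sum_sub_distrib, Finset.sum_ite_eq', Finset.sum_ite_eq']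
      simp
    have hpp : ∀ i j, p i = p j → i = j := fun i j h => (mk_liftEmb_eq Φ h).1
    have hqq : ∀ i j, q i = q j → i = j := fun i j h => (mk_liftEmb_eq Φ h).1
    have hpq : ∀ i j, p i ≠ q j := fun i j h => hne (mk_liftEmb_eq Φ h).2
    have hGp : ∀ i, G (p i) = d i := fun i => by
      simp only [G]
      rw [Finset.sum_eq_single i]
      · simp [hpq i i]
      · intro j _ hj
        simp [hpq i j, show p i ≠ p j from fun h => hj (hpp i j h).symm]
      · simp
    have hGq : ∀ i, G (q i) = -d i := fun i => by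
      simp only [G]
      rw [Finset.sum_eq_single i]
      · simp [(hpq i i).symm]
      · intro j _ hj
        simp [(hpq j i).symm, show q i ≠ q j from fun h => hj (hqq i j h).symm]
      · simp
    refine ⟨fun v => G v.1, funext fun i => ?_⟩
    have hF : ∀ w : InfinitePlace M, F (fun v => G v.1) w = G w := fun w => by
      show (if h : w = w₀ then _ else _) = _
      split_ifs with h
      · rw [h, neg_eq_iff_add_eq_zero, add_comm]
        exact (Fintype.sum_eq_add_sum_subtype_ne G w₀).symm.trans hG0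
      · rfl
    simp only [T, LinearMap.pi_apply, LinearMap.smul_apply, LinearMap.sub_apply,
      LinearMap.comp_apply, LinearMap.proj_apply]
    rw [hF, hF, hGp, hGq, smul_eq_mul]
    ring
  have h := congrArg (Submodule.map T)
    (NumberField.Units.dirichletUnitTheorem.unitLattice_span_eq_top M)
  rw [Submodule.map_span, Submodule.map_top, LinearMap.range_eq_top.mpr hT] at h
  refine top_le_iff.mp (h.ge.trans (Submodule.span_mono ?_))
  rintro _ ⟨_, ⟨u, -, rfl⟩, rfl⟩
  exact ⟨u, (hTlog u).symm⟩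

/-- The units of relative norm one. -/
def normOneUnits : Subgroup (𝓞 M)ˣ where
  carrier := {u | (u : M) * D.conj (u : M) = 1}
  one_mem' := by simp
  mul_mem' := fun {u v} hu hv => by
    show ((u * v : (𝓞 M)ˣ) : M) * D.conj ((u * v : (𝓞 M)ˣ) : M) = 1
    simp only [Units.val_mul, map_mul]
    have hu' : (u : M) * D.conj (u : M) = 1 := hu
    have hv' : (v : M) * D.conj (v : M) = 1 := hv
    linear_combination (v : M) * D.conj (v : M) * hu' + hv'
  inv_mem' := fun {u} hu => by
    show ((u⁻¹ : (𝓞 M)ˣ) : M) * D.conj ((u⁻¹ : (𝓞 M)ˣ) : M) = 1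
    rw [map_units_inv, map_inv₀, ← mul_inv, hu, inv_one]

theorem mem_normOneUnits (u : (𝓞 M)ˣ) :
    u ∈ normOneUnits D ↔ (u : M) * D.conj (u : M) = 1 := Iff.rfl

theorem norm_mem_normOneUnits {u : (𝓞 M)ˣ} (hu : u ∈ normOneUnits D) :
    Algebra.norm K (u : M) = 1 :=
  (algebraMap K M).injective (by rw [D.norm_eq, map_one]; exact hu)

/-- A subgroup of finite index without torsion in the units of norm one. -/
structure IsUnfoldGroup (E : Subgroup (𝓞 M)ˣ) : Prop where
  le_normOne : E ≤ normOneUnits D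
  torsion_free : ∀ e ∈ E, IsOfFinOrder e → e = 1
  exists_pow : ∃ k : ℕ, k ≠ 0 ∧ ∀ u ∈ normOneUnits D, u ^ k ∈ E

/-- Unfolding groups congruent to one modulo any nonzero `m`. -/
theorem exists_isUnfoldGroup {m : 𝓞 M} (hm : m ≠ 0) :
    ∃ E, IsUnfoldGroup D E ∧ ∀ e ∈ E, m ∣ ((e : 𝓞 M) - 1) := by
  classical
  set I : Ideal (𝓞 M) := Ideal.span {m}
  have hI : I ≠ ⊥ := by simpa [I] using hm
  have : Finite (𝓞 M ⧸ I) := Ideal.finiteQuotientOfFreeOfNeBot I hI
  set c := Nat.card (𝓞 M ⧸ I)ˣ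
  set w := Units.torsionOrder M
  have hc : c ≠ 0 := Nat.card_pos.ne'
  refine ⟨(normOneUnits D).map (powMonoidHom (c * w)), ⟨?_, ?_, c * w,
    mul_ne_zero hc (Units.torsionOrder_ne_zero M), fun u hu => ⟨u, hu, rfl⟩⟩, ?_⟩
  · rintro _ ⟨u, hu, rfl⟩
    exact pow_mem hu _
  · rintro _ ⟨u, -, rfl⟩ h
    have hu : u ∈ Units.torsion M :=
      (CommGroup.mem_torsion _).mpr (h.of_pow (mul_ne_zero hc (Units.torsionOrder_ne_zero M)))
    have hw : u ^ w = 1 := by
      rw [← Units.rootsOfUnity_eq_torsion, mem_rootsOfUnity] at hu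
      exact hu
    show u ^ (c * w) = 1
    rw [mul_comm, pow_mul, hw, one_pow]
  · rintro _ ⟨u, -, rfl⟩
    rw [← Ideal.mem_span_singleton]
    refine (Ideal.Quotient.mk_eq_mk_iff_sub_mem _ _).mp ?_
    have h := congrArg Units.val
      (pow_card_eq_one' (x := Units.map (Ideal.Quotient.mk I : 𝓞 M →* 𝓞 M ⧸ I) (u ^ w)))
    rw [Units.val_pow_eq_pow_val, Units.coe_map, Units.val_one] at h
    rw [powMonoidHom_apply, mul_comm c w, pow_mul, Units.val_pow_eq_pow_val, map_pow, map_one]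
    exact h

/-- The lattice of logarithms of a group of units. -/
def unitLat (E : Subgroup (𝓞 M)ˣ) : Submodule ℤ (ι → ℝ) :=
  AddSubgroup.toIntSubmodule (E.toAddSubgroup.map (unitLog Φ D))

theorem mem_unitLat {E : Subgroup (𝓞 M)ˣ} {v : ι → ℝ} :
    v ∈ unitLat Φ D E ↔ ∃ e ∈ E, unitLog Φ D (Additive.ofMul e) = v :=
  ⟨fun ⟨e, he, h⟩ => ⟨e.toMul, he, h⟩, fun ⟨e, he, h⟩ => ⟨Additive.ofMul e, he, h⟩⟩

theorem finite_unitLog_le (R : ℝ) :
    {u : (𝓞 M)ˣ | u ∈ normOneUnits D ∧ ‖unitLog Φ D (Additive.ofMul u)‖ ≤ R}.Finite := by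
  refine Set.Finite.of_finite_image ?_ (NumberField.Units.coe_injective M).injOn
  refine (Embeddings.finite_of_norm_le M ℂ (Real.exp (R / 2))).subset ?_
  rintro _ ⟨u, ⟨hu, hR⟩, rfl⟩
  refine ⟨RingOfIntegers.isIntegral_coe _, fun φ => ?_⟩
  obtain ⟨i, hi⟩ := norm_embedding_cases Φ D φ (u : M)
  have hi' : |unitLog Φ D (Additive.ofMul u) i| ≤ R :=
    ((Real.norm_eq_abs _).symm.le.trans (norm_le_pi_norm _ i)).trans hR
  rw [unitLog_apply] at hi'
  have h0 : (u : M) ≠ 0 := NumberField.Units.coe_ne_zero u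
  have h1 := norm_pos_iff.mpr (mPt_fst_ne_zero Φ D h0 i)
  have h2 := norm_pos_iff.mpr (mPt_snd_ne_zero Φ D h0 i)
  have hprod : Real.log ‖(mPt Φ D (u : M) i).1‖ + Real.log ‖(mPt Φ D (u : M) i).2‖ = 0 := by
    rw [← Real.log_mul h1.ne' h2.ne', ← norm_mul, mPt_fst_mul_snd, norm_mem_normOneUnits D hu,
      map_one, norm_one, Real.log_one]
  obtain ⟨hl, hu'⟩ := abs_le.mp hi'
  rcases hi with h | h <;> rw [h]
  · exact (Real.log_le_iff_le_exp h1).mp (by linarith)
  · exact (Real.log_le_iff_le_exp h2).mp (by linarith)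

theorem discrete_unitLat {E : Subgroup (𝓞 M)ˣ} (hE : IsUnfoldGroup D E) :
    DiscreteTopology (unitLat Φ D E) := by
  refine discreteTopology_of_isOpen_singleton_zero ?_
  refine isOpen_singleton_of_finite_mem_nhds 0 (s := Metric.closedBall 0 1) ?_ ?_
  · exact Metric.closedBall_mem_nhds _ one_pos
  · refine Set.Finite.of_finite_image ?_ Subtype.val_injective.injOn
    refine ((finite_unitLog_le Φ D 1).image fun u => unitLog Φ D (Additive.ofMul u)).subset ?_
    rintro _ ⟨⟨v, hv⟩, hv1, rfl⟩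
    obtain ⟨e, he, rfl⟩ := (mem_unitLat Φ D).mp hv
    exact ⟨e, ⟨hE.le_normOne he, by simpa [mem_closedBall_zero_iff] using hv1⟩, rfl⟩

theorem unitLog_injOn {E : Subgroup (𝓞 M)ˣ} (hE : IsUnfoldGroup D E) {e e' : (𝓞 M)ˣ}
    (he : e ∈ E) (he' : e' ∈ E)
    (h : unitLog Φ D (Additive.ofMul e) = unitLog Φ D (Additive.ofMul e')) : e = e' := by
  have hd : unitLog Φ D (Additive.ofMul (e * e'⁻¹)) = 0 := by
    rw [ofMul_mul, ofMul_inv, map_add, map_neg, h, add_neg_cancel]
  rw [← mul_inv_eq_one]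
  refine hE.torsion_free _ (mul_mem he (inv_mem he')) (finite_powers.mp ?_)
  refine (finite_unitLog_le Φ D 0).subset ?_
  rintro _ ⟨n, rfl⟩
  refine ⟨pow_mem (hE.le_normOne (mul_mem he (inv_mem he'))) n, ?_⟩
  rw [ofMul_pow, map_nsmul, hd]
  simp

theorem span_unitLat {E : Subgroup (𝓞 M)ˣ} (hE : IsUnfoldGroup D E) :
    Submodule.span ℝ (unitLat Φ D E : Set (ι → ℝ)) = ⊤ := by
  obtain ⟨k, hk, hpow⟩ := hE.exists_pow
  rw [← top_le_iff, ← span_range_unitLog Φ D, Submodule.span_le]
  rintro _ ⟨u, rfl⟩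
  set v : (𝓞 M)ˣ := Units.map (D.conjO : 𝓞 M →* 𝓞 M) u.toMul
  have hconj : D.conj ((v : 𝓞 M) : M) = ((u.toMul : 𝓞 M) : M) := D.conj_conj _
  have hmem : u.toMul * v⁻¹ ∈ normOneUnits D := by
    show ((u.toMul * v⁻¹ : (𝓞 M)ˣ) : M) * D.conj ((u.toMul * v⁻¹ : (𝓞 M)ˣ) : M) = 1
    have h1 : ((u.toMul : 𝓞 M) : M) ≠ 0 := NumberField.Units.coe_ne_zero u.toMul
    have hvval : ((v : 𝓞 M) : M) = D.conj ((u.toMul : 𝓞 M) : M) := rfl
    rw [Units.val_mul, map_mul, map_mul, map_units_inv, map_inv₀]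
    simp only [hvval]
    rw [D.conj_conj]
    have h2 : D.conj ((u.toMul : 𝓞 M) : M) ≠ 0 := by simp [h1]
    field_simp
  have hlog : unitLog Φ D (Additive.ofMul v) = -unitLog Φ D u := by
    funext i
    show Real.log ‖liftEmb Φ i (D.conj _)‖ - Real.log ‖liftEmb Φ i (D.conj ((v : 𝓞 M) : M))‖ =
      -(Real.log _ - Real.log _)
    rw [hconj]
    ring
  have hin := Submodule.subset_span (R := ℝ)
    (s := (unitLat Φ D E : Set (ι → ℝ))) ((mem_unitLat Φ D).mpr ⟨_, hpow _ hmem, rfl⟩)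
  rw [ofMul_pow, map_nsmul, ofMul_mul, ofMul_inv, map_add, map_neg, hlog, neg_neg, ofMul_toMul,
    ← two_nsmul, ← mul_nsmul', ← Nat.cast_smul_eq_nsmul ℝ] at hin
  have h := Submodule.smul_mem _ (((k * 2 : ℕ) : ℝ)⁻¹) hin
  rwa [smul_smul, inv_mul_cancel₀ (by exact_mod_cast mul_ne_zero hk two_ne_zero), one_smul] at h

/-- A basis of the lattice of logarithms. -/
def unitBasis {E : Subgroup (𝓞 M)ˣ} (hE : IsUnfoldGroup D E) : Module.Basis ι ℝ (ι → ℝ) :=
  haveI := discrete_unitLat Φ D hE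
  haveI : IsZLattice ℝ (unitLat Φ D E) := ⟨span_unitLat Φ D hE⟩
  haveI : Module.Finite ℤ (unitLat Φ D E) := ZLattice.module_finite ℝ _
  haveI : Module.Free ℤ (unitLat Φ D E) := ZLattice.module_free ℝ _
  ((Module.finBasisOfFinrankEq ℤ (unitLat Φ D E) (n := Fintype.card ι)
    (by rw [ZLattice.rank ℝ, Module.finrank_fintype_fun_eq_card])).reindex
      (Fintype.equivFin ι).symm).ofZLatticeBasis ℝ _

theorem span_unitBasis {E : Subgroup (𝓞 M)ˣ} (hE : IsUnfoldGroup D E) :
    Submodule.span ℤ (Set.range (unitBasis Φ D hE)) = unitLat Φ D E :=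
  haveI := discrete_unitLat Φ D hE
  haveI : IsZLattice ℝ (unitLat Φ D E) := ⟨span_unitLat Φ D hE⟩
  Module.Basis.ofZLatticeBasis_span ℝ _ _

theorem range_unitLog {E : Subgroup (𝓞 M)ˣ} (hE : IsUnfoldGroup D E) :
    Set.range (fun e : E => unitLog Φ D (Additive.ofMul (e : (𝓞 M)ˣ))) =
      (Submodule.span ℤ (Set.range (unitBasis Φ D hE)) : Set (ι → ℝ)) := by
  rw [span_unitBasis]
  ext v
  exact ⟨fun ⟨e, he⟩ => (mem_unitLat Φ D).mpr ⟨e.1, e.2, he⟩, fun h => by
    obtain ⟨e, he, rfl⟩ := (mem_unitLat Φ D).mp h; exact ⟨⟨e, he⟩, rfl⟩⟩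

end Fermat.Agent.LT.Dihedral
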