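import Fermat.Agent.LT.Dihedral.Theta
import Fermat.Agent.LT.Dihedral.Units
import Fermat.Agent.LT.Theta.CuspProps

/-!
Theta series integrated over the torus modulo units, and their expansion.
-/

set_option autoImplicit false
set_option linter.unusedSectionVars false

noncomputable section

namespace Fermat.Agent.LT.Dihedral

open NumberField Adelic MeasureTheory
open Poisson (latVec)
open Theta (qGauss qWhit whitProd whitAbs IsUnfoldData IsWhitSeries)
open scoped nonZeroDivisors

variable {K M : Type*} [Field K] [NumberField K] [Field M] [NumberField M] [Algebra K M]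
  {ι : Type*} [Fintype ι] (Φ : Frame K ι) (D : Quad K M)

variable (M) in
/-- The nonzero elements of `M`. -/
structure Punct where
  /-- the element -/
  val : M
  ne : val ≠ 0

namespace Punct

theorem val_injective : Function.Injective (val : Punct M → M) :=
  fun ⟨_, _⟩ ⟨_, _⟩ h => by cases h; rfl

instance : SMul (𝓞 M)ˣ (Punct M) :=
  ⟨fun u x => ⟨(u : M) * x.val, mul_ne_zero (NumberField.Units.coe_ne_zero u) x.ne⟩⟩

@[simp] theorem smul_val (u : (𝓞 M)ˣ) (x : Punct M) : (u • x).val = (u : M) * x.val := rfl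

instance : MulAction (𝓞 M)ˣ (Punct M) where
  one_smul x := val_injective (by simp)
  mul_smul u v x := val_injective (by simp [mul_assoc])

/-- The nonzero elements inside all of `M`. -/
def equivNe : Punct M ≃ {x : M // x ≠ 0} where
  toFun x := ⟨x.val, x.ne⟩
  invFun x := ⟨x.1, x.2⟩

instance : Countable (Punct M) := by
  have : Countable M := by
    have := (Module.finBasis ℚ M).repr.toEquiv.injective.countable
    exact this
  exact val_injective.countable

end Punct

/-- The point of `M` in coordinates, on nonzero elements. -/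
abbrev pPt (x : Punct M) : ι → ℂ × ℂ := mPt Φ D x.val

theorem qGauss_mPt_smul (ξ : K) {e : (𝓞 M)ˣ} (he : e ∈ normOneUnits D) (x : M) (s : ι → ℝ)
    (τ : ι → HSpace) :
    qGauss (xiV Φ ξ) s τ (mPt Φ D ((e : M) * x)) =
      qGauss (xiV Φ ξ) (s + unitLog Φ D (Additive.ofMul e)) τ (mPt Φ D x) := by
  have h0 : (e : M) ≠ 0 := NumberField.Units.coe_ne_zero e
  have h := Theta.qGauss_mul (xiV Φ ξ) s τ (mPt Φ D (e : M))
    (fun i => mPt_fst_ne_zero Φ D h0 i) (fun i => mPt_snd_ne_zero Φ D h0 i) (mPt Φ D x)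
  rw [mPt_mul]
  refine Eq.trans h ?_
  congr 1
  · funext i
    rw [mPt_fst_mul_snd, norm_mem_normOneUnits D he, map_one, mul_one]

/-- Gaussian summability for admissible weights. -/
theorem summable_exp_adm {a : M → ℂ} (ha : Adm a) {c : ℝ} (hc : 0 < c) :
    Summable fun x : Punct M => ‖a x.val‖ * Real.exp (-c * ‖pPt Φ D x‖ ^ 2) := by
  classical
  have : Nonempty ι := frame_nonempty Φ
  obtain ⟨⟨C, hC⟩, e, he, hea⟩ := ha
  have he0 : (e : M) ≠ 0 := by exact_mod_cast he
  let J : (FractionalIdeal (𝓞 M)⁰ M)ˣ := Units.mk0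
    (FractionalIdeal.spanSingleton (𝓞 M)⁰ ((e : M)⁻¹))
    (FractionalIdeal.spanSingleton_ne_zero_iff.mpr (inv_ne_zero he0))
  set b := basisOfFractionalIdeal M J
  let T := {x : Punct M // a x.val ≠ 0}
  have hmem : ∀ x : T, ∃ n : _ → ℤ, pPt Φ D x.1 = 0 + latVec (realBasis Φ D b) n := by
    intro x
    have hx : x.1.val ∈ Submodule.span ℤ (Set.range b) := by
      rw [mem_span_basisOfFractionalIdeal]
      obtain ⟨c, hc⟩ := hea _ x.2
      refine (FractionalIdeal.mem_spanSingleton _).mpr ⟨c, ?_⟩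
      rw [Algebra.smul_def]
      show (c : M) * _ = _
      rw [← hc]
      field_simp
    obtain ⟨n, hn⟩ := (mem_span_int_iff b _).mp hx
    exact ⟨n, by rw [zero_add, latVec_realBasis, hn]⟩
  have hs := Theta.summable_exp_of_mem_lattice (realBasis Φ D b) 0
    (fun x : T => pPt Φ D x.1)
    ((mPt_injective Φ D).comp (Punct.val_injective.comp Subtype.val_injective)) hmem
    (fun x : T => a x.1.val) ⟨C, fun x => hC _⟩ hc
  refine (Subtype.val_injective.summable_iff (fun x hx => ?_)).mp hs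
  have : a x.val = 0 := not_ne_iff.mp fun h => hx ⟨⟨x, h⟩, rfl⟩
  simp [this]

/-- Invariance under a group of units. -/
def UnitInv (E : Subgroup (𝓞 M)ˣ) (a : M → ℂ) : Prop :=
  ∀ e ∈ E, ∀ x, a ((e : M) * x) = a x

theorem UnitInv.add {E : Subgroup (𝓞 M)ˣ} {a b : M → ℂ} (ha : UnitInv E a) (hb : UnitInv E b) :
    UnitInv E (a + b) := fun e he x => by simp [ha e he x, hb e he x]

theorem UnitInv.smul {E : Subgroup (𝓞 M)ˣ} {a : M → ℂ} (ha : UnitInv E a) (r : ℂ) :
    UnitInv E (r • a) := fun e he x => by simp [ha e he x]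

theorem unitInv_sum {E : Subgroup (𝓞 M)ˣ} {κ : Type*} (s : Finset κ) {a : κ → M → ℂ}
    (h : ∀ k ∈ s, UnitInv E (a k)) : UnitInv E fun x => ∑ k ∈ s, a k x :=
  fun e he x => Finset.sum_congr rfl fun k hk => h k hk e he x

theorem UnitInv.comp_mul {E : Subgroup (𝓞 M)ˣ} {a : M → ℂ} (ha : UnitInv E a) (z : M) :
    UnitInv E fun x => a (z * x) := fun e he x => by
  show a (z * ((e : M) * x)) = a (z * x)
  rw [mul_left_comm]
  exact ha e he _

variable {E : Subgroup (𝓞 M)ˣ} (hE : IsUnfoldGroup D E)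

include hE in
/-- The unfolding data of an invariant admissible weight. -/
theorem isUnfoldData {ξ : K} (hξ : ξ ≠ 0) {a : M → ℂ} (ha : Adm a) (hinv : UnitInv E a) :
    IsUnfoldData (E := E) (unitBasis Φ D hE) (fun e => unitLog Φ D (Additive.ofMul (e : (𝓞 M)ˣ)))
      (xiV Φ ξ) (pPt Φ D) (fun x => a x.val) where
  form_ne_zero := xiV_ne_zero Φ hξ
  injective e e' h := Subtype.ext (unitLog_injOn Φ D hE e.2 e'.2 h)
  range_eq := range_unitLog Φ D hE
  free e x h := by
    have h' : ((e : (𝓞 M)ˣ) : M) * x.val = x.val := congrArg Punct.val h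
    exact Subtype.ext (Units.ext (RingOfIntegers.ext (mul_left_eq_self₀.mp h' |>.resolve_right x.ne)))
  fst_ne_zero x i := mPt_fst_ne_zero Φ D x.ne i
  snd_ne_zero x i := mPt_snd_ne_zero Φ D x.ne i
  weight_smul e x := hinv e e.2 x.val
  gauss_smul e x s τ := qGauss_mPt_smul Φ D ξ (hE.le_normOne e.2) x.val s τ
  summable _ hc := summable_exp_adm Φ D ha hc

/-- The theta series integrated over the torus modulo units. -/
def thetaInt (ξ : K) (a : M → ℂ) (τ : ι → HSpace) : ℂ :=
  ∫ s in ZSpan.fundamentalDomain (unitBasis Φ D hE),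
    ∑' x : M, a x * qGauss (xiV Φ ξ) s τ (mPt Φ D x)

/-- The volume of the torus modulo units. -/
def unitVol : ℝ := (volume (ZSpan.fundamentalDomain (unitBasis Φ D hE))).toReal

theorem unitVol_pos : 0 < unitVol Φ D hE :=
  ENNReal.toReal_pos (ZSpan.measure_fundamentalDomain_ne_zero _)
    (ZSpan.fundamentalDomain_isBounded _).measure_lt_top.ne

/-- Related theta series have equal integrals. -/
theorem thetaInt_of_rel {ξ : K} {g : GL (Fin 2) K} {a b : M → ℂ} (h : thetaRel Φ D ξ g a b)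
    (τ : ι → HSpace) : thetaInt Φ D hE ξ a (act Φ g τ) = thetaInt Φ D hE ξ b τ := by
  refine integral_congr_ae (Filter.Eventually.of_forall fun s => ?_)
  obtain ⟨S, h1, h2⟩ := h s τ
  exact h1.tsum_eq.trans h2.tsum_eq.symm

theorem thetaInt_congr {ξ : K} {a b : M → ℂ} (h : ∀ x, a x = b x) (τ : ι → HSpace) :
    thetaInt Φ D hE ξ a τ = thetaInt Φ D hE ξ b τ := by rw [funext h]

theorem thetaInt_smul (ξ : K) (r : ℂ) (a : M → ℂ) (τ : ι → HSpace) :
    thetaInt Φ D hE ξ (r • a) τ = r * thetaInt Φ D hE ξ a τ := by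
  rw [thetaInt, thetaInt, ← integral_const_mul]
  refine integral_congr_ae (Filter.Eventually.of_forall fun s => ?_)
  simp only [Pi.smul_apply, smul_eq_mul, mul_assoc, tsum_mul_left]

theorem thetaInt_zero (ξ : K) (τ : ι → HSpace) : thetaInt Φ D hE ξ 0 τ = 0 := by
  simp [thetaInt]

/-- The theta series split at the origin. -/
theorem tsum_eq_add_punct {ξ : K} (hξ : ξ ≠ 0) {a : M → ℂ} (ha : Adm a) (s : ι → ℝ)
    (τ : ι → HSpace) :
    ∑' x : M, a x * qGauss (xiV Φ ξ) s τ (mPt Φ D x) =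
      a 0 * qGauss (xiV Φ ξ) s τ 0 +
        ∑' x : Punct M, a x.val * qGauss (xiV Φ ξ) s τ (pPt Φ D x) := by
  classical
  rw [(summable_theta Φ D hξ ha s τ).tsum_eq_add_tsum_ite 0, map_zero]
  congr 1
  rw [← Punct.val_injective.tsum_eq (f := fun x => if x = 0 then 0 else
    a x * qGauss (xiV Φ ξ) s τ (mPt Φ D x))]
  · exact tsum_congr fun x => if_neg x.ne
  · intro x hx
    by_cases h : x = 0
    · exact absurd (if_pos h) hx
    · exact ⟨⟨x, h⟩, rfl⟩

/-- **The expansion of the integral.** -/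
theorem thetaInt_eq {ξ : K} (hξ : ξ ≠ 0) {a : M → ℂ} (ha : Adm a) (hinv : UnitInv E a)
    (τ : ι → HSpace) :
    thetaInt Φ D hE ξ a τ = ((unitVol Φ D hE * ∏ i, (τ i).r : ℝ) : ℂ) * a 0 +
      ∑' q : MulAction.orbitRel.Quotient E (Punct M),
        a q.out.val * qWhit (xiV Φ ξ) τ (pPt Φ D q.out) := by
  rw [unitVol, ← (isUnfoldData Φ D hE hξ ha hinv).integral_add_tsum τ (a 0), thetaInt]
  exact integral_congr_ae (Filter.Eventually.of_forall fun s => tsum_eq_add_punct Φ D hξ ha s τ)

theorem integrableOn_theta {ξ : K} (hξ : ξ ≠ 0) {a : M → ℂ} (ha : Adm a) (hinv : UnitInv E a)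
    (τ : ι → HSpace) :
    IntegrableOn (fun s => ∑' x : M, a x * qGauss (xiV Φ ξ) s τ (mPt Φ D x))
      (ZSpan.fundamentalDomain (unitBasis Φ D hE)) := by
  simp only [fun s => tsum_eq_add_punct Φ D hξ ha s τ, Theta.qGauss_zero]
  exact Integrable.add
    (integrableOn_const (ZSpan.fundamentalDomain_isBounded _).measure_lt_top.ne)
    ((isUnfoldData Φ D hE hξ ha hinv).integrableOn_tsum τ)

theorem thetaInt_add {ξ : K} (hξ : ξ ≠ 0) {a b : M → ℂ} (ha : Adm a) (hb : Adm b)
    (hai : UnitInv E a) (hbi : UnitInv E b) (τ : ι → HSpace) :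
    thetaInt Φ D hE ξ (a + b) τ = thetaInt Φ D hE ξ a τ + thetaInt Φ D hE ξ b τ := by
  rw [thetaInt, thetaInt, thetaInt, ← integral_add (integrableOn_theta Φ D hE hξ ha hai τ)
    (integrableOn_theta Φ D hE hξ hb hbi τ)]
  refine integral_congr_ae (Filter.Eventually.of_forall fun s => ?_)
  simp only [Pi.add_apply, add_mul]
  exact (summable_theta Φ D hξ ha s τ).tsum_add (summable_theta Φ D hξ hb s τ)

theorem thetaInt_sum {ξ : K} (hξ : ξ ≠ 0) {κ : Type*} (t : Finset κ) {a : κ → M → ℂ}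
    (ha : ∀ k ∈ t, Adm (a k)) (hai : ∀ k ∈ t, UnitInv E (a k)) (τ : ι → HSpace) :
    thetaInt Φ D hE ξ (fun x => ∑ k ∈ t, a k x) τ = ∑ k ∈ t, thetaInt Φ D hE ξ (a k) τ := by
  classical
  induction t using Finset.induction_on with
  | empty => simp only [Finset.sum_empty]; exact thetaInt_zero Φ D hE ξ τ
  | insert k t hk ih =>
    simp only [Finset.sum_insert hk]
    rw [← ih (fun j hj => ha j (Finset.mem_insert_of_mem hj))
      (fun j hj => hai j (Finset.mem_insert_of_mem hj))]
    exact thetaInt_add Φ D hE hξ (ha k (Finset.mem_insert_self k t))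
      (adm_sum t fun j hj => ha j (Finset.mem_insert_of_mem hj))
      (hai k (Finset.mem_insert_self k t))
      (unitInv_sum t fun j hj => hai j (Finset.mem_insert_of_mem hj)) τ

/-! ### Frequencies -/

/-- A term of the expansion depends only on `ξ N x`. -/
theorem qWhit_mPt (ξ : K) (τ : ι → HSpace) (x : M) :
    qWhit (xiV Φ ξ) τ (mPt Φ D x) = whitProd (xiV Φ (ξ * Algebra.norm K x)) τ := by
  rw [Theta.qWhit_eq_whitProd]
  congr 1
  funext i
  rw [mul_assoc, mPt_fst_mul_snd, xiV, xiV, map_mul]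

include hE in
/-- The expansion is a Whittaker series. -/
theorem isWhitSeries_orbit {ξ : K} (hξ : ξ ≠ 0) {a : M → ℂ} (ha : Adm a) (hinv : UnitInv E a) :
    IsWhitSeries (fun q : MulAction.orbitRel.Quotient E (Punct M) => a q.out.val)
      (fun q => xiV Φ (ξ * Algebra.norm K q.out.val)) where
  ne_zero q i := xiV_ne_zero Φ (mul_ne_zero hξ (Algebra.norm_ne_zero_iff.mpr q.out.ne)) i
  summable r hr := by
    let τ : ι → HSpace := fun i => ⟨0, r i, hr i⟩
    refine ((isUnfoldData Φ D hE hξ ha hinv).summable_whit τ).congr fun q => ?_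
    show _ * ‖qWhit _ τ (mPt Φ D q.out.val)‖ = _
    rw [qWhit_mPt, Theta.norm_whitProd]

/-- The coefficient of frequency `α`. -/
def orbCoef (E : Subgroup (𝓞 M)ˣ) (ξ : K) (a : M → ℂ) (α : K) : ℂ :=
  ∑' q : {q : MulAction.orbitRel.Quotient E (Punct M) // ξ * Algebra.norm K q.out.val = α},
    a q.1.out.val

include Φ hE in
/-- The orbits on which the weight does not vanish and of given frequency, with their weights. -/
theorem summable_orbCoef {ξ : K} (hξ : ξ ≠ 0) {a : M → ℂ} (ha : Adm a) (hinv : UnitInv E a)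
    (α : K) :
    Summable fun q : {q : MulAction.orbitRel.Quotient E (Punct M) //
      ξ * Algebra.norm K q.out.val = α} => a q.1.out.val := by
  let τ : ι → HSpace := fun _ => ⟨0, 1, one_pos⟩
  by_cases hW : whitProd (xiV Φ α) τ = 0
  · rcases isEmpty_or_nonempty {q : MulAction.orbitRel.Quotient E (Punct M) //
      ξ * Algebra.norm K q.out.val = α} with h | ⟨⟨q, hq⟩⟩
    · exact summable_empty
    · exfalso
      have h0 : ∀ i, xiV Φ α i ≠ 0 := fun i =>
        hq ▸ (isWhitSeries_orbit Φ D hE hξ ha hinv).ne_zero q i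
      rw [whitProd, Finset.prod_eq_zero_iff] at hW
      obtain ⟨i, -, hi⟩ := hW
      have := norm_pos_iff.mpr (h0 i)
      rcases mul_eq_zero.mp hi with hi | hi
      · rw [Complex.ofReal_eq_zero] at hi
        have := Theta.besselK0_pos (show (0:ℝ) < 4 * Real.pi * (τ i).r * ‖xiV Φ α i‖ by positivity)
        have hr := (τ i).r_pos
        exact (mul_pos (mul_pos two_pos hr) this).ne' hi
      · exact Complex.exp_ne_zero _ hi
  · refine (summable_mul_right_iff hW).mp
      ((((isWhitSeries_orbit Φ D hE hξ ha hinv).summable_term τ).comp_injective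
        Subtype.val_injective).congr fun q => ?_)
    show _ * whitProd (xiV Φ (ξ * _)) τ = _
    rw [q.2]

/-- **The expansion by frequencies.** -/
theorem hasSum_thetaInt {ξ : K} (hξ : ξ ≠ 0) {a : M → ℂ} (ha : Adm a) (hinv : UnitInv E a)
    (τ : ι → HSpace) :
    HasSum (fun α : K => orbCoef E ξ a α * whitProd (xiV Φ α) τ)
      (thetaInt Φ D hE ξ a τ - ((unitVol Φ D hE * ∏ i, (τ i).r : ℝ) : ℂ) * a 0) := by
  rw [thetaInt_eq Φ D hE hξ ha hinv τ, add_sub_cancel_left,
    show (∑' q : MulAction.orbitRel.Quotient E (Punct M),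
      a q.out.val * qWhit (xiV Φ ξ) τ (pPt Φ D q.out)) =
      ∑' q : MulAction.orbitRel.Quotient E (Punct M),
        a q.out.val * whitProd (xiV Φ (ξ * Algebra.norm K q.out.val)) τ from
      tsum_congr fun q => by rw [pPt, qWhit_mPt]]
  refine ((isWhitSeries_orbit Φ D hE hξ ha hinv).summable_term τ).hasSum.tsum_fiberwise
    (fun q => ξ * Algebra.norm K q.out.val) |>.congr_fun fun α => ?_
  rw [orbCoef, ← tsum_mul_right]
  refine tsum_congr fun q => ?_
  show _ = a q.1.out.val * whitProd (xiV Φ (ξ * _)) τ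
  rw [q.2]

theorem orbCoef_zero {ξ : K} (hξ : ξ ≠ 0) (E : Subgroup (𝓞 M)ˣ) (a : M → ℂ) :
    orbCoef E ξ a 0 = 0 := by
  have : IsEmpty {q : MulAction.orbitRel.Quotient E (Punct M) //
      ξ * Algebra.norm K q.out.val = 0} :=
    ⟨fun q => mul_ne_zero hξ (Algebra.norm_ne_zero_iff.mpr q.1.out.ne) q.2⟩
  exact tsum_empty

theorem qGauss_mPt_scale (ξ : K) (z x : M) (hz : z ≠ 0) (s : ι → ℝ) (τ : ι → HSpace) :
    qGauss (xiV Φ ξ) s τ (mPt Φ D (z * x)) =
      qGauss (xiV Φ (ξ * Algebra.norm K z))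
        (fun i => s i + (Real.log ‖(mPt Φ D z i).1‖ - Real.log ‖(mPt Φ D z i).2‖)) τ
        (mPt Φ D x) := by
  have h := Theta.qGauss_mul (xiV Φ ξ) s τ (mPt Φ D z)
    (fun i => mPt_fst_ne_zero Φ D hz i) (fun i => mPt_snd_ne_zero Φ D hz i) (mPt Φ D x)
  rw [mPt_mul]
  refine Eq.trans h ?_
  congr 1
  funext i
  rw [mPt_fst_mul_snd, xiV, xiV, map_mul]

/-- Scaling by `z` on the orbits. -/
def orbScale (E : Subgroup (𝓞 M)ˣ) {z : M} (hz : z ≠ 0) :
    MulAction.orbitRel.Quotient E (Punct M) ≃ MulAction.orbitRel.Quotient E (Punct M) :=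
  Quotient.congr
    { toFun := fun x => ⟨z * x.val, mul_ne_zero hz x.ne⟩
      invFun := fun x => ⟨z⁻¹ * x.val, mul_ne_zero (inv_ne_zero hz) x.ne⟩
      left_inv := fun x => Punct.val_injective (by simp [hz])
      right_inv := fun x => Punct.val_injective (by simp [hz]) }
    fun x y => by
      constructor
      · rintro ⟨e, rfl⟩
        exact ⟨e, Punct.val_injective (by
          show ((e : (𝓞 M)ˣ) : M) * (z * y.val) = z * (((e : (𝓞 M)ˣ) : M) * y.val)
          ring)⟩
      · rintro ⟨e, he⟩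
        refine ⟨e, Punct.val_injective (mul_left_cancel₀ hz ?_)⟩
        have h' : ((e : (𝓞 M)ˣ) : M) * (z * y.val) = z * x.val := congrArg Punct.val he
        show z * (((e : (𝓞 M)ˣ) : M) * y.val) = z * x.val
        rw [← h']
        ring

/-- The representative of an orbit differs from any point by a unit. -/
theorem exists_out_eq (x : Punct M) :
    ∃ e ∈ E, (Quotient.mk'' x : MulAction.orbitRel.Quotient E (Punct M)).out.val = (e : M) * x.val := by
  obtain ⟨e, he⟩ := Quotient.mk_out (s := MulAction.orbitRel E (Punct M)) x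
  exact ⟨e, e.2, (congrArg Punct.val he).symm⟩

theorem orbScale_out {z : M} (hz : z ≠ 0) (q : MulAction.orbitRel.Quotient E (Punct M)) :
    ∃ e ∈ E, (orbScale E hz q).out.val = (e : M) * (z * q.out.val) := by
  induction q using Quotient.inductionOn' with
  | _ x =>
    obtain ⟨e, he, h⟩ := exists_out_eq (E := E) (⟨z * x.val, mul_ne_zero hz x.ne⟩ : Punct M)
    obtain ⟨e', he', h'⟩ := exists_out_eq (E := E) x
    refine ⟨e * e'⁻¹, mul_mem he (inv_mem he'), ?_⟩
    rw [h']
    refine h.trans ?_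
    have h0 : (e' : M) ≠ 0 := NumberField.Units.coe_ne_zero e'
    rw [Units.val_mul, map_mul, map_units_inv]
    field_simp

include hE in
/-- Scaling the weight rescales the form. -/
theorem orbCoef_comp_mul (ξ : K) {a : M → ℂ} (hinv : UnitInv E a) {z : M} (hz : z ≠ 0) (α : K) :
    orbCoef E ξ (fun x => a (z * x)) α = orbCoef E (ξ / Algebra.norm K z) a α := by
  have hN : Algebra.norm K z ≠ 0 := Algebra.norm_ne_zero_iff.mpr hz
  have key : ∀ q : MulAction.orbitRel.Quotient E (Punct M),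
      Algebra.norm K (orbScale E hz q).out.val =
        Algebra.norm K z * Algebra.norm K q.out.val ∧
      a (orbScale E hz q).out.val = a (z * q.out.val) := fun q => by
    obtain ⟨e, he, h⟩ := orbScale_out (E := E) hz q
    rw [h, map_mul, norm_mem_normOneUnits D (hE.le_normOne he), one_mul, map_mul]
    exact ⟨rfl, hinv e he _⟩
  refine Eq.trans ?_ (Equiv.tsum_eq ((orbScale E hz).subtypeEquiv
    (p := fun q => ξ * Algebra.norm K q.out.val = α) fun q => ?_) _)
  · exact tsum_congr fun q => (key q.1).2.symm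
  · rw [(key q).1]
    field_simp


end Fermat.Agent.LT.Dihedral
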