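import Fermat.Agent.LT.Dihedral.Invariance
import Fermat.Agent.LT.Dihedral.UnitSum

/-!
# Transformation of periodic weights to every cusp
-/

set_option autoImplicit false
set_option maxHeartbeats 400000
set_option linter.unusedSectionVars false

noncomputable section

namespace Fermat.Agent.LT.Dihedral

open NumberField IsDedekindDomain Adelic Matrix
open scoped nonZeroDivisors

variable {K M : Type*} [Field K] [NumberField K] [Field M] [NumberField M] [Algebra K M]

/-- Multiplication by a unit permutes the classes of two lattices. -/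
theorem IsReps.sum_unit_mul {P Q : FractionalIdeal (𝓞 M)⁰ M} {S : Finset M} (hS : IsReps P Q S)
    (u : (𝓞 M)ˣ) {f : M → ℂ} (hf : ∀ x ∈ P, ∀ q ∈ Q, f (x + q) = f x) :
    ∑ h ∈ S, f ((u : M) * h) = ∑ h ∈ S, f h := by
  classical
  choose! rep hrep using fun x (hx : x ∈ P) => (hS.2 x hx).exists
  have huni : ∀ {x v : M}, x ∈ P → v ∈ S → x - v ∈ Q → rep x = v := fun {x v} hx hv hxv => by
    obtain ⟨w, -, hw⟩ := hS.2 x hx
    rw [hw _ (hrep x hx), hw v ⟨hv, hxv⟩]
  have hrt : ∀ (w : (𝓞 M)ˣ) (h : M), h ∈ S →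
      rep ((w⁻¹ : (𝓞 M)ˣ) * rep ((w : M) * h) : M) = h := fun w h hh => by
    obtain ⟨h1, h2⟩ := hrep _ (smul_int_mem (hS.1 h hh) (w : 𝓞 M))
    refine huni (smul_int_mem (hS.1 _ h1) _) hh ?_
    have h3 := smul_int_mem (Submodule.neg_mem (Q : Submodule (𝓞 M) M) h2) ((w⁻¹ : (𝓞 M)ˣ) : 𝓞 M)
    have h0 : (w : M) ≠ 0 := NumberField.Units.coe_ne_zero w
    have h4 : ((w⁻¹ : (𝓞 M)ˣ) : M) * -((w : M) * h - rep ((w : M) * h)) ∈ Q := h3
    rw [map_units_inv, mul_neg, mul_sub, inv_mul_cancel_left₀ h0, neg_sub, ← map_units_inv] at h4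
    exact h4
  refine Finset.sum_nbij' (fun h => rep ((u : M) * h))
    (fun h => rep (((u⁻¹ : (𝓞 M)ˣ) : M) * h))
    (fun h hh => (hrep _ (smul_int_mem (hS.1 h hh) _)).1)
    (fun h hh => (hrep _ (smul_int_mem (hS.1 h hh) _)).1)
    (fun h hh => hrt u h hh)
    (fun h hh => by simpa using hrt u⁻¹ h hh) fun h hh => ?_
  obtain ⟨h1, h2⟩ := hrep _ (smul_int_mem (hS.1 h hh) (u : 𝓞 M))
  rw [← hf _ (hS.1 _ h1) _ h2, add_sub_cancel]

theorem mem_dualSet_unit_mul_iff (D : Quad K M) (ξ : K) (P : FractionalIdeal (𝓞 M)⁰ M)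
    (u : (𝓞 M)ˣ) (y : M) : (u : M) * y ∈ D.dualSet ξ P ↔ y ∈ D.dualSet ξ P := by
  refine ⟨fun h => ?_, fun h => D.dualSet_smul h _⟩
  have h' := D.dualSet_smul h ((u⁻¹ : (𝓞 M)ˣ) : 𝓞 M)
  rwa [← mul_assoc, ← map_mul, Units.inv_mul, map_one, one_mul] at h'

variable {D : Quad K M} {ξ : K} {E : Subgroup (𝓞 M)ˣ}

theorem norm_unit_mul (hE : E ≤ normOneUnits D) {e : (𝓞 M)ˣ} (he : e ∈ E) (x : M) :
    Algebra.norm K ((e : M) * x) = Algebra.norm K x := by
  rw [map_mul, norm_mem_normOneUnits D (hE he), one_mul]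

theorem UnitInv.psi_norm_mul (hE : E ≤ normOneUnits D) {a : M → ℂ} (ha : UnitInv E a) (t : K) :
    UnitInv E fun x => psi (t * (ξ * Algebra.norm K x)) * a x := fun e he x => by
  simp only [norm_unit_mul hE he, ha e he x]

theorem UnitInv.const_mul {a : M → ℂ} (ha : UnitInv E a) (r : ℂ) :
    UnitInv E fun x => r * a x := fun e he x => by
  simp only [ha e he x]

namespace RelSys

variable (R : RelSys K M D ξ)

/-- A diagonal matrix followed by a translation. -/
theorem exists_rel_diag_unip (hE : E ≤ normOneUnits D) {a : M → ℂ} (ha : Adm a)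
    (hai : UnitInv E a) (e : Kˣ) (r : K) :
    ∃ b, Adm b ∧ UnitInv E b ∧ R.rel (diag2 e e⁻¹ * unipotent r) a b ∧
      b 0 = ((|Algebra.norm ℚ (e : K)| : ℚ) : ℂ) * a 0 := by
  set z : M := algebraMap K M ((e⁻¹ : Kˣ) : K) with hz
  have hz0 : z ≠ 0 := by simp [hz]
  have h2 : Adm fun x => ((|Algebra.norm ℚ (e : K)| : ℚ) : ℂ) * a (z * x) :=
    (ha.comp_mul hz0).smul _
  refine ⟨_, h2.mul_bounded (m := fun x => psi (r * (ξ * Algebra.norm K x)))
    (fun x => (norm_psi _).le), ((hai.comp_mul z).const_mul _).psi_norm_mul hE r,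
    R.comp (R.dia e ha) (R.unip r h2), ?_⟩
  simp

/-- **The upper triangular case.** -/
theorem exists_rel_borel (hE : E ≤ normOneUnits D) {a : M → ℂ} (ha : Adm a) (hai : UnitInv E a)
    (γ : GL (Fin 2) K) (hdet : (γ : Matrix (Fin 2) (Fin 2) K).det = 1)
    (hc : (γ : Matrix (Fin 2) (Fin 2) K) 1 0 = 0) :
    ∃ b, Adm b ∧ UnitInv E b ∧ R.rel γ a b ∧
      b 0 = ((|Algebra.norm ℚ ((γ : Matrix (Fin 2) (Fin 2) K) 0 0)| : ℚ) : ℂ) * a 0 := by
  set A := (γ : Matrix (Fin 2) (Fin 2) K) with hA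
  rw [Matrix.det_fin_two, hc, mul_zero, sub_zero] at hdet
  have ha0 : A 0 0 ≠ 0 := left_ne_zero_of_mul_eq_one hdet
  set e : Kˣ := Units.mk0 (A 0 0) ha0
  obtain ⟨b, hb, hbi, hrel, hb0⟩ :=
    R.exists_rel_diag_unip hE ha hai e (A 1 1 * A 0 1)
  refine ⟨b, hb, hbi, ?_, hb0⟩
  convert! hrel using 1
  apply glK_ext
  rw [Units.val_mul, coe_diag2, coe_unipotent, ← hA]
  ext i j
  fin_cases i <;> fin_cases j <;> simp [Matrix.mul_apply, Fin.sum_univ_two, hc, e]
  · rw [← mul_assoc, hdet, one_mul]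
  · exact eq_inv_of_mul_eq_one_right hdet

/-- The Fourier transform of a periodic weight. -/
theorem exists_rel_weyl_periodic (hξ : ξ ≠ 0) (hE : E ≤ normOneUnits D) {a : M → ℂ}
    (hai : UnitInv E a) {L P : FractionalIdeal (𝓞 M)⁰ M} (hP : P ≠ 0) (hPL : P ≤ L)
    (hsupp : ∀ x, a x ≠ 0 → x ∈ L) (hper : ∀ x ∈ L, ∀ p ∈ P, a (x + p) = a x)
    {S : Finset M} (hS : IsReps L P S) :
    ∃ b, Adm b ∧ UnitInv E b ∧ R.rel weyl a b ∧
      b 0 = R.kap / ((FractionalIdeal.absNorm P : ℚ) : ℂ) * ∑ h ∈ S, a h := by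
  classical
  set k : ℂ := R.kap / ((FractionalIdeal.absNorm P : ℚ) : ℂ) with hk
  refine ⟨fun y => ∑ h ∈ S, a h * (k * pkDual D ξ P h 0 y),
    adm_sum S fun h _ => ((adm_pkDual D hξ hP h 0).smul k).smul (a h), ?_, ?_, ?_⟩
  · intro e he y
    simp only [pkDual, sub_zero]
    by_cases hy : y ∈ D.dualSet ξ P
    · have hey := (mem_dualSet_unit_mul_iff D ξ P e y).mpr hy
      simp only [Set.indicator_of_mem (show y ∈ {y | y ∈ D.dualSet ξ P} from hy),
        Set.indicator_of_mem (show (e : M) * y ∈ {y | y ∈ D.dualSet ξ P} from hey)]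
      have hf : ∀ x ∈ L, ∀ q ∈ P, (fun x => a x * (k * psi (-(D.bil ξ x ((e : M) * y))))) (x + q) =
          (fun x => a x * (k * psi (-(D.bil ξ x ((e : M) * y))))) x := fun x hx q hq => by
        simp only [hper x hx q hq, D.bil_add_left, neg_add, psi_add]
        rw [psi_neg (D.bil ξ q _), hey q hq, inv_one, mul_one]
      refine (hS.sum_unit_mul e hf).symm.trans (Finset.sum_congr rfl fun h _ => ?_)
      rw [hai e he, D.bil_mul_swap, ← mul_assoc (D.conj _), mul_comm (D.conj (e : M)),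
        (mem_normOneUnits D e).mp (hE he), one_mul]
    · simp only [Set.indicator_of_notMem (show y ∉ {y | y ∈ D.dualSet ξ P} from hy),
        Set.indicator_of_notMem (show (e : M) * y ∉ {y | y ∈ D.dualSet ξ P} from
          fun h => hy ((mem_dualSet_unit_mul_iff D ξ P e y).mp h))]
  · refine R.congr (R.sum S fun h _ => R.smul_const (a h) (R.rel_pk hP h 0)) (fun x => ?_)
      fun y => rfl
    simp only [pk_zero]
    by_cases hx : x ∈ L
    · obtain ⟨u, ⟨hu, hxu⟩, huniq⟩ := hS.2 x hx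
      rw [Finset.sum_eq_single u ?_ (fun h => absurd hu h)]
      · rw [coset, Set.indicator_of_mem (show x ∈ {x | x - u ∈ P} from hxu), mul_one,
          ← hper u (hS.1 u hu) _ hxu, add_sub_cancel]
      · intro w hw hwu
        rw [coset, Set.indicator_of_notMem, mul_zero]
        exact fun h => hwu (huniq w ⟨hw, h⟩)
    · rw [not_ne_iff.mp fun h => hx (hsupp x h)]
      refine Finset.sum_eq_zero fun u hu => ?_
      rw [coset, Set.indicator_of_notMem, mul_zero]
      intro h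
      have := Submodule.add_mem (L : Submodule (𝓞 M) M) (hPL h) (hS.1 u hu)
      rw [sub_add_cancel] at this
      exact hx this
  · rw [Finset.mul_sum]
    refine Finset.sum_congr rfl fun h _ => ?_
    rw [pkDual, Set.indicator_of_mem (show (0 : M) ∈ {y | y - 0 ∈ D.dualSet ξ P} from by
      simpa using D.dualSet_zero ξ P)]
    simp [Quad.bil, psi_zero]
    ring

/-- **The case with nonzero lower left entry.** -/
theorem exists_rel_cell (hξ : ξ ≠ 0) (hE : E ≤ normOneUnits D) {a : M → ℂ} (hai : UnitInv E a)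
    (γ : GL (Fin 2) K) (hdet : (γ : Matrix (Fin 2) (Fin 2) K).det = 1)
    (hc : (γ : Matrix (Fin 2) (Fin 2) K) 1 0 ≠ 0) {L P : FractionalIdeal (𝓞 M)⁰ M} (hP : P ≠ 0)
    (hPL : P ≤ L) (hsupp : ∀ x, a x ≠ 0 → x ∈ L) {s : K}
    (hs : s = (γ : Matrix (Fin 2) (Fin 2) K) 0 0 / (γ : Matrix (Fin 2) (Fin 2) K) 1 0)
    (hper : ∀ x ∈ L, ∀ p ∈ P, psi (s * (ξ * Algebra.norm K (x + p))) * a (x + p) =
      psi (s * (ξ * Algebra.norm K x)) * a x)
    {S : Finset M} (hS : IsReps L P S) :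
    ∃ b, Adm b ∧ UnitInv E b ∧ R.rel γ a b ∧
      b 0 = ((|Algebra.norm ℚ ((γ : Matrix (Fin 2) (Fin 2) K) 1 0)| : ℚ) : ℂ) *
        (R.kap / ((FractionalIdeal.absNorm P : ℚ) : ℂ) *
          ∑ h ∈ S, psi (s * (ξ * Algebra.norm K h)) * a h) := by
  set A := (γ : Matrix (Fin 2) (Fin 2) K) with hA
  rw [Matrix.det_fin_two] at hdet
  have hadm : Adm a := by
    have hsum : ∀ x, psi (-(s * (ξ * Algebra.norm K x))) *
        (∑ h ∈ S, psi (s * (ξ * Algebra.norm K h)) * a h * coset P h x) = a x := by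
      classical
      intro x
      by_cases hx : x ∈ L
      · obtain ⟨u, ⟨hu, hxu⟩, huniq⟩ := hS.2 x hx
        rw [Finset.sum_eq_single u ?_ (fun h => absurd hu h)]
        · rw [coset, Set.indicator_of_mem (show x ∈ {x | x - u ∈ P} from hxu), mul_one,
            ← hper u (hS.1 u hu) _ hxu, add_sub_cancel, ← mul_assoc, ← psi_add, neg_add_cancel,
            psi_zero, one_mul]
        · intro w hw hwu
          rw [coset, Set.indicator_of_notMem, mul_zero]
          exact fun h => hwu (huniq w ⟨hw, h⟩)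
      · rw [not_ne_iff.mp fun h => hx (hsupp x h), mul_eq_zero]
        refine Or.inr (Finset.sum_eq_zero fun u hu => ?_)
        rw [coset, Set.indicator_of_notMem, mul_zero]
        intro h
        have := Submodule.add_mem (L : Submodule (𝓞 M) M) (hPL h) (hS.1 u hu)
        rw [sub_add_cancel] at this
        exact hx this
    exact ((adm_sum S fun h _ => (adm_coset P h).smul
      (psi (s * (ξ * Algebra.norm K h)) * a h)).mul_bounded
        (m := fun x => psi (-(s * (ξ * Algebra.norm K x)))) fun x => (norm_psi _).le).congr hsum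
  obtain ⟨b₂, hb₂, hb₂i, hrel₂, hb₂0⟩ := R.exists_rel_weyl_periodic hξ hE (hai.psi_norm_mul hE s)
    hP hPL (fun x h => hsupp x (right_ne_zero_of_mul h)) hper hS
  obtain ⟨b, hb, hbi, hrel, hb0⟩ :=
    R.exists_rel_diag_unip hE hb₂ hb₂i (Units.mk0 _ hc) (A 1 1 / A 1 0)
  refine ⟨b, hb, hbi, ?_, by rw [hb0, hb₂0]; rfl⟩
  convert! R.comp (R.comp (R.unip s hadm) hrel₂) hrel using 1
  apply glK_ext
  rw [← hA]
  simp only [Units.val_mul, coe_diag2, coe_unipotent, coe_weyl]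
  ext i j
  fin_cases i <;> fin_cases j <;> simp [Matrix.mul_apply, Fin.sum_univ_two, hs] <;>
    field_simp
  linear_combination -hdet

end RelSys

namespace DihData

/-- The periods `m · latL B`. -/
def latM (m : 𝓞 K) (B : Ideal (𝓞 M)) : FractionalIdeal (𝓞 M)⁰ M :=
  FractionalIdeal.spanSingleton (𝓞 M)⁰ (algebraMap K M (m : K)) * latL B

theorem latM_ne_zero {m : 𝓞 K} (hm : m ≠ 0) {B : Ideal (𝓞 M)} (hB : B ≠ ⊥) : latM m B ≠ 0 :=
  mul_ne_zero (FractionalIdeal.spanSingleton_ne_zero_iff.mpr (by simpa using hm)) (latL_ne_zero hB)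

theorem latM_le (m : 𝓞 K) (B : Ideal (𝓞 M)) : latM m B ≤ latL B := fun x hx => by
  obtain ⟨l, hl, rfl⟩ := FractionalIdeal.mem_singleton_mul.mp hx
  exact intK_mem hl m

variable (D : DihData K M)

/-- A period of the translated weights, uniform in the pairs at `t`. -/
theorem exists_period_wt (t : (FiniteAdeleRing (𝓞 K) K)ˣ) (s : K) :
    ∃ m : 𝓞 K, m ≠ 0 ∧ D.cond ∣ m ∧ ∀ ξ B, D.IsPair t ξ B → ∀ x ∈ latL B, ∀ p ∈ latM m B,
      psi (s * (ξ * Algebra.norm K (x + p))) * D.wt B (x + p) =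
        psi (s * (ξ * Algebra.norm K x)) * D.wt B x := by
  obtain ⟨k, hk, hk0⟩ : ∃ k ∈ idI t, k ≠ 0 :=
    Submodule.exists_mem_ne_zero_of_ne_bot
      (FractionalIdeal.coeToSubmodule_ne_bot.mpr (idI_ne_zero t))
  obtain ⟨i, r, hr, hir⟩ := IsFractionRing.div_surjective (A := 𝓞 K) (s / k)
  have hr0 : (r : K) ≠ 0 := by exact_mod_cast nonZeroDivisors.ne_zero hr
  have hrs : (r : K) * s ∈ idI t := by
    have h1 := Submodule.smul_mem (idI t : Submodule (𝓞 K) K) i hk
    rw [Algebra.smul_def] at h1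
    replace hir : (i : K) / (r : K) = s / k := hir
    field_simp at hir
    rw [← FractionalIdeal.mem_coe]
    convert! h1 using 1
    linear_combination -hir
  refine ⟨D.cond * r, mul_ne_zero D.cond_ne (nonZeroDivisors.ne_zero hr), dvd_mul_right _ _,
    fun ξ B hp x hx p hp' => ?_⟩
  obtain ⟨q, hq, rfl⟩ := FractionalIdeal.mem_singleton_mul.mp hp'
  rw [D.wt_add_of_mem hp.ne_bot hx (D.mul_mem_latP_of_dvd (dvd_mul_right _ _) hq)]
  congr 1
  refine psi_eq_of_sub ?_
  set w : M := algebraMap K M (D.cond : K) * q with hw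
  have hwL : w ∈ latL B := intK_mem hq D.cond
  have e : algebraMap K M ((D.cond * r : 𝓞 K) : K) * q = algebraMap K M (r : K) * w := by
    rw [hw]
    show algebraMap K M ((D.cond : K) * (r : K)) * q = _
    rw [map_mul]; ring
  have hwr : algebraMap K M (r : K) * w ∈ latL B := intK_mem hwL r
  clear_value w
  have e2 : ∀ n₁ n₂ n₃ : K, s * (ξ * (n₁ + n₂ + n₃)) - s * (ξ * n₁) =
      s * (ξ * n₂) + s * (ξ * n₃) := fun n₁ n₂ n₃ => by ring
  rw [e, D.toQuad.norm_add, e2, psi_add]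
  rw [← D.toQuad.bil_theta ξ D.trace_theta (algebraMap K M (r : K) * w),
    show ξ * Algebra.trace K M (x * D.conj (algebraMap K M (r : K) * w)) =
      D.toQuad.bil ξ x (algebraMap K M (r : K) * w) from rfl,
    D.toQuad.bil_smul_right, D.toQuad.bil_smul_right,
    show s * ((r : K) * D.toQuad.bil ξ ((D.theta : M) * (algebraMap K M (r : K) * w)) w) =
      (r : K) * s * D.toQuad.bil ξ ((D.theta : M) * (algebraMap K M (r : K) * w)) w by ring,
    show s * ((r : K) * D.toQuad.bil ξ x w) = (r : K) * s * D.toQuad.bil ξ x w by ring,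
    hp.psi_bil hrs (smul_int_mem hwr D.theta) hwL, hp.psi_bil hrs hx hwL, one_mul]

end DihData

end Fermat.Agent.LT.Dihedral

end
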