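import Fermat.Agent.LT.Dihedral.QuadExt
import Fermat.Agent.LT.Theta.Modulated
import Mathlib.NumberTheory.NumberField.FractionalIdeal
import Mathlib.LinearAlgebra.BilinearForm.Properties
import Mathlib.MeasureTheory.Measure.Lebesgue.EqHaar

/-!
The points of `M` in the coordinates `ι → ℂ × ℂ` at the infinite places of `K`, lattices from
fractional ideals with their duals, and their covolumes.
-/

set_option autoImplicit false

noncomputable section

namespace Fermat.Agent.LT.Dihedral

open NumberField Adelic MeasureTheory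
open Poisson (eC latVec)
open Theta (qBil qBil_apply qBil_comm)
open scoped nonZeroDivisors ComplexConjugate

variable {K M : Type*} [Field K] [NumberField K] [Field M] [NumberField M] [Algebra K M]
  {ι : Type*} [Fintype ι]

/-! ### The embeddings of `K` -/

/-- The complex embeddings of `K` are the `emb i` and their conjugates. -/
def frameEmbEquiv (Φ : Frame K ι) : ι × Bool ≃ (K →+* ℂ) :=
  Equiv.ofBijective (fun p => bif p.2 then Φ.emb p.1 else ComplexEmbedding.conjugate (Φ.emb p.1))
    (by
      have hne : ∀ i, ComplexEmbedding.conjugate (Φ.emb i) ≠ Φ.emb i := fun i h =>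
        InfinitePlace.isComplex_mk_iff.mp (Φ.complex i) (ComplexEmbedding.isReal_iff.mpr h)
      constructor
      · rintro ⟨i, b⟩ ⟨j, b'⟩ h
        have hij : i = j := Φ.bij.injective (by
          cases b <;> cases b' <;> simp only [cond_true, cond_false] at h
          · exact InfinitePlace.mk_eq_iff.mpr (Or.inl ((star_involutive (R := K →+* ℂ)).injective h))
          · rw [← h]; exact (InfinitePlace.mk_conjugate_eq _).symm
          · rw [h]; exact InfinitePlace.mk_conjugate_eq _
          · rw [h])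
        subst hij
        cases b <;> cases b' <;> simp only [cond_true, cond_false] at h
        · rfl
        · exact absurd h (hne i)
        · exact absurd h.symm (hne i)
        · rfl
      · intro φ
        obtain ⟨i, hi⟩ := Φ.bij.surjective (InfinitePlace.mk φ)
        rcases InfinitePlace.mk_eq_iff.mp hi with h | h
        · exact ⟨(i, true), h⟩
        · exact ⟨(i, false), h⟩)

theorem finrank_eq_two_mul_card (Φ : Frame K ι) : Module.finrank ℚ K = 2 * Fintype.card ι := by
  rw [← NumberField.Embeddings.card K ℂ, ← Fintype.card_congr (frameEmbEquiv Φ), Fintype.card_prod,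
    Fintype.card_bool, mul_comm]

/-- The trace to `ℚ` in terms of the frame. -/
theorem trace_rat_eq_sum (Φ : Frame K ι) (a : K) :
    ((Algebra.trace ℚ K a : ℚ) : ℝ) = ∑ i, 2 * (Φ.emb i a).re := by
  have h := trace_eq_sum_embeddings (K := ℚ) (L := K) ℂ (x := a)
  rw [eq_ratCast, ← Equiv.sum_comp (RingHom.equivRatAlgHom (R := K) (S := ℂ)), ← (frameEmbEquiv Φ).sum_comp,
    Fintype.sum_prod_type] at h
  have h2 : ((Algebra.trace ℚ K a : ℚ) : ℂ) = ∑ i, ((2 * (Φ.emb i a).re : ℝ) : ℂ) := by
    rw [h]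
    refine Finset.sum_congr rfl fun i _ => ?_
    rw [Fintype.sum_bool, ← Complex.add_conj]
    rfl
  have h3 := congrArg Complex.re h2
  simpa using h3

/-- The absolute norm to `ℚ` in terms of the frame. -/
theorem abs_norm_rat_eq_prod (Φ : Frame K ι) (a : K) :
    ((|Algebra.norm ℚ a| : ℚ) : ℝ) = ∏ i, ‖Φ.emb i a‖ ^ 2 := by
  have h := congrArg norm (Algebra.norm_eq_prod_embeddings ℚ ℂ (L := K) a)
  rw [eq_ratCast, ← Equiv.prod_comp (RingHom.equivRatAlgHom (R := K) (S := ℂ)), ← (frameEmbEquiv Φ).prod_comp,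
    Fintype.prod_prod_type, norm_prod, Complex.norm_ratCast] at h
  rw [Rat.cast_abs, h]
  refine Finset.prod_congr rfl fun i _ => ?_
  rw [Fintype.prod_bool, norm_mul, sq]
  exact congrArg (‖Φ.emb i a‖ * ·) (Complex.norm_conj _)

/-! ### Coordinates of points of `M` -/

theorem exists_lift_embedding (σ : K →+* ℂ) : ∃ e : M →+* ℂ, ∀ x, e (algebraMap K M x) = σ x := by
  let _ := σ.toAlgebra
  exact ⟨(IsAlgClosed.lift : M →ₐ[K] ℂ).toRingHom, fun x => AlgHom.commutes _ x⟩

set_option linter.unusedSectionVars false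

variable (Φ : Frame K ι) (D : Quad K M)

/-- An embedding of `M` over the `i`-th place of `K`. -/
def liftEmb (i : ι) : M →+* ℂ := (exists_lift_embedding (M := M) (Φ.emb i)).choose

theorem liftEmb_algebraMap (i : ι) (x : K) : liftEmb Φ i (algebraMap K M x) = Φ.emb i x :=
  (exists_lift_embedding (M := M) (Φ.emb i)).choose_spec x

/-- The conjugates of a scalar at the places of the frame. -/
def xiV (ξ : K) (i : ι) : ℂ := Φ.emb i ξ

theorem xiV_ne_zero {ξ : K} (hξ : ξ ≠ 0) (i : ι) : xiV Φ ξ i ≠ 0 :=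
  (map_ne_zero (Φ.emb i)).mpr hξ

/-- The coordinates `(e x, e x̄)`. -/
def mPt : M →+ (ι → ℂ × ℂ) where
  toFun x i := (liftEmb Φ i x, liftEmb Φ i (D.conj x))
  map_zero' := funext fun i => by simp
  map_add' x y := funext fun i => by simp

theorem mPt_apply (x : M) (i : ι) : mPt Φ D x i = (liftEmb Φ i x, liftEmb Φ i (D.conj x)) := rfl

theorem mPt_injective [Nonempty ι] : Function.Injective (mPt Φ D) := fun x y h => by
  obtain ⟨i⟩ := ‹Nonempty ι›
  exact (liftEmb Φ i).injective (congrArg Prod.fst (congrFun h i))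

theorem mPt_fst_ne_zero {x : M} (hx : x ≠ 0) (i : ι) : (mPt Φ D x i).1 ≠ 0 :=
  (map_ne_zero (liftEmb Φ i)).mpr hx

theorem mPt_snd_ne_zero {x : M} (hx : x ≠ 0) (i : ι) : (mPt Φ D x i).2 ≠ 0 :=
  (map_ne_zero (liftEmb Φ i)).mpr (fun h => hx (by simpa using h))

theorem mPt_mul (z x : M) : mPt Φ D (z * x) = mPt Φ D z * mPt Φ D x := by
  funext i
  simp [mPt_apply]

theorem mPt_rat_smul (q : ℚ) (x : M) : mPt Φ D (q • x) = (q : ℝ) • mPt Φ D x := by
  funext i
  simp [mPt_apply, Rat.smul_def]

/-- `e(x) e(x̄)` is the norm. -/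
theorem mPt_fst_mul_snd (x : M) (i : ι) :
    (mPt Φ D x i).1 * (mPt Φ D x i).2 = Φ.emb i (Algebra.norm K x) := by
  rw [mPt_apply, ← map_mul, ← D.norm_eq, liftEmb_algebraMap]

theorem qBil_mPt (ξ : K) (x y : M) :
    qBil (xiV Φ ξ) (mPt Φ D x) (mPt Φ D y) =
      ((Algebra.trace ℚ K (D.bil ξ x y) : ℚ) : ℝ) := by
  rw [trace_rat_eq_sum Φ, qBil_apply]
  refine Finset.sum_congr rfl fun i _ => ?_
  congr 2
  rw [Quad.bil, map_mul, xiV, ← liftEmb_algebraMap (M := M) Φ i (Algebra.trace K M (x * D.conj y)),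
    D.trace_eq]
  simp [mPt_apply]

theorem psi_eq_eC_qBil (ξ : K) (x y : M) :
    psi (D.bil ξ x y) = eC (qBil (xiV Φ ξ) (mPt Φ D x) (mPt Φ D y)) := by
  rw [qBil_mPt, psi]

/-! ### The rational form and lattices -/

/-- `Tr_{K/ℚ} (ξ T(x ȳ))` as a bilinear form over `ℚ`. -/
def ratForm (ξ : K) : LinearMap.BilinForm ℚ M :=
  LinearMap.mk₂ ℚ (fun x y => Algebra.trace ℚ K (D.bil ξ x y))
    (fun x x' y => by rw [D.bil_add_left, map_add])
    (fun c x y => by
      rw [← map_smul]
      congr 1
      rw [Rat.smul_def, Rat.smul_def, ← map_ratCast (algebraMap K M) c, D.bil_smul_left])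
    (fun x y y' => by rw [D.bil_add_right, map_add])
    (fun c x y => by
      rw [← map_smul]
      congr 1
      rw [Rat.smul_def, Rat.smul_def, ← map_ratCast (algebraMap K M) c, D.bil_smul_right])

theorem ratForm_apply (ξ : K) (x y : M) :
    ratForm D ξ x y = Algebra.trace ℚ K (D.bil ξ x y) := rfl

theorem ratForm_comm (ξ : K) (x y : M) : ratForm D ξ x y = ratForm D ξ y x := by
  rw [ratForm_apply, ratForm_apply, D.bil_comm]

theorem ratForm_nondegenerate {ξ : K} (hξ : ξ ≠ 0) : (ratForm D ξ).Nondegenerate := by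
  have key : ∀ x, (∀ y, ratForm D ξ x y = 0) → x = 0 := by
    intro x hx
    refine (traceForm_nondegenerate ℚ M).1 x fun z => ?_
    have h := hx (D.conj (algebraMap K M ξ⁻¹ * z))
    rw [ratForm_apply, Quad.bil, D.conj_conj] at h
    rw [Algebra.traceForm_apply, ← Algebra.trace_trace (S := K), ← h]
    congr 1
    rw [show x * (algebraMap K M ξ⁻¹ * z) = ξ⁻¹ • (x * z) by rw [Algebra.smul_def]; ring,
      map_smul, smul_eq_mul, mul_inv_cancel_left₀ hξ]
  exact ⟨key, fun y hy => key y fun x => by rw [ratForm_comm]; exact hy x⟩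

theorem qBil_mPt_ratForm (ξ : K) (x y : M) :
    qBil (xiV Φ ξ) (mPt Φ D x) (mPt Φ D y) = (ratForm D ξ x y : ℝ) := qBil_mPt Φ D ξ x y

variable {d : Type*} [Fintype d]

theorem linearIndependent_mPt (b : Module.Basis d ℚ M) :
    LinearIndependent ℝ fun i => mPt Φ D (b i) := by
  classical
  rw [Fintype.linearIndependent_iff]
  intro g hg j
  set b' := (ratForm D 1).dualBasis (ratForm_nondegenerate D one_ne_zero) b
  have h := congrArg (qBil (xiV Φ (1 : K)) (mPt Φ D (b' j))) hg
  simp only [map_sum, map_smul, map_zero, qBil_mPt_ratForm, b',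
    LinearMap.BilinForm.apply_dualBasis_left] at h
  simpa [apply_ite (fun q : ℚ => (q : ℝ))] using h

include Φ D in
theorem card_basis_eq_finrank (b : Module.Basis d ℚ M) :
    Fintype.card d = Module.finrank ℝ (ι → ℂ × ℂ) := by
  rw [← Module.finrank_eq_card_basis b, ← Module.finrank_mul_finrank ℚ K M, D.finrank_two,
    finrank_eq_two_mul_card Φ, Module.finrank_pi_fintype]
  simp [Module.finrank_prod, Complex.finrank_real_complex]
  ring

/-- The real basis given by a rational basis of `M`. -/
def realBasis (b : Module.Basis d ℚ M) : Module.Basis d ℝ (ι → ℂ × ℂ) :=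
  basisOfLinearIndependentOfCardEqFinrank' _ (linearIndependent_mPt Φ D b)
    (card_basis_eq_finrank Φ D b)

@[simp] theorem realBasis_apply (b : Module.Basis d ℚ M) (i : d) :
    realBasis Φ D b i = mPt Φ D (b i) := by simp [realBasis]

theorem latVec_realBasis (b : Module.Basis d ℚ M) (n : d → ℤ) :
    latVec (realBasis Φ D b) n = mPt Φ D (∑ i, n i • b i) := by
  rw [latVec, map_sum]
  exact Finset.sum_congr rfl fun i _ => by
    rw [map_zsmul, realBasis_apply, Int.cast_smul_eq_zsmul]

theorem repr_realBasis (b : Module.Basis d ℚ M) (x : M) (i : d) :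
    (realBasis Φ D b).repr (mPt Φ D x) i = (b.repr x i : ℝ) := by
  classical
  conv_lhs => rw [← b.sum_repr x, map_sum]
  simp only [mPt_rat_smul, ← realBasis_apply, map_sum, map_smul, Module.Basis.repr_self,
    Finsupp.coe_finsetSum, Finset.sum_apply, Finsupp.coe_smul, Pi.smul_apply,
    Finsupp.single_apply, smul_eq_mul, mul_ite, mul_one, mul_zero, Finset.sum_ite_eq',
    Finset.mem_univ, if_true]

theorem toMatrix_realBasis (b₀ : Module.Basis d ℚ M) (v : d → M) :
    (realBasis Φ D b₀).toMatrix (fun i => mPt Φ D (v i)) =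
      (b₀.toMatrix v).map (Rat.castHom ℝ) := by
  ext i j
  simp [Module.Basis.toMatrix_apply, repr_realBasis]

theorem volume_realBasis_eq (b₀ b : Module.Basis d ℚ M) [DecidableEq d] :
    (volume ((realBasis Φ D b).parallelepiped : Set (ι → ℂ × ℂ))).toReal =
      (|b₀.det b| : ℚ) *
        (volume ((realBasis Φ D b₀).parallelepiped : Set (ι → ℂ × ℂ))).toReal := by
  set B₀ := realBasis Φ D b₀
  have hμ : (volume : Measure (ι → ℂ × ℂ)) = volume (B₀.parallelepiped : Set (ι → ℂ × ℂ)) •
      B₀.addHaar := by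
    rw [Module.Basis.addHaar_def]
    exact Measure.addHaarMeasure_unique _ _
  conv_lhs => rw [hμ]
  rw [Measure.smul_apply, smul_eq_mul, ENNReal.toReal_mul]
  simp only [Module.Basis.coe_parallelepiped]
  rw [Measure.addHaar_parallelepiped, ENNReal.toReal_ofReal (abs_nonneg _), mul_comm]
  congr 1
  rw [Rat.cast_abs, Module.Basis.det_apply, Module.Basis.det_apply]
  rw [show ⇑(realBasis Φ D b) = fun i => mPt Φ D (b i) from funext fun i => realBasis_apply Φ D b i,
    toMatrix_realBasis, ← Rat.coe_castHom, RingHom.map_det]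
  rfl

theorem volume_realBasis_pos (b : Module.Basis d ℚ M) :
    0 < (volume ((realBasis Φ D b).parallelepiped : Set (ι → ℂ × ℂ))).toReal :=
  ENNReal.toReal_pos (Measure.measure_pos_of_nonempty_interior _
    (realBasis Φ D b).parallelepiped.interior_nonempty).ne'
    (realBasis Φ D b).parallelepiped.isCompact.measure_lt_top.ne

/-- The covolume of the ring of integers. -/
def covolInt : ℝ :=
  (volume ((realBasis Φ D (integralBasis M)).parallelepiped : Set (ι → ℂ × ℂ))).toReal

theorem covolInt_pos : 0 < covolInt Φ D := volume_realBasis_pos Φ D _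

theorem volume_basisOfFractionalIdeal (P : (FractionalIdeal (𝓞 M)⁰ M)ˣ) :
    (volume ((realBasis Φ D (basisOfFractionalIdeal M P)).parallelepiped :
      Set (ι → ℂ × ℂ))).toReal =
      (FractionalIdeal.absNorm P.1 : ℝ) * covolInt Φ D := by
  classical
  set e : Module.Free.ChooseBasisIndex ℤ (𝓞 M) ≃ Module.Free.ChooseBasisIndex ℤ P :=
    Fintype.equivOfCardEq (by
      rw [← Module.finrank_eq_card_chooseBasisIndex, ← Module.finrank_eq_card_chooseBasisIndex,
        fractionalIdeal_rank])
  have hb : realBasis Φ D ((basisOfFractionalIdeal M P).reindex e.symm) =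
      (realBasis Φ D (basisOfFractionalIdeal M P)).reindex e.symm := by
    refine Module.Basis.eq_of_apply_eq fun i => ?_
    simp
  have h := volume_realBasis_eq Φ D (integralBasis M) ((basisOfFractionalIdeal M P).reindex e.symm)
  rw [det_basisOfFractionalIdeal_eq_absNorm, hb, Module.Basis.parallelepiped_reindex] at h
  exact h

/-- `ℤ`-spans through coordinates. -/
theorem mem_span_int_iff (b : Module.Basis d ℚ M) (x : M) :
    x ∈ Submodule.span ℤ (Set.range b) ↔ ∃ n : d → ℤ, ∑ i, n i • b i = x :=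
  Submodule.mem_span_range_iff_exists_fun ℤ

theorem mem_dualSet_iff {ξ : K} (hξ : ξ ≠ 0) [DecidableEq d] {P : FractionalIdeal (𝓞 M)⁰ M}
    (b : Module.Basis d ℚ M) (hb : ∀ x, x ∈ Submodule.span ℤ (Set.range b) ↔ x ∈ P) (y : M) :
    y ∈ D.dualSet ξ P ↔
      y ∈ Submodule.span ℤ (Set.range
        ((ratForm D ξ).dualBasis (ratForm_nondegenerate D hξ) b)) := by
  set b' := (ratForm D ξ).dualBasis (ratForm_nondegenerate D hξ) b
  rw [mem_span_int_iff]
  constructor
  · intro hy
    have h : ∀ i, ∃ m : ℤ, b'.repr y i = m := fun i => by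
      rw [LinearMap.BilinForm.dualBasis_repr_apply, ratForm_comm, ratForm_apply]
      exact (psi_eq_one_iff _).mp (hy _ ((hb _).mp (Submodule.subset_span (Set.mem_range_self i))))
    choose m hm using h
    refine ⟨m, ?_⟩
    conv_rhs => rw [← b'.sum_repr y]
    exact Finset.sum_congr rfl fun i _ => by rw [hm, Int.cast_smul_eq_zsmul]
  · rintro ⟨m, rfl⟩ x hx
    obtain ⟨n, rfl⟩ := (mem_span_int_iff b x).mp ((hb x).mpr hx)
    rw [psi_eq_one_iff]
    refine ⟨∑ i, n i * m i, ?_⟩
    rw [← ratForm_apply]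
    simp only [map_sum, LinearMap.sum_apply, map_zsmul, LinearMap.smul_apply, Int.cast_sum]
    refine Finset.sum_congr rfl fun i _ => ?_
    rw [Finset.sum_eq_single i]
    · rw [ratForm_comm, LinearMap.BilinForm.apply_dualBasis_left, if_pos rfl]
      simp [mul_comm]
    · intro j _ hj
      rw [ratForm_comm, LinearMap.BilinForm.apply_dualBasis_left, if_neg hj]
      simp
    · exact fun h => absurd (Finset.mem_univ i) h

theorem qBil_dualBasis {ξ : K} (hξ : ξ ≠ 0) [DecidableEq d] (b : Module.Basis d ℚ M) (j i : d) :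
    qBil (xiV Φ ξ)
      (realBasis Φ D ((ratForm D ξ).dualBasis (ratForm_nondegenerate D hξ) b) j)
      (realBasis Φ D b i) = if j = i then 1 else 0 := by
  rw [realBasis_apply, realBasis_apply, qBil_mPt_ratForm,
    LinearMap.BilinForm.apply_dualBasis_left]
  split_ifs <;> simp_all

end Fermat.Agent.LT.Dihedral
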