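import Fermat.Agent.LT.Dihedral.QuadExt
import Fermat.Agent.LT.Adelic.Space

/-!
# Relations between theta series under `SL₂(K)`

`rel γ a b` is to be read `Θ_a (γ • τ) = Θ_b τ` for functions `a b` on `M`.  This file records the
formal properties of that relation used in the transformation lemmas.
-/

set_option autoImplicit false
set_option maxHeartbeats 400000

noncomputable section

namespace Fermat.Agent.LT.Dihedral

open NumberField Adelic Matrix
open scoped nonZeroDivisors

variable {K M : Type*} [Field K] [NumberField K] [Field M] [NumberField M] [Algebra K M]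

/-- A bounded function supported on a set with bounded denominators. -/
def Adm (a : M → ℂ) : Prop :=
  (∃ C : ℝ, ∀ x, ‖a x‖ ≤ C) ∧
    ∃ e : 𝓞 M, e ≠ 0 ∧ ∀ x, a x ≠ 0 → ∃ b : 𝓞 M, (e : M) * x = (b : M)

theorem adm_zero : Adm (0 : M → ℂ) :=
  ⟨⟨0, fun _ => by simp⟩, 1, one_ne_zero, fun x h => absurd rfl h⟩

theorem Adm.add {a b : M → ℂ} (ha : Adm a) (hb : Adm b) : Adm (a + b) := by
  obtain ⟨⟨C, hC⟩, e, he, hea⟩ := ha
  obtain ⟨⟨C', hC'⟩, e', he', heb⟩ := hb
  refine ⟨⟨C + C', fun x => (norm_add_le _ _).trans (add_le_add (hC x) (hC' x))⟩,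
    e * e', mul_ne_zero he he', fun x hx => ?_⟩
  by_cases h : a x = 0
  · obtain ⟨c, hc⟩ := heb x fun h' => hx (by simp [h, h'])
    exact ⟨e * c, by simp [mul_assoc, hc]⟩
  · obtain ⟨c, hc⟩ := hea x h
    exact ⟨e' * c, by simp [← hc]; ring⟩

theorem Adm.smul {a : M → ℂ} (ha : Adm a) (c : ℂ) : Adm (c • a) := by
  obtain ⟨⟨C, hC⟩, e, he, hea⟩ := ha
  exact ⟨⟨‖c‖ * C, fun x => by simp [mul_le_mul_of_nonneg_left (hC x) (norm_nonneg c)]⟩, e, he,
    fun x hx => hea x fun h => hx (by simp [h])⟩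

theorem Adm.congr {a b : M → ℂ} (ha : Adm a) (h : ∀ x, a x = b x) : Adm b := funext h ▸ ha

theorem adm_sum {ι : Type*} (s : Finset ι) {a : ι → M → ℂ} (h : ∀ i ∈ s, Adm (a i)) :
    Adm (fun x => ∑ i ∈ s, a i x) := by
  classical
  induction s using Finset.induction_on with
  | empty => exact adm_zero.congr fun x => by simp
  | insert i s hi ih =>
    simp only [Finset.sum_insert hi]
    exact (h i (Finset.mem_insert_self i s)).add (ih fun j hj => h j (Finset.mem_insert_of_mem hj))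

/-- Modifying by a bounded factor. -/
theorem Adm.mul_bounded {a : M → ℂ} (ha : Adm a) {m : M → ℂ} {C : ℝ} (hm : ∀ x, ‖m x‖ ≤ C) :
    Adm (fun x => m x * a x) := by
  obtain ⟨⟨C', hC⟩, e, he, hea⟩ := ha
  refine ⟨⟨C * C', fun x => ?_⟩, e, he, fun x hx => hea x fun h => hx (by simp [h])⟩
  rw [norm_mul]
  exact mul_le_mul (hm x) (hC x) (norm_nonneg _) ((norm_nonneg _).trans (hm x))


/-- Composition with a scaling. -/
theorem Adm.comp_mul {a : M → ℂ} (ha : Adm a) {z : M} (hz : z ≠ 0) :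
    Adm (fun x => a (z * x)) := by
  obtain ⟨⟨C, hC⟩, e, he, hea⟩ := ha
  obtain ⟨p, q, hq, rfl⟩ := IsFractionRing.div_surjective (A := 𝓞 M) z
  have hp : p ≠ 0 := by rintro rfl; simp at hz
  refine ⟨⟨C, fun x => hC _⟩, e * p, mul_ne_zero he hp, fun x hx => ?_⟩
  obtain ⟨b, hb⟩ := hea _ hx
  have hq0 : (q : M) ≠ 0 := by exact_mod_cast nonZeroDivisors.ne_zero hq
  refine ⟨b * q, ?_⟩
  simp only [map_mul, ← hb]
  field_simp

variable (K M) in
/-- The formal properties of the relation `Θ_a (γ • τ) = Θ_b τ` for the form `ξ N`. -/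
structure RelSys (D : Quad K M) (ξ : K) where
  /-- the relation -/
  rel : GL (Fin 2) K → (M → ℂ) → (M → ℂ) → Prop
  /-- the constant of the Fourier transform -/
  kap : ℂ
  comp : ∀ {g g' a b c}, rel g a b → rel g' b c → rel (g * g') a c
  add : ∀ {g a b a' b'}, rel g a b → rel g a' b' → rel g (a + a') (b + b')
  smul : ∀ {g a b} (r : ℂ), rel g a b → rel g (r • a) (r • b)
  zero : ∀ g, rel g 0 0
  neg_scalar : ∀ {a}, Adm a → rel (diag2 (-1) (-1)) a a
  weyl_symm : ∀ {a b}, rel weyl a b → rel weyl b a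
  unip : ∀ {a} (t : K), Adm a →
    rel (unipotent t) a (fun x => psi (t * (ξ * Algebra.norm K x)) * a x)
  dia : ∀ {a} (e : Kˣ), Adm a →
    rel (diag2 e e⁻¹) a
      (fun x => ((|Algebra.norm ℚ (e : K)| : ℚ) : ℂ) * a ((algebraMap K M ((e⁻¹ : Kˣ) : K)) * x))
  packet : ∀ (P : FractionalIdeal (𝓞 M)⁰ M), P ≠ 0 → ∀ h k : M,
    rel weyl (fun x => Set.indicator {x | x - h ∈ P} (fun x => psi (D.bil ξ x k)) x)
      (fun y => kap / ((FractionalIdeal.absNorm P : ℚ) : ℂ) *
        Set.indicator {y | y - k ∈ D.dualSet ξ P} (fun y => psi (-(D.bil ξ h (y - k)))) y)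

namespace RelSys

variable {D : Quad K M} {ξ : K} (R : RelSys K M D ξ)

theorem sum {ι : Type*} (s : Finset ι) {g : GL (Fin 2) K} {a b : ι → M → ℂ}
    (h : ∀ i ∈ s, R.rel g (a i) (b i)) :
    R.rel g (fun x => ∑ i ∈ s, a i x) (fun x => ∑ i ∈ s, b i x) := by
  classical
  induction s using Finset.induction_on with
  | empty => simp only [Finset.sum_empty]; exact R.zero g
  | insert i s hi ih =>
    simp only [Finset.sum_insert hi]
    exact R.add (h i (Finset.mem_insert_self i s))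
      (ih fun j hj => h j (Finset.mem_insert_of_mem hj))

theorem congr {g : GL (Fin 2) K} {a b a' b' : M → ℂ} (h : R.rel g a b) (ha : ∀ x, a x = a' x)
    (hb : ∀ x, b x = b' x) : R.rel g a' b' := by
  rw [← funext ha, ← funext hb]; exact h

theorem smul_const {g : GL (Fin 2) K} {a b : M → ℂ} (r : ℂ) (h : R.rel g a b) :
    R.rel g (fun x => r * a x) (fun x => r * b x) := R.smul r h

end RelSys

end Fermat.Agent.LT.Dihedral

end
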