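import Fermat.Agent.LT.Dihedral.Coeff
import Fermat.Agent.LT.Dihedral.Embed
import Fermat.Agent.LT.Dihedral.RelSys
import Mathlib.RingTheory.DedekindDomain.Factorization

/-!
# Frequencies and coefficients of the dihedral form

A lower bound on the frequencies, ideles with a given ideal, and the behaviour of the coefficients
under principal ideles.
-/

set_option autoImplicit false

noncomputable section

namespace Fermat.Agent.LT.Dihedral

open NumberField IsDedekindDomain Adelic WithZero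
open scoped nonZeroDivisors

variable {K M : Type*} [Field K] [NumberField K] [Field M] [NumberField M] [Algebra K M]

theorem one_le_abs_norm_of_isIntegral {y : K} (hy : IsIntegral ℤ y) (h0 : y ≠ 0) :
    (1 : ℚ) ≤ |Algebra.norm ℚ y| := by
  obtain ⟨n, hn⟩ := IsIntegrallyClosed.isIntegral_iff.mp (Algebra.isIntegral_norm ℚ hy)
  have hn' : (n : ℚ) = Algebra.norm ℚ y := by simpa using hn
  have hn0 : n ≠ 0 := by
    rintro rfl
    exact (Algebra.norm_ne_zero_iff (R := ℚ)).mpr h0 (hn'.symm.trans Int.cast_zero)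
  rw [← hn', ← Int.cast_abs]
  exact_mod_cast Int.one_le_abs hn0

/-- The nonzero frequencies of an admissible weight are bounded away from zero. -/
theorem exists_le_norm_freq {ι : Type*} [Fintype ι] (Φ : Frame K ι) {ξ : K} (hξ : ξ ≠ 0)
    {a : M → ℂ} (ha : Adm a) :
    ∃ δ > 0, ∀ x : M, x ≠ 0 → a x ≠ 0 → δ ≤ ‖xiV Φ (ξ * Algebra.norm K x)‖ := by
  classical
  obtain ⟨-, e, he, hea⟩ := ha
  have he' : (e : M) ≠ 0 := by simpa using he
  have hη : ξ / Algebra.norm K (e : M) ≠ 0 :=
    div_ne_zero hξ (Algebra.norm_ne_zero_iff.mpr he')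
  set c : ℝ := ((|Algebra.norm ℚ (ξ / Algebra.norm K (e : M))| : ℚ) : ℝ) with hc
  have hc0 : 0 < c := Rat.cast_pos.mpr (abs_pos.mpr (Algebra.norm_ne_zero_iff.mpr hη))
  refine ⟨min 1 c, lt_min one_pos hc0, fun x hx hax => ?_⟩
  obtain ⟨b, hb⟩ := hea x hax
  have hb0 : (b : M) ≠ 0 := hb ▸ mul_ne_zero he' hx
  set y := ξ * Algebra.norm K x with hy
  have hyeq : y = ξ / Algebra.norm K (e : M) * Algebra.norm K (b : M) := by
    rw [← hb, map_mul, hy]
    field_simp [Algebra.norm_ne_zero_iff.mpr he']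
  have hle : c ≤ ((|Algebra.norm ℚ y| : ℚ) : ℝ) := by
    refine Rat.cast_le.mpr ?_
    rw [hyeq, map_mul (Algebra.norm ℚ), abs_mul]
    exact le_mul_of_one_le_right (abs_nonneg _) (one_le_abs_norm_of_isIntegral
      (Algebra.isIntegral_norm K b.isIntegral_coe) (Algebra.norm_ne_zero_iff.mpr hb0))
  rw [abs_norm_rat_eq_prod Φ] at hle
  by_contra hlt
  rw [not_le] at hlt
  have h1 : ∀ i, ‖Φ.emb i y‖ < min 1 c := fun i =>
    (norm_le_pi_norm (xiV Φ y) i).trans_lt hlt
  have hne : Nonempty ι := by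
    refine Fintype.card_pos_iff.mp ?_
    have h2 := finrank_eq_two_mul_card Φ
    have h3 : 0 < Module.finrank ℚ K := Module.finrank_pos
    omega
  obtain ⟨i₀⟩ := hne
  rw [← Finset.mul_prod_erase _ _ (Finset.mem_univ i₀)] at hle
  have h4 : ∏ i ∈ Finset.univ.erase i₀, ‖Φ.emb i y‖ ^ 2 ≤ 1 :=
    Finset.prod_le_one (fun i _ => by positivity) fun i _ =>
      pow_le_one₀ (norm_nonneg _) ((h1 i).le.trans (min_le_left _ _))
  nlinarith [h1 i₀, min_le_left 1 c, min_le_right 1 c, norm_nonneg (Φ.emb i₀ y),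
    mul_le_of_le_one_right (sq_nonneg ‖Φ.emb i₀ y‖) h4]

/-- Every nonzero fractional ideal is the ideal of an idele. -/
theorem exists_idele_idI {J : FractionalIdeal (𝓞 K)⁰ K} (hJ : J ≠ 0) :
    ∃ t : (FiniteAdeleRing (𝓞 K) K)ˣ, idI t = J := by
  classical
  choose π hπ using fun v : HeightOneSpectrum (𝓞 K) => v.valuation_exists_uniformizer K
  let x : HeightOneSpectrum (𝓞 K) → K := fun v => π v ^ FractionalIdeal.count K v J
  have hx : ∀ v, Valued.v ((x v : v.adicCompletion K)) = exp (-FractionalIdeal.count K v J) :=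
    fun v => by
      rw [HeightOneSpectrum.adicCompletion.valued_coe, map_zpow₀, hπ, ← exp_zsmul]
      simp
  have hev : ∀ᶠ v : HeightOneSpectrum (𝓞 K) in Filter.cofinite,
      Valued.v ((x v : v.adicCompletion K)) = 1 := by
    filter_upwards [FractionalIdeal.finite_factors J] with v hv
    rw [hx, hv, neg_zero, exp_zero]
  let a : FiniteAdeleRing (𝓞 K) K := ⟨fun v => (x v : v.adicCompletion K), by
    filter_upwards [hev] with v hv
    show Valued.v ((x v : v.adicCompletion K)) ≤ 1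
    exact hv.le⟩
  have hu : IsUnit a := FiniteAdeleRing.isUnit_iff.mpr ⟨fun v h0 => by
    have := hx v
    rw [show (x v : v.adicCompletion K) = 0 from h0, map_zero] at this
    exact exp_ne_zero this.symm, hev⟩
  refine ⟨hu.unit, ?_⟩
  have hord : ∀ v, ordAt hu.unit v = FractionalIdeal.count K v J := fun v => by
    rw [ordAt, IsUnit.unit_spec]
    show -log (Valued.v ((x v : v.adicCompletion K))) = _
    rw [hx, log_exp, neg_neg]
  show ∏ᶠ v : HeightOneSpectrum (𝓞 K), _ = J
  simp only [hord]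
  exact FractionalIdeal.finprod_heightOneSpectrum_factorization' K hJ

theorem ideleIdeal_principal_mul_eq (x : Kˣ) (t : (FiniteAdeleRing (𝓞 K) K)ˣ) :
    idI (principalIdele x * t) = FractionalIdeal.spanSingleton (𝓞 K)⁰ (x : K) * idI t := by
  rw [ideleIdeal_mul_eq]
  congr 1
  show ∏ᶠ v : HeightOneSpectrum (𝓞 K), _ = _
  simp only [ordAt_principalIdele]
  exact FractionalIdeal.finprod_heightOneSpectrum_factorization' K
    (FractionalIdeal.spanSingleton_ne_zero_iff.mpr x.ne_zero)

theorem tdI_principal_mul (x : Kˣ) (t : (FiniteAdeleRing (𝓞 K) K)ˣ) :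
    tdI (principalIdele x * t) = FractionalIdeal.spanSingleton (𝓞 K)⁰ (x : K) * tdI t := by
  rw [tdI, tdI, ideleIdeal_principal_mul_eq, mul_assoc]

namespace DihData

variable (D : DihData K M)

/-- The coefficients transform under principal ideles. -/
theorem coef_principal_mul {ι : Type*} [Fintype ι] (Φ : Frame K ι) (x : Kˣ)
    (t : (FiniteAdeleRing (𝓞 K) K)ˣ) (α : K) :
    D.coef (principalIdele x * t) α =
      ((∏ i, ‖Φ.emb i (x : K)‖)⁻¹ : ℝ) * D.coef t ((x : K) * α) := by
  have h1 : ((FractionalIdeal.absNorm (idI (principalIdele x * t)) : ℚ) : ℝ) =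
      (∏ i, ‖Φ.emb i (x : K)‖) ^ 2 * ((FractionalIdeal.absNorm (idI t) : ℚ) : ℝ) := by
    rw [ideleIdeal_principal_mul_eq, map_mul, Rat.cast_mul, FractionalIdeal.absNorm_span_singleton,
      abs_norm_rat_eq_prod Φ, Finset.prod_pow]
  rw [coef, coef, tdI_principal_mul, ← mul_assoc, FractionalIdeal.spanSingleton_mul_spanSingleton,
    h1, mul_comm α, Real.sqrt_mul (sq_nonneg _),
    Real.sqrt_sq (Finset.prod_nonneg fun i _ => norm_nonneg _), mul_inv]
  push_cast
  ring

/-- The coefficient at `idI t = 𝔡⁻¹` and frequency one does not vanish. -/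
theorem exists_coef_ne_zero :
    ∃ (t : (FiniteAdeleRing (𝓞 K) K)ˣ) (α : K), α ≠ 0 ∧ D.coef t α ≠ 0 := by
  have hd : invDiff K ≠ 0 := FractionalIdeal.dual_ne_zero ℤ ℚ one_ne_zero
  obtain ⟨t, ht⟩ := exists_idele_idI hd
  refine ⟨t, 1, one_ne_zero, ?_⟩
  rw [coef, tdI, ht, mul_inv_cancel₀ hd, FractionalIdeal.spanSingleton_one, one_mul, D.bK_one,
    mul_one]
  refine Complex.ofReal_ne_zero.mpr (inv_ne_zero (Real.sqrt_pos.mpr (Rat.cast_pos.mpr ?_)).ne')
  exact lt_of_le_of_ne (FractionalIdeal.absNorm_nonneg _)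
    (Ne.symm (FractionalIdeal.absNorm_eq_zero_iff.not.mpr hd))

end DihData

end Fermat.Agent.LT.Dihedral

end
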