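import Fermat.Agent.LT.Dihedral.Ideles
import Fermat.Agent.LT.Adelic.Measure

/-!
# The adelic glue

A family satisfying `GlueHyp` is the restriction of an invariant function of level `levelF n` to
the points `diag(t, 1)`, and these points meet every orbit of `GL₂(K)` on the finite coordinate.
-/

set_option autoImplicit false
set_option maxHeartbeats 400000

noncomputable section

namespace Fermat.Agent.LT.Dihedral

open NumberField IsDedekindDomain Adelic Matrix WithZero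
open scoped nonZeroDivisors

variable {K : Type*} [Field K] [NumberField K] {ι : Type*} {Φ : Frame K ι} {n : 𝓞 K}

local notation "𝔸" => FiniteAdeleRing (𝓞 K) K

namespace Glue

/-- `toGf γ` carries `diag(t, 1) w` to `diag(t', 1)` modulo the level. -/
def Carries (n : 𝓞 K) (γ : GL (Fin 2) K) (t t' w : 𝔸ˣ) : Prop :=
  (diag2 t' 1)⁻¹ * (toGf K γ * diag2 t 1 * scalarHom (𝓞 K) K w) ∈ levelF K n

theorem scalar_comm (w : 𝔸ˣ) (g : GfK K) :
    scalarHom (𝓞 K) K w * g = g * scalarHom (𝓞 K) K w :=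
  centerGf_comm (⟨w, rfl⟩ : scalarHom (𝓞 K) K w ∈ centerGf (𝓞 K) K) g

theorem coe_scalarHom (w : 𝔸ˣ) :
    (scalarHom (𝓞 K) K w : Matrix (Fin 2) (Fin 2) 𝔸) = !![(w : 𝔸), 0; 0, (w : 𝔸)] := by
  ext i j
  fin_cases i <;> fin_cases j <;> simp [scalarHom]

theorem det_scalarHom (w : 𝔸ˣ) :
    GeneralLinearGroup.det (scalarHom (𝓞 K) K w) = w ^ 2 := by
  refine Units.ext ?_
  rw [GeneralLinearGroup.val_det_apply, coe_scalarHom, det_fin_two_of, Units.val_pow_eq_pow_val]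
  ring

theorem det_diag2 {R : Type*} [CommRing R] (a b : Rˣ) :
    GeneralLinearGroup.det (diag2 a b) = a * b := by
  refine Units.ext ?_
  rw [GeneralLinearGroup.val_det_apply, coe_diag2, det_fin_two_of, Units.val_mul]
  ring

theorem det_toGf (γ : GL (Fin 2) K) :
    GeneralLinearGroup.det (toGf K γ) = principalIdele (GeneralLinearGroup.det γ) := by
  refine Units.ext ?_
  rw [GeneralLinearGroup.val_det_apply, coe_principalIdele, GeneralLinearGroup.val_det_apply,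
    RingHom.map_det]
  rfl

theorem toGf_apply (γ : GL (Fin 2) K) (i j : Fin 2) :
    (toGf K γ : Matrix (Fin 2) (Fin 2) 𝔸) i j =
      algebraMap K 𝔸 ((γ : Matrix (Fin 2) (Fin 2) K) i j) := rfl

theorem toGf_diag_left (δ : Kˣ) :
    toGf K (diag2 δ 1) = diag2 (principalIdele δ) 1 := by
  refine GL.ext_fin_two ?_
  ext i j
  fin_cases i <;> fin_cases j <;> simp [toGf_apply, coe_principalIdele]

theorem toGf_scalar_eq (x : Kˣ) :
    toGf K (diag2 x x) = scalarHom (𝓞 K) K (principalIdele x) := by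
  refine GL.ext_fin_two ?_
  ext i j
  fin_cases i <;> fin_cases j <;> simp [toGf_apply, coe_principalIdele, coe_scalarHom]

theorem diag2_inv {R : Type*} [CommRing R] (a : Rˣ) : (diag2 a 1)⁻¹ = diag2 a⁻¹ 1 := by
  refine inv_eq_of_mul_eq_one_right (GL.ext_fin_two ?_)
  ext i j
  fin_cases i <;> fin_cases j <;> simp

theorem diag2_mul_left {R : Type*} [CommRing R] (a b : Rˣ) :
    diag2 (a * b) 1 = diag2 a 1 * diag2 b 1 := by
  refine GL.ext_fin_two ?_
  ext i j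
  fin_cases i <;> fin_cases j <;> simp

theorem isUnitIdele_det {g : GfK K} (hg : g ∈ principalLevel K (1 : 𝓞 K)) :
    IsUnitIdele (GeneralLinearGroup.det g) := by
  have key : ∀ h : GfK K, h ∈ principalLevel K (1 : 𝓞 K) →
      ((GeneralLinearGroup.det h : 𝔸ˣ) : 𝔸) ∈ intAdele (𝓞 K) K := fun h hh => by
    have e := (matMemMul_one _).mp (mem_principalLevel_one.mp hh).1
    rw [GeneralLinearGroup.val_det_apply, det_fin_two]
    exact sub_mem (mul_mem (e 0 0) (e 1 1)) (mul_mem (e 0 1) (e 1 0))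
  intro v
  have h1 := mem_intAdele.mp (key g hg) v
  have h2 := mem_intAdele.mp (key g⁻¹ (inv_mem hg)) v
  rw [valued_eq_exp_ordAt, ← exp_zero, exp_le_exp] at h1
  rw [map_inv, idele_inv_apply, map_inv₀, valued_eq_exp_ordAt, ← exp_neg, ← exp_zero,
    exp_le_exp] at h2
  rw [valued_eq_exp_ordAt, show ordAt (GeneralLinearGroup.det g) v = 0 by omega, neg_zero,
    exp_zero]

theorem scalar_mem_levelF (n : 𝓞 K) {w : 𝔸ˣ} (hu : IsUnitIdele w)
    (hw : MemMul n ((w : 𝔸) - 1)) : scalarHom (𝓞 K) K w ∈ levelF K n := by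
  refine mem_levelF.mpr ⟨mem_principalLevel_one.mpr ⟨?_, ?_⟩, ?_, ?_, ?_⟩
  · rw [matMemMul_one, coe_scalarHom]
    intro i j
    fin_cases i <;> fin_cases j <;> simp <;>
      first | exact fun v => (hu v).le | exact zero_mem _
  · rw [← map_inv, matMemMul_one, coe_scalarHom]
    intro i j
    fin_cases i <;> fin_cases j <;> simp <;>
      first | exact fun v => (hu.inv v).le | exact zero_mem _
  · simpa [coe_scalarHom] using memMul_zero_right n
  · simpa [coe_scalarHom] using memMul_zero_right n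
  · simpa [coe_scalarHom] using hw

theorem mem_levelF_of_det_one (n : 𝓞 K) {g : GfK K} (hdet : GeneralLinearGroup.det g = 1)
    (h00 : (g : Matrix (Fin 2) (Fin 2) 𝔸) 0 0 ∈ intAdele (𝓞 K) K)
    (h01 : MemMul n ((g : Matrix (Fin 2) (Fin 2) 𝔸) 0 1))
    (h10 : MemMul n ((g : Matrix (Fin 2) (Fin 2) 𝔸) 1 0))
    (h11 : MemMul n ((g : Matrix (Fin 2) (Fin 2) 𝔸) 1 1 - 1)) : g ∈ levelF K n := by
  have h11' : (g : Matrix (Fin 2) (Fin 2) 𝔸) 1 1 ∈ intAdele (𝓞 K) K := by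
    simpa using add_mem h11.mem_intAdele (one_mem _)
  have hd : (g : Matrix (Fin 2) (Fin 2) 𝔸).det = 1 := by
    rw [← GeneralLinearGroup.val_det_apply, hdet, Units.val_one]
  refine mem_levelF.mpr ⟨mem_principalLevel_one.mpr ⟨?_, ?_⟩, h01, h10, h11⟩
  · rw [matMemMul_one]
    intro i j
    fin_cases i <;> fin_cases j
    exacts [h00, h01.mem_intAdele, h10.mem_intAdele, h11']
  · rw [matMemMul_one, Matrix.coe_units_inv, Matrix.inv_def, hd, Ring.inverse_one, one_smul,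
      Matrix.adjugate_fin_two]
    intro i j
    fin_cases i <;> fin_cases j
    exacts [h11', neg_mem h01.mem_intAdele, neg_mem h10.mem_intAdele, h00]

theorem Carries.mul {γ δ : GL (Fin 2) K} {t t' t'' w w' : 𝔸ˣ} (h : Carries n γ t t' w)
    (h' : Carries n δ t' t'' w') : Carries n (δ * γ) t t'' (w' * w) := by
  rw [Carries] at h h' ⊢
  convert! mul_mem h' h using 1
  rw [map_mul, map_mul]
  set A := toGf K δ
  set B := toGf K γ
  set D := diag2 t 1
  set D' := diag2 t' 1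
  set D'' := diag2 t'' 1
  set C := scalarHom (𝓞 K) K w
  calc D''⁻¹ * (A * B * D * (scalarHom (𝓞 K) K w' * C))
      = D''⁻¹ * (A * (B * D * scalarHom (𝓞 K) K w')) * C := by group
    _ = D''⁻¹ * (A * (scalarHom (𝓞 K) K w' * (B * D))) * C := by rw [scalar_comm w' (B * D)]
    _ = D''⁻¹ * (A * (scalarHom (𝓞 K) K w' * D')) * (D'⁻¹ * (B * D * C)) := by group
    _ = _ := by rw [scalar_comm w' D']; group

theorem Carries.inv {γ : GL (Fin 2) K} {t t' w : 𝔸ˣ} (h : Carries n γ t t' w) :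
    Carries n γ⁻¹ t' t w⁻¹ := by
  rw [Carries] at h ⊢
  convert! inv_mem h using 1
  rw [← scalar_comm w⁻¹ (toGf K γ⁻¹ * diag2 t' 1), ← mul_assoc (diag2 t 1)⁻¹,
    ← scalar_comm w⁻¹ (diag2 t 1)⁻¹, map_inv, map_inv]
  group

theorem Carries.det_eq {γ : GL (Fin 2) K} {t t' w : 𝔸ˣ} (h : Carries n γ t t' w) :
    ∃ u : 𝔸ˣ, IsUnitIdele u ∧ principalIdele (GeneralLinearGroup.det γ) * t * w ^ 2 = t' * u := by
  refine ⟨_, isUnitIdele_det (levelF_le_one n h), ?_⟩
  simp only [map_mul, map_inv, det_diag2, det_scalarHom, det_toGf, mul_one]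
  rw [mul_inv_cancel_left]

/-- The invariance attached to `γ`, from `t` to `t'`. -/
def Trans (Φ : Frame K ι) (F : 𝔸ˣ → (ι → HSpace) → ℂ) (γ : GL (Fin 2) K) (t t' : 𝔸ˣ) : Prop :=
  ∀ τ, F t' (fun i => Φ.toInf i γ • τ i) = F t τ

variable {F : (FiniteAdeleRing (𝓞 K) K)ˣ → (ι → HSpace) → ℂ}

theorem Trans.mul {γ δ : GL (Fin 2) K} {t t' t'' : 𝔸ˣ} (h : Trans Φ F γ t t')
    (h' : Trans Φ F δ t' t'') : Trans Φ F (δ * γ) t t'' := fun τ => by
  rw [← h τ, ← h' fun i => Φ.toInf i γ • τ i]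
  exact congrArg (F t'') (funext fun i => by rw [map_mul, mul_smul])

theorem Trans.one (t : 𝔸ˣ) : Trans Φ F 1 t t := fun τ =>
  congrArg (F t) (funext fun i => by rw [map_one, one_smul])

/-- The last step: a carrying element of determinant one with trivial centre is of `gamma` type. -/
theorem trans_of_carries_one (hn : n ≠ 0) (h : GlueHyp Φ n F) {γ : GL (Fin 2) K} {t t' : 𝔸ˣ}
    (hdet : GeneralLinearGroup.det γ = 1) (hc : Carries n γ t t' 1) : Trans Φ F γ t t' := by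
  rw [Carries, map_one, mul_one] at hc
  obtain ⟨u, hu, e⟩ : ∃ u ∈ levelF K n, diag2 t' 1 * u = toGf K γ * diag2 t 1 :=
    ⟨_, hc, mul_inv_cancel_left _ _⟩
  set g := (u : Matrix (Fin 2) (Fin 2) 𝔸) with hg
  obtain ⟨hu1, g01, g10, g11⟩ := mem_levelF.mp hu
  have gi := (matMemMul_one _).mp (mem_principalLevel_one.mp hu1).1
  rw [← hg] at g01 g10 g11 gi
  have e' := congrArg (fun A : GfK K => (A : Matrix (Fin 2) (Fin 2) 𝔸)) e
  have e00 := congrFun (congrFun e' 0) 0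
  have e01 := congrFun (congrFun e' 0) 1
  have e10 := congrFun (congrFun e' 1) 0
  have e11 := congrFun (congrFun e' 1) 1
  simp [Matrix.mul_apply, Fin.sum_univ_two, toGf_apply, ← hg] at e00 e01 e10 e11
  -- `t = t' D`, `D` the determinant of `u`
  set D : 𝔸ˣ := GeneralLinearGroup.det u with hD
  have hDu : IsUnitIdele D := isUnitIdele_det hu1
  have htt : t = t' * D := by
    have := congrArg GeneralLinearGroup.det e
    simp only [map_mul, det_diag2, det_toGf, hdet, mul_one, map_one, one_mul] at this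
    exact this.symm
  have hDi : ((D⁻¹ : 𝔸ˣ) : 𝔸) ∈ intAdele (𝓞 K) K := fun v => (hDu.inv v).le
  have hDval : (D : 𝔸) = g 0 0 * g 1 1 - g 0 1 * g 1 0 := by
    rw [hD, GeneralLinearGroup.val_det_apply, ← hg, det_fin_two]
  have hinv : ((t⁻¹ : 𝔸ˣ) : 𝔸) * (t' : 𝔸) = ((D⁻¹ : 𝔸ˣ) : 𝔸) := by
    rw [htt, ← Units.val_mul]; congr 1; group
  have hTT : ((t⁻¹ : 𝔸ˣ) : 𝔸) * (t : 𝔸) = 1 := t.inv_mul
  have hDD : ((D⁻¹ : 𝔸ˣ) : 𝔸) * (D : 𝔸) = 1 := D.inv_mul
  have a00 : algebraMap K 𝔸 ((γ : Matrix (Fin 2) (Fin 2) K) 0 0) =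
      ((D⁻¹ : 𝔸ˣ) : 𝔸) * g 0 0 := by
    rw [← hinv]
    linear_combination (-(algebraMap K 𝔸 ((γ : Matrix (Fin 2) (Fin 2) K) 0 0))) * hTT -
      ((t⁻¹ : 𝔸ˣ) : 𝔸) * e00
  obtain ⟨a, ha⟩ := exists_int_of_adele (x := (γ : Matrix (Fin 2) (Fin 2) K) 0 0)
    (by rw [a00]; exact mul_mem hDi (gi 0 0))
  obtain ⟨d, hd⟩ := exists_int_of_adele (x := (γ : Matrix (Fin 2) (Fin 2) K) 1 1)
    (by rw [← e11]; exact gi 1 1)
  have hγ : (γ : Matrix (Fin 2) (Fin 2) K) = !![(a : K), (γ : Matrix (Fin 2) (Fin 2) K) 0 1;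
      (γ : Matrix (Fin 2) (Fin 2) K) 1 0, (d : K)] := by
    rw [ha, hd]; exact Matrix.eta_fin_two _
  have hdet' : (a : K) * d - (γ : Matrix (Fin 2) (Fin 2) K) 0 1 *
      (γ : Matrix (Fin 2) (Fin 2) K) 1 0 = 1 := by
    rw [ha, hd, ← det_fin_two, ← GeneralLinearGroup.val_det_apply, hdet, Units.val_one]
  have hb : MemMul n (((t⁻¹ : 𝔸ˣ) : 𝔸) * algebraMap K 𝔸 ((γ : Matrix (Fin 2) (Fin 2) K) 0 1)) := by
    rw [← e01, ← mul_assoc, hinv]
    exact g01.int_mul hDi
  have hc' : MemMul n ((t : 𝔸) * algebraMap K 𝔸 ((γ : Matrix (Fin 2) (Fin 2) K) 1 0)) := by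
    rw [mul_comm, ← e10]; exact g10
  have ha1 : n ∣ a - 1 := dvd_of_memMul hn (by
    have e1 : algebraMap (𝓞 K) 𝔸 (a - 1) =
        ((D⁻¹ : 𝔸ˣ) : 𝔸) * (g 0 0 * -(g 1 1 - 1) + g 0 1 * g 1 0) := by
      rw [map_sub, map_one, ← algebraMap_coe, ha, a00]
      linear_combination hDD - ((D⁻¹ : 𝔸ˣ) : 𝔸) * hDval
    rw [e1]
    exact ((g11.neg.int_mul (gi 0 0)).add (g01.mul_int (gi 1 0))).int_mul hDi)
  have hd1 : n ∣ d - 1 := dvd_of_memMul hn (by
    rw [map_sub, map_one, ← algebraMap_coe, hd, ← e11]; exact g11)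
  intro τ
  rw [h.ideal_congr t' t (by rw [htt, idI_mul, idI_unitIdele hDu, mul_one])]
  exact h.gamma t τ γ a d _ _ hγ hdet' ha1 hd1 ((mem_span_mul_idI hn _ _).mpr hb)
    ((mem_span_mul_inv_idI hn _ _).mpr hc')

/-- Every `diag(t, 1) w` can be carried to some `diag(t', 1)` with invariance. -/
def Moves (Φ : Frame K ι) (n : 𝓞 K) (F : 𝔸ˣ → (ι → HSpace) → ℂ) (w : 𝔸ˣ) : Prop :=
  ∀ t : 𝔸ˣ, ∃ t' γ, GeneralLinearGroup.det γ = 1 ∧ Carries n γ t t' w ∧ Trans Φ F γ t t'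

theorem Moves.mul {w w' : 𝔸ˣ} (h : Moves Φ n F w) (h' : Moves Φ n F w') :
    Moves Φ n F (w' * w) := by
  intro t
  obtain ⟨t', γ, hγ, hc, ht⟩ := h t
  obtain ⟨t'', δ, hδ, hc', ht'⟩ := h' t'
  exact ⟨t'', δ * γ, by rw [map_mul, hδ, hγ, one_mul], hc.mul hc', ht.mul ht'⟩

theorem moves_unit {w : 𝔸ˣ} (hu : IsUnitIdele w) (hw : MemMul n ((w : 𝔸) - 1)) :
    Moves Φ n F w := fun t =>
  ⟨t, 1, map_one _, by rw [Carries, map_one, one_mul, inv_mul_cancel_left]
                       exact scalar_mem_levelF n hu hw, Trans.one t⟩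

/-- The step at a place prime to `n`. -/
theorem moves_uniformiser (hn : n ≠ 0) (h : GlueHyp Φ n F) {v : HeightOneSpectrum (𝓞 K)}
    {ϖ : 𝔸ˣ} (hϖ : IsUniformiserAt v ϖ) (hv : n ∉ v.asIdeal) : Moves Φ n F ϖ := by
  intro t
  obtain ⟨k, hk, hk0⟩ := Submodule.exists_mem_ne_zero_of_ne_bot v.ne_bot
  have hn' : (n : K) ≠ 0 := by exact_mod_cast hn
  set N : 𝔸ˣ := principalIdele (Units.mk0 (n : K) hn') with hN
  obtain ⟨β, hβ⟩ := exists_near_idele (N * (t * ϖ)) hk0
  obtain ⟨c₁, hc₁⟩ := exists_near_idele (N * (t * ϖ)⁻¹) hk0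
  obtain ⟨y, i, hi, hy⟩ := Ideal.IsMaximal.exists_inv v.isMaximal
    (show n * n ∉ v.asIdeal from fun hm => (v.isPrime.mem_or_mem hm).elim hv hv)
  set r : 𝓞 K := -y with hr
  set e := (((N * (t * ϖ))⁻¹ : 𝔸ˣ) : 𝔸) * algebraMap K 𝔸 (β : K) with he
  set e' := (((N * (t * ϖ)⁻¹)⁻¹ : 𝔸ˣ) : 𝔸) * algebraMap K 𝔸 (c₁ : K) with he'
  have hei : e ∈ intAdele (𝓞 K) K := by simpa using add_mem hβ.mem_intAdele (one_mem _)
  have hei' : e' ∈ intAdele (𝓞 K) K := by simpa using add_mem hc₁.mem_intAdele (one_mem _)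
  set N₀ := algebraMap (𝓞 K) 𝔸 n with hN₀
  have hNval : (N : 𝔸) = N₀ := by rw [hN, coe_principalIdele, Units.val_mk0, algebraMap_coe]
  have hβe : ((( t * ϖ)⁻¹ : 𝔸ˣ) : 𝔸) * algebraMap K 𝔸 (β : K) = N₀ * e := by
    rw [he, ← hNval, ← mul_assoc, ← Units.val_mul, show N * (N * (t * ϖ))⁻¹ = (t * ϖ)⁻¹ by rw [mul_inv, mul_inv_cancel_left]]
  have hce : ((t * ϖ : 𝔸ˣ) : 𝔸) * algebraMap K 𝔸 (c₁ : K) = N₀ * e' := by
    rw [he', ← hNval, ← mul_assoc, ← Units.val_mul, show N * (N * (t * ϖ)⁻¹)⁻¹ = t * ϖ by rw [mul_inv, inv_inv, mul_inv_cancel_left]]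
  set c : K := (r : K) * (c₁ : K) with hc
  have hce' : ((t * ϖ : 𝔸ˣ) : 𝔸) * algebraMap K 𝔸 c = N₀ * (algebraMap (𝓞 K) 𝔸 r * e') := by
    rw [hc, map_mul, algebraMap_coe]
    linear_combination algebraMap (𝓞 K) 𝔸 r * hce
  clear_value c e e'
  have hbn : MemMul n (((( t * ϖ)⁻¹ : 𝔸ˣ) : 𝔸) * algebraMap K 𝔸 (β : K)) := by
    rw [hβe]; exact (memMul_algebraMap n).mul_int hei
  have hcn : MemMul n (((t * ϖ : 𝔸ˣ) : 𝔸) * algebraMap K 𝔸 c) := by
    rw [hce']; exact (memMul_algebraMap n).mul_int (mul_mem (algebraMap_mem_intAdele r) hei')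
  -- `1 + β c` lies in `v`
  have h1c : ((ϖ⁻¹ : 𝔸ˣ) : 𝔸) * algebraMap K 𝔸 (1 + (β : K) * c) ∈ intAdele (𝓞 K) K := by
    have hu : (((t * ϖ)⁻¹ : 𝔸ˣ) : 𝔸) * ((t * ϖ : 𝔸ˣ) : 𝔸) = 1 := Units.inv_mul _
    have e1 : algebraMap K 𝔸 (1 + (β : K) * c) = algebraMap (𝓞 K) 𝔸 i +
        algebraMap (𝓞 K) 𝔸 (r * (n * n)) * ((e - 1) * e' + (e' - 1)) := by
      have e2 : algebraMap (𝓞 K) 𝔸 i = 1 + algebraMap (𝓞 K) 𝔸 (r * (n * n)) := by
        rw [← map_one (algebraMap (𝓞 K) 𝔸), ← map_add, hr]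
        congr 1; linear_combination hy
      simp only [e2, map_add, map_one, map_mul, ← hN₀]
      linear_combination (-(algebraMap K 𝔸 (β : K) * algebraMap K 𝔸 c)) * hu +
        ((t * ϖ : 𝔸ˣ) : 𝔸) * algebraMap K 𝔸 c * hβe + N₀ * e * hce'
    rw [mem_intAdele]
    intro w
    rw [valued_inv_mul_le_iff, one_mul]
    have hint : ∀ x : 𝔸, x ∈ intAdele (𝓞 K) K → Valued.v (x w) ≤ 1 := fun x hx => hx w
    by_cases hw : w = v
    · subst hw
      rw [hϖ.1, e1, coe_apply_add]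
      have hkv : w.intValuation k ≤ exp (-1 : ℤ) := by
        have := (w.intValuation_le_pow_iff_mem k 1).mpr (by rwa [pow_one])
        simpa using this
      have hiv : w.intValuation i ≤ exp (-1 : ℤ) := by
        have := (w.intValuation_le_pow_iff_mem i 1).mpr (by rwa [pow_one])
        simpa using this
      refine (Valuation.map_add _ _ _).trans (max_le ?_ ?_)
      · exact (valued_algebraMap_int (K := K) i w).trans_le hiv
      · exact (((hβ.mul_int hei').add hc₁).int_mul (algebraMap_mem_intAdele _) w).trans hkv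
    · rw [hϖ.2 w hw, map_one, e1]
      exact hint _ (add_mem (algebraMap_mem_intAdele i) (mul_mem (algebraMap_mem_intAdele _)
        (add_mem (mul_mem (sub_mem hei (one_mem _)) hei') (sub_mem hei' (one_mem _)))))
  set γ : GL (Fin 2) K := unipotent (β : K) * Adelic.lowerUnipotent c with hγdef
  have hγ : (γ : Matrix (Fin 2) (Fin 2) K) = !![1 + (β : K) * c, (β : K); c, 1] := by
    rw [hγdef, Units.val_mul, coe_unipotent, coe_lowerUnipotent, Matrix.mul_fin_two]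
    simp
  have hγdet : GeneralLinearGroup.det γ = 1 := Units.ext (by
    rw [GeneralLinearGroup.val_det_apply, hγdef, Units.val_mul, det_mul, det_unipotent,
      det_lowerUnipotent, one_mul, Units.val_one])
  refine ⟨t * ϖ ^ 2, γ, hγdet, ?_, fun τ => ?_⟩
  · rw [Carries]
    refine mem_levelF_of_det_one n ?_ ?_ ?_ ?_ ?_
    · simp only [map_mul, map_inv, det_diag2, det_scalarHom, det_toGf, hγdet, map_one, mul_one,
        one_mul]
      group
    all_goals rw [diag2_inv, Units.val_mul, Units.val_mul, Units.val_mul, coe_scalarHom]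
    all_goals simp [Matrix.mul_apply, Fin.sum_univ_two, toGf_apply, hγ]
    · convert! h1c using 1
      simp only [map_add, map_one, map_mul]
      have hu : ((t⁻¹ : 𝔸ˣ) : 𝔸) * (t : 𝔸) = 1 := t.inv_mul
      have hp : ((ϖ⁻¹ : 𝔸ˣ) : 𝔸) * (ϖ : 𝔸) = 1 := ϖ.inv_mul
      linear_combination ((1 + algebraMap K 𝔸 (β : K) * algebraMap K 𝔸 c) * ((ϖ⁻¹ : 𝔸ˣ) : 𝔸) *
        ((ϖ⁻¹ : 𝔸ˣ) : 𝔸) * (ϖ : 𝔸)) * hu +
        (1 + algebraMap K 𝔸 (β : K) * algebraMap K 𝔸 c) * ((ϖ⁻¹ : 𝔸ˣ) : 𝔸) * hp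
    · convert! hbn using 1
      have hp : ((ϖ⁻¹ : 𝔸ˣ) : 𝔸) * (ϖ : 𝔸) = 1 := ϖ.inv_mul
      simp only [_root_.mul_inv_rev, Units.val_mul]
      linear_combination (((t⁻¹ : 𝔸ˣ) : 𝔸) * ((ϖ⁻¹ : 𝔸ˣ) : 𝔸) * algebraMap K 𝔸 (β : K)) * hp
    · convert! hcn using 1
      rw [Units.val_mul]; ring
    · exact memMul_uniformiser_sub_one hϖ hv
  · refine h.step t (t * ϖ ^ 2) τ v γ (β : K) c hv ?_ ?_ ?_ ?_ ?_ hγ
    · rw [idI_mul, pow_two, idI_mul, idI_uniformiser hϖ, pow_two]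
    · rw [← idI_uniformiser hϖ, mul_assoc, ← idI_mul, mem_span_mul_idI hn]; exact hbn
    · rw [mem_span_mul_idI hn]
      intro hm
      have h1 := hm v
      rw [show (t * ϖ ^ 2)⁻¹ = ϖ⁻¹ * (t * ϖ)⁻¹ by rw [pow_two]; group, Units.val_mul, mul_assoc,
        hβe, intValuation_eq_one_of_not_mem hv, valued_inv_mul_le_iff, one_mul, hϖ.1, coe_apply_mul,
        map_mul, hN₀] at h1
      erw [valued_algebraMap_int] at h1
      rw [intValuation_eq_one_of_not_mem hv, one_mul] at h1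
      have h2 : Valued.v ((e - 1) v) < 1 := lt_of_le_of_lt (hβ v)
        ((v.intValuation_lt_one_iff_mem k).mpr hk)
      rw [coe_apply_sub, coe_apply_one] at h2
      have h3 : Valued.v (e v) = 1 := by
        have := Valuation.map_one_add_of_lt Valued.v h2
        rwa [add_sub_cancel] at this
      rw [h3, ← exp_zero, exp_le_exp] at h1
      omega
    · rw [← idI_uniformiser hϖ, ← idI_mul, mem_span_mul_inv_idI hn]; exact hcn
    · rw [← idI_uniformiser hϖ, mem_idI_iff]; exact h1c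

theorem ordAt_uniformiser_pow {v : HeightOneSpectrum (𝓞 K)} {ϖ : 𝔸ˣ}
    (h : IsUniformiserAt v ϖ) (m : ℕ) :
    ordAt (ϖ ^ m) v = m ∧ ∀ w ≠ v, ((ϖ ^ m : 𝔸ˣ) : 𝔸) w = 1 := by
  induction m with
  | zero =>
    refine ⟨?_, fun w _ => by rw [pow_zero, Units.val_one, coe_apply_one]⟩
    rw [pow_zero, ordAt, Units.val_one, coe_apply_one, map_one, log_one]; simp
  | succ m ih =>
    refine ⟨?_, fun w hw => ?_⟩
    · rw [pow_succ, ordAt_mul, ih.1, ordAt_uniformiser_self h]; push_cast; ring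
    · rw [pow_succ, Units.val_mul, coe_apply_mul, ih.2 w hw, h.2 w hw, one_mul]

/-- An integral idele congruent to one modulo `n` moves. -/
theorem moves_integral (hn : n ≠ 0) (h : GlueHyp Φ n F) {w : 𝔸ˣ}
    (hw : MemMul n ((w : 𝔸) - 1)) : Moves Φ n F w := by
  classical
  have hfin : {v | ordAt w v ≠ 0}.Finite := Filter.eventually_cofinite.mp (ordAt_eventually_zero w)
  suffices key : ∀ (S : Finset (HeightOneSpectrum (𝓞 K))) (w : 𝔸ˣ),
      (∀ v, v ∉ S → ordAt w v = 0) → MemMul n ((w : 𝔸) - 1) → Moves Φ n F w from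
    key hfin.toFinset w (fun v hv => by simpa using hv) hw
  intro S
  induction S using Finset.induction_on with
  | empty =>
    intro w hS hw
    refine moves_unit (fun v => ?_) hw
    rw [valued_eq_exp_ordAt, hS v (Finset.notMem_empty v), neg_zero, exp_zero]
  | insert v S hvS ih =>
    intro w hS hw
    have hint : (w : 𝔸) ∈ intAdele (𝓞 K) K := by simpa using add_mem hw.mem_intAdele (one_mem _)
    by_cases hv : n ∈ v.asIdeal
    · refine ih w (fun u hu => ?_) hw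
      by_cases huv : u = v
      · subst huv
        have h1 : Valued.v (((w : 𝔸) - 1) u) < 1 :=
          lt_of_le_of_lt (hw u) ((u.intValuation_lt_one_iff_mem n).mpr hv)
        rw [coe_apply_sub, coe_apply_one] at h1
        have h2 := Valuation.map_one_add_of_lt Valued.v h1
        rw [add_sub_cancel] at h2
        rw [ordAt, h2, log_one, neg_zero]
      · exact hS u (by simp [huv, hu])
    · obtain ⟨ϖ, hϖ⟩ := exists_uniformiserAt v
      obtain ⟨m, hm⟩ := Int.eq_ofNat_of_zero_le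
        ((valued_le_one_iff_ordAt w v).mp (mem_intAdele.mp hint v))
      obtain ⟨hord, hone⟩ := ordAt_uniformiser_pow hϖ m
      have hP : Moves Φ n F (ϖ ^ m) := by
        clear hm hord hone
        induction m with
        | zero =>
          rw [pow_zero]
          refine moves_unit (fun u => by rw [Units.val_one, coe_apply_one, map_one]) ?_
          rw [Units.val_one, sub_self]; exact memMul_zero_right n
        | succ m ihm => rw [pow_succ]; exact (moves_uniformiser hn h hϖ hv).mul ihm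
      rw [show w = ϖ ^ m * ((ϖ ^ m)⁻¹ * w) by group]
      have hval : ∀ u ≠ v, (((ϖ ^ m)⁻¹ * w : 𝔸ˣ) : 𝔸) u = (w : 𝔸) u := fun u hu => by
        rw [Units.val_mul, coe_apply_mul, idele_inv_apply, hone u hu, inv_one, one_mul]
      have hv0 : ordAt ((ϖ ^ m)⁻¹ * w) v = 0 := by
        have := ordAt_mul (ϖ ^ m) ((ϖ ^ m)⁻¹ * w) v
        rw [mul_inv_cancel_left, hord, hm] at this
        omega
      refine (ih _ (fun u hu => ?_) fun u => ?_).mul hP
      · by_cases huv : u = v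
        · subst huv; exact hv0
        · rw [ordAt, hval u huv]; exact hS u (by simp [huv, hu])
      · rw [coe_apply_sub, coe_apply_one]
        by_cases huv : u = v
        · subst huv
          rw [intValuation_eq_one_of_not_mem hv]
          refine (Valuation.map_sub _ _ _).trans (max_le ?_ (map_one _).le)
          rw [valued_le_one_iff_ordAt, hv0]
        · rw [hval u huv]; exact hw u

/-- **Well-definedness.** -/
theorem trans_of_carries (hn : n ≠ 0) (h : GlueHyp Φ n F) {γ : GL (Fin 2) K} {t t' w : 𝔸ˣ}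
    (hc : Carries n γ t t' w) : Trans Φ F γ t t' := by
  -- rescale by a scalar to make `w` integral and congruent to one
  obtain ⟨x, hx⟩ := exists_near_idele w⁻¹ hn
  rw [inv_inv, ← coe_principalIdele, ← Units.val_mul] at hx
  set γ₂ := diag2 x⁻¹ x⁻¹ * γ with hγ₂
  have hc₂ : Carries n γ₂ t t' (w * principalIdele x) := by
    rw [Carries] at hc ⊢
    convert! hc using 1
    rw [hγ₂, map_mul (toGf K), toGf_scalar_eq, mul_assoc _ (toGf K γ), mul_assoc (scalarHom _ _ _),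
      scalar_comm, mul_assoc (toGf K γ * diag2 t 1), ← map_mul,
      show (principalIdele x⁻¹ : 𝔸ˣ) = (principalIdele x)⁻¹ from map_inv _ x, mul_inv_cancel_right]
  -- the determinant
  set δ := GeneralLinearGroup.det γ₂ with hδ
  set γ₃ := (diag2 δ 1)⁻¹ * γ₂ with hγ₃
  set t₃ := (principalIdele δ)⁻¹ * t' with ht₃
  have hdet₃ : GeneralLinearGroup.det γ₃ = 1 := by
    rw [hγ₃, map_mul, map_inv, det_diag2, mul_one, inv_mul_cancel]
  have hc₃ : Carries n γ₃ t t₃ (w * principalIdele x) := by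
    rw [Carries] at hc₂ ⊢
    convert! hc₂ using 1
    rw [hγ₃, ht₃, map_mul, map_inv, toGf_diag_left, diag2_mul_left, ← diag2_inv]
    group
  -- the moving
  obtain ⟨t'', γ₀, hdet₀, hc₀, ht₀⟩ := moves_integral hn h hx t
  have hc₄ := hc₀.inv.mul hc₃
  rw [mul_inv_cancel] at hc₄
  have ht₄ := trans_of_carries_one hn h (by rw [map_mul, map_inv, hdet₀, hdet₃, inv_one, mul_one]) hc₄
  have ht₃' := ht₀.mul ht₄
  rw [inv_mul_cancel_right] at ht₃'
  intro τ
  have e := h.diag δ t₃ fun i => Φ.toInf i γ₃ • τ i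
  rw [ht₃, mul_inv_cancel_left, ← ht₃, ht₃' τ] at e
  rw [← e]
  refine congrArg (F t') (funext fun i => ?_)
  rw [← mul_smul, ← map_mul, hγ₃, mul_inv_cancel_left, hγ₂, map_mul, mul_smul]
  have hs : ∀ p : HSpace, Φ.toInf i (diag2 x⁻¹ x⁻¹) • p = p := fun p => by
    have : Φ.toInf i (diag2 x⁻¹ x⁻¹) = diag2 (Units.map (Φ.emb i).toMonoidHom x⁻¹)
        (Units.map (Φ.emb i).toMonoidHom x⁻¹) := by
      refine GL.ext_fin_two ?_
      ext a b; fin_cases a <;> fin_cases b <;> simp [Frame.toInf]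
    rw [this, HSpace.smul_diag2_self]
  rw [hs]

theorem exists_carries {γ : GL (Fin 2) K} {t t' : 𝔸ˣ}
    (e : toGf K γ • yPt n t = yPt n t') : ∃ w, Carries n γ t t' w := by
  have e1 : ((toGf K γ * diag2 t 1 : GfK K) : Yf (levelF K n)) =
      ((diag2 t' 1 : GfK K) : Yf (levelF K n)) := e
  obtain ⟨u, hu, z, ⟨c, rfl⟩, hz⟩ := mem_levelZ.mp (QuotientGroup.eq.mp e1.symm)
  refine ⟨c⁻¹, ?_⟩
  rw [Carries, ← mul_assoc, ← hz, map_inv, mul_inv_cancel_right]
  exact hu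

end Glue

/-- The points `diag(t, 1)` meet every orbit on the finite coordinate. -/
theorem exists_eq_smul_yPt (hn : n ≠ 0) (y : Yf (levelF K n)) :
    ∃ (γ : GL (Fin 2) K) (t : 𝔸ˣ), y = toGf K γ • yPt n t := by
  induction y using QuotientGroup.induction_on with
  | _ g =>
    obtain ⟨γ, -, u, hu, hg⟩ := exists_eq_mul_diag hn (principalLevel_le_levelF n) g
      (GeneralLinearGroup.det g) (GeneralLinearGroup.val_det_apply g).symm
    refine ⟨γ, GeneralLinearGroup.det g, QuotientGroup.eq.mpr (le_levelZ _ ?_)⟩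
    rw [← inv_mem_iff, _root_.mul_inv_rev, inv_inv]
    convert! hu using 1
    rw [show toGf K γ = (toGfR γ : GfK K) from rfl]
    simp only [smul_eq_mul]
    generalize GeneralLinearGroup.det g = t0 at hg ⊢
    subst hg
    group

/-- **The glue.** -/
theorem exists_invariant_of_glueHyp (hn : n ≠ 0)
    {F : (FiniteAdeleRing (𝓞 K) K)ˣ → (ι → HSpace) → ℂ} (h : GlueHyp Φ n F) :
    ∃ φ : Space Φ (levelF K n) → ℂ, IsInvariant φ ∧
      ∀ t τ, φ (Space.mk τ (yPt n t)) = F t τ := by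
  choose γy ty hy using exists_eq_smul_yPt (K := K) hn
  -- comparison of two representations
  have cmp : ∀ {γ γ' : GL (Fin 2) K} {t t' : 𝔸ˣ}, toGf K γ • yPt n t = toGf K γ' • yPt n t' →
      ∀ τ : ι → HSpace, F t (fun i => Φ.toInf i γ⁻¹ • τ i) = F t' (fun i => Φ.toInf i γ'⁻¹ • τ i) := by
    intro γ γ' t t' e τ
    have e' : toGf K (γ'⁻¹ * γ) • yPt n t = yPt n t' := by
      rw [map_mul, mul_smul, e, map_inv, inv_smul_smul]
    obtain ⟨w, hw⟩ := Glue.exists_carries e'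
    rw [← Glue.trans_of_carries hn h hw fun i => Φ.toInf i γ⁻¹ • τ i]
    refine congrArg (F t') (funext fun i => ?_)
    rw [← mul_smul, ← map_mul, mul_inv_cancel_right]
  refine ⟨fun x => F (ty x.fin) fun i => Φ.toInf i (γy x.fin)⁻¹ • x.pt i, fun δ x => ?_,
    fun t τ => ?_⟩
  · show F (ty (toGf K δ • x.fin))
        (fun i => Φ.toInf i (γy (toGf K δ • x.fin))⁻¹ • (Φ.toInf i δ • x.pt i)) = _
    rw [cmp (γ' := δ * γy x.fin) (t' := ty x.fin)
      (by rw [← hy, map_mul, mul_smul, ← hy]) fun i => Φ.toInf i δ • x.pt i]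
    refine congrArg (F _) (funext fun i => ?_)
    rw [← mul_smul, ← map_mul, _root_.mul_inv_rev, inv_mul_cancel_right]
  · show F (ty (yPt n t)) (fun i => Φ.toInf i (γy (yPt n t))⁻¹ • τ i) = F t τ
    rw [cmp (γ' := 1) (t' := t) (by rw [← hy, map_one, one_smul]) τ]
    exact congrArg (F t) (funext fun i => by rw [inv_one, map_one, one_smul])

end Fermat.Agent.LT.Dihedral

end
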