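import Fermat.Agent.LT.Dihedral.RelSys
import Mathlib.RingTheory.Ideal.Quotient.HasFiniteQuotients

/-!
# Coset representatives and indicator functions of cosets of fractional ideals
-/

set_option autoImplicit false
set_option maxHeartbeats 400000

noncomputable section

namespace Fermat.Agent.LT.Dihedral

open NumberField
open scoped nonZeroDivisors

variable {K M : Type*} [Field K] [NumberField K] [Field M] [NumberField M] [Algebra K M]

/-- A finite complete set of representatives of `P / Q`. -/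
def IsReps (P Q : FractionalIdeal (𝓞 M)⁰ M) (S : Finset M) : Prop :=
  (∀ u ∈ S, u ∈ P) ∧ ∀ x ∈ P, ∃! u, u ∈ S ∧ x - u ∈ Q

theorem exists_reps (P : FractionalIdeal (𝓞 M)⁰ M) {Q : FractionalIdeal (𝓞 M)⁰ M} (hQ : Q ≠ 0) :
    ∃ S : Finset M, IsReps P Q S := by
  classical
  obtain ⟨a, ha, hfrac⟩ := P.isFractional
  have ha0 : (a : M) ≠ 0 := by exact_mod_cast nonZeroDivisors.ne_zero ha
  let J : Ideal (𝓞 M) :=
    { carrier := {r | (r : M) / (a : M) ∈ Q}
      zero_mem' := by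
        show ((0 : 𝓞 M) : M) / (a : M) ∈ Q
        push_cast [zero_div]
        exact Submodule.zero_mem (Q : Submodule (𝓞 M) M)
      add_mem' := fun {r s} hr hs => by
        show ((r + s : 𝓞 M) : M) / (a : M) ∈ Q
        push_cast [add_div]
        exact Submodule.add_mem (Q : Submodule (𝓞 M) M) hr hs
      smul_mem' := fun t r hr => by
        show ((t • r : 𝓞 M) : M) / (a : M) ∈ Q
        rw [smul_eq_mul]; push_cast [mul_div_assoc]
        exact Submodule.smul_mem (Q : Submodule (𝓞 M) M) t hr }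
  have hJ : J ≠ ⊥ := by
    obtain ⟨q, hq, hq0⟩ : ∃ q ∈ Q, q ≠ 0 := by
      simpa [ne_eq, FractionalIdeal.eq_zero_iff] using hQ
    obtain ⟨p, w, hw, rfl⟩ := IsFractionRing.div_surjective (A := 𝓞 M) q
    have hw0 : (w : M) ≠ 0 := by exact_mod_cast nonZeroDivisors.ne_zero hw
    have hp : p ≠ 0 := by rintro rfl; simp at hq0
    refine fun h => mul_ne_zero (nonZeroDivisors.ne_zero ha) hp ((Submodule.eq_bot_iff J).mp h _ ?_)
    show ((a * p : 𝓞 M) : M) / (a : M) ∈ Q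
    have hwq := Submodule.smul_mem (Q : Submodule (𝓞 M) M) w hq
    rw [Algebra.smul_def, mul_div_cancel₀ _ hw0] at hwq
    push_cast
    rwa [mul_div_cancel_left₀ _ ha0]
  haveI : Finite (𝓞 M ⧸ J) := Ring.HasFiniteQuotients.finiteQuotient hJ
  letI := Fintype.ofFinite (𝓞 M ⧸ J)
  have hint : ∀ x ∈ P, ∃ r : 𝓞 M, (r : M) = (a : M) * x := fun x hx => by
    obtain ⟨r, hr⟩ := hfrac x hx
    exact ⟨r, hr.trans (Algebra.smul_def _ _)⟩
  choose r hr using hint
  let cls : {x : M // x ∈ P} → 𝓞 M ⧸ J := fun x => Ideal.Quotient.mk J (r x.1 x.2)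
  have hcls : ∀ x y : {x : M // x ∈ P}, cls x = cls y ↔ x.1 - y.1 ∈ Q := fun x y => by
    show Ideal.Quotient.mk J _ = Ideal.Quotient.mk J _ ↔ _
    rw [Ideal.Quotient.mk_eq_mk_iff_sub_mem]
    show ((r x.1 x.2 - r y.1 y.2 : 𝓞 M) : M) / (a : M) ∈ Q ↔ _
    push_cast
    simp only [hr]
    rw [← mul_sub, mul_div_cancel_left₀ _ ha0]
  haveI : Nonempty {x : M // x ∈ P} := ⟨⟨0, Submodule.zero_mem (P : Submodule (𝓞 M) M)⟩⟩
  refine ⟨((Finset.univ : Finset (𝓞 M ⧸ J)).filter (· ∈ Set.range cls)).image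
    fun q => (Function.invFun cls q).1, fun u hu => ?_, fun x hx => ?_⟩
  · obtain ⟨q, -, rfl⟩ := Finset.mem_image.mp hu
    exact (Function.invFun cls q).2
  · have hq : cls (Function.invFun cls (cls ⟨x, hx⟩)) = cls ⟨x, hx⟩ :=
      Function.invFun_eq ⟨_, rfl⟩
    refine ⟨(Function.invFun cls (cls ⟨x, hx⟩)).1, ⟨Finset.mem_image.mpr ⟨_, Finset.mem_filter.mpr
      ⟨Finset.mem_univ _, ⟨_, rfl⟩⟩, rfl⟩, (hcls ⟨x, hx⟩ _).mp hq.symm⟩, ?_⟩
    rintro u ⟨hu, hxu⟩
    obtain ⟨q, hqm, rfl⟩ := Finset.mem_image.mp hu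
    have he : cls (Function.invFun cls q) = q := Function.invFun_eq (Finset.mem_filter.mp hqm).2
    have h2 : cls ⟨x, hx⟩ = q := ((hcls ⟨x, hx⟩ (Function.invFun cls q)).mpr hxu).trans he
    rw [h2]

theorem smul_int_mem {P : FractionalIdeal (𝓞 M)⁰ M} {x : M} (hx : x ∈ P) (z : 𝓞 M) :
    (z : M) * x ∈ P :=
  Submodule.smul_mem (P : Submodule (𝓞 M) M) z hx

theorem intK_mem {P : FractionalIdeal (𝓞 M)⁰ M} {x : M} (hx : x ∈ P) (z : 𝓞 K) :
    algebraMap K M (z : K) * x ∈ P := by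
  have hi : IsIntegral ℤ (algebraMap K M (z : K)) := z.isIntegral_coe.algebraMap
  exact smul_int_mem hx ⟨_, hi⟩

theorem IsReps.eq_iff {P Q : FractionalIdeal (𝓞 M)⁰ M} {S : Finset M} (hS : IsReps P Q S)
    {u v : M} (hu : u ∈ S) (hv : v ∈ S) : u - v ∈ Q ↔ u = v := by
  refine ⟨fun h => ?_, fun h => by
    subst h; rw [sub_self]; exact Submodule.zero_mem (Q : Submodule (𝓞 M) M)⟩
  obtain ⟨w, -, hw⟩ := hS.2 u (hS.1 u hu)
  rw [hw u ⟨hu, by rw [sub_self]; exact Submodule.zero_mem (Q : Submodule (𝓞 M) M)⟩,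
    hw v ⟨hv, h⟩]

/-- A packet: the indicator of `h + P` times the character of `k`. -/
def pk (D : Quad K M) (ξ : K) (P : FractionalIdeal (𝓞 M)⁰ M) (h k : M) : M → ℂ :=
  Set.indicator {x | x - h ∈ P} fun x => psi (D.bil ξ x k)

/-- The Fourier transform of a packet, without constant. -/
def pkDual (D : Quad K M) (ξ : K) (P : FractionalIdeal (𝓞 M)⁰ M) (h k : M) : M → ℂ :=
  Set.indicator {y | y - k ∈ D.dualSet ξ P} fun y => psi (-(D.bil ξ h (y - k)))

/-- The indicator of `h + P`. -/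
def coset (P : FractionalIdeal (𝓞 M)⁰ M) (h : M) : M → ℂ :=
  Set.indicator {x | x - h ∈ P} fun _ => 1

theorem pk_zero (D : Quad K M) (ξ : K) (P : FractionalIdeal (𝓞 M)⁰ M) (h : M) :
    pk D ξ P h 0 = coset P h := by
  funext x
  rw [pk, coset]
  congr 1
  funext y
  simp [Quad.bil]

theorem norm_indicator_le {s : Set M} {f : M → ℂ} (hf : ∀ x, ‖f x‖ ≤ 1) (x : M) :
    ‖s.indicator f x‖ ≤ 1 := by
  classical
  rw [Set.indicator_apply]
  split
  · exact hf x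
  · simp

theorem adm_of_shift {f : M → ℂ} (hf : ∀ x, ‖f x‖ ≤ 1) {s : Set M} {e : 𝓞 M} (he : e ≠ 0)
    (hs : ∀ x ∈ s, ∃ b : 𝓞 M, (e : M) * x = (b : M)) (h : M) :
    Adm (Set.indicator {x | x - h ∈ s} f) := by
  obtain ⟨p, q, hq, rfl⟩ := IsFractionRing.div_surjective (A := 𝓞 M) h
  have hq0 : (q : M) ≠ 0 := by exact_mod_cast nonZeroDivisors.ne_zero hq
  refine ⟨⟨1, norm_indicator_le hf⟩, e * q, mul_ne_zero he (nonZeroDivisors.ne_zero hq),
    fun x hx => ?_⟩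
  have hmem : x - (p : M) / (q : M) ∈ s := by
    by_contra hn
    exact hx (Set.indicator_of_notMem (s := {x | x - (p : M) / (q : M) ∈ s}) hn f)
  obtain ⟨b, hb⟩ := hs _ hmem
  refine ⟨b * q + e * p, ?_⟩
  push_cast
  simp only [← hb]
  field_simp
  ring

theorem adm_pk (D : Quad K M) (ξ : K) (P : FractionalIdeal (𝓞 M)⁰ M) (h k : M) :
    Adm (pk D ξ P h k) := by
  obtain ⟨a, ha, hfrac⟩ := P.isFractional
  refine adm_of_shift (s := (P : Set M)) (fun x => (norm_psi _).le) (nonZeroDivisors.ne_zero ha)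
    (fun x hx => ?_) h
  obtain ⟨r, hr⟩ := hfrac x hx
  exact ⟨r, (hr.trans (Algebra.smul_def _ _)).symm⟩

theorem adm_coset (P : FractionalIdeal (𝓞 M)⁰ M) (h : M) : Adm (coset P h) := by
  obtain ⟨a, ha, hfrac⟩ := P.isFractional
  refine adm_of_shift (s := (P : Set M)) (fun x => norm_one.le) (nonZeroDivisors.ne_zero ha)
    (fun x hx => ?_) h
  obtain ⟨r, hr⟩ := hfrac x hx
  exact ⟨r, (hr.trans (Algebra.smul_def _ _)).symm⟩

theorem adm_pkDual (D : Quad K M) {ξ : K} (hξ : ξ ≠ 0) {P : FractionalIdeal (𝓞 M)⁰ M}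
    (hP : P ≠ 0) (h k : M) : Adm (pkDual D ξ P h k) := by
  obtain ⟨e, he, hden⟩ := D.exists_den_dualSet hξ hP
  exact adm_of_shift (s := D.dualSet ξ P) (fun x => (norm_psi _).le) he hden k

theorem RelSys.rel_pk {D : Quad K M} {ξ : K} (R : RelSys K M D ξ)
    {P : FractionalIdeal (𝓞 M)⁰ M} (hP : P ≠ 0) (h k : M) :
    R.rel Adelic.weyl (pk D ξ P h k)
      (fun y => R.kap / ((FractionalIdeal.absNorm P : ℚ) : ℂ) * pkDual D ξ P h k y) :=
  R.packet P hP h k

end Fermat.Agent.LT.Dihedral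

end
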