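import Fermat.Agent.LT.Dihedral.Norms
import Fermat.Agent.LT.Dihedral.Transform
import Mathlib.NumberTheory.LegendreSymbol.AddCharacter
import Mathlib.RingTheory.Ideal.Norm.RelNorm

/-!
# The Gauss sum of `ξ N` at a good prime equals the character times `q`
-/

set_option autoImplicit false
set_option maxHeartbeats 400000

noncomputable section

namespace Fermat.Agent.LT.Dihedral

open NumberField IsDedekindDomain
open scoped nonZeroDivisors

variable {K M : Type*} [Field K] [NumberField K] [Field M] [NumberField M] [Algebra K M]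

theorem exists_generator_coprime {I W : Ideal (𝓞 M)} (hI : I ≠ ⊥) (hW : W ≠ ⊥) :
    ∃ x ∈ I, ∃ J : Ideal (𝓞 M), Ideal.span {x} = I * J ∧ W ⊔ J = ⊤ := by
  obtain ⟨x, hx⟩ := IsDedekindDomain.exists_sup_span_eq (Ideal.mul_le_left (I := I) (J := W))
    (mul_ne_zero hI hW)
  have hxI : x ∈ I := hx ▸ Ideal.mem_sup_right (Ideal.mem_span_singleton_self x)
  obtain ⟨J, hJ⟩ := Ideal.dvd_iff_le.mpr ((I.span_singleton_le_iff_mem).mpr hxI)
  refine ⟨x, hxI, J, hJ, ?_⟩
  refine mul_left_cancel₀ (a := I) hI ?_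
  rw [Ideal.mul_sup, Ideal.mul_top, ← hJ]
  exact hx

variable (K) in
/-- The trace on integers. -/
abbrev tO (a : 𝓞 M) : 𝓞 K :=
  ⟨Algebra.trace K M (a : M), Algebra.isIntegral_trace a.isIntegral_coe⟩

namespace DihData

variable (D : DihData K M)

theorem sum_addChar_norm {v : HeightOneSpectrum (𝓞 K)} (hv : D.cond ∉ v.asIdeal)
    [Fintype (𝓞 M ⧸ extI K M v.asIdeal)] {φ : AddChar (𝓞 K ⧸ v.asIdeal) ℂ} (hφ : φ ≠ 1)
    (n : (𝓞 M ⧸ extI K M v.asIdeal) → 𝓞 K ⧸ v.asIdeal)
    (hn : ∀ a : 𝓞 M, n (Ideal.Quotient.mk _ a) = Ideal.Quotient.mk _ (nO K a)) :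
    ∑ a, φ (n a) = D.chi (extI K M v.asIdeal) * (Ideal.absNorm v.asIdeal : ℂ) := by
  classical
  haveI := v.isMaximal
  letI := Ideal.Quotient.field v.asIdeal
  haveI : Finite (𝓞 K ⧸ v.asIdeal) := Ring.HasFiniteQuotients.finiteQuotient v.ne_bot
  letI := Fintype.ofFinite (𝓞 K ⧸ v.asIdeal)
  set q := Fintype.card (𝓞 K ⧸ v.asIdeal) with hq
  set Z := (Finset.univ.filter fun a => n a = 0).card with hZ
  set G := ∑ a, φ (n a) with hG
  have hqabs : Ideal.absNorm v.asIdeal = q := by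
    rw [Ideal.absNorm_apply, Submodule.cardQuot_apply, Nat.card_eq_fintype_card]
  have hcard : Fintype.card (𝓞 M ⧸ (extI K M v.asIdeal)) = q ^ 2 := by
    have h := Ideal.absNorm_algebraMap (S := 𝓞 M) (R := 𝓞 K) (I := v.asIdeal)
    rw [Ideal.absNorm_apply, Submodule.cardQuot_apply,
      Nat.card_eq_fintype_card] at h
    rw [h, hqabs]
    congr 1
    rw [← D.finrank_two]
    exact (Algebra.IsAlgebraic.finrank_of_isFractionRing (𝓞 K) K (𝓞 M) M).symm
  have hq2 : 1 < q := Fintype.one_lt_card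
  have hstep : ∀ r : 𝓞 K ⧸ v.asIdeal, r ≠ 0 → ∑ a, φ (r * n a) = G := by
    intro r hr
    obtain ⟨d, rfl⟩ := Ideal.Quotient.mk_surjective r
    obtain ⟨x, hx⟩ := D.exists_norm_sub_mem_prime hv
      (fun h => hr (Ideal.Quotient.eq_zero_iff_mem.mpr h))
    have hxd := Ideal.Quotient.eq.mpr hx
    have hx0 : Function.Injective fun a : 𝓞 M ⧸ (extI K M v.asIdeal) => Ideal.Quotient.mk (extI K M v.asIdeal) x * a := by
      intro a b hab
      have hu : IsUnit (Ideal.Quotient.mk (extI K M v.asIdeal) x * Ideal.Quotient.mk (extI K M v.asIdeal) (D.toQuad.conjO x)) := by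
        rw [← map_mul, ← D.toQuad.algebraMap_nO]
        obtain ⟨s, i, hi, hsi⟩ := v.isMaximal.exists_inv
          (fun h => hr (hxd ▸ Ideal.Quotient.eq_zero_iff_mem.mpr h))
        refine IsUnit.of_mul_eq_one (Ideal.Quotient.mk (extI K M v.asIdeal) (algebraMap (𝓞 K) (𝓞 M) s)) ?_
        rw [← map_mul, ← map_mul, ← sub_eq_zero, ← map_one (Ideal.Quotient.mk (extI K M v.asIdeal)), ← map_sub,
          Ideal.Quotient.eq_zero_iff_mem, ← map_one (algebraMap (𝓞 K) (𝓞 M)), ← map_sub]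
        refine Ideal.mem_map_of_mem _ ?_
        rw [show nO K x * s - 1 = -i by linear_combination hsi]
        exact v.asIdeal.neg_mem hi
      exact (isUnit_of_mul_isUnit_left hu).mul_left_cancel hab
    rw [hG]
    refine Fintype.sum_bijective _ (Finite.injective_iff_bijective.mp hx0) _ _ fun a => ?_
    obtain ⟨a, rfl⟩ := Ideal.Quotient.mk_surjective a
    show φ _ = φ (n (Ideal.Quotient.mk (extI K M v.asIdeal) x * Ideal.Quotient.mk (extI K M v.asIdeal) a))
    rw [← map_mul, hn, hn, show nO K (x * a) = nO K x * nO K a from map_mul _ _ _, map_mul (Ideal.Quotient.mk v.asIdeal),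
      hxd]
  have htot : ∑ r, ∑ a, φ (r * n a) = ((q : ℂ) ^ 2) + ((q : ℂ) - 1) * G := by
    rw [← Finset.add_sum_erase _ _ (Finset.mem_univ (0 : 𝓞 K ⧸ v.asIdeal))]
    congr 1
    · simp [hcard]
    · rw [Finset.sum_congr rfl fun r hr => hstep r (Finset.ne_of_mem_erase hr), Finset.sum_const,
        Finset.card_erase_of_mem (Finset.mem_univ _), Finset.card_univ, ← hq, nsmul_eq_mul,
        Nat.cast_sub hq2.le, Nat.cast_one]
  have htot' : ∑ r, ∑ a, φ (r * n a) = (Z : ℂ) * q := by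
    rw [Finset.sum_comm, hZ, Finset.card_filter, Nat.cast_sum, Finset.sum_mul]
    refine Finset.sum_congr rfl fun a _ => ?_
    by_cases ha : n a = 0
    · simp [ha, hq]
    · rw [if_neg ha, Nat.cast_zero, zero_mul]
      let ψ : AddChar (𝓞 K ⧸ v.asIdeal) ℂ :=
        φ.compAddMonoidHom (AddMonoidHom.mulRight (n a))
      have hψ : ψ ≠ 1 := by
        intro h
        refine hφ (DFunLike.ext _ _ fun r => ?_)
        have := congrArg (fun χ : AddChar _ ℂ => χ (r * (n a)⁻¹)) h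
        simpa [ψ, ha] using this
      exact AddChar.sum_eq_zero_of_ne_one hψ
  have hkey : ∀ ε : ℂ, (Z : ℂ) = q + ε * (q - 1) → G = ε * q := by
    intro ε hε
    have hq1 : (q : ℂ) - 1 ≠ 0 := sub_ne_zero.mpr (by exact_mod_cast hq2.ne')
    refine mul_left_cancel₀ hq1 ?_
    rw [htot', hε] at htot
    linear_combination -htot
  rw [hqabs]
  rcases D.inert_or_split v hv with ⟨hprime, hchi, -⟩ | ⟨Q, hQ, hne, hfac, hchi⟩
  · rw [hchi]
    refine hkey _ ?_
    have : (Finset.univ.filter fun a => n a = 0) = {0} := by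
      ext a
      obtain ⟨a, rfl⟩ := Ideal.Quotient.mk_surjective a
      simp only [Finset.mem_filter, Finset.mem_univ, true_and, Finset.mem_singleton, hn,
        Ideal.Quotient.eq_zero_iff_mem]
      constructor
      · intro h
        have h' := Ideal.mem_map_of_mem (algebraMap (𝓞 K) (𝓞 M)) h
        rw [D.toQuad.algebraMap_nO] at h'
        rcases hprime.mem_or_mem h' with h'' | h''
        · exact h''
        · simpa using D.toQuad.conjO_mem_extI h''
      · intro h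
        refine mem_of_mem_extI (M := M) ?_
        rw [D.toQuad.algebraMap_nO]
        exact Ideal.mul_mem_right _ _ h
    rw [hZ, this, Finset.card_singleton]
    push_cast
    ring
  · rw [show D.chi (extI K M v.asIdeal) = 1 by rw [hfac, map_mul, hchi]]
    refine hkey _ ?_
    set Q' := D.toQuad.conjI Q with hQ'
    have hQ'p : Q'.IsPrime := Ideal.map_isPrime_of_equiv _
    have hle : (extI K M v.asIdeal) ≤ Q := hfac ▸ Ideal.mul_le_left (I := Q) (J := Q')
    have hle' : (extI K M v.asIdeal) ≤ Q' := hfac ▸ Ideal.mul_le_right (I := Q) (J := Q')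
    haveI hQmax := cover_isMaximal hQ hle
    haveI hQ'max := cover_isMaximal hQ'p hle'
    have hcop : IsCoprime Q Q' := Ideal.isCoprime_iff_sup_eq.mpr
      (hQmax.coprime_of_ne hQ'max (fun h => hne h.symm))
    let e : (𝓞 M ⧸ (extI K M v.asIdeal)) ≃+* (𝓞 M ⧸ Q) × (𝓞 M ⧸ Q') :=
      (Ideal.quotEquivOfEq (hfac.trans (Ideal.inf_eq_mul_of_isCoprime hcop).symm)).trans
        (Ideal.quotientInfEquivQuotientProd Q Q' hcop)
    have he : ∀ a : 𝓞 M, e (Ideal.Quotient.mk (extI K M v.asIdeal) a) =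
        (Ideal.Quotient.mk Q a, Ideal.Quotient.mk Q' a) := fun a => rfl
    haveI : Finite ((𝓞 M ⧸ Q) × (𝓞 M ⧸ Q')) := Finite.of_equiv _ e.toEquiv
    haveI : Finite (𝓞 M ⧸ Q) := Finite.of_surjective _ (Prod.fst_surjective (β := 𝓞 M ⧸ Q'))
    haveI : Finite (𝓞 M ⧸ Q') := Finite.of_surjective _ (Prod.snd_surjective (α := 𝓞 M ⧸ Q))
    letI := Fintype.ofFinite (𝓞 M ⧸ Q)
    letI := Fintype.ofFinite (𝓞 M ⧸ Q')
    have hcQ : Fintype.card (𝓞 M ⧸ Q) = Fintype.card (𝓞 M ⧸ Q') :=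
      Fintype.card_congr (Ideal.quotientEquiv Q Q' D.toQuad.conjO rfl).toEquiv
    have hcq : Fintype.card (𝓞 M ⧸ Q) = q := by
      have h2 := Fintype.card_congr e.toEquiv
      rw [Fintype.card_prod, hcard, ← hcQ, ← sq] at h2
      exact (Nat.pow_left_injective two_ne_zero h2).symm
    have hzero : ∀ a, n a = 0 ↔ (e a).1 = 0 ∨ (e a).2 = 0 := by
      intro a
      obtain ⟨a, rfl⟩ := Ideal.Quotient.mk_surjective a
      simp only [hn, he, Ideal.Quotient.eq_zero_iff_mem]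
      constructor
      · intro h
        have h' := hle (Ideal.mem_map_of_mem (algebraMap (𝓞 K) (𝓞 M)) h)
        rw [D.toQuad.algebraMap_nO] at h'
        rcases hQ.mem_or_mem h' with h'' | h''
        · exact Or.inl h''
        · exact Or.inr (by rw [hQ', Quad.mem_conjI]; exact h'')
      · intro h
        refine mem_of_mem_extI (M := M) ?_
        rw [D.toQuad.algebraMap_nO, hfac, ← Ideal.inf_eq_mul_of_isCoprime hcop]
        rcases h with h | h
        · exact ⟨Ideal.mul_mem_right _ _ h, Ideal.mul_mem_left _ _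
            (by rw [hQ', Quad.mem_conjI, Quad.conjO_conjO]; exact h)⟩
        · exact ⟨Ideal.mul_mem_left _ _ (by rwa [hQ', Quad.mem_conjI] at h),
            Ideal.mul_mem_right _ _ h⟩
    have hZ' : Z = (Finset.univ.filter fun p : (𝓞 M ⧸ Q) × (𝓞 M ⧸ Q') =>
        p.1 = 0 ∨ p.2 = 0).card := by
      rw [hZ]
      refine Finset.card_equiv e.toEquiv fun a => ?_
      simp only [Finset.mem_filter, Finset.mem_univ, true_and, hzero]
      rfl
    have hprod : (Finset.univ.filter fun p : (𝓞 M ⧸ Q) × (𝓞 M ⧸ Q') =>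
        ¬ (p.1 = 0 ∨ p.2 = 0)).card = (q - 1) * (q - 1) := by
      rw [show (Finset.univ.filter fun p : (𝓞 M ⧸ Q) × (𝓞 M ⧸ Q') => ¬ (p.1 = 0 ∨ p.2 = 0)) =
        (Finset.univ.erase 0) ×ˢ (Finset.univ.erase 0) by ext p; simp]
      rw [Finset.card_product, Finset.card_erase_of_mem (Finset.mem_univ _),
        Finset.card_erase_of_mem (Finset.mem_univ _), Finset.card_univ, Finset.card_univ, ← hcQ, hcq]
    have hsplit := Finset.card_filter_add_card_filter_not (s := (Finset.univ :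
      Finset ((𝓞 M ⧸ Q) × (𝓞 M ⧸ Q')))) (fun p => p.1 = 0 ∨ p.2 = 0)
    rw [hprod, ← hZ', Finset.card_univ, Fintype.card_prod, ← hcQ, hcq] at hsplit
    have : (Z : ℂ) + ((q : ℂ) - 1) * ((q : ℂ) - 1) = (q : ℂ) * q := by
      rw [← Nat.cast_one, ← Nat.cast_sub hq2.le, ← Nat.cast_mul, ← Nat.cast_mul, ← Nat.cast_add,
        hsplit]
    linear_combination this

variable {ξ β : K}

/-- **The Gauss sum of a step.** -/
theorem gaussSum_prime {v : HeightOneSpectrum (𝓞 K)} (hv : D.cond ∉ v.asIdeal)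
    {P' : FractionalIdeal (𝓞 M)⁰ M} (hP' : P' ≠ 0) {S : Finset M}
    (hS : IsReps P' ((extI K M v.asIdeal : FractionalIdeal (𝓞 M)⁰ M) * P') S)
    (hbil : ∀ u ∈ P', ∀ p ∈ (extI K M v.asIdeal : FractionalIdeal (𝓞 M)⁰ M) * P',
      psi (β * D.toQuad.bil ξ u p) = 1)
    (hnon : ∃ x ∈ P', ∃ y ∈ P', psi (β * D.toQuad.bil ξ x y) ≠ 1) :
    gaussSum ξ β S = D.chi (extI K M v.asIdeal) * (Ideal.absNorm v.asIdeal : ℂ) := by
  classical
  set w := extI K M v.asIdeal with hw
  have hw0 : w ≠ ⊥ := extI_ne_bot v.ne_bot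
  haveI : Finite (𝓞 M ⧸ w) := Ring.HasFiniteQuotients.finiteQuotient hw0
  letI := Fintype.ofFinite (𝓞 M ⧸ w)
  set W := (w : FractionalIdeal (𝓞 M)⁰ M) with hW
  have hWle : ∀ {p : M}, p ∈ W * P' → p ∈ P' := fun hp => by
    have : W * P' ≤ 1 * P' := mul_le_mul_left (FractionalIdeal.coeIdeal_le_one) _
    simpa using this hp
  obtain ⟨c, I, hc, hI⟩ := FractionalIdeal.exists_eq_spanSingleton_mul P'
  have hcM : (algebraMap (𝓞 M) M c) ≠ 0 := by simpa using hc
  have hI0 : I ≠ ⊥ := fun h => hP' (by rw [hI, h]; simp)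
  obtain ⟨x, hxI, J, hJ, hJw⟩ := exists_generator_coprime hI0 hw0
  set h₀ : M := (algebraMap (𝓞 M) M c)⁻¹ * (x : M) with hh₀
  have hmemP : ∀ y : 𝓞 M, y ∈ I → (algebraMap (𝓞 M) M c)⁻¹ * (y : M) ∈ P' := fun y hy => by
    rw [hI, FractionalIdeal.mem_singleton_mul]
    exact ⟨y, FractionalIdeal.mem_coeIdeal_of_mem _ hy, rfl⟩
  have hmemWP : ∀ y : 𝓞 M, y ∈ w * I → (algebraMap (𝓞 M) M c)⁻¹ * (y : M) ∈ W * P' := fun y hy => by
    rw [hI, mul_left_comm, ← FractionalIdeal.coeIdeal_mul, FractionalIdeal.mem_singleton_mul]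
    exact ⟨y, FractionalIdeal.mem_coeIdeal_of_mem _ hy, rfl⟩
  have hh₀P : h₀ ∈ P' := hmemP x hxI
  have hkill : ∀ a : 𝓞 M, (a : M) * h₀ ∈ W * P' → a ∈ w := by
    intro a ha
    rw [hI, mul_left_comm, ← FractionalIdeal.coeIdeal_mul, FractionalIdeal.mem_singleton_mul] at ha
    obtain ⟨z, hz, hz'⟩ := ha
    obtain ⟨z, hzm, rfl⟩ := (FractionalIdeal.mem_coeIdeal _).mp hz
    have hze : z = a * x := by
      apply RingOfIntegers.ext
      push_cast
      refine mul_left_cancel₀ (inv_ne_zero hcM) ?_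
      rw [← hz', hh₀]
      ring
    rw [hze] at hzm
    have h1 : Ideal.span {a} * J ≤ w := by
      refine le_of_mul_le_mul_left (a := I) ?_ (bot_lt_iff_ne_bot.mpr hI0) |> fun h => h
      rw [mul_left_comm, ← hJ, mul_comm I w, Ideal.span_singleton_mul_span_singleton,
        Ideal.span_singleton_le_iff_mem]
      exact hzm
    have h2 : Ideal.span {a} ≤ w := by
      calc Ideal.span {a} = Ideal.span {a} * (w ⊔ J) := by rw [hJw, Ideal.mul_top]
        _ = Ideal.span {a} * w ⊔ Ideal.span {a} * J := Ideal.mul_sup _ _ _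
        _ ≤ w := sup_le Ideal.mul_le_right h1
    exact h2 (Ideal.mem_span_singleton_self a)
  have hgen : ∀ u ∈ P', ∃ a : 𝓞 M, u - (a : M) * h₀ ∈ W * P' := by
    intro u hu
    rw [hI, FractionalIdeal.mem_singleton_mul] at hu
    obtain ⟨z, hz, rfl⟩ := hu
    obtain ⟨y, hy, rfl⟩ := (FractionalIdeal.mem_coeIdeal _).mp hz
    rw [← Ideal.mul_top I, ← hJw, sup_comm, Ideal.mul_sup, ← hJ, Submodule.mem_sup] at hy
    obtain ⟨y₁, hy₁, y₂, hy₂, rfl⟩ := hy
    obtain ⟨a, rfl⟩ := Ideal.mem_span_singleton'.mp hy₁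
    refine ⟨a, ?_⟩
    rw [mul_comm I w] at hy₂
    convert! hmemWP y₂ hy₂ using 1
    rw [hh₀]
    push_cast
    ring
  let χ₀ : 𝓞 K → ℂ := fun r => psi ((r : K) * (β * (ξ * Algebra.norm K h₀)))
  have hχv : ∀ r ∈ v.asIdeal, χ₀ r = 1 := by
    intro r hr
    have hmem : algebraMap K M (r : K) * h₀ ∈ W * P' := by
      refine FractionalIdeal.mul_mem_mul ?_ hh₀P
      rw [← algebraMap_coe_int]
      exact FractionalIdeal.mem_coeIdeal_of_mem _ (Ideal.mem_map_of_mem _ hr)
    have := hbil _ (smul_int_mem hh₀P D.theta) _ hmem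
    rw [D.toQuad.bil_smul_right, D.toQuad.bil_theta ξ D.trace_theta] at this
    show psi _ = 1
    rw [← this]
    ring_nf
  have hχadd : ∀ r s, χ₀ (r + s) = χ₀ r * χ₀ s := fun r s => by
    show psi _ = psi _ * psi _
    rw [← psi_add]; push_cast; ring_nf
  have hχcongr : ∀ r s, r - s ∈ v.asIdeal → χ₀ r = χ₀ s := fun r s h => by
    rw [← sub_add_cancel r s, hχadd, hχv _ h, one_mul]
  let φ : AddChar (𝓞 K ⧸ v.asIdeal) ℂ :=
    { toFun := fun z => Quotient.liftOn' z χ₀ fun r s h =>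
        hχcongr r s ((Submodule.quotientRel_def _).mp h)
      map_zero_eq_one' := hχv 0 v.asIdeal.zero_mem
      map_add_eq_mul' := fun z z' => Quotient.inductionOn₂' z z' fun r s => hχadd r s }
  have hφmk : ∀ r, φ (Ideal.Quotient.mk _ r) = χ₀ r := fun r => rfl
  have hkey : ∀ a : 𝓞 M, ∀ p ∈ W * P',
      psi (β * (ξ * Algebra.norm K ((a : M) * h₀ + p))) = χ₀ (nO K a) := by
    intro a p hp
    refine psi_eq_of_sub ?_
    have hah : (a : M) * h₀ ∈ P' := smul_int_mem hh₀P a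
    have e : β * (ξ * Algebra.norm K ((a : M) * h₀ + p)) -
        ((nO K a : 𝓞 K) : K) * (β * (ξ * Algebra.norm K h₀)) =
        β * D.toQuad.bil ξ ((D.theta : M) * p) p + β * D.toQuad.bil ξ ((a : M) * h₀) p := by
      rw [D.toQuad.bil_theta ξ D.trace_theta, D.toQuad.norm_add, map_mul (Algebra.norm K) (a : M),
        RingOfIntegers.coe_norm, mul_add ξ, mul_add ξ, Quad.bil]
      ring
    rw [e, psi_add, hbil _ (smul_int_mem (hWle hp) D.theta) _ hp, hbil _ hah _ hp, one_mul]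
  have hφ : φ ≠ 1 := by
    intro h1
    have hall : ∀ r, χ₀ r = 1 := fun r => by rw [← hφmk, h1]; rfl
    obtain ⟨y, hy, z, hz, hne⟩ := hnon
    obtain ⟨a, ha⟩ := hgen y hy
    obtain ⟨b, hb⟩ := hgen z hz
    apply hne
    have hyd : y = (a : M) * h₀ + (y - (a : M) * h₀) := by ring
    have hzd : z = (b : M) * h₀ + (z - (b : M) * h₀) := by ring
    rw [hyd, hzd, D.toQuad.bil_add_left, D.toQuad.bil_add_right, D.toQuad.bil_add_right, mul_add,
      mul_add, mul_add, psi_add, psi_add, psi_add,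
      hbil _ (smul_int_mem hh₀P a) _ hb, hbil _ (hWle ha) _ hb,
      show D.toQuad.bil ξ (y - (a : M) * h₀) ((b : M) * h₀) =
        D.toQuad.bil ξ ((b : M) * h₀) (y - (a : M) * h₀) from D.toQuad.bil_comm _ _ _,
      hbil _ (smul_int_mem hh₀P b) _ ha]
    have e : β * D.toQuad.bil ξ ((a : M) * h₀) ((b : M) * h₀) =
        ((tO K (a * D.toQuad.conjO b) : 𝓞 K) : K) * (β * (ξ * Algebra.norm K h₀)) := by
      show _ = Algebra.trace K M ((a * D.toQuad.conjO b : 𝓞 M) : M) * _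
      rw [Quad.bil, map_mul D.conj, show (a : M) * h₀ * (D.conj (b : M) * D.conj h₀) =
        algebraMap K M (Algebra.norm K h₀) * ((a * D.toQuad.conjO b : 𝓞 M) : M) by
          rw [D.toQuad.norm_eq]; push_cast
          show _ = _ * (_ * D.toQuad.conj (b : M))
          ring, ← Algebra.smul_def, map_smul, smul_eq_mul]
      ring
    rw [e, show psi (((tO K (a * D.toQuad.conjO b) : 𝓞 K) : K) *
      (β * (ξ * Algebra.norm K h₀))) = χ₀ (tO K (a * D.toQuad.conjO b)) from rfl, hall]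
    ring
  let n : (𝓞 M ⧸ w) → 𝓞 K ⧸ v.asIdeal := fun z => Quotient.liftOn' z
    (fun a => Ideal.Quotient.mk _ (nO K a)) fun a b h =>
      Ideal.Quotient.eq.mpr (D.toQuad.nO_congr ((Submodule.quotientRel_def _).mp h))
  rw [← D.sum_addChar_norm hv hφ n (fun a => rfl), gaussSum]
  symm
  have hrep : ∀ z : 𝓞 M ⧸ w, ∃ u ∈ S, ((Quotient.out z : 𝓞 M) : M) * h₀ - u ∈ W * P' := fun z => by
    obtain ⟨u, ⟨hu, hu'⟩, -⟩ := hS.2 _ (smul_int_mem hh₀P (Quotient.out z))
    exact ⟨u, hu, hu'⟩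
  choose f hf hf' using hrep
  refine Finset.sum_bij (fun z _ => f z) (fun z _ => hf z) (fun z _ z' _ heq => ?_)
    (fun u hu => ?_) (fun z _ => ?_)
  · rw [← Quotient.out_eq z, ← Quotient.out_eq z']
    refine Ideal.Quotient.eq.mpr (hkill _ ?_)
    have := Submodule.sub_mem (W * P' : FractionalIdeal (𝓞 M)⁰ M).coeToSubmodule (hf' z) (hf' z')
    rw [heq, sub_sub_sub_cancel_right, ← sub_mul] at this
    push_cast
    exact this
  · obtain ⟨a, ha⟩ := hgen u (hS.1 u hu)
    refine ⟨Ideal.Quotient.mk w a, Finset.mem_univ _, (hS.eq_iff (hf _) hu).mp ?_⟩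
    set o := Quotient.out (Ideal.Quotient.mk w a) with ho
    have hoa : o - a ∈ w := Ideal.Quotient.eq.mp (Quotient.out_eq _)
    have h1 : ((o - a : 𝓞 M) : M) * h₀ ∈ W * P' :=
      FractionalIdeal.mul_mem_mul (FractionalIdeal.mem_coeIdeal_of_mem _ hoa) hh₀P
    have h2 := Submodule.sub_mem (W * P' : FractionalIdeal (𝓞 M)⁰ M).coeToSubmodule
      (Submodule.sub_mem (W * P' : FractionalIdeal (𝓞 M)⁰ M).coeToSubmodule h1 (hf' (Ideal.Quotient.mk w a))) ha
    convert! h2 using 1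
    push_cast
    ring
  · conv_lhs => rw [← Quotient.out_eq z]
    show φ (Ideal.Quotient.mk _ (nO K (Quotient.out z))) = _
    have := hkey (Quotient.out z) (-(((Quotient.out z : 𝓞 M) : M) * h₀ - f z))
      (Submodule.neg_mem (W * P' : FractionalIdeal (𝓞 M)⁰ M).coeToSubmodule (hf' z))
    rw [hφmk, ← this]
    ring_nf

end DihData

end Fermat.Agent.LT.Dihedral

end
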