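import Fermat.Agent.LT.Dihedral.Glue
import Fermat.Agent.LT.Dihedral.Pairs
import Fermat.Agent.LT.RankinSelberg.Neighbours
import Fermat.Agent.LT.Boundary.Defs

/-!
# Hecke eigenvalues from the expansion at the points `diag(t, 1)`

An invariant function of level `levelF n` whose expansions at the points `diag(t, 1)` have
coefficients with a three term relation at `v ∤ n` is an eigenfunction of `T_v`.
-/

set_option autoImplicit false
set_option maxHeartbeats 400000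

noncomputable section

namespace Fermat.Agent.LT.Dihedral

open NumberField IsDedekindDomain Adelic Matrix
open RankinSelberg (localShift heckeOp_eq_sum hasFullLocal_of_le localShift_apply_of_ne)
open scoped nonZeroDivisors

variable {K : Type*} [Field K] [NumberField K]

local notation "𝔸" => FiniteAdeleRing (𝓞 K) K

theorem span_mul_tdI_le_one_iff (α : K) (s : 𝔸ˣ) :
    FractionalIdeal.spanSingleton (𝓞 K)⁰ α * tdI s ≤ 1 ↔
      FractionalIdeal.spanSingleton (𝓞 K)⁰ α * idI s ≤ invDiff K := by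
  rw [tdI, ← mul_assoc, mul_inv_le_iff₀ (bot_lt_iff_ne_bot.mpr invDiff_ne_zero), one_mul]

/-- The character `ψ(-α ·)` is trivial on the ideal of `s` when `α (s) 𝔡` is integral. -/
theorem psi_neg_mul_eq_one {α : K} {s : 𝔸ˣ}
    (hα : FractionalIdeal.spanSingleton (𝓞 K)⁰ α * tdI s ≤ 1) {x : K} (hx : x ∈ idI s) :
    psi (-(α * x)) = 1 := by
  have h : α * x ∈ invDiff K := (span_mul_tdI_le_one_iff α s).mp hα
    (FractionalIdeal.mul_mem_mul (FractionalIdeal.mem_spanSingleton_self _ α) hx)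
  simpa using psi_mul_invDiff h (-1)

theorem exists_psi_neg_mul_ne {α : K} {s : 𝔸ˣ}
    (hα : ¬ FractionalIdeal.spanSingleton (𝓞 K)⁰ α * tdI s ≤ 1) :
    ∃ x ∈ idI s, psi (-(α * x)) ≠ 1 := by
  by_contra hne
  refine hα ((span_mul_tdI_le_one_iff α s).mpr
    (FractionalIdeal.spanSingleton_mul_le_iff.mpr fun x hx => mem_invDiff_of_psi fun o => ?_))
  by_contra ho
  refine hne ⟨(-o : 𝓞 K) • x, Submodule.smul_mem _ _ hx, fun h1 => ho ?_⟩
  rw [← h1, Algebra.smul_def]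
  congr 1
  simp
  ring

variable {v : HeightOneSpectrum (𝓞 K)} {ϖ : (FiniteAdeleRing (𝓞 K) K)ˣ}

theorem localShift_mem_intAdele (hϖ : IsUniformiserAt v ϖ) (r : 𝓞 K) :
    localShift ϖ r ∈ intAdele (𝓞 K) K := fun w => by
  by_cases hw : w = v
  · subst hw; exact RankinSelberg.valued_localShift_le hϖ r
  · rw [localShift_apply_of_ne hϖ r hw, map_zero]; exact zero_le

theorem inv_mul_localShift_mem (hϖ : IsUniformiserAt v ϖ) {r : 𝓞 K} (hr : r ∈ v.asIdeal) :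
    ((ϖ⁻¹ : 𝔸ˣ) : 𝔸) * localShift ϖ r ∈ intAdele (𝓞 K) K := fun w => by
  rw [valued_inv_mul_le_iff, one_mul]
  by_cases hw : w = v
  · subst hw
    rw [hϖ.1, localShift, coe_apply_mul, map_mul, coe_apply_sub, coe_apply_one,
      RankinSelberg.valued_uniformiser_sub_one hϖ, one_mul, RankinSelberg.valued_int_apply]
    simpa using (w.intValuation_le_pow_iff_mem r 1).mpr (by rwa [pow_one])
  · rw [localShift_apply_of_ne hϖ r hw, map_zero]; exact zero_le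

/-- **The sum of `ψ(-α ξ)` over the `q` translations.** -/
theorem sum_psi_translates (hϖ : IsUniformiserAt v ϖ) [Fintype (𝓞 K ⧸ v.asIdeal)] {t : 𝔸ˣ}
    {α : K} (hα : FractionalIdeal.spanSingleton (𝓞 K)⁰ α * tdI (t * ϖ) ≤ 1) (Ξ : 𝓞 K → K)
    (hΞ : ∀ r, (((t * ϖ)⁻¹ : 𝔸ˣ) : 𝔸) * ((t : 𝔸) * localShift ϖ r - algebraMap K 𝔸 (Ξ r)) ∈
      intAdele (𝓞 K) K)
    [Decidable (FractionalIdeal.spanSingleton (𝓞 K)⁰ α * tdI t ≤ 1)] :
    ∑ q : 𝓞 K ⧸ v.asIdeal, psi (-(α * Ξ q.out)) =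
      if FractionalIdeal.spanSingleton (𝓞 K)⁰ α * tdI t ≤ 1 then (Ideal.absNorm v.asIdeal : ℂ)
      else 0 := by
  have hsplit : ((((t * ϖ)⁻¹ : 𝔸ˣ) : 𝔸) * (t : 𝔸)) = ((ϖ⁻¹ : 𝔸ˣ) : 𝔸) := by
    rw [← Units.val_mul]; congr 1; rw [mul_inv, mul_comm t⁻¹, inv_mul_cancel_right]
  have hϖint : (ϖ : 𝔸) ∈ intAdele (𝓞 K) K := fun w => by
    by_cases hw : w = v
    · subst hw; rw [hϖ.1, ← WithZero.exp_zero, WithZero.exp_le_exp]; omega
    · rw [hϖ.2 w hw, map_one]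
  split_ifs with ht
  · have h1 : ∀ r, psi (-(α * Ξ r)) = 1 := fun r => by
      refine psi_neg_mul_eq_one ht ((mem_idI_iff t _).mpr ?_)
      have := sub_mem (localShift_mem_intAdele hϖ r) (mul_mem hϖint (hΞ r))
      convert! this using 1
      have ht1 : ((t⁻¹ : 𝔸ˣ) : 𝔸) * (t : 𝔸) = 1 := t.inv_mul
      have hp : (ϖ : 𝔸) * ((ϖ⁻¹ : 𝔸ˣ) : 𝔸) = 1 := ϖ.mul_inv
      rw [mul_inv, Units.val_mul]
      linear_combination ((t⁻¹ : 𝔸ˣ) : 𝔸) * ((t : 𝔸) * localShift ϖ r - algebraMap K 𝔸 (Ξ r)) * hp +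
        localShift ϖ r * ht1
    simp only [h1, Finset.sum_const, Finset.card_univ, nsmul_eq_mul, mul_one]
    rw [Ideal.absNorm_apply, Submodule.cardQuot_apply, Nat.card_eq_fintype_card]
  · obtain ⟨s, hs, hne⟩ := exists_psi_neg_mul_ne ht
    obtain ⟨k, hk, hk0⟩ := Submodule.exists_mem_ne_zero_of_ne_bot v.ne_bot
    obtain ⟨r, hr⟩ := exists_int_memMul ((mem_idI_iff t s).mp hs) hk0
    set a := ((t⁻¹ : 𝔸ˣ) : 𝔸) * algebraMap K 𝔸 s with ha
    have hA : ((ϖ⁻¹ : 𝔸ˣ) : 𝔸) * (a - localShift ϖ (-r)) ∈ intAdele (𝓞 K) K := fun w => by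
      rw [valued_inv_mul_le_iff, one_mul]
      by_cases hw : w = v
      · subst hw
        have e : (a - localShift ϖ (-r)) w =
            (a - algebraMap (𝓞 K) 𝔸 r) w + ((ϖ : 𝔸) * algebraMap (𝓞 K) 𝔸 r) w := by
          rw [← coe_apply_add]; congr 1; rw [localShift, map_neg]; ring
        rw [e, hϖ.1]
        refine (Valuation.map_add _ _ _).trans (max_le ((hr w).trans ?_) ?_)
        · simpa using (w.intValuation_le_pow_iff_mem k 1).mpr (by rwa [pow_one])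
        · rw [coe_apply_mul, map_mul, hϖ.1]
          exact mul_le_of_le_one_right' (algebraMap_mem_intAdele r w)
      · rw [hϖ.2 w hw, map_one, coe_apply_sub, localShift_apply_of_ne hϖ _ hw, sub_zero]
        exact (mem_idI_iff t s).mp hs w
    set q₀ : 𝓞 K ⧸ v.asIdeal := Ideal.Quotient.mk _ (-r) with hq₀
    have hshift : ∀ q : 𝓞 K ⧸ v.asIdeal,
        psi (-(α * Ξ (q + q₀).out)) = psi (-(α * s)) * psi (-(α * Ξ q.out)) := fun q => by
      rw [← psi_add]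
      set δ := (q + q₀).out - q.out - (-r) with hδdef
      have hδ : δ ∈ v.asIdeal := Ideal.Quotient.eq_zero_iff_mem.mp (by
        rw [hδdef, map_sub, map_sub, Ideal.Quotient.mk_out, Ideal.Quotient.mk_out, hq₀]; ring)
      refine psi_eq_of_sub ?_
      rw [show -(α * Ξ (q + q₀).out) - (-(α * s) + -(α * Ξ q.out)) =
        -(α * (Ξ (q + q₀).out - Ξ q.out - s)) by ring]
      refine psi_neg_mul_eq_one hα ((mem_idI_iff _ _).mpr ?_)
      have := sub_mem (sub_mem (add_mem (hΞ q.out) (inv_mul_localShift_mem hϖ hδ)) (hΞ (q + q₀).out)) hA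
      convert! this using 1
      have ht1 : (t : 𝔸) * ((t⁻¹ : 𝔸ˣ) : 𝔸) = 1 := t.mul_inv
      rw [← hsplit, ha, hδdef, map_sub, map_sub, localShift, localShift, localShift, localShift,
        map_neg, map_sub, map_sub, map_neg]
      linear_combination ((((t * ϖ)⁻¹ : 𝔸ˣ) : 𝔸) * algebraMap K 𝔸 s) * ht1
    have key : ∑ q : 𝓞 K ⧸ v.asIdeal, psi (-(α * Ξ q.out)) =
        psi (-(α * s)) * ∑ q : 𝓞 K ⧸ v.asIdeal, psi (-(α * Ξ q.out)) := by
      conv_lhs => rw [← Equiv.sum_comp (Equiv.addRight q₀)]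
      rw [Finset.mul_sum]
      exact Finset.sum_congr rfl fun q _ => hshift q
    exact (mul_left_eq_self₀.mp key.symm).resolve_left hne

theorem mk_diag_none (n : 𝓞 K) (t ϖ : 𝔸ˣ) :
    ((diag2 t 1 * diag2 1 ϖ : GfK K) : Yf (levelF K n)) = yPt n (t * ϖ⁻¹) := by
  refine (QuotientGroup.eq.mpr ((le_sup_right : centerGf _ _ ≤ levelZ _) ⟨ϖ, ?_⟩)).symm
  refine GL.ext_fin_two ?_
  rw [Glue.diag2_inv, Units.val_mul, Units.val_mul, Glue.coe_scalarHom, coe_diag2, coe_diag2,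
    coe_diag2, Matrix.mul_fin_two, Matrix.mul_fin_two]
  have e : ((t * ϖ⁻¹)⁻¹ : 𝔸ˣ) * t = ϖ := by
    rw [mul_inv, inv_inv, mul_comm t⁻¹, inv_mul_cancel_right]
  have e' := congrArg (Units.val : 𝔸ˣ → 𝔸) e
  rw [Units.val_mul] at e'
  simp only [Units.val_one, mul_one, one_mul, mul_zero, zero_mul, add_zero, zero_add, e']

theorem inv_mul_diag_some (t ϖ : 𝔸ˣ) (x ξ : 𝔸) :
    (unipotent ξ * diag2 (t * ϖ) 1 : GfK K)⁻¹ * (diag2 t 1 * (unipotent x * diag2 ϖ 1)) =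
      unipotent ((((t * ϖ)⁻¹ : 𝔸ˣ) : 𝔸) * ((t : 𝔸) * x - ξ)) := by
  rw [inv_mul_eq_iff_eq_mul]
  refine GL.ext_fin_two ?_
  have h1 : (t : 𝔸) * (ϖ : 𝔸) * (((t * ϖ)⁻¹ : 𝔸ˣ) : 𝔸) = 1 := by
    rw [← Units.val_mul]; exact Units.mul_inv _
  simp only [Units.val_mul, Units.val_one, coe_unipotent, coe_diag2, Matrix.mul_fin_two]
  generalize (((t * ϖ)⁻¹ : 𝔸ˣ) : 𝔸) = c at h1 ⊢
  have h2 : (t : 𝔸) * x = (t : 𝔸) * (ϖ : 𝔸) * (c * ((t : 𝔸) * x - ξ)) + ξ := by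
    linear_combination (-((t : 𝔸) * x - ξ)) * h1
  simp only [one_mul, mul_one, zero_mul, mul_zero, add_zero, zero_add]
  rw [← h2]

theorem mk_diag_some {n : 𝓞 K} (t ϖ : 𝔸ˣ) {x : 𝔸} {ξ : K}
    (h : MemMul n ((((t * ϖ)⁻¹ : 𝔸ˣ) : 𝔸) * ((t : 𝔸) * x - algebraMap K 𝔸 ξ))) :
    ((diag2 t 1 * (unipotent x * heckeMatrix K ϖ) : GfK K) : Yf (levelF K n)) =
      toGf K (unipotent ξ) • yPt n (t * ϖ) := by
  refine (QuotientGroup.eq.mpr (le_levelZ _ ?_)).symm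
  simp only [smul_eq_mul]
  rw [show toGf K (unipotent ξ) = unipotent (algebraMap K 𝔸 ξ) from map_unipotent _ _,
    heckeMatrix, inv_mul_diag_some]
  refine Glue.mem_levelF_of_det_one n (Units.ext (det_unipotent _)) ?_ ?_ ?_ ?_
  · simp
  · simpa using h
  · simpa using memMul_zero_right n
  · simpa using memMul_zero_right n

variable {ι : Type*} {Φ : Frame K ι} {n : 𝓞 K}

theorem apply_translate {U : Subgroup (GfK K)} {φ : Space Φ U → ℂ} (hφ : IsInvariant φ) (ξ : K)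
    (τ : ι → HSpace) (y : Yf U) :
    φ (Space.mk τ (toGf K (unipotent ξ) • y)) =
      φ (Space.mk (fun i => Φ.toInf i (unipotent (-ξ)) • τ i) y) := by
  have h1 : (unipotent ξ : GL (Fin 2) K) * unipotent (-ξ) = 1 := GL.ext_fin_two (by
    rw [Units.val_mul, coe_unipotent, coe_unipotent, Units.val_one, Matrix.mul_fin_two,
      Matrix.one_fin_two]
    simp)
  have h2 : (fun i => Φ.toInf i (unipotent ξ) • (Φ.toInf i (unipotent (-ξ)) • τ i)) = τ :=
    funext fun i => by rw [← mul_smul, ← map_mul, h1, map_one, one_smul]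
  rw [← hφ (unipotent ξ) (Space.mk (fun i => Φ.toInf i (unipotent (-ξ)) • τ i) y), Space.smul_mk, h2]

open Classical in
/-- **The Hecke relation.** -/
theorem isHeckeEigenAt_of_expansion (hn : n ≠ 0) {φ : Space Φ (levelF K n) → ℂ}
    (hφ : IsInvariant φ) {F : (FiniteAdeleRing (𝓞 K) K)ˣ → (ι → HSpace) → ℂ}
    (hFφ : ∀ t τ, φ (Space.mk τ (yPt n t)) = F t τ)
    (coef : (FiniteAdeleRing (𝓞 K) K)ˣ → K → ℂ) (W : K → (ι → HSpace) → ℂ)
    (hexp : ∀ t τ, HasSum (fun α : K => coef t α * W α τ) (F t τ))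
    (hW : ∀ (α ξ : K) (τ : ι → HSpace),
      W α (fun i => Φ.toInf i (unipotent ξ) • τ i) = psi (α * ξ) * W α τ)
    (hsupp : ∀ t α, coef t α ≠ 0 → FractionalIdeal.spanSingleton (𝓞 K)⁰ α * tdI t ≤ 1)
    {v : HeightOneSpectrum (𝓞 K)} (hv : n ∉ v.asIdeal) (a : ℂ)
    (hrel : ∀ ϖ, IsUniformiserAt v ϖ → ∀ t α,
      coef (t * ϖ⁻¹) α + (if FractionalIdeal.spanSingleton (𝓞 K)⁰ α * tdI t ≤ 1
          then (Ideal.absNorm v.asIdeal : ℂ) else 0) * coef (t * ϖ) α =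
        (Real.sqrt (Ideal.absNorm v.asIdeal) : ℂ) * a * coef t α) :
    IsHeckeEigenAt φ v a := by
  intro ϖ hϖ
  funext x
  obtain ⟨γ, t, hy⟩ := exists_eq_smul_yPt hn x.fin
  have hx : x = γ • Space.mk (fun i => Φ.toInf i γ⁻¹ • x.pt i) (yPt n t) := by
    conv_lhs => rw [← Space.mk_pt_fin x, hy]
    rw [Space.smul_mk]
    congr 1
    funext i
    rw [← mul_smul, ← map_mul, mul_inv_cancel, map_one, one_smul]
  rw [hx, (hφ.heckeOp _) γ, Pi.smul_apply, hφ γ, smul_eq_mul]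
  generalize (fun i => Φ.toInf i γ⁻¹ • x.pt i) = τ
  have : Fintype (𝓞 K ⧸ v.asIdeal) := Fintype.ofFinite _
  rw [yPt, heckeOp_eq_sum (levelF_le_one n)
    (hasFullLocal_of_le (principalLevel_le_levelF n) (intValuation_eq_one_of_not_mem hv)) hϖ,
    ← yPt, hFφ]
  -- the translation parameters
  have hex : ∀ r : 𝓞 K, ∃ ξ : K,
      MemMul n ((((t * ϖ)⁻¹ : 𝔸ˣ) : 𝔸) * ((t : 𝔸) * localShift ϖ r - algebraMap K 𝔸 ξ)) := by
    intro r
    obtain ⟨d, hd, hdt⟩ := exists_den (((t * ϖ)⁻¹ : 𝔸ˣ) : 𝔸)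
    obtain ⟨ξ, hξ⟩ := exists_memMul_sub ((t : 𝔸) * localShift ϖ r) (mul_ne_zero hd hn)
    refine ⟨ξ, fun w => ?_⟩
    have h2 := mem_intAdele.mp hdt w
    rw [coe_apply_mul, map_mul] at h2
    erw [valued_algebraMap_int] at h2
    rw [coe_apply_mul, map_mul]
    refine (mul_le_mul' le_rfl (hξ w)).trans ?_
    rw [map_mul, ← mul_assoc, mul_comm (Valued.v _) (w.intValuation d)]
    exact mul_le_of_le_one_left' h2
  choose Ξ hΞ using hex
  rw [mk_diag_none, hFφ]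
  have hval : ∀ r, φ (Space.mk τ (((diag2 t 1 * (unipotent (localShift ϖ r) *
      heckeMatrix K ϖ) : GfK K)) : Yf (levelF K n))) =
      F (t * ϖ) (fun i => Φ.toInf i (unipotent (-Ξ r)) • τ i) := fun r => by
    rw [mk_diag_some t ϖ (hΞ r), apply_translate hφ, hFφ]
  simp only [hval]
  refine (((hexp (t * ϖ⁻¹) τ).add (hasSum_sum fun (q : 𝓞 K ⧸ v.asIdeal) _ =>
    hexp (t * ϖ) fun i => Φ.toInf i (unipotent (-Ξ q.out)) • τ i)).congr_fun fun α => ?_).unique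
      ((hexp t τ).mul_left _)
  simp only [hW]
  rw [← mul_assoc, ← hrel ϖ hϖ t α]
  by_cases hc : coef (t * ϖ) α = 0
  · simp [hc]
  · rw [← sum_psi_translates hϖ (hsupp _ _ hc) Ξ fun r => (hΞ r).mem_intAdele, add_mul,
      Finset.sum_mul, Finset.sum_mul]
    exact congrArg _ (Finset.sum_congr rfl fun q _ => by rw [mul_neg]; ring)

end Fermat.Agent.LT.Dihedral

end
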