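import Fermat.Agent.LT.Dihedral.Assembly
import Fermat.Agent.LT.Dihedral.Hecke

/-!
# The expansion of `formF` and the Hecke eigenvalues of the dihedral form
-/

set_option autoImplicit false
set_option maxHeartbeats 400000

noncomputable section

namespace Fermat.Agent.LT.Dihedral

open NumberField IsDedekindDomain Adelic Matrix
open Theta (whitProd besselK0)
open Poisson (eC eC_add eC_zero)
open scoped nonZeroDivisors

variable {K M : Type*} [Field K] [NumberField K] [Field M] [NumberField M] [Algebra K M]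
  {ι : Type*} [Fintype ι] (Φ : Frame K ι)

theorem prod_eC {κ : Type*} (s : Finset κ) (f : κ → ℝ) :
    ∏ i ∈ s, eC (f i) = eC (∑ i ∈ s, f i) := by
  classical
  induction s using Finset.induction_on with
  | empty => simp
  | insert i s hi ih => rw [Finset.prod_insert hi, Finset.sum_insert hi, ih, ← eC_add]

theorem act_unipotent (x : K) (τ : ι → HSpace) (i : ι) :
    (act Φ (unipotent x) τ i).r = (τ i).r ∧ (act Φ (unipotent x) τ i).z = (τ i).z + Φ.emb i x := by
  rw [act, toInf_unipotent]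
  constructor
  · simp [HSpace.smul_r, HSpace.absDet, HSpace.denSq, Matrix.det_fin_two]
  · simp [HSpace.smul_z, HSpace.denSq]

/-- A term of the expansion under a translation. -/
theorem whitProd_act_unipotent (α x : K) (τ : ι → HSpace) :
    whitProd (xiV Φ α) (act Φ (unipotent x) τ) = psi (α * x) * whitProd (xiV Φ α) τ := by
  rw [psi_eq_eC_sum Φ, ← prod_eC, whitProd, whitProd, ← Finset.prod_mul_distrib]
  refine Finset.prod_congr rfl fun i _ => ?_
  obtain ⟨hr, hz⟩ := act_unipotent Φ x τ i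
  rw [hr, hz, show (((τ i).z + Φ.emb i x) * xiV Φ α i).re =
      ((τ i).z * xiV Φ α i).re + (Φ.emb i (α * x)).re by
    rw [add_mul, Complex.add_re, map_mul, mul_comm (Φ.emb i x)]; rfl, mul_add, eC_add]
  ring

namespace DihData

variable {D : DihData K M} {E : Subgroup (𝓞 M)ˣ} {c : ℂ}

/-- **The expansion of `formF`.** -/
theorem hasSum_formF (h : D.RepsHyp E c) (hE : IsUnfoldGroup D.toQuad E)
    (t : (FiniteAdeleRing (𝓞 K) K)ˣ) (τ : ι → HSpace) :
    HasSum (fun α => D.coef t α * whitProd (xiV Φ α) τ) (D.formF Φ t τ) := by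
  obtain ⟨n, p, hp⟩ := h.exists_reps t
  have hs := hasSum_sum fun k (_ : k ∈ (Finset.univ : Finset (Fin n))) =>
    hasSum_thetaInt Φ D.toQuad hE (hp.isPair k).ne_zero (adm_wt (hp.isPair k).ne_bot)
      (h.wt_inv _) τ
  refine ((hs.mul_left (nrm t / c)).congr_fun fun α => ?_).summable.hasSum
  rw [← Finset.sum_mul, ← mul_assoc, coef_eq]
  by_cases hα : α = 0
  · subst hα
    rw [Finset.sum_eq_zero fun k _ => orbCoef_zero (hp.isPair k).ne_zero _ _,
      FractionalIdeal.spanSingleton_zero, zero_mul, D.bK_zero]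
    simp
  · rw [h.grouping hp α hα]
    field_simp [h.c_ne]

theorem le_one_of_coef_ne_zero {t : (FiniteAdeleRing (𝓞 K) K)ˣ} {α : K} (h : D.coef t α ≠ 0) :
    FractionalIdeal.spanSingleton (𝓞 K)⁰ α * tdI t ≤ 1 := by
  by_contra hle
  exact h (by rw [coef_eq, D.bK_eq_zero hle, mul_zero])

/-- **The Hecke eigenvalues at the places prime to the conductor.** -/
theorem isHeckeEigenAt_formF (h : D.RepsHyp E c) (hE : IsUnfoldGroup D.toQuad E)
    (φ : Space Φ (levelF K (D.cond ^ 3)) → ℂ) (hinv : IsInvariant φ)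
    (hF : ∀ t τ, φ (Space.mk τ (yPt (D.cond ^ 3) t)) = D.formF Φ t τ)
    {v : HeightOneSpectrum (𝓞 K)} (hv : D.cond ∉ v.asIdeal) : IsHeckeEigenAt φ v (D.eig v) := by
  classical
  exact isHeckeEigenAt_of_expansion (pow_ne_zero 3 D.cond_ne) hinv hF D.coef
    (fun α => whitProd (xiV Φ α)) (hasSum_formF Φ h hE)
    (fun α x τ => whitProd_act_unipotent Φ α x τ) (fun _ _ => le_one_of_coef_ne_zero)
    (fun h3 => hv (v.isPrime.mem_of_pow_mem 3 h3)) (D.eig v)
    fun ϖ hϖ t α => D.coef_rec hv t ϖ (idI_uniformiser hϖ) α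

end DihData

end Fermat.Agent.LT.Dihedral

end
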