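import Fermat.Agent.LT.Dihedral.GaloisTower
import Fermat.Agent.LT.Dihedral.Cusps
import Fermat.Agent.LT.Dihedral.Eigen
import Fermat.Agent.LT.Boundary.Statements

/-!
# C1: the dihedral form on `F'`
-/

set_option autoImplicit false

noncomputable section

namespace Fermat.Agent.LT.Dihedral

open Fermat.Agent.Galois WeierstrassCurve NumberField IsDedekindDomain Adelic
open scoped MatrixGroups

/-- **C1**: the dihedral form on `F'`. -/
theorem stmtDihedral : StmtDihedral := by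
  intro W ρ _ hΔ hW hρ
  obtain ⟨Φ, M, _, _, _, D, m, hm, hcond, hfrob⟩ := stmtDihData W ρ hΔ hW hρ
  obtain ⟨E, hE, -⟩ := exists_isUnfoldGroup D.toQuad (one_ne_zero (α := 𝓞 M))
  obtain ⟨c, h⟩ := DihData.exists_repsHyp (D := D) hE
  have hn : D.cond ^ 3 ≠ 0 := pow_ne_zero _ D.cond_ne
  obtain ⟨φ, hinv, hF⟩ := exists_invariant_of_glueHyp hn (DihData.glueHyp_formF Φ h hE)
  refine ⟨Φ, 3 * m, levelF _ (D.cond ^ 3), φ, fun h3 => by rw [hm h3], ?_, levelF_le_one _,
    fun u hu => diag2_mem_levelF _ u hu, DihData.isCuspEigen_formF Φ h hE hinv hF,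
    fun w hw σ hσ => ?_⟩
  · rw [show ((3 ^ (3 * m) : ℕ) : 𝓞 (fieldF' ρ)) = D.cond ^ 3 by
      rw [hcond, ← Nat.cast_pow, ← pow_mul, mul_comm m]]
    exact principalLevel_le_levelF _
  · rw [← hfrob w hw σ hσ]
    refine DihData.isHeckeEigenAt_formF Φ h hE φ hinv hF ?_
    rw [hcond, Nat.cast_pow]
    exact fun h' => hw (by simpa using w.isPrime.mem_of_pow_mem m h')

end Fermat.Agent.LT.Dihedral

end
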