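import Fermat.Agent.LT.Dihedral.Invariance
import Mathlib.NumberTheory.NumberField.ClassNumber

/-!
# Twisting pairs by an auxiliary ideal with non-trivial character

For `r ≠ 0` there are `C` and `η ≡ 1 (mod r)` with `C C̄ = (η)`, `C` prime to `r` and `χ C ≠ 1`;
twisting a pair by `(η, C)` multiplies the mean of its weight by `χ C`.
-/

set_option autoImplicit false
set_option maxHeartbeats 400000

noncomputable section

namespace Fermat.Agent.LT.Dihedral

open NumberField IsDedekindDomain Adelic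
open scoped nonZeroDivisors

variable {K M : Type*} [Field K] [NumberField K] [Field M] [NumberField M] [Algebra K M]

/-- Some positive power of an ideal prime to `r` has a generator congruent to one modulo `r`. -/
theorem exists_pow_eq_span_congr {r : 𝓞 K} (hr : r ≠ 0) {I : Ideal (𝓞 K)} (hI : I ≠ ⊥)
    (hco : I ⊔ Ideal.span {r} = ⊤) :
    ∃ (n : ℕ) (η : 𝓞 K), n ≠ 0 ∧ I ^ n = Ideal.span {η} ∧ r ∣ η - 1 := by
  classical
  set h := Fintype.card (ClassGroup (𝓞 K)) with hh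
  have hh0 : h ≠ 0 := Fintype.card_ne_zero
  obtain ⟨η₁, hη₁⟩ : ∃ η₁, I ^ h = Ideal.span {η₁} := by
    have hc : (ClassGroup.mk0 ⟨I, mem_nonZeroDivisors_iff_ne_zero.mpr hI⟩) ^ h = 1 :=
      pow_card_eq_one
    rw [← map_pow, ClassGroup.mk0_eq_one_iff] at hc
    obtain ⟨⟨a, ha⟩⟩ := hc
    exact ⟨a, by simpa using ha⟩
  have : Finite (𝓞 K ⧸ Ideal.span {r}) :=
    Ring.HasFiniteQuotients.finiteQuotient (by simpa using hr)
  set J := Ideal.span {r}
  have hu : IsUnit (Ideal.Quotient.mk J η₁) := by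
    have h1 : (1 : 𝓞 K) ∈ I ^ h ⊔ J := by
      have : I ^ h ⊔ J = ⊤ := Ideal.pow_sup_eq_top hco
      rw [this]; exact Submodule.mem_top
    rw [hη₁] at h1
    obtain ⟨a, ha, b, hb, hab⟩ := Submodule.mem_sup.mp h1
    obtain ⟨c, rfl⟩ := Ideal.mem_span_singleton'.mp ha
    refine isUnit_iff_exists_inv'.mpr ⟨Ideal.Quotient.mk J c, ?_⟩
    rw [← map_mul, ← map_one (Ideal.Quotient.mk J), Ideal.Quotient.mk_eq_mk_iff_sub_mem,
      show c * η₁ - 1 = -b by rw [← hab]; ring]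
    exact neg_mem hb
  set N := Nat.card (𝓞 K ⧸ J)ˣ
  refine ⟨h * N, η₁ ^ N, mul_ne_zero hh0 Nat.card_pos.ne', ?_, ?_⟩
  · rw [pow_mul, hη₁, Ideal.span_singleton_pow]
  · rw [← Ideal.mem_span_singleton, ← Ideal.Quotient.mk_eq_mk_iff_sub_mem, map_pow, map_one]
    have h2 := congrArg Units.val (pow_card_eq_one' (x := hu.unit))
    rwa [Units.val_pow_eq_pow_val, IsUnit.unit_spec, Units.val_one] at h2

namespace DihData

variable (D : DihData K M)

/-- **Auxiliary twists.** -/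
theorem exists_twist {r : 𝓞 K} (hr : r ≠ 0) :
    ∃ (C : Ideal (𝓞 M)) (η : 𝓞 K), C ≠ ⊥ ∧ η ≠ 0 ∧ r ∣ η - 1 ∧
      C * D.toQuad.conjI C = extI K M (Ideal.span {η}) ∧
      C ⊔ Ideal.span {algebraMap (𝓞 K) (𝓞 M) r} = ⊤ ∧ D.chi C ≠ 1 := by
  classical
  have hfin : {v : HeightOneSpectrum (𝓞 K) | v.asIdeal ∣ Ideal.span {r}}.Finite :=
    Ideal.finite_factors (by simpa using hr)
  obtain ⟨v, hvT, hv, Q, hQ, hne, hfac, hchi⟩ := D.nontrivial hfin.toFinset
  have hvr : r ∉ v.asIdeal := fun h => hvT (hfin.mem_toFinset.mpr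
    (Ideal.dvd_span_singleton.mpr h))
  have hco : v.asIdeal ⊔ Ideal.span {r} = ⊤ := v.isMaximal.out.2 _ (lt_of_le_of_ne le_sup_left
    fun h => hvr (h ▸ Ideal.mem_sup_right (Ideal.mem_span_singleton_self r)))
  obtain ⟨n, η, hn, hηn, hdvd⟩ := exists_pow_eq_span_congr hr v.ne_bot hco
  obtain ⟨k, rfl⟩ := Nat.exists_eq_succ_of_ne_zero hn
  have hη : η ≠ 0 := by
    rintro rfl
    rw [Ideal.span_singleton_zero] at hηn
    exact v.ne_bot (pow_eq_zero_iff hn |>.mp hηn)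
  set Q' := D.toQuad.conjI Q with hQ'
  have hprod : D.chi Q * D.chi Q' = 1 := by
    rw [← map_mul, ← hfac]
    rcases D.inert_or_split v hv with ⟨hprime, -, -⟩ | ⟨P, -, -, hP, h⟩
    · have hQ'top : Q' ≠ ⊤ := fun h => hQ.ne_top (by
        rw [← D.toQuad.conjI_conjI Q, ← hQ', h, Quad.conjI]; exact Ideal.map_top _)
      rw [hfac] at hprime
      have hVM : Q * Q' ≠ ⊥ := hfac ▸ extI_ne_bot (K := K) (M := M) v.ne_bot
      rcases (hprime.mul_le.mp le_rfl) with h | h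
      · refine absurd ((mul_right_eq_self₀ (a := Q) (b := Q')).mp
          (le_antisymm Ideal.mul_le_left h)) (not_or.mpr ⟨?_, left_ne_zero_of_mul hVM⟩)
        rwa [Ideal.one_eq_top]
      · refine absurd ((mul_left_eq_self₀ (a := Q) (b := Q')).mp
          (le_antisymm Ideal.mul_le_right h)) (not_or.mpr ⟨?_, right_ne_zero_of_mul hVM⟩)
        rw [Ideal.one_eq_top]
        exact hQ.ne_top
    · rw [hP, map_mul, h]
  have hcoQ : ∀ P : Ideal (𝓞 M), extI K M v.asIdeal ≤ P →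
      P ⊔ Ideal.span {algebraMap (𝓞 K) (𝓞 M) r} = ⊤ := by
    intro P hP
    refine (Ideal.eq_top_iff_one _).mpr ?_
    obtain ⟨a, ha, b, hb, hab⟩ := Submodule.mem_sup.mp ((Ideal.eq_top_iff_one _).mp hco)
    obtain ⟨c, rfl⟩ := Ideal.mem_span_singleton'.mp hb
    rw [← map_one (algebraMap (𝓞 K) (𝓞 M)), ← hab, map_add, map_mul]
    exact Submodule.add_mem_sup (hP (Ideal.mem_map_of_mem _ ha))
      (Ideal.mul_mem_left _ _ (Ideal.mem_span_singleton_self _))
  have hcop : IsCoprime (Ideal.span {algebraMap (𝓞 K) (𝓞 M) r}) (Q ^ (k + 2) * Q' ^ k) := by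
    rw [IsCoprime.mul_right_iff]
    constructor <;> refine IsCoprime.pow_right ?_ <;>
      rw [Ideal.isCoprime_iff_sup_eq, sup_comm]
    · exact hcoQ Q (hfac ▸ Ideal.mul_le_left)
    · exact hcoQ Q' (hfac ▸ Ideal.mul_le_right)
  refine ⟨Q ^ (k + 2) * Q' ^ k, η ^ 2, ?_, pow_ne_zero 2 hη, ?_, ?_, ?_, ?_⟩
  · have hQ0 : Q ≠ ⊥ := fun h => extI_ne_bot (K := K) (M := M) v.ne_bot
      (by rw [hfac, h]; exact zero_mul _)
    have hQ0' : Q' ≠ ⊥ := fun h => extI_ne_bot (K := K) (M := M) v.ne_bot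
      (by rw [hfac, h]; exact mul_zero _)
    exact mul_ne_zero (pow_ne_zero _ hQ0) (pow_ne_zero _ hQ0')
  · rw [show η ^ 2 - 1 = (η - 1) * (η + 1) by ring]
    exact dvd_mul_of_dvd_left hdvd _
  · rw [← Ideal.span_singleton_pow, ← hηn, extI, Ideal.map_pow, Ideal.map_pow, ← extI, hfac,
      Quad.conjI, Ideal.map_mul, Ideal.map_pow, Ideal.map_pow, ← Quad.conjI, ← Quad.conjI, hQ',
      D.toQuad.conjI_conjI, Nat.succ_eq_add_one]
    ring
  · rw [sup_comm, ← Ideal.isCoprime_iff_sup_eq]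
    exact hcop
  · rw [map_mul, map_pow, map_pow]
    intro h
    refine hchi ?_
    have h1 : (D.chi Q * D.chi Q') ^ k = 1 := by
      rw [hprod, one_pow]
    linear_combination h - D.chi Q ^ 2 * h1

variable {D} {t : (FiniteAdeleRing (𝓞 K) K)ˣ} {ξ : K} {B C : Ideal (𝓞 M)} {η : 𝓞 K}

theorem IsPair.twist (hp : D.IsPair t ξ B) (hC : C ≠ ⊥) (hη : η ≠ 0)
    (hCC : C * D.toQuad.conjI C = extI K M (Ideal.span {η})) :
    D.IsPair t (ξ * (η : K)) (C * B) where
  ne_bot := mul_ne_zero hC hp.ne_bot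
  ne_zero := mul_ne_zero hp.ne_zero (RingOfIntegers.coe_ne_zero_iff.mpr hη)
  compat := by
    rw [D.toQuad.conjI_mul,
      show C * B * (D.toQuad.conjI C * D.toQuad.conjI B) =
        (C * D.toQuad.conjI C) * (B * D.toQuad.conjI B) by ring,
      hCC, extI, Ideal.map_span, Set.image_singleton, FractionalIdeal.coeIdeal_mul, hp.compat,
      FractionalIdeal.coeIdeal_span_singleton, map_mul, ← mul_assoc,
      FractionalIdeal.spanSingleton_mul_spanSingleton]
    congr 2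
    rw [mul_comm]
    congr 1

theorem latL_le_twist (hC : C ≠ ⊥) (hB : B ≠ ⊥) {x : M} (hx : x ∈ latL B) :
    x ∈ latL (C * B) := by
  rw [mem_latL (mul_ne_zero hC hB)]
  exact fun β hβ => (mem_latL hB).mp hx β ((Ideal.mul_le_right : C * B ≤ B) hβ)

/-- Representatives of `L / m L` serve for the twisted lattice. -/
theorem isReps_twist (hC : C ≠ ⊥) (hB : B ≠ ⊥) {m : 𝓞 M} (hco : C ⊔ Ideal.span {m} = ⊤)
    {S : Finset M}
    (hS : IsReps (latL B) (FractionalIdeal.spanSingleton (𝓞 M)⁰ (m : M) * latL B) S) :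
    IsReps (latL (C * B)) (FractionalIdeal.spanSingleton (𝓞 M)⁰ (m : M) * latL (C * B)) S := by
  obtain ⟨e₁, he₁, e₂, he₂, he⟩ := Submodule.mem_sup.mp ((Ideal.eq_top_iff_one _).mp hco)
  obtain ⟨a, ha⟩ := Ideal.mem_span_singleton'.mp he₂
  have he' : (e₁ : M) + (a : M) * (m : M) = 1 := by
    rw [← map_mul (algebraMap (𝓞 M) M), ha, ← map_add (algebraMap (𝓞 M) M), he, map_one]
  have h1 : ∀ {x : M}, x ∈ latL (C * B) → (e₁ : M) * x ∈ latL B := fun hx =>
    mul_mem_latL_of_mem hC hB he₁ hx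
  have hmB : ∀ {x : M}, x ∈ FractionalIdeal.spanSingleton (𝓞 M)⁰ (m : M) * latL B →
      x ∈ FractionalIdeal.spanSingleton (𝓞 M)⁰ (m : M) * latL (C * B) := by
    intro x hx
    obtain ⟨l, hl, rfl⟩ := FractionalIdeal.mem_singleton_mul.mp hx
    exact FractionalIdeal.mem_singleton_mul.mpr ⟨l, latL_le_twist hC hB hl, rfl⟩
  refine ⟨fun u hu => latL_le_twist hC hB (hS.1 u hu), fun x hx => ?_⟩
  obtain ⟨u, ⟨hu, hxu⟩, -⟩ := hS.2 _ (h1 hx)
  have hxu' : x - u ∈ FractionalIdeal.spanSingleton (𝓞 M)⁰ (m : M) * latL (C * B) := by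
    obtain ⟨l, hl, hle⟩ := FractionalIdeal.mem_singleton_mul.mp (hmB hxu)
    refine FractionalIdeal.mem_singleton_mul.mpr ⟨l + (a : M) * x, ?_, ?_⟩
    · exact Submodule.add_mem (latL (C * B) : Submodule (𝓞 M) M) hl (smul_int_mem hx a)
    · linear_combination hle - x * he'
  refine ⟨u, ⟨hu, hxu'⟩, ?_⟩
  rintro u' ⟨hu', hxu''⟩
  refine (hS.eq_iff hu' hu).mp ?_
  have hd : u' - u ∈ latL B :=
    Submodule.sub_mem (latL B : Submodule (𝓞 M) M) (hS.1 u' hu') (hS.1 u hu)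
  have hd' := Submodule.sub_mem _ (FractionalIdeal.mem_coe.mpr hxu')
    (FractionalIdeal.mem_coe.mpr hxu'')
  rw [sub_sub_sub_cancel_left, FractionalIdeal.mem_coe] at hd'
  obtain ⟨l, hl, hle⟩ := FractionalIdeal.mem_singleton_mul.mp hd'
  refine FractionalIdeal.mem_singleton_mul.mpr ⟨(e₁ : M) * l + (a : M) * (u' - u), ?_, ?_⟩
  · exact Submodule.add_mem (latL B : Submodule (𝓞 M) M) (h1 hl) (smul_int_mem hd a)
  · linear_combination (e₁ : M) * hle - (u' - u) * he'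

theorem wt_twist (hB : B ≠ ⊥) {h : M} (hh : h ∈ latL B) :
    D.wt (C * B) h = D.chi C * D.wt B h := by
  classical
  by_cases h0 : h = 0
  · rw [DihData.wt, DihData.wt, if_pos h0, if_pos h0, map_mul]
    split_ifs <;> simp
  · obtain ⟨I, hI⟩ := exists_ideal_of_mem hB hh
    rw [D.wt_of_eq h0 hI, ← map_mul]
    refine D.wt_of_eq h0 ?_
    rw [FractionalIdeal.coeIdeal_mul, FractionalIdeal.coeIdeal_mul, hI, mul_left_comm]

theorem absNorm_conjI (I : Ideal (𝓞 M)) :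
    Ideal.absNorm (D.toQuad.conjI I) = Ideal.absNorm I := by
  rw [Ideal.absNorm_apply, Ideal.absNorm_apply, Submodule.cardQuot_apply,
    Submodule.cardQuot_apply]
  exact (Nat.card_congr (Ideal.quotientEquiv I (D.toQuad.conjI I) D.toQuad.conjO rfl).toEquiv).symm

theorem absNorm_twist (hCC : C * D.toQuad.conjI C = extI K M (Ideal.span {η})) :
    (Ideal.absNorm C : ℚ) = |Algebra.norm ℚ (η : K)| := by
  have h := congrArg (fun I : Ideal (𝓞 M) => (Ideal.absNorm I : ℚ)) hCC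
  simp only [map_mul, absNorm_conjI, Nat.cast_mul] at h
  rw [extI, Ideal.map_span, Set.image_singleton,
    ← FractionalIdeal.coeIdeal_absNorm (K := M)
      (Ideal.span {algebraMap (𝓞 K) (𝓞 M) η}),
    FractionalIdeal.coeIdeal_span_singleton, FractionalIdeal.absNorm_span_singleton] at h
  have hN : Algebra.norm ℚ (algebraMap (𝓞 M) M (algebraMap (𝓞 K) (𝓞 M) η)) =
      Algebra.norm ℚ (η : K) ^ 2 := by
    rw [show algebraMap (𝓞 M) M (algebraMap (𝓞 K) (𝓞 M) η) = algebraMap K M (η : K) from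
        algebraMap_coe_int η, ← Algebra.norm_norm (R := ℚ) (S := K), Algebra.norm_algebraMap,
      D.toQuad.finrank_two, map_pow]
  rw [hN, abs_pow] at h
  nlinarith [abs_nonneg (Algebra.norm ℚ (η : K)), (Ideal.absNorm C).cast_nonneg (α := ℚ),
    mul_self_eq_mul_self_iff.mp (h.trans (pow_two _))]

/-- The mean of the weight of a pair against the character of `s`. -/
def cuspMean (D : DihData K M) (kap : ℂ) (ξ : K) (B : Ideal (𝓞 M)) (m : 𝓞 M) (S : Finset M)
    (s : K) : ℂ :=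
  kap / ((FractionalIdeal.absNorm
      (FractionalIdeal.spanSingleton (𝓞 M)⁰ (m : M) * latL B) : ℚ) : ℂ) *
    ∑ h ∈ S, psi (s * (ξ * Algebra.norm K h)) * D.wt B h

/-- **The mean is multiplied by the character under twisting.** -/
theorem cuspMean_twist (hp : D.IsPair t ξ B) (_hC : C ≠ ⊥) (hη0 : η ≠ 0)
    (hCC : C * D.toQuad.conjI C = extI K M (Ideal.span {η})) {s : K}
    (hηs : s * ((η : K) - 1) ∈ idI t) {kap : K → ℂ}
    (hkap : ∀ c ξ' : K, kap (c * ξ') = kap ξ' / ((|Algebra.norm ℚ c| : ℚ) : ℂ))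
    {m : 𝓞 M} {S : Finset M} (hS : ∀ h ∈ S, h ∈ latL B) :
    cuspMean D (kap (ξ * (η : K))) (ξ * (η : K)) (C * B) m S s =
      D.chi C * cuspMean D (kap ξ) ξ B m S s := by
  have hsum : ∀ h ∈ S, psi (s * (ξ * (η : K) * Algebra.norm K h)) * D.wt (C * B) h =
      D.chi C * (psi (s * (ξ * Algebra.norm K h)) * D.wt B h) := by
    intro h hh
    rw [wt_twist hp.ne_bot (hS h hh), psi_eq_of_sub (b := s * (ξ * Algebra.norm K h))]
    · ring
    · rw [show s * (ξ * (η : K) * Algebra.norm K h) - s * (ξ * Algebra.norm K h) =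
        s * ((η : K) - 1) * (ξ * Algebra.norm K h) by ring,
        ← D.toQuad.bil_theta ξ D.trace_theta]
      exact hp.psi_bil hηs (smul_int_mem (hS h hh) D.theta) (hS h hh)
  rw [cuspMean, cuspMean, Finset.sum_congr rfl hsum, ← Finset.mul_sum, mul_comm ξ, hkap,
    latL, latL, FractionalIdeal.coeIdeal_mul, mul_inv]
  simp only [map_mul, map_inv₀, FractionalIdeal.coeIdeal_absNorm, absNorm_twist hCC]
  have hN : ((|Algebra.norm ℚ (η : K)| : ℚ) : ℂ) ≠ 0 := by
    simpa using RingOfIntegers.coe_ne_zero_iff.mpr hη0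
  push_cast
  field_simp

end DihData

end Fermat.Agent.LT.Dihedral

end
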