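import Fermat.Agent.LT.Dihedral.Pairs
import Fermat.Agent.LT.Dihedral.UnitSum

/-!
# Systems of representatives of pairs up to scaling by `M^×`
-/

set_option autoImplicit false
set_option maxHeartbeats 400000

noncomputable section

namespace Fermat.Agent.LT.Dihedral

open NumberField IsDedekindDomain Adelic
open scoped nonZeroDivisors

variable {K M : Type*} [Field K] [NumberField K] [Field M] [NumberField M] [Algebra K M]

namespace DihData

variable (D : DihData K M)

/-- `q` is obtained from `p` by scaling with an element of `M^×`. -/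
def PairRel (p q : K × Ideal (𝓞 M)) : Prop :=
  ∃ x : M, x ≠ 0 ∧ q.1 = p.1 * Algebra.norm K x ∧
    (q.2 : FractionalIdeal (𝓞 M)⁰ M) =
      FractionalIdeal.spanSingleton (𝓞 M)⁰ x * (p.2 : FractionalIdeal (𝓞 M)⁰ M)

/-- A complete system of representatives of the pairs at `t` up to scaling. -/
structure IsPairReps {κ : Type*} (t : (FiniteAdeleRing (𝓞 K) K)ˣ)
    (p : κ → K × Ideal (𝓞 M)) : Prop where
  isPair : ∀ k, D.IsPair t (p k).1 (p k).2
  exists_unique : ∀ ξ B, D.IsPair t ξ B → ∃! k, PairRel (p k) (ξ, B)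

/-- Multiplication of pairs by `(η, C)`. -/
def pairShift (η : K) (C : Ideal (𝓞 M)) (p : K × Ideal (𝓞 M)) : K × Ideal (𝓞 M) :=
  (p.1 * η, C * p.2)

end DihData

end Fermat.Agent.LT.Dihedral

end
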