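import Fermat.Agent.LT.Dihedral.Level
import Fermat.Agent.LT.Adelic.Approx

/-!
# The ideals of finite ideles, approximation of ideles, uniformisers
-/

set_option autoImplicit false
set_option maxHeartbeats 400000

noncomputable section

namespace Fermat.Agent.LT.Dihedral

open NumberField IsDedekindDomain Adelic WithZero
open scoped nonZeroDivisors

variable {K : Type*} [Field K] [NumberField K]

local notation "𝔸" => FiniteAdeleRing (𝓞 K) K

theorem idI_mul (s t : 𝔸ˣ) : idI (s * t) = idI s * idI t := by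
  simp only [idI, ideleIdeal]
  rw [← finprod_mul_distrib]
  · refine finprod_congr fun v => ?_
    rw [ordAt_mul, zpow_add₀ ((FractionalIdeal.coeIdeal_ne_zero (K := K)).mpr v.ne_bot)]
  · exact (Filter.eventually_cofinite.mp (ordAt_eventually_zero s)).subset fun v hv h0 => hv (by
      simp only; rw [h0, zpow_zero])
  · exact (Filter.eventually_cofinite.mp (ordAt_eventually_zero t)).subset fun v hv h0 => hv (by
      simp only; rw [h0, zpow_zero])

theorem idI_unitIdele {u : 𝔸ˣ} (hu : IsUnitIdele u) : idI u = 1 := by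
  simp only [idI, ideleIdeal]
  refine finprod_eq_one_of_forall_eq_one fun v => ?_
  rw [ordAt, hu v, log_one, neg_zero, zpow_zero]

theorem idI_one : idI (1 : 𝔸ˣ) = 1 :=
  idI_unitIdele fun v => by rw [Units.val_one, coe_apply_one, map_one]

theorem idI_inv (t : 𝔸ˣ) : idI t⁻¹ = (idI t)⁻¹ := by
  refine eq_inv_of_mul_eq_one_left ?_
  rw [← idI_mul, inv_mul_cancel, idI_one]

theorem idI_principal (x : Kˣ) :
    idI (principalIdele x : 𝔸ˣ) = FractionalIdeal.spanSingleton (𝓞 K)⁰ (x : K) := by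
  simp only [idI, ideleIdeal]
  rw [finprod_congr fun v => by rw [ordAt_principalIdele]]
  exact FractionalIdeal.finprod_heightOneSpectrum_factorization' (K := K)
    (FractionalIdeal.spanSingleton_ne_zero_iff.mpr x.ne_zero)

theorem coe_principalIdele (x : Kˣ) :
    ((principalIdele x : 𝔸ˣ) : 𝔸) = algebraMap K 𝔸 (x : K) := rfl

theorem idele_inv_apply (t : 𝔸ˣ) (v : HeightOneSpectrum (𝓞 K)) :
    ((t⁻¹ : 𝔸ˣ) : 𝔸) v = ((t : 𝔸) v)⁻¹ := by
  refine eq_inv_of_mul_eq_one_left ?_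
  rw [← coe_apply_mul, Units.inv_mul, coe_apply_one]

theorem valued_le_one_iff_ordAt (t : 𝔸ˣ) (v : HeightOneSpectrum (𝓞 K)) :
    Valued.v ((t : 𝔸) v) ≤ 1 ↔ 0 ≤ ordAt t v := by
  rw [valued_eq_exp_ordAt, ← exp_zero, exp_le_exp]
  omega

/-- An idele has integral ideal iff it is an integral adele. -/
theorem idI_le_one_iff (t : 𝔸ˣ) : idI t ≤ 1 ↔ (t : 𝔸) ∈ intAdele (𝓞 K) K := by
  rw [mem_intAdele]
  simp only [valued_le_one_iff_ordAt]
  constructor
  · intro h v
    have h1 := FractionalIdeal.count_mono K v (ideleIdeal_ne_zero t) h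
    rwa [FractionalIdeal.count_one, count_ideleIdeal] at h1
  · intro h
    simp only [idI, ideleIdeal]
    refine finprod_induction (fun I : FractionalIdeal (𝓞 K)⁰ K => I ≤ 1) le_rfl
      (fun x y hx hy => (mul_le_mul' hx hy).trans (one_mul 1).le) fun v => ?_
    obtain ⟨k, hk⟩ := Int.eq_ofNat_of_zero_le (h v)
    rw [hk, zpow_natCast, ← FractionalIdeal.coeIdeal_pow]
    exact FractionalIdeal.coeIdeal_le_one

/-- Membership in the ideal of an idele, adelically. -/
theorem mem_idI_iff (t : 𝔸ˣ) (x : K) :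
    x ∈ idI t ↔ ((t⁻¹ : 𝔸ˣ) : 𝔸) * algebraMap K 𝔸 x ∈ intAdele (𝓞 K) K := by
  rcases eq_or_ne x 0 with rfl | hx
  · rw [map_zero, mul_zero]
    exact iff_of_true (Submodule.zero_mem _) (zero_mem _)
  have h := idI_le_one_iff (t⁻¹ * principalIdele (Units.mk0 x hx))
  rw [idI_mul, idI_principal, Units.val_mk0, Units.val_mul, coe_principalIdele,
    Units.val_mk0, idI_inv] at h
  rw [← h, inv_mul_le_iff₀ (bot_lt_iff_ne_bot.mpr (ideleIdeal_ne_zero t)), mul_one,
    FractionalIdeal.spanSingleton_le_iff_mem]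

theorem valued_inv_mul_le_iff (t : 𝔸ˣ) (a : 𝔸) (v : HeightOneSpectrum (𝓞 K))
    (c : WithZero (Multiplicative ℤ)) :
    Valued.v ((((t⁻¹ : 𝔸ˣ) : 𝔸) * a) v) ≤ c ↔ Valued.v (a v) ≤ c * Valued.v ((t : 𝔸) v) := by
  rw [coe_apply_mul, map_mul, idele_inv_apply, map_inv₀,
    inv_mul_le_iff₀ (zero_lt_iff.mpr (valued_unit_ne_zero t v)), mul_comm]

theorem algebraMap_coe (r : 𝓞 K) : algebraMap K 𝔸 (r : K) = algebraMap (𝓞 K) 𝔸 r :=
  (IsScalarTower.algebraMap_apply (𝓞 K) K 𝔸 r).symm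

/-- Membership in `n` times the ideal of an idele. -/
theorem mem_span_mul_idI {n : 𝓞 K} (hn : n ≠ 0) (t : 𝔸ˣ) (x : K) :
    x ∈ FractionalIdeal.spanSingleton (𝓞 K)⁰ (n : K) * idI t ↔
      MemMul n (((t⁻¹ : 𝔸ˣ) : 𝔸) * algebraMap K 𝔸 x) := by
  have hn' : (n : K) ≠ 0 := by exact_mod_cast hn
  rw [← Units.val_mk0 hn', ← idI_principal, ← idI_mul, mem_idI_iff, mem_intAdele]
  refine forall_congr' fun v => ?_
  rw [valued_inv_mul_le_iff, valued_inv_mul_le_iff, one_mul, Units.val_mul, coe_apply_mul,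
    map_mul, coe_principalIdele, Units.val_mk0]
  simp only [valued_algebraMap, HeightOneSpectrum.valuation_of_algebraMap]

theorem mem_span_mul_inv_idI {n : 𝓞 K} (hn : n ≠ 0) (t : 𝔸ˣ) (x : K) :
    x ∈ FractionalIdeal.spanSingleton (𝓞 K)⁰ (n : K) * (idI t)⁻¹ ↔
      MemMul n ((t : 𝔸) * algebraMap K 𝔸 x) := by
  rw [← idI_inv, mem_span_mul_idI hn, inv_inv]

/-- An element of `K` integral as an adele is an integer. -/
theorem exists_int_of_adele {x : K} (h : algebraMap K 𝔸 x ∈ intAdele (𝓞 K) K) :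
    ∃ r : 𝓞 K, (r : K) = x := by
  have h1 : x ∈ idI (1 : 𝔸ˣ) := by rw [mem_idI_iff, inv_one, Units.val_one, one_mul]; exact h
  rw [idI_one, FractionalIdeal.mem_one_iff] at h1
  exact h1

theorem dvd_of_memMul {n r : 𝓞 K} (hn : n ≠ 0)
    (h : MemMul n (algebraMap (𝓞 K) 𝔸 r)) : n ∣ r := by
  have hn' : (n : K) ≠ 0 := by exact_mod_cast hn
  have h1 : (r : K) ∈ FractionalIdeal.spanSingleton (𝓞 K)⁰ (n : K) * idI (1 : 𝔸ˣ) := by
    rw [mem_span_mul_idI hn, inv_one, Units.val_one, one_mul, algebraMap_coe]; exact h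
  rw [idI_one, mul_one, FractionalIdeal.mem_spanSingleton] at h1
  obtain ⟨z, hz⟩ := h1
  refine ⟨z, RingOfIntegers.ext ?_⟩
  simp only [← hz, Algebra.smul_def]
  push_cast
  ring

/-- Every idele is multiplicatively congruent to an element of `Kˣ` modulo any `m ≠ 0`. -/
theorem exists_near_idele (s : 𝔸ˣ) {m : 𝓞 K} (hm : m ≠ 0) :
    ∃ x : Kˣ, MemMul m (((s⁻¹ : 𝔸ˣ) : 𝔸) * algebraMap K 𝔸 (x : K) - 1) := by
  obtain ⟨d, hd, hds⟩ := exists_den ((s⁻¹ : 𝔸ˣ) : 𝔸)
  obtain ⟨x, hx⟩ := exists_memMul_sub (s : 𝔸) (mul_ne_zero hd hm)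
  have key : ∀ y : K, MemMul (d * m) (algebraMap K 𝔸 y - (s : 𝔸)) →
      MemMul m (((s⁻¹ : 𝔸ˣ) : 𝔸) * algebraMap K 𝔸 y - 1) := by
    intro y hy v
    have h1 := hy v
    have h2 := mem_intAdele.mp hds v
    rw [coe_apply_mul, map_mul, valued_algebraMap_int] at h2
    rw [← Units.inv_mul s, ← mul_sub, coe_apply_mul, map_mul]
    calc Valued.v (((s⁻¹ : 𝔸ˣ) : 𝔸) v) * Valued.v ((algebraMap K 𝔸 y - (s : 𝔸)) v)
        ≤ Valued.v (((s⁻¹ : 𝔸ˣ) : 𝔸) v) * (v.intValuation d * v.intValuation m) := by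
          rw [← map_mul v.intValuation]; exact mul_le_mul' le_rfl h1
      _ = v.intValuation d * Valued.v (((s⁻¹ : 𝔸ˣ) : 𝔸) v) * v.intValuation m := by ac_rfl
      _ ≤ v.intValuation m := mul_le_of_le_one_left' h2
  rcases eq_or_ne x 0 with h0 | h0
  · subst h0
    have hdm : ((d * m : 𝓞 K) : K) ≠ 0 := by exact_mod_cast mul_ne_zero hd hm
    refine ⟨Units.mk0 _ hdm, key _ ?_⟩
    rw [Units.val_mk0, algebraMap_coe]
    rw [map_zero, sub_zero] at hx
    exact (memMul_algebraMap _).sub hx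
  · refine ⟨Units.mk0 x h0, key _ ?_⟩
    rw [Units.val_mk0, ← neg_sub]
    exact hx.neg

theorem exists_uniformiserAt (v : HeightOneSpectrum (𝓞 K)) :
    ∃ ϖ : 𝔸ˣ, IsUniformiserAt v ϖ := by
  classical
  obtain ⟨π, hπ⟩ := v.valuation_exists_uniformizer K
  let x : 𝔸 :=
    ⟨fun w => if w = v then (π : w.adicCompletion K) else 1,
      (Set.finite_singleton v).subset fun w hw => by
        by_contra h
        refine hw ?_
        show Valued.v (if w = v then (π : w.adicCompletion K) else 1) ≤ 1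
        rw [if_neg (show ¬ w = v from h), map_one]⟩
  have hx : ∀ w, x w = if w = v then (π : w.adicCompletion K) else 1 := fun _ => rfl
  have hv : Valued.v (x v) = exp (-1 : ℤ) := by
    rw [hx, if_pos rfl, HeightOneSpectrum.adicCompletion.valued_coe, hπ]
  have hu : IsUnit x := isUnit_of_forall (fun w h => by
      rw [hx] at h
      split_ifs at h with hw
      · subst hw; rw [hx, if_pos rfl, h, map_zero] at hv; exact exp_ne_zero hv.symm
      · exact one_ne_zero h)
    ((Set.finite_singleton v).subset fun w hw => by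
      by_contra h
      refine hw ?_
      show Valued.v (x w) = 1
      rw [hx, if_neg (show ¬ w = v from h), map_one])
  exact ⟨hu.unit, by rw [IsUnit.unit_spec]; exact hv, fun w hw => by
    rw [IsUnit.unit_spec, hx, if_neg hw]⟩

variable {v : HeightOneSpectrum (𝓞 K)} {ϖ : (FiniteAdeleRing (𝓞 K) K)ˣ}

theorem ordAt_uniformiser_self (h : IsUniformiserAt v ϖ) : ordAt ϖ v = 1 := by
  rw [ordAt, h.1, log_exp, neg_neg]

theorem ordAt_uniformiser_ne (h : IsUniformiserAt v ϖ) {w : HeightOneSpectrum (𝓞 K)}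
    (hw : w ≠ v) : ordAt ϖ w = 0 := by
  rw [ordAt, h.2 w hw, map_one, log_one, neg_zero]

theorem idI_uniformiser (h : IsUniformiserAt v ϖ) :
    idI ϖ = (v.asIdeal : FractionalIdeal (𝓞 K)⁰ K) := by
  simp only [idI, ideleIdeal]
  rw [finprod_eq_single _ v fun w hw => by rw [ordAt_uniformiser_ne h hw, zpow_zero],
    ordAt_uniformiser_self h, zpow_one]

theorem intValuation_eq_one_of_not_mem {n : 𝓞 K} (hv : n ∉ v.asIdeal) : v.intValuation n = 1 :=
  (v.intValuation_le_one n).lt_or_eq.resolve_left fun h =>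
    hv ((HeightOneSpectrum.intValuation_lt_one_iff_mem v n).mp h)

/-- A uniformiser at a place prime to `n` is congruent to one modulo `n`. -/
theorem memMul_uniformiser_sub_one (h : IsUniformiserAt v ϖ) {n : 𝓞 K} (hv : n ∉ v.asIdeal) :
    MemMul n ((ϖ : 𝔸) - 1) := fun w => by
  rw [coe_apply_sub, coe_apply_one]
  by_cases hw : w = v
  · subst hw
    rw [intValuation_eq_one_of_not_mem hv]
    refine (Valuation.map_sub _ _ _).trans (max_le ?_ (map_one _).le)
    rw [h.1, ← exp_zero, exp_le_exp]; omega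
  · rw [h.2 w hw, sub_self, map_zero]; exact zero_le

end Fermat.Agent.LT.Dihedral

end
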