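import Fermat.Agent.LT.Dihedral.Invariance
import Fermat.Agent.LT.Dihedral.RepsDefs
import Fermat.Agent.LT.Dihedral.Coeff
import Fermat.Agent.LT.Dihedral.Ideles

/-!
# The family `F t` with coefficients `coef t α` and theta integrals over representative pairs
-/

set_option autoImplicit false
set_option maxHeartbeats 400000

noncomputable section

namespace Fermat.Agent.LT.Dihedral

open NumberField IsDedekindDomain Adelic MeasureTheory Matrix Filter
open Theta (whitProd whitAbs IsWhitSeries qWhit besselK0 besselK0_nonneg)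
open Poisson (eC)
open scoped nonZeroDivisors Topology

variable {K M : Type*} [Field K] [NumberField K] [Field M] [NumberField M] [Algebra K M]
  {ι : Type*} [Fintype ι] (Φ : Frame K ι)

/-- `diag(x, 1)` on a term. -/
theorem whitProd_act_diag (x : Kˣ) (α : K) (τ : ι → HSpace) :
    whitProd (xiV Φ α) (act Φ (diag2 x 1) τ) =
      ((∏ i, ‖Φ.emb i (x : K)‖ : ℝ) : ℂ) * whitProd (xiV Φ ((x : K) * α)) τ := by
  rw [whitProd, whitProd, Complex.ofReal_prod, ← Finset.prod_mul_distrib]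
  refine Finset.prod_congr rfl fun i _ => ?_
  have hx : Φ.emb i (x : K) ≠ 0 := by simp
  have hr : (act Φ (diag2 x 1) τ i).r = ‖Φ.emb i (x : K)‖ * (τ i).r := by
    rw [act, toInf_diag2]
    simp [HSpace.smul_r, HSpace.absDet, HSpace.denSq, Matrix.det_fin_two]
  have hz : (act Φ (diag2 x 1) τ i).z = Φ.emb i (x : K) * (τ i).z := by
    rw [act, toInf_diag2]
    simp [HSpace.smul_z, HSpace.denSq]
  rw [hr, hz, show xiV Φ ((x : K) * α) i = Φ.emb i (x : K) * xiV Φ α i from map_mul _ _ _, norm_mul,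
    show Φ.emb i (x : K) * (τ i).z * xiV Φ α i = (τ i).z * (Φ.emb i (x : K) * xiV Φ α i) by ring,
    show 4 * Real.pi * (‖Φ.emb i (x : K)‖ * (τ i).r) * ‖xiV Φ α i‖ =
      4 * Real.pi * (τ i).r * (‖Φ.emb i (x : K)‖ * ‖xiV Φ α i‖) by ring]
  push_cast
  ring

/-- A series over a finite family of theta integrals: the constant terms cancel if the sum
vanishes identically. -/
theorem sum_const_eq_zero (D : Quad K M) {E : Subgroup (𝓞 M)ˣ} (hE : IsUnfoldGroup D E)
    {κ : Type*} [Fintype κ] {ξ : κ → K} (hξ : ∀ k, ξ k ≠ 0) {b : κ → M → ℂ}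
    (hb : ∀ k, Adm (b k)) (hbi : ∀ k, UnitInv E (b k))
    (h0 : ∀ τ, ∑ k, thetaInt Φ D hE (ξ k) (b k) τ = 0) : ∑ k, b k 0 = 0 := by
  classical
  have : Nonempty ι := frame_nonempty Φ
  set C : ℂ := ∑ k, b k 0
  set w : (Σ _ : κ, MulAction.orbitRel.Quotient E (Punct M)) → ℂ := fun p => b p.1 p.2.out.val
  set α : (Σ _ : κ, MulAction.orbitRel.Quotient E (Punct M)) → ι → ℂ :=
    fun p => xiV Φ (ξ p.1 * Algebra.norm K p.2.out.val) with hα
  have : Countable (MulAction.orbitRel.Quotient E (Punct M)) := Quotient.countable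
  have hw : IsWhitSeries w α :=
    { ne_zero := fun p i => (isWhitSeries_orbit Φ D hE (hξ p.1) (hb p.1) (hbi p.1)).ne_zero p.2 i
      summable := fun r hr => (summable_sigma_of_nonneg (fun p => mul_nonneg (norm_nonneg _)
          (Finset.prod_nonneg fun i _ => mul_nonneg (mul_nonneg zero_le_two (hr i).le)
            (besselK0_nonneg _)))).mpr
        ⟨fun k => (isWhitSeries_orbit Φ D hE (hξ k) (hb k) (hbi k)).summable r hr,
          Summable.of_finite⟩ }
  have hsum : ∀ τ : ι → HSpace, ∑' p, w p * whitProd (α p) τ =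
      -((unitVol Φ D hE * ∏ i, (τ i).r : ℝ) : ℂ) * C := by
    intro τ
    rw [(hw.summable_term τ).tsum_sigma, tsum_fintype, neg_mul, eq_neg_iff_add_eq_zero,
      Finset.mul_sum, ← Finset.sum_add_distrib, ← h0 τ]
    refine Finset.sum_congr rfl fun k _ => ?_
    rw [thetaInt_eq Φ D hE (hξ k) (hb k) (hbi k), add_comm]
    congr 1
    exact tsum_congr fun q => by rw [pPt, qWhit_mPt]
  have hlim := hw.tendsto_average (fun _ => 1) fun _ => one_pos
  simp only [hsum, Finset.prod_const_one, mul_one] at hlim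
  have hconst := hlim.congr' (f₂ := fun _ => -((unitVol Φ D hE : ℝ) : ℂ) * C) <| by
    filter_upwards [eventually_gt_atTop (0 : ℝ)] with R hR
    refine setAverage_const ?_ ?_ _
    · rw [volume_pi_pi, Finset.prod_ne_zero_iff]
      exact fun i _ => (Metric.measure_closedBall_pos volume _ hR).ne'
    · exact (isCompact_univ_pi fun _ => isCompact_closedBall _ _).measure_lt_top.ne
  have := tendsto_nhds_unique hconst tendsto_const_nhds
  rcases mul_eq_zero.mp this.symm with h | h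
  · simp [(unitVol_pos Φ D hE).ne'] at h
  · exact h

namespace DihData

variable (D : DihData K M)

/-- The normalising factor `n(t)^{-1/2}`. -/
def nrm (t : (FiniteAdeleRing (𝓞 K) K)ˣ) : ℂ :=
  ((Real.sqrt (FractionalIdeal.absNorm (idI t) : ℚ))⁻¹ : ℝ)

theorem coef_eq (t : (FiniteAdeleRing (𝓞 K) K)ˣ) (α : K) :
    D.coef t α = nrm t * D.bK (FractionalIdeal.spanSingleton (𝓞 K)⁰ α * tdI t) := rfl

/-- The function attached to `diag(t, 1)`. -/
def formF (t : (FiniteAdeleRing (𝓞 K) K)ˣ) (τ : ι → HSpace) : ℂ :=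
  ∑' α : K, D.coef t α * whitProd (xiV Φ α) τ

theorem formF_ideal_congr {t t' : (FiniteAdeleRing (𝓞 K) K)ˣ} (h : idI t = idI t') :
    D.formF Φ t = D.formF Φ t' := by
  funext τ
  simp only [formF, coef, tdI, h]

theorem idI_principal_mul (x : Kˣ) (t : (FiniteAdeleRing (𝓞 K) K)ˣ) :
    idI (principalIdele x * t) = FractionalIdeal.spanSingleton (𝓞 K)⁰ (x : K) * idI t := by
  rw [idI_mul, idI_principal]

theorem formF_diag (x : Kˣ) (t : (FiniteAdeleRing (𝓞 K) K)ˣ) (τ : ι → HSpace) :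
    D.formF Φ (principalIdele x * t) (act Φ (diag2 x 1) τ) = D.formF Φ t τ := by
  have hP : 0 < ∏ i, ‖Φ.emb i (x : K)‖ := Finset.prod_pos fun i _ => by simp
  have hn : nrm (principalIdele x * t) =
      nrm t * (((∏ i, ‖Φ.emb i (x : K)‖ : ℝ) : ℂ))⁻¹ := by
    rw [nrm, nrm, idI_principal_mul, map_mul, FractionalIdeal.absNorm_span_singleton,
      ← Complex.ofReal_inv, ← Complex.ofReal_mul, Rat.cast_mul, abs_norm_rat_eq_prod Φ,
      Real.sqrt_mul (Finset.prod_nonneg fun i _ => sq_nonneg _), Finset.prod_pow,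
      Real.sqrt_sq hP.le, mul_inv, mul_comm]
  rw [formF, formF, ← (Equiv.mulLeft₀ (x : K) x.ne_zero).tsum_eq (fun α => D.coef t α * _)]
  refine tsum_congr fun α => ?_
  rw [Equiv.mulLeft₀_apply, whitProd_act_diag, coef_eq, coef_eq, hn,
    show FractionalIdeal.spanSingleton (𝓞 K)⁰ α * tdI (principalIdele x * t) =
      FractionalIdeal.spanSingleton (𝓞 K)⁰ ((x : K) * α) * tdI t by
      rw [tdI, idI_principal_mul, tdI, ← FractionalIdeal.spanSingleton_mul_spanSingleton]; ring]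
  have : (((∏ i, ‖Φ.emb i (x : K)‖ : ℝ) : ℂ)) ≠ 0 := by exact_mod_cast hP.ne'
  field_simp

variable {E : Subgroup (𝓞 M)ˣ} (hE : IsUnfoldGroup D.toQuad E)

/-- The facts on representative systems used by the assembly. -/
structure RepsHyp (E : Subgroup (𝓞 M)ˣ) (c : ℂ) : Prop where
  c_ne : c ≠ 0
  exists_reps : ∀ t, ∃ (n : ℕ) (p : Fin n → K × Ideal (𝓞 M)), D.IsPairReps t p
  shift : ∀ {κ : Type} {t t' : (FiniteAdeleRing (𝓞 K) K)ˣ} {p : κ → K × Ideal (𝓞 M)}
    {η : K} {C : Ideal (𝓞 M)}, C ≠ ⊥ → η ≠ 0 →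
    ((C * D.toQuad.conjI C : Ideal (𝓞 M)) : FractionalIdeal (𝓞 M)⁰ M) *
        FractionalIdeal.extendedHom M (𝓞 M) (tdI t) =
      FractionalIdeal.spanSingleton (𝓞 M)⁰ (algebraMap K M η) *
        FractionalIdeal.extendedHom M (𝓞 M) (tdI t') →
    D.IsPairReps t p → D.IsPairReps t' fun k => pairShift η C (p k)
  grouping : ∀ {n : ℕ} {t : (FiniteAdeleRing (𝓞 K) K)ˣ} {p : Fin n → K × Ideal (𝓞 M)},
    D.IsPairReps t p → ∀ α : K, α ≠ 0 →
      ∑ k, orbCoef E (p k).1 (D.wt (p k).2) α =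
        c * D.bK (FractionalIdeal.spanSingleton (𝓞 K)⁰ α * tdI t)
  wt_inv : ∀ B, UnitInv E (D.wt B)

/-- The sum of the theta integrals of a family of pairs. -/
def thetaSum {κ : Type*} [Fintype κ] (p : κ → K × Ideal (𝓞 M)) (τ : ι → HSpace) : ℂ :=
  ∑ k, thetaInt Φ D.toQuad hE (p k).1 (D.wt (p k).2) τ

variable {c : ℂ}

theorem thetaSum_eq (h : D.RepsHyp E c) {n : ℕ} {t : (FiniteAdeleRing (𝓞 K) K)ˣ}
    {p : Fin n → K × Ideal (𝓞 M)} (hp : D.IsPairReps t p)
    (hwt0 : ∑ k, D.wt (p k).2 0 = 0) (τ : ι → HSpace) :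
    D.formF Φ t τ = nrm t / c * D.thetaSum Φ hE p τ := by
  have hs := hasSum_sum fun k (_ : k ∈ (Finset.univ : Finset (Fin n))) =>
    hasSum_thetaInt Φ D.toQuad hE (hp.isPair k).ne_zero (adm_wt (hp.isPair k).ne_bot)
      (h.wt_inv _) τ
  rw [Finset.sum_sub_distrib, ← Finset.mul_sum, hwt0, mul_zero, sub_zero] at hs
  refine ((hs.mul_left (nrm t / c)).congr_fun fun α => ?_).tsum_eq
  rw [← Finset.sum_mul, ← mul_assoc, coef_eq]
  by_cases hα : α = 0
  · subst hα
    rw [Finset.sum_eq_zero fun k _ => orbCoef_zero (hp.isPair k).ne_zero _ _,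
      FractionalIdeal.spanSingleton_zero, zero_mul, D.bK_zero]
    simp
  · rw [h.grouping hp α hα]
    field_simp [h.c_ne]

end DihData

end Fermat.Agent.LT.Dihedral

end
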