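import Fermat.Agent.LT.Data.Galois
import Mathlib.NumberTheory.Zsqrtd.GaussianInt

/-!
# The cyclic subgroup of order four of `Q₈ ⊆ GL₂(𝔽₃)` and its character

`c4Group` consists of the `!![a, -c; c, a]` of determinant one, i.e. the norm one elements of
`𝔽₃[i]`; `c4Char` sends `a + c i` to itself in `ℂ`. The trace of the octahedral lift is
`c4Char g + (c4Char g)⁻¹` on this subgroup and zero on the rest of `Q₈`.
-/

set_option autoImplicit false

noncomputable section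

namespace Fermat.Agent.LT.Dihedral

open scoped MatrixGroups

/-- Membership test for the cyclic subgroup of order four. -/
def InC4 (a b c d : ZMod 3) : Prop := a * d - b * c = 1 ∧ a = d ∧ b = -c

instance (a b c d : ZMod 3) : Decidable (InC4 a b c d) := by unfold InC4; infer_instance

/-- The Gaussian integer attached to an entry pair. -/
def c4Val (a c : ZMod 3) : GaussianInt := ⟨a.valMinAbs, c.valMinAbs⟩

theorem inC4_mul : ∀ a b c d : ZMod 3, InC4 a b c d → ∀ a' b' c' d' : ZMod 3,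
    InC4 a' b' c' d' →
    InC4 (a * a' + b * c') (a * b' + b * d') (c * a' + d * c') (c * b' + d * d') ∧
      c4Val (a * a' + b * c') (c * a' + d * c') = c4Val a c * c4Val a' c' := by
  decide +kernel

theorem inC4_inQuat : ∀ a b c d : ZMod 3, InC4 a b c d → InQuat a b c d := by
  decide +kernel

theorem c4Val_eq_one : ∀ a b c d : ZMod 3, InC4 a b c d → c4Val a c = 1 →
    a = 1 ∧ b = 0 ∧ c = 0 ∧ d = 1 := by
  decide +kernel

theorem inQuat_trace : ∀ a b c d : ZMod 3, InQuat a b c d →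
    (InC4 a b c d → (liftQuad a b c d).e00 + (liftQuad a b c d).e11 =
      ⟨2 * a.valMinAbs, 0⟩) ∧
    (¬ InC4 a b c d → (liftQuad a b c d).e00 + (liftQuad a b c d).e11 = 0) := by
  decide +kernel

theorem inQuat_unipotent : ∀ a b c d : ZMod 3, InQuat a b c d →
    (!![a, b; c, d] - 1) ^ 2 = (0 : Matrix (Fin 2) (Fin 2) (ZMod 3)) →
    a = 1 ∧ b = 0 ∧ c = 0 ∧ d = 1 := by
  decide +kernel

theorem notC4_mul : ∀ a b c d : ZMod 3, InQuat a b c d → ¬ InC4 a b c d →
    ∀ a' b' c' d' : ZMod 3, InQuat a' b' c' d' → ¬ InC4 a' b' c' d' →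
    InC4 (a * a' + b * c') (a * b' + b * d') (c * a' + d * c') (c * b' + d * d') := by
  decide +kernel

theorem notC4_sq : ∀ a b c d : ZMod 3, InQuat a b c d → ¬ InC4 a b c d →
    a * a + b * c = -1 ∧ a * b + b * d = 0 ∧ c * a + d * c = 0 ∧ c * b + d * d = -1 := by
  decide +kernel

theorem notC4_conj : ∀ a b c d : ZMod 3, InQuat a b c d → ¬ InC4 a b c d →
    ∀ x y z w : ZMod 3, InC4 x y z w →
    a * x + b * z = w * a - y * c ∧ a * y + b * w = w * b - y * d ∧
      c * x + d * z = -z * a + x * c ∧ c * y + d * w = -z * b + x * d := by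
  decide +kernel

/-- The subgroup `C₄`. -/
def c4Group : Subgroup (GL (Fin 2) (ZMod 3)) where
  carrier := {g | InC4 (g 0 0) (g 0 1) (g 1 0) (g 1 1)}
  one_mem' := by
    show InC4 _ _ _ _
    simp [InC4]
  mul_mem' := fun {g h} hg hh => by
    show InC4 _ _ _ _
    simpa [Units.val_mul, Matrix.mul_apply, Fin.sum_univ_two] using
      (inC4_mul _ _ _ _ hg _ _ _ _ hh).1
  inv_mem' := fun {g} hg => by
    have hg' : InC4 (g 0 0) (g 0 1) (g 1 0) (g 1 1) := hg
    have hd : (g : Matrix (Fin 2) (Fin 2) (ZMod 3)).det = 1 := by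
      rw [Matrix.det_fin_two]; exact hg'.1
    show InC4 _ _ _ _
    rw [Matrix.coe_units_inv, Matrix.inv_def, hd, Ring.inverse_one, one_smul,
      Matrix.adjugate_fin_two]
    obtain ⟨h1, h2, h3⟩ := hg'
    simp only [InC4, Matrix.of_apply, Matrix.cons_val', Matrix.cons_val_zero, Matrix.cons_val_one,
      Matrix.cons_val_fin_one]
    exact ⟨by linear_combination h1, h2.symm, by rw [h3]⟩

theorem mem_c4Group {g : GL (Fin 2) (ZMod 3)} :
    g ∈ c4Group ↔ InC4 (g 0 0) (g 0 1) (g 1 0) (g 1 1) := Iff.rfl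

theorem c4Group_le : c4Group ≤ quatSubgroup := fun _ hg => inC4_inQuat _ _ _ _ hg

/-- `c4Char` as a homomorphism to the Gaussian integers. -/
def c4Gauss : c4Group →* GaussianInt where
  toFun g := c4Val ((g : GL (Fin 2) (ZMod 3)) 0 0) ((g : GL (Fin 2) (ZMod 3)) 1 0)
  map_one' := by
    have : c4Val 1 0 = 1 := by decide +kernel
    simpa [Matrix.one_apply] using this
  map_mul' g h := by
    simpa [Units.val_mul, Matrix.mul_apply, Fin.sum_univ_two] using
      (inC4_mul _ _ _ _ g.2 _ _ _ _ h.2).2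

/-- The faithful character of `C₄`. -/
def c4Char : c4Group →* ℂˣ :=
  ((GaussianInt.toComplex : GaussianInt →+* ℂ).toMonoidHom.comp c4Gauss).toHomUnits

theorem c4Char_coe (g : c4Group) :
    (c4Char g : ℂ) = GaussianInt.toComplex (c4Gauss g) := rfl

theorem c4Char_eq_one {g : c4Group} (h : c4Char g = 1) : g = 1 := by
  have h1 : c4Gauss g = 1 := GaussianInt.toComplex_injective
    (by rw [map_one, ← c4Char_coe, h, Units.val_one])
  obtain ⟨ha, hb, hc, hd⟩ := c4Val_eq_one _ _ _ _ g.2 h1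
  refine Subtype.ext (Units.ext (Matrix.ext fun i j => ?_))
  fin_cases i <;> fin_cases j <;> simp [ha, hb, hc, hd]

theorem c4Char_injective : Function.Injective c4Char :=
  (injective_iff_map_eq_one _).mpr fun _ => c4Char_eq_one

theorem c4Group_pow_four (g : c4Group) : g ^ 4 = 1 := by
  refine Subtype.ext (Units.ext ?_)
  have h := inQuat_pow_four _ _ _ _ (c4Group_le g.2)
  rw [← Matrix.eta_fin_two ((g : GL (Fin 2) (ZMod 3)) : Matrix (Fin 2) (Fin 2) (ZMod 3))] at h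
  simpa using h

theorem c4Char_pow_four (g : c4Group) : c4Char g ^ 4 = 1 := by
  rw [← map_pow, c4Group_pow_four, map_one]

theorem norm_c4Char (g : c4Group) : ‖(c4Char g : ℂ)‖ = 1 :=
  Complex.norm_eq_one_of_pow_eq_one (n := 4)
    (by rw [← Units.val_pow_eq_pow_val, c4Char_pow_four, Units.val_one]) four_ne_zero

theorem octRep_trace_eq (g : GL (Fin 2) (ZMod 3)) :
    ((octRep g : GL (Fin 2) ℂ) : Matrix (Fin 2) (Fin 2) ℂ).trace =
      sqrtNegTwoC ((liftQuad (g 0 0) (g 0 1) (g 1 0) (g 1 1)).e00 +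
        (liftQuad (g 0 0) (g 0 1) (g 1 0) (g 1 1)).e11) := by
  rw [Matrix.trace_fin_two, map_add]
  rfl

/-- The trace on `C₄`. -/
theorem octRep_trace_c4 (g : c4Group) :
    ((octRep (g : GL (Fin 2) (ZMod 3)) : GL (Fin 2) ℂ) : Matrix (Fin 2) (Fin 2) ℂ).trace =
      (c4Char g : ℂ) + ((c4Char g⁻¹ : ℂˣ) : ℂ) := by
  have hg : InC4 _ _ _ _ := g.2
  rw [octRep_trace_eq, (inQuat_trace _ _ _ _ (c4Group_le g.2)).1 hg]
  have h : ((c4Char g⁻¹ : ℂˣ) : ℂ) = starRingEnd ℂ (c4Char g : ℂ) := by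
    rw [map_inv, Units.val_inv_eq_inv_val, Complex.inv_eq_conj (norm_c4Char g)]
  rw [h, Complex.add_conj, c4Char_coe]
  simp [sqrtNegTwoC, Zsqrtd.lift, c4Gauss, c4Val, GaussianInt.toComplex_def]

/-- The trace on the rest of `Q₈`. -/
theorem octRep_trace_notC4 {g : GL (Fin 2) (ZMod 3)} (hq : g ∈ quatSubgroup) (h : g ∉ c4Group) :
    ((octRep g : GL (Fin 2) ℂ) : Matrix (Fin 2) (Fin 2) ℂ).trace = 0 := by
  rw [octRep_trace_eq, (inQuat_trace _ _ _ _ hq).2 h, map_zero]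

theorem mul_mem_c4_of_notMem {g h : GL (Fin 2) (ZMod 3)} (hg : g ∈ quatSubgroup)
    (hg' : g ∉ c4Group) (hh : h ∈ quatSubgroup) (hh' : h ∉ c4Group) : g * h ∈ c4Group := by
  show InC4 _ _ _ _
  simpa [Units.val_mul, Matrix.mul_apply, Fin.sum_univ_two] using
    notC4_mul _ _ _ _ hg hg' _ _ _ _ hh hh'

/-- The involution `-1` of `C₄`. -/
theorem sq_of_notMem {g : GL (Fin 2) (ZMod 3)} (hg : g ∈ quatSubgroup) (hg' : g ∉ c4Group) :
    ∃ h : g * g ∈ c4Group, (c4Char ⟨g * g, h⟩ : ℂ) = -1 := by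
  refine ⟨mul_mem_c4_of_notMem hg hg' hg hg', ?_⟩
  obtain ⟨h1, h2, h3, h4⟩ := notC4_sq _ _ _ _ hg hg'
  rw [c4Char_coe]
  have e : c4Val (-1) 0 = -1 := by decide +kernel
  have : c4Gauss ⟨g * g, mul_mem_c4_of_notMem hg hg' hg hg'⟩ = -1 := by
    show c4Val _ _ = _
    simpa [Units.val_mul, Matrix.mul_apply, Fin.sum_univ_two, h1, h3] using e
  rw [this, map_neg, map_one]

/-- Conjugation by `Q₈ ∖ C₄` inverts `C₄`. -/
theorem conj_c4 {g : GL (Fin 2) (ZMod 3)} (hg : g ∈ quatSubgroup) (hg' : g ∉ c4Group)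
    {x : GL (Fin 2) (ZMod 3)} (hx : x ∈ c4Group) : g * x * g⁻¹ = x⁻¹ := by
  rw [mul_inv_eq_iff_eq_mul]
  refine Units.ext ?_
  have h := notC4_conj _ _ _ _ hg hg' _ _ _ _ hx
  have hd : (x : Matrix (Fin 2) (Fin 2) (ZMod 3)).det = 1 := by
    rw [Matrix.det_fin_two]; exact hx.1
  rw [Units.val_mul, Units.val_mul, Matrix.coe_units_inv, Matrix.inv_def, hd, Ring.inverse_one,
    one_smul, Matrix.adjugate_fin_two]
  obtain ⟨h1, h2, h3, h4⟩ := h
  ext i j
  fin_cases i <;> fin_cases j <;>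
    simp [Matrix.mul_apply, Fin.sum_univ_two, h1, h2, h3, h4, sub_eq_add_neg]

theorem eq_one_of_unipotent {g : GL (Fin 2) (ZMod 3)} (hg : g ∈ quatSubgroup)
    (h : ((g : Matrix (Fin 2) (Fin 2) (ZMod 3)) - 1) ^ 2 = 0) : g = 1 := by
  rw [Matrix.eta_fin_two (g : Matrix (Fin 2) (Fin 2) (ZMod 3))] at h
  obtain ⟨ha, hb, hc, hd⟩ := inQuat_unipotent _ _ _ _ hg h
  refine Units.ext (Matrix.ext fun i j => ?_)
  fin_cases i <;> fin_cases j <;> simp [ha, hb, hc, hd]

/-- An element of `Q₈ ∖ C₄`. -/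
def quatJ : GL (Fin 2) (ZMod 3) := ⟨!![1, 1; 1, -1], !![-1, -1; -1, 1], by decide, by decide⟩

/-- A generator of `C₄`. -/
def quatI : GL (Fin 2) (ZMod 3) := ⟨!![0, -1; 1, 0], !![0, 1; -1, 0], by decide, by decide⟩

theorem quatJ_mem : quatJ ∈ quatSubgroup := by rw [mem_quatSubgroup]; decide

theorem quatJ_notMem : quatJ ∉ c4Group := by rw [mem_c4Group]; decide

theorem quatI_mem : quatI ∈ c4Group := by rw [mem_c4Group]; decide

theorem c4Char_quatI : (c4Char ⟨quatI, quatI_mem⟩ : ℂ) = Complex.I := by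
  rw [c4Char_coe]
  have : c4Gauss ⟨quatI, quatI_mem⟩ = ⟨0, 1⟩ := by
    show c4Val _ _ = _
    decide +kernel
  rw [this]
  simp [GaussianInt.toComplex_def]

/-- `I` generates the image of the character. -/
theorem zpowers_c4Char_quatI : Subgroup.zpowers (c4Char ⟨quatI, quatI_mem⟩) = c4Char.range := by
  refine le_antisymm ((Subgroup.zpowers_le).2 ⟨_, rfl⟩) ?_
  rintro _ ⟨g, rfl⟩
  have key : ∀ a b c d : ZMod 3, InC4 a b c d →
      ∃ n : Fin 4, c4Val a c = (⟨0, 1⟩ : GaussianInt) ^ (n : ℕ) := by decide +kernel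
  obtain ⟨n, hn⟩ := key _ _ _ _ g.2
  refine ⟨((n : ℕ) : ℤ), Units.ext ?_⟩
  show ((c4Char ⟨quatI, quatI_mem⟩ ^ ((n : ℕ) : ℤ) : ℂˣ) : ℂ) = _
  rw [zpow_natCast, Units.val_pow_eq_pow_val, c4Char_quatI, c4Char_coe,
    show c4Gauss g = _ from hn, map_pow]
  simp [GaussianInt.toComplex_def]

end Fermat.Agent.LT.Dihedral

end
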