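import Fermat.Agent.LT.Dihedral.GaloisChar
import Mathlib.RingTheory.IntegralClosure.IntegrallyClosed

/-!
# Assembly of the dihedral data from a `Q₈`-tower
-/

set_option autoImplicit false
set_option linter.unusedSectionVars false
set_option maxHeartbeats 1600000

noncomputable section

namespace Fermat.Agent.LT.Dihedral

open NumberField IsDedekindDomain UniqueFactorizationMonoid
open scoped Pointwise MatrixGroups

variable {K M L : Type} [Field K] [NumberField K] [Field M] [NumberField M] [Field L]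
  [NumberField L] [Algebra K M] [Algebra K L] [Algebra M L] [IsScalarTower K M L]
  [IsGalois K L] [IsGalois M L]

/-- The ideals with norm the square free product `Q Q̄`. -/
theorem setOf_conjI_eq_split (D : Quad K M) {Q : Ideal (𝓞 M)} (hQ : Q.IsMaximal) :
    {I : Ideal (𝓞 M) | I * D.conjI I = Q * D.conjI Q} = {Q, D.conjI Q} := by
  ext I
  simp only [Set.mem_ofPred_eq, Set.mem_insert_iff, Set.mem_singleton_iff]
  refine ⟨fun h => ?_, fun h => ?_⟩
  · have hQ0 : Q ≠ ⊥ :=
      Ring.ne_bot_of_isMaximal_of_not_isField hQ (RingOfIntegers.not_isField M)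
    have hQb0 : D.conjI Q ≠ ⊥ :=
      Ring.ne_bot_of_isMaximal_of_not_isField (conjI_isMaximal D hQ) (RingOfIntegers.not_isField M)
    have aux : ∀ I' : Ideal (𝓞 M), I' * D.conjI I' = Q * D.conjI Q → Q ∣ I' → I' = Q := by
      rintro I' h' ⟨R, rfl⟩
      rw [D.conjI_mul, mul_mul_mul_comm] at h'
      have h1 : R * D.conjI R = 1 :=
        mul_left_cancel₀ (mul_ne_zero hQ0 hQb0) (h'.trans (mul_one _).symm)
      rw [Ideal.one_eq_top] at h1
      rw [top_le_iff.1 (h1.ge.trans Ideal.mul_le_left), Ideal.mul_top]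
    have hdvd : Q ∣ I * D.conjI I := h ▸ dvd_mul_right Q _
    rcases (Ideal.prime_of_isPrime hQ0 hQ.isPrime).dvd_or_dvd hdvd with h1 | h1
    · exact Or.inl (aux I h h1)
    · refine Or.inr ?_
      rw [← aux (D.conjI I) (by rw [D.conjI_conjI, mul_comm]; exact h) h1, D.conjI_conjI]
  · rcases h with rfl | rfl
    · rfl
    · rw [D.conjI_conjI, mul_comm]

/-- No ideal has norm a prime fixed by the involution. -/
theorem setOf_conjI_eq_inert (D : Quad K M) {Q : Ideal (𝓞 M)} (hQ : Q.IsMaximal) :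
    {I : Ideal (𝓞 M) | I * D.conjI I = Q} = ∅ := by
  refine Set.eq_empty_iff_forall_notMem.2 fun I hI => ?_
  have hI' : I * D.conjI I = Q := hI
  have hirr := (Ideal.prime_of_isPrime
    (Ring.ne_bot_of_isMaximal_of_not_isField hQ (RingOfIntegers.not_isField M))
    hQ.isPrime).irreducible
  rcases hirr.isUnit_or_isUnit hI'.symm with h | h <;> rw [Ideal.isUnit_iff] at h
  · rw [h, Quad.conjI, Ideal.map_top, Ideal.mul_top] at hI'
    exact hQ.ne_top hI'.symm
  · have h' : I = ⊤ := by rw [← D.conjI_conjI I, h, Quad.conjI, Ideal.map_top]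
    rw [h', Quad.conjI, Ideal.map_top, Ideal.mul_top] at hI'
    exact hQ.ne_top hI'.symm

namespace QuatTower

variable {c : ℕ} (T : QuatTower K M L c)

/-- Above a prime `Q` of `M`: a prime of `L` with a Frobenius element of the prime below. -/
theorem exists_prime_frob (Q : Ideal (𝓞 M)) [Q.IsMaximal] :
    ∃ (P : Ideal (𝓞 L)) (g : Gal(L/K)), P.IsMaximal ∧ P.under (𝓞 M) = Q ∧
      IsArithFrobAt (𝓞 K) g P := by
  obtain ⟨P, hP, hPQ⟩ := Recip.exists_prime_over (F := L) Q
  obtain ⟨g, hg⟩ := Recip.exists_frob (K := K) P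
  exact ⟨P, g, hP, hPQ, hg⟩

include T in
/-- The involution moves some integer modulo every prime away from `c`. -/
theorem exists_sub_notMem {D : Quad K M} (hD : ∀ g : Gal(L/K), T.phi g ∉ c4Group →
      ∀ x : M, g (algebraMap M L x) = algebraMap M L (D.conj x))
    {Q : Ideal (𝓞 M)} (hQ : Q.IsMaximal) (hc : (c : 𝓞 M) ∉ Q) :
    ∃ a : 𝓞 M, D.conjO a - a ∉ Q := by
  obtain ⟨P, g, hP, rfl, hg⟩ := exists_prime_frob (K := K) (L := L) Q
  refine exists_conjO_sub_notMem P D (T.inertia_eq P hP fun h => hc (by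
    rw [Ideal.mem_comap, map_natCast]; exact h)) hg ?_
  by_cases hm : T.phi g ∈ c4Group
  · exact Or.inl ((T.fixes_iff g).1 hm)
  · exact Or.inr (hD g hm)

include T in
/-- An element of trace one. -/
theorem exists_trace_one {D : Quad K M} (hD : ∀ g : Gal(L/K), T.phi g ∉ c4Group →
      ∀ x : M, g (algebraMap M L x) = algebraMap M L (D.conj x)) :
    ∃ θ : 𝓞 M, Algebra.trace K M (θ : M) = 1 := by
  have hinj := FaithfulSMul.algebraMap_injective (𝓞 K) (𝓞 M)
  let J : Ideal (𝓞 K) :=
    { carrier := {b | ∃ a : 𝓞 M, algebraMap (𝓞 K) (𝓞 M) b = a + D.conjO a}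
      add_mem' := by
        rintro b b' ⟨a, ha⟩ ⟨a', ha'⟩
        exact ⟨a + a', by rw [map_add, map_add, ha, ha']; ring⟩
      zero_mem' := ⟨0, by simp⟩
      smul_mem' := by
        rintro r b ⟨a, ha⟩
        refine ⟨algebraMap (𝓞 K) (𝓞 M) r * a, ?_⟩
        have e : D.conjO (algebraMap (𝓞 K) (𝓞 M) r) = algebraMap (𝓞 K) (𝓞 M) r :=
          RingOfIntegers.ext (D.conj.commutes (r : K))
        rw [smul_eq_mul, map_mul, map_mul, ha, e, mul_add] }
  by_cases hJ : J = ⊤
  · obtain ⟨a, ha⟩ : (1 : 𝓞 K) ∈ J := hJ ▸ Submodule.mem_top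
    refine ⟨a, (algebraMap K M).injective ?_⟩
    rw [D.trace_eq, map_one]
    have := congrArg (fun z : 𝓞 M => (z : M)) ha
    simpa using this.symm
  obtain ⟨v, hv, hJv⟩ := J.exists_le_maximal hJ
  have := D.isGalois
  obtain ⟨Q, hQ, hQv⟩ := Recip.exists_prime_over (F := M) v
  have hmem : ∀ a : 𝓞 M, a + D.conjO a ∈ Q := fun a => by
    obtain ⟨b, hb⟩ := add_conjO_eq_trace D a
    have : b ∈ Q.under (𝓞 K) := hQv ▸ hJv ⟨a, hb⟩
    rwa [Ideal.mem_comap, hb] at this
  have h2 : (2 : 𝓞 M) ∈ Q := by simpa [one_add_one_eq_two] using hmem 1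
  obtain ⟨a, ha⟩ := T.exists_sub_notMem hD hQ (T.cond_notMem_of_two_mem hQ.ne_top h2)
  refine absurd ?_ ha
  have h3 := Q.sub_mem (hmem a) (Q.mul_mem_right a h2)
  rwa [show a + D.conjO a - 2 * a = D.conjO a - a by ring] at h3

omit [NumberField L] [Algebra K L] [Algebra M L] [IsScalarTower K M L] [IsGalois K L]
  [IsGalois M L] in
/-- If all differences `a - ā` lie in `Q ∌ 2` then not all lie in `Q ^ 2`. -/
theorem exists_sub_notMem_sq (D : Quad K M) {Q : Ideal (𝓞 M)} (hQ : Q.IsMaximal)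
    (h2 : (2 : 𝓞 M) ∉ Q) : ∃ a : 𝓞 M, a - D.conjO a ∉ Q ^ 2 := by
  by_contra hall
  push Not at hall
  have hQ0 : Q ≠ ⊥ := Ring.ne_bot_of_isMaximal_of_not_isField hQ (RingOfIntegers.not_isField M)
  have hstab : ∀ x ∈ Q, D.conjO x ∈ Q := fun x hx => by
    have := Q.sub_mem hx (Ideal.pow_le_self two_ne_zero (hall x))
    simpa using this
  have hstabn : ∀ n, ∀ x ∈ Q ^ n, D.conjO x ∈ Q ^ n := fun n x hx => by
    have h := Ideal.mem_map_of_mem (D.conjO : 𝓞 M →+* 𝓞 M) hx
    rw [Ideal.map_pow] at h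
    exact Ideal.pow_right_mono (Ideal.map_le_iff_le_comap.2 fun y hy => hstab y hy) n h
  have hstep : ∀ n, ∀ x ∈ Q ^ n, x - D.conjO x ∈ Q ^ (n + 1) := by
    intro n
    induction n with
    | zero =>
      intro x _
      rw [zero_add, pow_one]
      exact Ideal.pow_le_self two_ne_zero (hall x)
    | succ n ih =>
      intro x hx
      rw [pow_succ] at hx
      refine Submodule.mul_induction_on hx (fun y hy z hz => ?_) (fun y z hy hz => ?_)
      · rw [show y * z - D.conjO (y * z) =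
          (y - D.conjO y) * z + D.conjO y * (z - D.conjO z) by rw [map_mul]; ring]
        refine Ideal.add_mem _ ?_ ?_
        · rw [pow_succ]; exact Ideal.mul_mem_mul (ih y hy) hz
        · rw [show n + 1 + 1 = n + 2 from rfl, pow_add]
          exact Ideal.mul_mem_mul (hstabn n y hy) (hall z)
      · rw [map_add, add_sub_add_comm]
        exact Ideal.add_mem _ hy hz
  obtain ⟨u, q, hq, huq⟩ := hQ.exists_inv h2
  obtain ⟨a, ha⟩ : ∃ a : 𝓞 M, a - D.conjO a ≠ 0 := by
    by_contra hz
    push Not at hz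
    refine D.conj_ne (AlgEquiv.ext fun z => ?_)
    obtain ⟨a, b, -, rfl⟩ := IsFractionRing.div_surjective (A := 𝓞 M) z
    have e : ∀ a : 𝓞 M, D.conj (a : M) = a := fun a =>
      congrArg (fun w : 𝓞 M => (w : M)) (sub_eq_zero.1 (hz a)).symm
    rw [map_div₀, AlgEquiv.one_apply]
    exact congrArg₂ (· / ·) (e a) (e b)
  refine ha ?_
  have hall' : ∀ n, a - D.conjO a ∈ Q ^ n := by
    intro n
    induction n with
    | zero => simp
    | succ n ih =>
      have h := hstep n _ ih
      rw [map_sub, D.conjO_conjO] at h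
      have h' : (a - D.conjO a) * 2 ∈ Q ^ (n + 1) := by
        have e : a - D.conjO a - (D.conjO a - a) = (a - D.conjO a) * 2 := by ring
        rwa [e] at h
      have hq' : q * (a - D.conjO a) ∈ Q ^ (n + 1) := by
        rw [pow_succ']
        exact Ideal.mul_mem_mul hq ih
      have := Ideal.add_mem _ (Ideal.mul_mem_left _ u h') hq'
      rwa [show u * ((a - D.conjO a) * 2) + q * (a - D.conjO a) =
        (u * 2 + q) * (a - D.conjO a) by ring, huq, one_mul] at this
  have hbot := Ideal.iInf_pow_eq_bot_of_isDomain Q hQ.ne_top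
  rw [← Ideal.mem_bot, ← hbot]
  exact Submodule.mem_iInf _ |>.2 hall'

include T in
/-- `c` kills the inverse different. -/
theorem cond_diff {D : Quad K M} (hD : ∀ g : Gal(L/K), T.phi g ∉ c4Group →
      ∀ x : M, g (algebraMap M L x) = algebraMap M L (D.conj x)) (z : M)
    (hz : ∀ a : 𝓞 M, IsIntegral ℤ (Algebra.trace K M (z * (a : M)))) :
    IsIntegral ℤ ((c : M) * z) := by
  let Dd : Ideal (𝓞 M) := Ideal.span (Set.range fun a : 𝓞 M => a - D.conjO a)
  have hint : ∀ d ∈ Dd, IsIntegral ℤ ((d : M) * z) := by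
    intro d hd
    induction hd using Submodule.span_induction with
    | mem d hd =>
      obtain ⟨a, rfl⟩ := hd
      have h1 : IsIntegral ℤ (algebraMap K M (Algebra.trace K M (z * (a : M)))) :=
        (hz a).map (algebraMap K M).toIntAlgHom
      have h2 : IsIntegral ℤ (algebraMap K M (Algebra.trace K M (z * ((1 : 𝓞 M) : M)))) :=
        (hz 1).map (algebraMap K M).toIntAlgHom
      rw [D.trace_eq] at h1 h2
      have h3 : IsIntegral ℤ ((D.conjO a : 𝓞 M) : M) := RingOfIntegers.isIntegral_coe _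
      have h4 := h1.sub (h3.mul h2)
      have e : ((a - D.conjO a : 𝓞 M) : M) * z = z * (a : M) + D.conj (z * (a : M)) -
          ((D.conjO a : 𝓞 M) : M) * (z * ((1 : 𝓞 M) : M) + D.conj (z * ((1 : 𝓞 M) : M))) := by
        simp [map_mul]
        ring
      rw [e]
      exact h4
    | zero => simpa using isIntegral_zero
    | add x y _ _ hx hy => simpa [add_mul] using hx.add hy
    | smul r x _ hx => simpa [mul_assoc] using r.isIntegral_coe.mul hx
  suffices h : (c : 𝓞 M) ∈ Dd by simpa using hint _ h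
  let J : Ideal (𝓞 M) := Submodule.comap (LinearMap.mulRight (𝓞 M) (c : 𝓞 M)) Dd
  suffices hJ : J = ⊤ by
    have h1 : (1 : 𝓞 M) ∈ J := hJ ▸ Submodule.mem_top
    simpa [J] using h1
  by_contra hJ
  obtain ⟨Q, hQ, hJQ⟩ := J.exists_le_maximal hJ
  have hDQ : Dd ≤ Q := fun d hd => hJQ (by
    show d * (c : 𝓞 M) ∈ Dd
    exact Ideal.mul_mem_right _ _ hd)
  have hsub : ∀ a : 𝓞 M, a - D.conjO a ∈ Dd := fun a => Ideal.subset_span ⟨a, rfl⟩
  by_cases hc : (c : 𝓞 M) ∈ Q
  · obtain ⟨a, ha⟩ := exists_sub_notMem_sq D hQ (two_notMem hQ.ne_top T hc)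
    obtain ⟨R, hR⟩ := Ideal.dvd_iff_le.2 hDQ
    have hRQ : ¬ R ≤ Q := fun h => ha (by
      have h' := hsub a
      rw [hR] at h'
      exact (sq Q).symm ▸ Ideal.mul_mono_right h h')
    refine hRQ fun r hr => hJQ ?_
    show r * (c : 𝓞 M) ∈ Dd
    rw [hR, mul_comm Q]
    exact Ideal.mul_mem_mul hr hc
  · obtain ⟨a, ha⟩ := T.exists_sub_notMem hD hQ hc
    refine ha ?_
    have h' := Q.neg_mem (hDQ (hsub a))
    rwa [neg_sub] at h'

/-- **The dihedral data.** -/
theorem exists_dihData [IsTotallyComplex M] [IsGalois ℚ L] (T : QuatTower K M L c) :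
    ∃ D : DihData K M, D.cond = (c : 𝓞 K) ∧
      ∀ P : Ideal (𝓞 L), P.IsMaximal → (c : 𝓞 L) ∉ P → ∀ g : Gal(L/K),
        IsArithFrobAt (𝓞 K) g P → ∀ v : HeightOneSpectrum (𝓞 K), v.asIdeal = P.under (𝓞 K) →
        D.eig v = ((octRep (T.phi g) : GL (Fin 2) ℂ) : Matrix (Fin 2) (Fin 2) ℂ).trace := by
  classical
  obtain ⟨D, hD⟩ := T.exists_quad
  obtain ⟨θ, hθ⟩ := T.exists_trace_one hD
  have halg : algebraMap (𝓞 K) (𝓞 M) (c : 𝓞 K) = (c : 𝓞 M) := map_natCast _ _
  have hbelow : ∀ P : Ideal (𝓞 L), (c : 𝓞 K) ∉ P.under (𝓞 K) → (c : 𝓞 L) ∉ P := fun P h =>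
    T.natCast_notMem_of_under h
  let Dat : DihData K M :=
    { toQuad := D
      theta := θ
      trace_theta := hθ
      cond := c
      cond_ne := Nat.cast_ne_zero.2 T.cond_ne
      diff := fun z hz => by
        rw [show algebraMap K M (((c : 𝓞 K) : K)) = (c : M) by simp]
        exact T.cond_diff hD z hz
      chi := T.chiI
      chi_bot := if_neg fun h => h.1 rfl
      chi_eq_zero := fun I hI => T.chiI_eq_zero (by rwa [halg] at hI)
      norm_chi := fun I h0 hI => T.norm_chiI h0 (by rwa [halg] at hI)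
      chi_periodic := fun p q hp hq h => T.chiI_periodic p q hp hq (by rwa [halg] at h)
      inert_or_split := fun v hv => by
        have : v.asIdeal.IsMaximal := v.isMaximal
        have := D.isGalois
        obtain ⟨Q, hQ, hQv⟩ := Recip.exists_prime_over (F := M) v.asIdeal
        obtain ⟨P, g, hP, rfl, hg⟩ := exists_prime_frob (K := K) (L := L) Q
        rw [under_base_mid] at hQv
        have hc : (c : 𝓞 L) ∉ P := hbelow P (hQv ▸ hv)
        rw [← hQv]
        by_cases hm : T.phi g ∈ c4Group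
        · obtain ⟨hne, hmap, hchi, hchi'⟩ := T.chiI_split hD hc hg hm
          refine Or.inr ⟨P.under (𝓞 M), hQ.isPrime, hne, hmap, ?_⟩
          rw [hchi, hchi', ← Units.val_mul, ← map_mul, mul_inv_cancel, map_one, Units.val_one]
        · obtain ⟨hmap, hchi⟩ := T.chiI_extI_inert hD hc hg hm
          refine Or.inl ⟨hmap.symm ▸ hQ.isPrime, hmap.symm ▸ hchi, ?_⟩
          rw [hmap]
          exact T.exists_sub_notMem hD hQ fun h => hc (by
            have := Ideal.mem_comap.1 h; rwa [map_natCast] at this)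
      nontrivial := fun T₀ => by
        obtain ⟨σ, hσI, hσgen⟩ := T.exists_chiM_I
        set T₁ : Finset (HeightOneSpectrum (𝓞 M)) := T₀.biUnion fun v =>
          (Ideal.finite_factors (I := extI K M v.asIdeal)
            ((Ideal.map_eq_bot_iff_of_injective
              (FaithfulSMul.algebraMap_injective (𝓞 K) (𝓞 M))).not.mpr v.ne_bot)).toFinset
        obtain ⟨Q, hQT, hQS, hgen⟩ :=
          Recip.exists_symb_generator T.chiM T.chiM_pow_four T.badM σ T₁ hσgen
        rw [T.mem_badM] at hQS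
        have : Q.asIdeal.IsMaximal := Q.isMaximal
        obtain ⟨P, g, hP, hPQ, hg⟩ := exists_prime_frob (K := K) (L := L) Q.asIdeal
        have hc : (c : 𝓞 L) ∉ P := T.natCast_notMem_of_under (R := 𝓞 M) (hPQ ▸ hQS)
        have hQ : (P.under (𝓞 M)).IsMaximal := under_mid_isMaximal P
        refine ⟨⟨P.under (𝓞 K), (under_base_isMaximal P).isPrime, under_base_ne_bot P⟩,
          fun hv => hQT ?_, fun h => hc (by
            have := Ideal.mem_comap.1 h; rwa [map_natCast] at this), ?_⟩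
        · refine Finset.mem_biUnion.2 ⟨_, hv, ?_⟩
          rw [Set.Finite.mem_toFinset]
          show Q.asIdeal ∣ _
          rw [Ideal.dvd_iff_le, Ideal.map_le_iff_le_comap, ← hPQ]
          exact (under_base_mid P).ge
        have hnsq : ((Recip.symb T.chiM Q.asIdeal : ℂˣ) : ℂ) ^ 2 ≠ 1 := by
          intro hsq
          have hmem : T.chiM σ ∈ Subgroup.zpowers (Recip.symb T.chiM Q.asIdeal) :=
            hgen ▸ ⟨σ, rfl⟩
          obtain ⟨k, hk⟩ := Subgroup.mem_zpowers_iff.1 hmem
          have h2 : T.chiM σ ^ 2 = 1 := by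
            rw [← hk, ← zpow_natCast, ← zpow_mul, mul_comm, zpow_mul, zpow_natCast,
              show Recip.symb T.chiM Q.asIdeal ^ 2 = 1 from
                Units.ext (by rw [Units.val_pow_eq_pow_val, hsq, Units.val_one]), one_zpow]
          have := congrArg Units.val h2
          rw [Units.val_pow_eq_pow_val, hσI, Complex.I_sq, Units.val_one] at this
          norm_num at this
        rw [← T.chiI_prime ‹_› hQS, ← hPQ] at hnsq
        by_cases hm : T.phi g ∈ c4Group
        · obtain ⟨hne, hmap, -, -⟩ := T.chiI_split hD hc hg hm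
          exact ⟨P.under (𝓞 M), hQ.isPrime, hne, hmap, hnsq⟩
        · obtain ⟨-, hchi⟩ := T.chiI_extI_inert hD hc hg hm
          rw [hchi] at hnsq
          norm_num at hnsq }
  refine ⟨Dat, rfl, fun P hP hc g hg v hv => ?_⟩
  show ∑ᶠ I ∈ {I : Ideal (𝓞 M) | I * D.conjI I = extI K M v.asIdeal}, T.chiI I = _
  rw [hv]
  have hQ : (P.under (𝓞 M)).IsMaximal := under_mid_isMaximal P
  by_cases hm : T.phi g ∈ c4Group
  · obtain ⟨hne, hmap, hchi, hchi'⟩ := T.chiI_split hD hc hg hm
    rw [hmap, setOf_conjI_eq_split D hQ, finsum_mem_pair hne.symm, hchi, hchi']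
    exact (octRep_trace_c4 ⟨T.phi g, hm⟩).symm
  · obtain ⟨hmap, -⟩ := T.chiI_extI_inert hD hc hg hm
    rw [hmap, setOf_conjI_eq_inert D hQ, finsum_mem_empty,
      octRep_trace_notC4 (T.mem_quat g) hm]

end QuatTower

end Fermat.Agent.LT.Dihedral

end
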