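import Fermat.Agent.LT.Dihedral.Pairs
import Fermat.Agent.LT.Adelic.Approx

/-!
# The weighted theta series of a pair under congruence matrices and prime steps
-/

set_option autoImplicit false
set_option maxHeartbeats 400000

noncomputable section

namespace Fermat.Agent.LT.Dihedral

open NumberField IsDedekindDomain Adelic Matrix
open scoped nonZeroDivisors

variable {K M : Type*} [Field K] [NumberField K] [Field M] [NumberField M] [Algebra K M]

namespace DihData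

variable {D : DihData K M} {t : (FiniteAdeleRing (𝓞 K) K)ˣ} {ξ : K} {B : Ideal (𝓞 M)}

theorem wt_eq_sum (hB : B ≠ ⊥) {S : Finset M} (hS : IsReps (latL B) (D.latP B) S) (x : M) :
    D.wt B x = ∑ h ∈ S, D.wt B h * coset (D.latP B) h x := by
  classical
  by_cases hx : x ∈ latL B
  · obtain ⟨u, ⟨hu, hxu⟩, huniq⟩ := hS.2 x hx
    rw [Finset.sum_eq_single u ?_ (fun h => absurd hu h)]
    · rw [coset, Set.indicator_of_mem (show x ∈ {x | x - u ∈ D.latP B} from hxu), mul_one]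
      conv_lhs => rw [show x = u + (x - u) by ring]
      exact D.wt_add_of_mem hB (hS.1 u hu) hxu
    · intro w hw hwu
      rw [coset, Set.indicator_of_notMem, mul_zero]
      exact fun h => hwu (huniq w ⟨hw, h⟩)
  · rw [D.wt_eq_zero_of_notMem hB hx]
    refine (Finset.sum_eq_zero fun u hu => ?_).symm
    rw [coset, Set.indicator_of_notMem, mul_zero]
    intro h
    refine hx ?_
    have := Submodule.add_mem (latL B : Submodule (𝓞 M) M) (D.latP_le B h) (hS.1 u hu)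
    rwa [sub_add_cancel] at this

theorem adm_wt (hB : B ≠ ⊥) : Adm (D.wt B) := by
  obtain ⟨S, hS⟩ := exists_reps (latL B) (D.latP_ne_zero hB)
  exact (adm_sum S fun h _ => (adm_coset (D.latP B) h).smul (D.wt B h)).congr
    fun x => (wt_eq_sum hB hS x).symm

variable (D) in
/-- The conductor `cond ^ 3` of the level as an element of `K`. -/
abbrev lvl : K := ((D.cond ^ 3 : 𝓞 K) : K)

theorem mem_idI_of_lvl {b : K}
    (hb : b ∈ FractionalIdeal.spanSingleton (𝓞 K)⁰ D.lvl * idI t) : b ∈ idI t := by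
  obtain ⟨b₀, hb₀, rfl⟩ := FractionalIdeal.mem_singleton_mul.mp hb
  exact Submodule.smul_mem (idI t : Submodule (𝓞 K) K) (D.cond ^ 3) hb₀

theorem mem_lvl_iff {x : K} :
    x ∈ FractionalIdeal.spanSingleton (𝓞 K)⁰ D.lvl ↔ ∃ r : 𝓞 K, x = (r : K) * D.lvl := by
  rw [FractionalIdeal.mem_spanSingleton]
  exact ⟨fun ⟨r, hr⟩ => ⟨r, by rw [← hr, Algebra.smul_def]⟩,
    fun ⟨r, hr⟩ => ⟨r, by rw [hr, Algebra.smul_def]⟩⟩

theorem cond_dvd_lvl : D.cond ∣ D.cond ^ 3 := dvd_pow_self _ three_ne_zero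

/-- Invariance when the lower right entry is a norm. -/
theorem rel_wt_of_norm (R : RelSys K M D.toQuad ξ) (hp : D.IsPair t ξ B) (γ : GL (Fin 2) K)
    {a d : 𝓞 K} {b c : K} (hγ : (γ : Matrix (Fin 2) (Fin 2) K) = !![(a : K), b; c, (d : K)])
    (hdet : (a : K) * d - b * c = 1) {δ : 𝓞 M} (hδ0 : δ ≠ 0)
    (hδ : Algebra.norm K (δ : M) = (d : K)) (ha : D.cond ∣ a - 1) (hd : D.cond ∣ d - 1)
    (hb : b ∈ idI t)
    (hc : c ∈ FractionalIdeal.spanSingleton (𝓞 K)⁰ D.lvl * (idI t)⁻¹) :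
    R.rel γ (D.wt B) (D.wt B) := by
  obtain ⟨S, hS⟩ := exists_reps (latL B) (D.latP_ne_zero hp.ne_bot)
  have hsub : ∀ r : 𝓞 K, ((r - 1 : 𝓞 K) : K) = (r : K) - 1 := fun r => by
    push_cast; rfl
  refine R.congr (R.sum S fun h hh => R.smul_const (D.wt B h)
    (rel_coset_of_norm R hp.ne_zero D.theta D.trace_theta (D.latP_ne_zero hp.ne_bot) (D.latP_le B)
      (hS.1 h hh) γ hγ hdet hδ0 hδ (fun x hx => ?_) (fun x hx => ?_)
      (fun x hx y hy => hp.psi_bil hb hx hy) fun y hy => hp.mem_latP_of_dual hc hy))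
    (fun x => (wt_eq_sum hp.ne_bot hS x).symm) fun x => (wt_eq_sum hp.ne_bot hS x).symm
  · rw [← hsub]; exact D.mul_mem_latP_of_dvd ha hx
  · rw [← hsub]; exact D.mul_mem_latP_of_dvd hd hx

/-- Translations by the ideal of `t` fix the weight. -/
theorem rel_wt_unipotent (R : RelSys K M D.toQuad ξ) (hp : D.IsPair t ξ B) {s : K}
    (hs : s ∈ idI t) : R.rel (unipotent s) (D.wt B) (D.wt B) := by
  refine R.congr (R.unip s (adm_wt hp.ne_bot)) (fun _ => rfl) fun x => ?_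
  by_cases hx : x ∈ latL B
  · rw [← D.toQuad.bil_theta ξ D.trace_theta x,
      hp.psi_bil hs (smul_int_mem hx D.theta) hx, one_mul]
  · rw [D.wt_eq_zero_of_notMem hp.ne_bot hx, mul_zero]

theorem rel_wt_gamma_of_ne (R : RelSys K M D.toQuad ξ) (hp : D.IsPair t ξ B) (γ : GL (Fin 2) K)
    {a d : 𝓞 K} {b c : K} (hγ : (γ : Matrix (Fin 2) (Fin 2) K) = !![(a : K), b; c, (d : K)])
    (hdet : (a : K) * d - b * c = 1) (hc0 : c ≠ 0) (ha : D.cond ^ 3 ∣ a - 1)
    (hd : D.cond ^ 3 ∣ d - 1) (hb : b ∈ FractionalIdeal.spanSingleton (𝓞 K)⁰ D.lvl * idI t)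
    (hc : c ∈ FractionalIdeal.spanSingleton (𝓞 K)⁰ D.lvl * (idI t)⁻¹) :
    R.rel γ (D.wt B) (D.wt B) := by
  have hle : FractionalIdeal.spanSingleton (𝓞 K)⁰ c * idI t ≤
      FractionalIdeal.spanSingleton (𝓞 K)⁰ D.lvl := fun x hx => by
    obtain ⟨s, hs, rfl⟩ := FractionalIdeal.mem_singleton_mul.mp hx
    have := FractionalIdeal.mul_mem_mul hc hs
    rwa [mul_assoc, inv_mul_cancel₀ (idI_ne_zero t), mul_one] at this
  have hle1 : FractionalIdeal.spanSingleton (𝓞 K)⁰ c * idI t ≤ 1 := hle.trans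
    (FractionalIdeal.spanSingleton_le_iff_mem.mpr
      (mem_one_of_isIntegral (D.cond ^ 3).isIntegral_coe))
  obtain ⟨I, hI⟩ := FractionalIdeal.le_one_iff_exists_coeIdeal.mp hle1
  have hmemI : ∀ r : 𝓞 K, r ∈ I ↔ (r : K) ∈ FractionalIdeal.spanSingleton (𝓞 K)⁰ c * idI t := by
    intro r
    rw [← hI]
    refine ⟨fun h => FractionalIdeal.mem_coeIdeal_of_mem _ h, fun h => ?_⟩
    obtain ⟨r', hr', he⟩ := (FractionalIdeal.mem_coeIdeal _).mp h
    rwa [← RingOfIntegers.ext he]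
  have hIn : ∀ r ∈ I, D.cond ^ 3 ∣ r := fun r hr => by
    obtain ⟨e, he⟩ := mem_lvl_iff.mp (hle ((hmemI r).mp hr))
    exact ⟨e, RingOfIntegers.ext (by rw [he]; push_cast; ring)⟩
  have hI0 : I ≠ ⊥ := by
    rintro rfl
    rw [FractionalIdeal.coeIdeal_bot, eq_comm, mul_eq_zero,
      FractionalIdeal.spanSingleton_eq_zero_iff] at hI
    exact hI.elim hc0 (idI_ne_zero t)
  have h1I : ∀ {W : Ideal (𝓞 K)}, I ≤ W → d ∈ W → (1 : 𝓞 K) ∈ W := by
    intro W hW hdW
    have hbc : b * c ∈ FractionalIdeal.spanSingleton (𝓞 K)⁰ c * idI t := by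
      rw [mul_comm b c]
      exact FractionalIdeal.mul_mem_mul (FractionalIdeal.mem_spanSingleton_self _ _)
        (mem_idI_of_lvl hb)
    obtain ⟨i, hi, hie⟩ := (FractionalIdeal.mem_coeIdeal _).mp (hI.symm ▸ hbc)
    have h1 : (1 : 𝓞 K) = a * d - i := by
      apply RingOfIntegers.ext
      show algebraMap (𝓞 K) K 1 = algebraMap (𝓞 K) K (a * d - i)
      rw [map_one, map_sub, map_mul, hie]
      exact hdet.symm
    rw [h1]
    exact W.sub_mem (W.mul_mem_left a hdW) (hW hi)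
  obtain ⟨δ₀, hδ₀⟩ := D.exists_norm_sub_mem hI0 (d := d) fun v hv => by
    refine ⟨fun hdv => v.isPrime.ne_top ((Ideal.eq_top_iff_one _).mpr (h1I hv hdv)), ?_⟩
    by_cases hcv : D.cond ∈ v.asIdeal
    · right
      obtain ⟨e, he⟩ := (cond_dvd_lvl (D := D)).trans hd
      rw [he]
      exact v.asIdeal.mul_mem_right _ hcv
    · exact Or.inl hcv
  obtain ⟨δ, hδ0, hδI⟩ : ∃ δ : 𝓞 M, δ ≠ 0 ∧ nO K δ - d ∈ I := by
    by_cases h : δ₀ = 0
    · refine ⟨1, one_ne_zero, ?_⟩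
      have hn0 : nO K δ₀ = 0 := RingOfIntegers.ext (by
        rw [RingOfIntegers.coe_norm, h]; simp)
      rw [hn0, zero_sub, neg_mem_iff] at hδ₀
      rw [(Ideal.eq_top_iff_one _).mpr (h1I le_rfl hδ₀)]
      exact Submodule.mem_top
    · exact ⟨δ₀, h, hδ₀⟩
  obtain ⟨s, hs, hse⟩ := FractionalIdeal.mem_singleton_mul.mp ((hmemI _).mp hδI)
  have hde : ((nO K δ : 𝓞 K) : K) = (d : K) + c * s := by
    push_cast at hse ⊢
    linear_combination hse
  have hd' : D.cond ∣ nO K δ - 1 := by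
    rw [show nO K δ - 1 = (nO K δ - d) + (d - 1) by ring]
    exact dvd_add ((cond_dvd_lvl (D := D)).trans (hIn _ hδI)) ((cond_dvd_lvl (D := D)).trans hd)
  set γ' : GL (Fin 2) K := γ * unipotent s with hγ'
  have hγ'e : (γ' : Matrix (Fin 2) (Fin 2) K) =
      !![(a : K), b + (a : K) * s; c, ((nO K δ : 𝓞 K) : K)] := by
    rw [hγ', Units.val_mul, hγ, coe_unipotent, hde]
    ext i j
    fin_cases i <;> fin_cases j <;> simp [Matrix.mul_apply, Fin.sum_univ_two, Algebra.smul_def] <;>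
      ring
  have r1 : R.rel γ' (D.wt B) (D.wt B) :=
    rel_wt_of_norm R hp γ' hγ'e (by rw [hde]; linear_combination hdet) hδ0
      (RingOfIntegers.coe_norm K δ).symm ((cond_dvd_lvl (D := D)).trans ha) hd'
      (Submodule.add_mem (idI t : Submodule (𝓞 K) K) (mem_idI_of_lvl hb)
        (Submodule.smul_mem (idI t : Submodule (𝓞 K) K) a hs)) hc
  have r2 : R.rel (unipotent (-s)) (D.wt B) (D.wt B) :=
    rel_wt_unipotent R hp (Submodule.neg_mem (idI t : Submodule (𝓞 K) K) hs)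
  convert! R.comp r1 r2 using 1
  apply glK_ext
  rw [hγ', Units.val_mul, Units.val_mul, hγ]
  ext i j
  fin_cases i <;> fin_cases j <;> simp [Matrix.mul_apply, Fin.sum_univ_two, Algebra.smul_def]

/-- **Invariance of the weight** under the congruence matrices at `t`. -/
theorem rel_wt_gamma (R : RelSys K M D.toQuad ξ) (hp : D.IsPair t ξ B) (γ : GL (Fin 2) K)
    {a d : 𝓞 K} {b c : K} (hγ : (γ : Matrix (Fin 2) (Fin 2) K) = !![(a : K), b; c, (d : K)])
    (hdet : (a : K) * d - b * c = 1) (ha : D.cond ^ 3 ∣ a - 1) (hd : D.cond ^ 3 ∣ d - 1)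
    (hb : b ∈ FractionalIdeal.spanSingleton (𝓞 K)⁰ D.lvl * idI t)
    (hc : c ∈ FractionalIdeal.spanSingleton (𝓞 K)⁰ D.lvl * (idI t)⁻¹) :
    R.rel γ (D.wt B) (D.wt B) := by
  by_cases hc0 : c = 0
  swap
  · exact rel_wt_gamma_of_ne R hp γ hγ hdet hc0 ha hd hb hc
  obtain ⟨s, hs, hs0⟩ : ∃ s ∈ FractionalIdeal.spanSingleton (𝓞 K)⁰ D.lvl * (idI t)⁻¹, s ≠ 0 := by
    have : FractionalIdeal.spanSingleton (𝓞 K)⁰ D.lvl * (idI t)⁻¹ ≠ 0 :=
      mul_ne_zero (FractionalIdeal.spanSingleton_ne_zero_iff.mpr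
        (RingOfIntegers.coe_ne_zero_iff.mpr (pow_ne_zero 3 D.cond_ne)))
        (inv_ne_zero (idI_ne_zero t))
    obtain ⟨s, hs, hs0⟩ := Submodule.exists_mem_ne_zero_of_ne_bot
      (FractionalIdeal.coeToSubmodule_ne_bot.mpr this)
    exact ⟨s, hs, hs0⟩
  have hd0 : (d : K) ≠ 0 := fun h => by rw [h, hc0] at hdet; simp at hdet
  obtain ⟨i, hi⟩ : ∃ i : 𝓞 K, b * s = (i : K) * D.lvl := by
    refine mem_lvl_iff.mp ?_
    have := FractionalIdeal.mul_mem_mul (mem_idI_of_lvl hb) hs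
    rwa [mul_left_comm, mul_inv_cancel₀ (idI_ne_zero t), mul_one] at this
  set γ' : GL (Fin 2) K := γ * lowerUnipotent s with hγ'
  have hai : ((a + i * D.cond ^ 3 : 𝓞 K) : K) = (a : K) + b * s := by
    rw [hi]
    show algebraMap (𝓞 K) K (a + i * D.cond ^ 3) = _
    rw [map_add, map_mul]
  have hγ'e : (γ' : Matrix (Fin 2) (Fin 2) K) =
      !![((a + i * D.cond ^ 3 : 𝓞 K) : K), b; (d : K) * s, (d : K)] := by
    rw [hγ', Units.val_mul, hγ, coe_lowerUnipotent, hc0, hai]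
    ext i j
    fin_cases i <;> fin_cases j <;> simp [Matrix.mul_apply, Fin.sum_univ_two]
  have r1 : R.rel γ' (D.wt B) (D.wt B) :=
    rel_wt_gamma_of_ne R hp γ' hγ'e (by rw [hai]; rw [hc0] at hdet; linear_combination hdet)
      (mul_ne_zero hd0 hs0)
      (by rw [show a + i * D.cond ^ 3 - 1 = (a - 1) + i * D.cond ^ 3 by ring]
          exact dvd_add ha (dvd_mul_left _ _)) hd hb
      (by
        rw [← Algebra.smul_def, ← FractionalIdeal.mem_coe]
        exact Submodule.smul_mem _ d (FractionalIdeal.mem_coe.mpr hs))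
  have r2 : R.rel (lowerUnipotent (-s)) (D.wt B) (D.wt B) :=
    rel_wt_of_norm R hp _ (a := 1) (d := 1) (b := 0) (c := -s) (by
      rw [coe_lowerUnipotent]; simp) (by simp) (δ := 1) one_ne_zero (by simp) (by simp) (by simp)
      (Submodule.zero_mem (idI t : Submodule (𝓞 K) K))
      (by
        rw [← FractionalIdeal.mem_coe]
        exact Submodule.neg_mem _ (FractionalIdeal.mem_coe.mpr hs))
  convert! R.comp r1 r2 using 1
  apply glK_ext
  rw [hγ', Units.val_mul, Units.val_mul, hγ, coe_lowerUnipotent, coe_lowerUnipotent]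
  ext i j
  fin_cases i <;> fin_cases j <;> simp [Matrix.mul_apply, Fin.sum_univ_two, Algebra.smul_def]

theorem chi_extI_sq {v : HeightOneSpectrum (𝓞 K)} (hv : D.cond ∉ v.asIdeal) :
    D.chi (extI K M v.asIdeal) * D.chi (extI K M v.asIdeal) = 1 := by
  rcases D.inert_or_split v hv with ⟨-, h, -⟩ | ⟨Q, -, -, hfac, h⟩
  · rw [h]; norm_num
  · rw [hfac, map_mul, h, one_mul]

/-- Multiplying the ideal of a pair by a prime of `K`. -/
theorem IsPair.mul_prime (hp : D.IsPair t ξ B) {t' : (FiniteAdeleRing (𝓞 K) K)ˣ}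
    {v : HeightOneSpectrum (𝓞 K)}
    (ht : idI t' = idI t * (v.asIdeal : FractionalIdeal (𝓞 K)⁰ K) ^ 2) :
    D.IsPair t' ξ (extI K M v.asIdeal * B) where
  ne_bot := mul_ne_zero (extI_ne_bot v.ne_bot) hp.ne_bot
  ne_zero := hp.ne_zero
  compat := by
    rw [D.toQuad.conjI_mul, D.toQuad.conjI_extI,
      show extI K M v.asIdeal * B * (extI K M v.asIdeal * D.toQuad.conjI B) =
        (extI K M v.asIdeal) ^ 2 * (B * D.toQuad.conjI B) by ring,
      FractionalIdeal.coeIdeal_mul, hp.compat, FractionalIdeal.coeIdeal_pow, extI,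
      ← FractionalIdeal.extendedHom_coeIdeal_eq_map (K := K)]
    simp only [tdI, ht, map_mul, map_pow]
    ring

theorem latP_eq_mul {v : HeightOneSpectrum (𝓞 K)} :
    D.latP B = (extI K M v.asIdeal : FractionalIdeal (𝓞 M)⁰ M) *
      D.latP (extI K M v.asIdeal * B) := by
  rw [DihData.latP, DihData.latP, latL, latL, FractionalIdeal.coeIdeal_mul, mul_inv,
    mul_left_comm,
    mul_inv_cancel_left₀ (FractionalIdeal.coeIdeal_ne_zero.mpr (extI_ne_bot v.ne_bot))]

theorem latL_le_mul (hB : B ≠ ⊥) (v : HeightOneSpectrum (𝓞 K)) {x : M} (hx : x ∈ latL B) :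
    x ∈ latL (extI K M v.asIdeal * B) := by
  have hne : extI K M v.asIdeal * B ≠ ⊥ := mul_ne_zero (extI_ne_bot v.ne_bot) hB
  rw [mem_latL hne]
  intro β hβ
  have hβB : β ∈ B := (Ideal.mul_le_right : extI K M v.asIdeal * B ≤ B) hβ
  exact (mem_latL hB).mp hx β hβB

theorem mul_mem_latL_of_mem {I : Ideal (𝓞 M)} (hI : I ≠ ⊥) (hB : B ≠ ⊥) {e : 𝓞 M} {x : M}
    (he : e ∈ I) (hx : x ∈ latL (I * B)) : (e : M) * x ∈ latL B := by
  rw [mem_latL hB]
  intro β hβ
  have h := (mem_latL (mul_ne_zero hI hB)).mp hx _ (Ideal.mul_mem_mul he hβ)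
  convert! h using 1
  push_cast
  ring

theorem latP_le_mul {v : HeightOneSpectrum (𝓞 K)} :
    D.latP B ≤ D.latP (extI K M v.asIdeal * B) := by
  rw [latP_eq_mul (v := v)]
  calc _ ≤ 1 * D.latP (extI K M v.asIdeal * B) :=
        mul_le_mul_left FractionalIdeal.coeIdeal_le_one _
    _ = _ := one_mul _

/-- Representatives for a pair also serve after a prime step. -/
theorem isReps_mul_prime (hB : B ≠ ⊥) {v : HeightOneSpectrum (𝓞 K)} (hcv : D.cond ∉ v.asIdeal)
    {S : Finset M} (hS : IsReps (latL B) (D.latP B) S) :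
    IsReps (latL (extI K M v.asIdeal * B)) (D.latP (extI K M v.asIdeal * B)) S := by
  set B' := extI K M v.asIdeal * B with hB'
  have hw0 : extI K M v.asIdeal ≠ ⊥ := extI_ne_bot v.ne_bot
  obtain ⟨e₁, he₁, e₂, he₂, he⟩ : ∃ e₁ ∈ v.asIdeal, ∃ e₂ ∈ Ideal.span {D.cond}, e₁ + e₂ = 1 :=
    Submodule.mem_sup.mp ((Ideal.eq_top_iff_one _).mp (v.isMaximal.out.2 _ (lt_of_le_of_ne
      le_sup_left fun h => hcv (h ▸ Ideal.mem_sup_right (Ideal.mem_span_singleton_self _)))))
  have hsplit : ∀ x : M, algebraMap K M (e₁ : K) * x + algebraMap K M (e₂ : K) * x = x := fun x => by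
    rw [← add_mul, ← map_add, ← map_add (algebraMap (𝓞 K) K), he, map_one, map_one, one_mul]
  have he₁w : ∀ {x : M}, x ∈ latL B' → algebraMap K M (e₁ : K) * x ∈ latL B := fun hx => by
    rw [← algebraMap_coe_int]
    exact mul_mem_latL_of_mem hw0 hB (Ideal.mem_map_of_mem _ he₁) hx
  have he₂P : ∀ {x : M}, x ∈ latL B' → algebraMap K M (e₂ : K) * x ∈ D.latP B' := fun hx =>
    D.mul_mem_latP_of_dvd (Ideal.mem_span_singleton.mp he₂) hx
  have hcap : ∀ {x : M}, x ∈ latL B → x ∈ D.latP B' → x ∈ D.latP B := by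
    intro x hxL hxP
    rw [← hsplit x]
    refine Submodule.add_mem (D.latP B : Submodule (𝓞 M) M) ?_
      (D.mul_mem_latP_of_dvd (Ideal.mem_span_singleton.mp he₂) hxL)
    rw [latP_eq_mul (v := v), ← algebraMap_coe_int]
    exact FractionalIdeal.mul_mem_mul
      (FractionalIdeal.mem_coeIdeal_of_mem _ (Ideal.mem_map_of_mem _ he₁)) hxP
  refine ⟨fun u hu => latL_le_mul hB v (hS.1 u hu), fun x hx => ?_⟩
  obtain ⟨u, ⟨hu, hxu⟩, -⟩ := hS.2 _ (he₁w hx)
  have hxu' : x - u ∈ D.latP B' := by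
    have := Submodule.add_mem (D.latP B' : Submodule (𝓞 M) M) (latP_le_mul hxu) (he₂P hx)
    convert! this using 1
    linear_combination -hsplit x
  refine ⟨u, ⟨hu, hxu'⟩, ?_⟩
  rintro u' ⟨hu', hxu''⟩
  refine (hS.eq_iff hu' hu).mp (hcap
    (Submodule.sub_mem (latL B : Submodule (𝓞 M) M) (hS.1 u' hu') (hS.1 u hu)) ?_)
  have := Submodule.sub_mem (D.latP B' : Submodule (𝓞 M) M) hxu' hxu''
  rwa [sub_sub_sub_cancel_left] at this

/-- The weight after a prime step, on the smaller lattice. -/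
theorem wt_mul_prime (hB : B ≠ ⊥) (v : HeightOneSpectrum (𝓞 K)) {h : M} (hh : h ∈ latL B) :
    D.wt (extI K M v.asIdeal * B) h = D.chi (extI K M v.asIdeal) * D.wt B h := by
  classical
  by_cases h0 : h = 0
  · rw [DihData.wt, DihData.wt, if_pos h0, if_pos h0, map_mul]
    split_ifs <;> simp
  · obtain ⟨I, hI⟩ := exists_ideal_of_mem hB hh
    rw [D.wt_of_eq h0 hI, ← map_mul]
    refine D.wt_of_eq h0 ?_
    rw [FractionalIdeal.coeIdeal_mul, FractionalIdeal.coeIdeal_mul, hI, mul_left_comm]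

/-- Integrality of `β` times the form between the lattices of a prime step. -/
theorem psi_bil_step (hp : D.IsPair t ξ B) {v : HeightOneSpectrum (𝓞 K)} {β : K}
    (hβ : β ∈ FractionalIdeal.spanSingleton (𝓞 K)⁰ D.lvl * idI t *
      (v.asIdeal : FractionalIdeal (𝓞 K)⁰ K))
    {x y : M} (hx : x ∈ latL B) (hy : y ∈ latL (extI K M v.asIdeal * B)) :
    psi (β * D.toQuad.bil ξ x y) = 1 := by
  refine FractionalIdeal.mul_induction_on hβ (fun b hb r hr => ?_) fun b b' hb hb' => ?_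
  · obtain ⟨r, hrv, rfl⟩ := (FractionalIdeal.mem_coeIdeal _).mp hr
    rw [mul_assoc, ← D.toQuad.bil_smul_right]
    refine hp.psi_bil (mem_idI_of_lvl hb) hx ?_
    rw [← algebraMap_coe_int]
    exact mul_mem_latL_of_mem (extI_ne_bot v.ne_bot) hp.ne_bot (Ideal.mem_map_of_mem _ hrv) hy
  · rw [add_mul, psi_add, hb, hb', one_mul]

/-- The lower left entry moves the dual lattice into the larger lattice. -/
theorem mul_mem_latP_step (hp : D.IsPair t ξ B) {v : HeightOneSpectrum (𝓞 K)} {c : K}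
    (hc : c ∈ FractionalIdeal.spanSingleton (𝓞 K)⁰ D.lvl *
      (idI t * (v.asIdeal : FractionalIdeal (𝓞 K)⁰ K))⁻¹)
    {y : M} (hy : y ∈ D.toQuad.dualSet ξ (D.latP B)) :
    algebraMap K M c * y ∈ D.latP (extI K M v.asIdeal * B) := by
  set w := extI K M v.asIdeal with hw
  have hw0 : w ≠ ⊥ := extI_ne_bot v.ne_bot
  have hwy : ∀ e ∈ w, (e : M) * (algebraMap K M c * y) ∈ D.latP B := by
    intro e he
    refine Submodule.span_induction ?_ ?_ ?_ ?_ he
    · rintro _ ⟨r, hr, rfl⟩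
      rw [algebraMap_coe_int, ← mul_assoc, ← map_mul]
      refine hp.mem_latP_of_dual ?_ hy
      have := FractionalIdeal.mul_mem_mul hc
        (FractionalIdeal.mem_coeIdeal_of_mem (𝓞 K)⁰ (P := K) hr)
      rw [mul_comm (algebraMap (𝓞 K) K r) c]
      convert! this using 1
      rw [mul_inv, mul_assoc, mul_assoc,
        inv_mul_cancel₀ (FractionalIdeal.coeIdeal_ne_zero.mpr v.ne_bot), mul_one]
    · push_cast
      rw [zero_mul]
      exact Submodule.zero_mem (D.latP B : Submodule (𝓞 M) M)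
    · intro p q _ _ hp hq
      push_cast
      rw [add_mul]
      exact Submodule.add_mem (D.latP B : Submodule (𝓞 M) M) hp hq
    · intro r p _ hp
      rw [smul_eq_mul]
      push_cast
      rw [mul_assoc]
      exact smul_int_mem hp r
  have hle : (w : FractionalIdeal (𝓞 M)⁰ M) *
      FractionalIdeal.spanSingleton (𝓞 M)⁰ (algebraMap K M c * y) ≤
      (w : FractionalIdeal (𝓞 M)⁰ M) * D.latP (w * B) := by
    rw [← latP_eq_mul, FractionalIdeal.mul_le]
    intro e he z hz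
    obtain ⟨e, hew, rfl⟩ := (FractionalIdeal.mem_coeIdeal _).mp he
    obtain ⟨r, rfl⟩ := (FractionalIdeal.mem_spanSingleton _).mp hz
    rw [Algebra.smul_def, mul_left_comm]
    exact smul_int_mem (hwy e hew) r
  have := mul_le_mul_right hle ((w : FractionalIdeal (𝓞 M)⁰ M))⁻¹
  rw [inv_mul_cancel_left₀ (FractionalIdeal.coeIdeal_ne_zero.mpr hw0),
    inv_mul_cancel_left₀ (FractionalIdeal.coeIdeal_ne_zero.mpr hw0)] at this
  exact this (FractionalIdeal.mem_spanSingleton_self _ _)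

/-- The Gauss sum of a prime step. -/
theorem gaussSum_step (hp : D.IsPair t ξ B) {t' : (FiniteAdeleRing (𝓞 K) K)ˣ}
    {v : HeightOneSpectrum (𝓞 K)} (hv : D.cond ^ 3 ∉ v.asIdeal)
    (ht : idI t' = idI t * (v.asIdeal : FractionalIdeal (𝓞 K)⁰ K) ^ 2) {β : K}
    (hβ : β ∈ FractionalIdeal.spanSingleton (𝓞 K)⁰ D.lvl * idI t *
      (v.asIdeal : FractionalIdeal (𝓞 K)⁰ K))
    (hβ' : β ∉ FractionalIdeal.spanSingleton (𝓞 K)⁰ D.lvl * idI t') {S₁ : Finset M}
    (hS₁ : IsReps (D.latP (extI K M v.asIdeal * B)) (D.latP B) S₁) :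
    gaussSum ξ β S₁ = D.chi (extI K M v.asIdeal) * (Ideal.absNorm v.asIdeal : ℂ) := by
  have hp' : D.IsPair t' ξ (extI K M v.asIdeal * B) := hp.mul_prime ht
  have hcv : D.cond ∉ v.asIdeal := fun h => hv (Ideal.pow_mem_of_mem _ h 3 (by norm_num))
  refine D.gaussSum_prime hcv (D.latP_ne_zero hp'.ne_bot) (latP_eq_mul (D := D) (v := v) ▸ hS₁)
    (fun u hu p hpP => ?_) ?_
  · rw [← latP_eq_mul] at hpP
    rw [D.toQuad.bil_comm]
    exact psi_bil_step hp hβ (D.latP_le B hpP) (D.latP_le _ hu)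
  · refine hp'.exists_psi_ne fun hle => hβ' ?_
    obtain ⟨f₁, hf₁, f₂, hf₂, hf⟩ : ∃ f₁ ∈ v.asIdeal, ∃ f₂ ∈ Ideal.span {(D.cond ^ 3) ^ 2},
        f₁ + f₂ = 1 :=
      Submodule.mem_sup.mp ((Ideal.eq_top_iff_one _).mp (v.isMaximal.out.2 _ (lt_of_le_of_ne
        le_sup_left fun h => hv (v.isPrime.mem_of_pow_mem 2
          (h ▸ Ideal.mem_sup_right (Ideal.mem_span_singleton_self _))))))
    have hn : FractionalIdeal.spanSingleton (𝓞 K)⁰ D.lvl ≠ 0 :=
      FractionalIdeal.spanSingleton_ne_zero_iff.mpr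
        (RingOfIntegers.coe_ne_zero_iff.mpr (pow_ne_zero 3 D.cond_ne))
    have hmem : (FractionalIdeal.spanSingleton (𝓞 K)⁰ D.lvl) ^ 2 *
        FractionalIdeal.spanSingleton (𝓞 K)⁰ β ≤
        FractionalIdeal.spanSingleton (𝓞 K)⁰ D.lvl * idI t' := by
      calc _ = FractionalIdeal.spanSingleton (𝓞 K)⁰ β *
            (FractionalIdeal.spanSingleton (𝓞 K)⁰ D.lvl * (idI t')⁻¹) *
            (FractionalIdeal.spanSingleton (𝓞 K)⁰ D.lvl * idI t') := by
            rw [show FractionalIdeal.spanSingleton (𝓞 K)⁰ β *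
              (FractionalIdeal.spanSingleton (𝓞 K)⁰ D.lvl * (idI t')⁻¹) *
              (FractionalIdeal.spanSingleton (𝓞 K)⁰ D.lvl * idI t') =
              FractionalIdeal.spanSingleton (𝓞 K)⁰ D.lvl ^ 2 *
              FractionalIdeal.spanSingleton (𝓞 K)⁰ β * ((idI t')⁻¹ * idI t') by ring,
              inv_mul_cancel₀ (idI_ne_zero t'), mul_one]
        _ ≤ 1 * (FractionalIdeal.spanSingleton (𝓞 K)⁰ D.lvl * idI t') := mul_le_mul_left hle _
        _ = _ := one_mul _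
    have he : β = (f₂ : K) * β + (f₁ : K) * β := by
      rw [← add_mul, ← map_add (algebraMap (𝓞 K) K), add_comm, hf, map_one, one_mul]
    rw [he]
    rw [← FractionalIdeal.mem_coe]
    refine Submodule.add_mem _ (FractionalIdeal.mem_coe.mpr (hmem ?_))
      (FractionalIdeal.mem_coe.mpr ?_)
    · refine FractionalIdeal.mul_mem_mul ?_ (FractionalIdeal.mem_spanSingleton_self _ _)
      obtain ⟨r, hr⟩ := Ideal.mem_span_singleton'.mp hf₂
      rw [← hr, pow_two, FractionalIdeal.spanSingleton_mul_spanSingleton,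
        FractionalIdeal.mem_spanSingleton]
      exact ⟨r, by
        rw [Algebra.smul_def]
        show _ = algebraMap (𝓞 K) K (r * _)
        rw [map_mul, map_pow (algebraMap (𝓞 K) K) (D.cond ^ 3) 2, pow_two]⟩
    · have h := FractionalIdeal.mul_mem_mul (FractionalIdeal.mem_coeIdeal_of_mem (𝓞 K)⁰ (P := K) hf₁) hβ
      rw [ht]
      convert! h using 1
      ring

/-- **The weight under a prime step.** -/
theorem rel_wt_step (R : RelSys K M D.toQuad ξ) (hp : D.IsPair t ξ B)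
    {t' : (FiniteAdeleRing (𝓞 K) K)ˣ} {v : HeightOneSpectrum (𝓞 K)}
    (hv : D.cond ^ 3 ∉ v.asIdeal)
    (ht : idI t' = idI t * (v.asIdeal : FractionalIdeal (𝓞 K)⁰ K) ^ 2) {β c : K}
    (hβ : β ∈ FractionalIdeal.spanSingleton (𝓞 K)⁰ D.lvl * idI t *
      (v.asIdeal : FractionalIdeal (𝓞 K)⁰ K))
    (hβ' : β ∉ FractionalIdeal.spanSingleton (𝓞 K)⁰ D.lvl * idI t')
    (hc : c ∈ FractionalIdeal.spanSingleton (𝓞 K)⁰ D.lvl *
      (idI t * (v.asIdeal : FractionalIdeal (𝓞 K)⁰ K))⁻¹)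
    (hβc : 1 + β * c ∈ (v.asIdeal : FractionalIdeal (𝓞 K)⁰ K))
    (γ : GL (Fin 2) K) (hγ : (γ : Matrix (Fin 2) (Fin 2) K) = !![1 + β * c, β; c, 1]) :
    R.rel γ (D.wt (extI K M v.asIdeal * B))
      (fun x => (Ideal.absNorm v.asIdeal : ℂ) * D.wt B x) := by
  classical
  have hcv : D.cond ∉ v.asIdeal := fun h => hv (Ideal.pow_mem_of_mem _ h 3 (by norm_num))
  obtain ⟨S, hS⟩ := exists_reps (latL B) (D.latP_ne_zero hp.ne_bot)
  have hp' : D.IsPair t' ξ (extI K M v.asIdeal * B) := hp.mul_prime ht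
  have hS' := isReps_mul_prime (D := D) hp.ne_bot hcv hS
  obtain ⟨S₁, hS₁⟩ := exists_reps (D.latP (extI K M v.asIdeal * B)) (D.latP_ne_zero hp.ne_bot)
  obtain ⟨i, hiv, hie⟩ := (FractionalIdeal.mem_coeIdeal _).mp hβc
  have hiP : ∀ {x : M}, x ∈ D.latP (extI K M v.asIdeal * B) →
      algebraMap K M (1 + β * c) * x ∈ D.latP B := fun hx => by
    rw [← hie, latP_eq_mul (v := v), ← algebraMap_coe_int]
    exact FractionalIdeal.mul_mem_mul
      (FractionalIdeal.mem_coeIdeal_of_mem _ (Ideal.mem_map_of_mem _ hiv)) hx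
  have hG := gaussSum_step hp hv ht hβ hβ' hS₁
  refine R.congr (R.sum S fun h hh => R.smul_const (D.wt (extI K M v.asIdeal * B) h)
    (rel_coset_step R hp.ne_zero (D.latP_ne_zero hp.ne_bot) latP_le_mul hS₁ (fun x hx => ?_)
      (fun u hu p hpP => ?_) (fun y hy => mul_mem_latP_step hp hc hy) (fun y hy u hu => ?_)
      (fun y hy => ?_) γ hγ))
    (fun x => (wt_eq_sum hp'.ne_bot hS' x).symm) (fun x => ?_)
  · refine psi_eq_of_sub ?_
    have e : β * (ξ * Algebra.norm K (h + x)) - β * (ξ * Algebra.norm K x) =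
        β * D.toQuad.bil ξ ((D.theta : M) * h) h + β * D.toQuad.bil ξ h x := by
      rw [D.toQuad.bil_theta ξ D.trace_theta, D.toQuad.norm_add, Quad.bil]
      ring
    rw [e, psi_add, psi_bil_step hp hβ (smul_int_mem (hS.1 h hh) D.theta)
        (latL_le_mul hp.ne_bot v (hS.1 h hh)),
      psi_bil_step hp hβ (hS.1 h hh) (D.latP_le _ hx), one_mul]
  · refine psi_eq_of_sub ?_
    have e : β * (ξ * Algebra.norm K (u + p)) - β * (ξ * Algebra.norm K u) =
        β * D.toQuad.bil ξ ((D.theta : M) * p) p + β * D.toQuad.bil ξ p u := by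
      rw [D.toQuad.bil_theta ξ D.trace_theta, D.toQuad.norm_add, D.toQuad.bil_comm ξ p u, Quad.bil]
      ring
    rw [e, psi_add, psi_bil_step hp hβ (smul_int_mem (D.latP_le B hpP) D.theta)
        (latL_le_mul hp.ne_bot v (D.latP_le B hpP)),
      psi_bil_step hp hβ (D.latP_le B hpP) (D.latP_le _ hu), one_mul]
  · rw [← D.toQuad.bil_smul_left]
    exact hy _ (hiP hu)
  · rw [show c * (1 + β * c) * (ξ * Algebra.norm K y) = D.toQuad.bil ξ
      ((D.theta : M) * (algebraMap K M (1 + β * c) * (algebraMap K M c * y))) y by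
        rw [show (D.theta : M) * (algebraMap K M (1 + β * c) * (algebraMap K M c * y)) =
          algebraMap K M (c * (1 + β * c)) * ((D.theta : M) * y) by rw [map_mul]; ring,
          D.toQuad.bil_smul_left, D.toQuad.bil_theta ξ D.trace_theta]]
    exact hy _ (smul_int_mem (hiP (mul_mem_latP_step hp hc hy)) D.theta)
  · rw [wt_eq_sum hp.ne_bot hS x, Finset.mul_sum]
    refine Finset.sum_congr rfl fun h hh => ?_
    rw [wt_mul_prime hp.ne_bot v (hS.1 h hh), hG]
    linear_combination ((Ideal.absNorm v.asIdeal : ℂ) * D.wt B h * coset (D.latP B) h x) *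
      chi_extI_sq hcv

end DihData

end Fermat.Agent.LT.Dihedral

end
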