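import Fermat.Agent.LT.Dihedral.GaloisPlaces
import Fermat.Agent.LT.Dihedral.GaloisGroup

/-!
# The dihedral data of a `Q₈`-extension

`L/K` Galois with group embedded by `φ` as `Q₈`, `M` the fixed field of `C₄`, `χ` the character
`c4Char ∘ φ` of `Gal(L/M)`. With reciprocity this gives a `DihData K M` with eigenvalue the trace
of the octahedral lift at every Frobenius element prime to the period.
-/

set_option autoImplicit false
set_option linter.unusedSectionVars false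
set_option maxHeartbeats 800000

noncomputable section

namespace Fermat.Agent.LT.Dihedral

open NumberField IsDedekindDomain UniqueFactorizationMonoid
open scoped Pointwise MatrixGroups

variable {K M L : Type} [Field K] [NumberField K] [Field M] [NumberField M] [Field L]
  [NumberField L] [Algebra K M] [Algebra K L] [Algebra M L] [IsScalarTower K M L]
  [IsGalois K L] [IsGalois M L]

/-- An embedding of `Gal(L/K)` as `Q₈` with `M` fixed by `C₄`, unramified outside `c`. -/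
structure QuatTower (K M L : Type) [Field K] [Field M] [Field L] [NumberField L] [Algebra K M]
    [Algebra K L] [Algebra M L] (c : ℕ) where
  /-- the embedding -/
  phi : Gal(L/K) →* GL (Fin 2) (ZMod 3)
  injective : Function.Injective phi
  mem_quat : ∀ g, phi g ∈ quatSubgroup
  surj : ∀ q ∈ quatSubgroup, ∃ g, phi g = q
  fixes_iff : ∀ g, phi g ∈ c4Group ↔ ∀ x : M, g (algebraMap M L x) = algebraMap M L x
  cond_ne : c ≠ 0
  cond_odd : Nat.Coprime c 2
  inertia_eq : ∀ P : Ideal (𝓞 L), P.IsMaximal → (c : 𝓞 L) ∉ P → P.inertia Gal(L/K) = ⊥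

namespace QuatTower

variable {c : ℕ} (T : QuatTower K M L c)

/-- `Gal(L/M) → C₄`. -/
def toC4 : Gal(L/M) →* c4Group :=
  (T.phi.comp (Recip.resHom K)).codRestrict c4Group fun h =>
    (T.fixes_iff _).2 fun x => h.commutes x

theorem coe_toC4 (h : Gal(L/M)) :
    ((T.toC4 h : c4Group) : GL (Fin 2) (ZMod 3)) = T.phi (Recip.resHom K h) := rfl

/-- The character. -/
def chiM : Gal(L/M) →* ℂˣ := c4Char.comp T.toC4

theorem chiM_pow_four (h : Gal(L/M)) : T.chiM h ^ 4 = 1 := c4Char_pow_four _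

theorem exists_gal_of_mem {q : GL (Fin 2) (ZMod 3)} (hq : q ∈ c4Group) :
    ∃ h : Gal(L/M), (T.toC4 h : GL (Fin 2) (ZMod 3)) = q := by
  obtain ⟨g, rfl⟩ := T.surj q (c4Group_le hq)
  exact ⟨AlgEquiv.ofRingEquiv (f := g.toRingEquiv) ((T.fixes_iff g).1 hq),
    congrArg T.phi (AlgEquiv.ext fun _ => rfl)⟩

theorem exists_chiM_I : ∃ h : Gal(L/M), (T.chiM h : ℂ) = Complex.I ∧
    Subgroup.zpowers (T.chiM h) = T.chiM.range := by
  obtain ⟨h, hh⟩ := T.exists_gal_of_mem quatI_mem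
  have e : T.toC4 h = ⟨quatI, quatI_mem⟩ := Subtype.ext hh
  refine ⟨h, ?_, le_antisymm ((Subgroup.zpowers_le).2 ⟨h, rfl⟩) ?_⟩
  · show (c4Char (T.toC4 h) : ℂ) = _
    rw [e, c4Char_quatI]
  · rintro _ ⟨g, rfl⟩
    show c4Char (T.toC4 g) ∈ Subgroup.zpowers (c4Char (T.toC4 h))
    rw [e, zpowers_c4Char_quatI]
    exact ⟨_, rfl⟩

theorem isCyclic_range : IsCyclic T.chiM.range := by
  obtain ⟨h, -, hh⟩ := T.exists_chiM_I
  rw [← hh]
  infer_instance

include T in
theorem exists_conjugation : ∃ g : Gal(L/K), T.phi g = quatJ := T.surj _ quatJ_mem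

include T in
theorem finrank_mid : Module.finrank K M = 2 := by
  classical
  obtain ⟨τ, hτ⟩ := T.exists_conjugation
  have hτn : T.phi τ ∉ c4Group := hτ ▸ quatJ_notMem
  let f : Gal(L/M) ⊕ Gal(L/M) → Gal(L/K) :=
    Sum.elim (fun h => Recip.resHom K h) fun h => τ * Recip.resHom K h
  have hf : Function.Bijective f := by
    refine ⟨?_, fun g => ?_⟩
    · rintro (a | a) (b | b) hab
      · exact congrArg Sum.inl (AlgEquiv.restrictScalars_injective K hab)
      · refine absurd ?_ hτn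
        have h1 : τ = Recip.resHom K a * (Recip.resHom K b)⁻¹ := eq_mul_inv_of_mul_eq hab.symm
        rw [h1, map_mul, map_inv]
        exact mul_mem (T.toC4 a).2 (inv_mem (T.toC4 b).2)
      · refine absurd ?_ hτn
        have h1 : τ = Recip.resHom K b * (Recip.resHom K a)⁻¹ := eq_mul_inv_of_mul_eq hab
        rw [h1, map_mul, map_inv]
        exact mul_mem (T.toC4 b).2 (inv_mem (T.toC4 a).2)
      · exact congrArg Sum.inr (AlgEquiv.restrictScalars_injective K (mul_left_cancel hab))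
    · by_cases hg : T.phi g ∈ c4Group
      · obtain ⟨h, hh⟩ := T.exists_gal_of_mem hg
        exact ⟨Sum.inl h, T.injective hh⟩
      · have hτi : T.phi τ⁻¹ ∉ c4Group := fun h => hτn (by simpa using inv_mem h)
        have hm : T.phi (τ⁻¹ * g) ∈ c4Group := by
          rw [map_mul]
          exact mul_mem_c4_of_notMem (T.mem_quat _) hτi (T.mem_quat _) hg
        obtain ⟨h, hh⟩ := T.exists_gal_of_mem hm
        refine ⟨Sum.inr h, ?_⟩
        show τ * Recip.resHom K h = g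
        rw [show Recip.resHom K h = τ⁻¹ * g from T.injective hh, mul_inv_cancel_left]
  have hcard := Nat.card_congr (Equiv.ofBijective f hf)
  rw [Nat.card_sum, IsGalois.card_aut_eq_finrank, IsGalois.card_aut_eq_finrank,
    ← Module.finrank_mul_finrank K M L] at hcard
  have hpos : 0 < Module.finrank M L := Module.finrank_pos
  nlinarith

include T in
theorem exists_quad : ∃ D : Quad K M, ∀ g : Gal(L/K), T.phi g ∉ c4Group →
    ∀ x : M, g (algebraMap M L x) = algebraMap M L (D.conj x) := by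
  obtain ⟨τ, hτ⟩ := T.exists_conjugation
  have : Algebra.IsQuadraticExtension K M := ⟨T.finrank_mid⟩
  have : Normal K M := inferInstance
  have hτc : ∀ x : M, τ (algebraMap M L x) = algebraMap M L (τ.restrictNormal M x) := fun x =>
    (τ.restrictNormal_commutes M x).symm
  refine ⟨⟨τ.restrictNormal M, fun h => quatJ_notMem ?_, T.finrank_mid⟩, fun g hg x => ?_⟩
  · rw [← hτ, T.fixes_iff]
    intro x
    rw [hτc x, h, AlgEquiv.one_apply]
  · have hτi : T.phi τ⁻¹ ∉ c4Group := fun h => quatJ_notMem (hτ ▸ by simpa using inv_mem h)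
    have hm := (T.fixes_iff (τ⁻¹ * g)).1 (by
      rw [map_mul]
      exact mul_mem_c4_of_notMem (T.mem_quat _) hτi (T.mem_quat _) hg) x
    rw [← hτc x]
    conv_rhs => rw [← hm, AlgEquiv.mul_apply, AlgEquiv.aut_inv, AlgEquiv.apply_symm_apply]

theorem two_notMem {R : Type*} [CommRing R] {I : Ideal R} (hI : I ≠ ⊤) (T : QuatTower K M L c)
    (h : (c : R) ∈ I) : (2 : R) ∉ I := by
  simpa using S14.Cross.BridgeLevel.natCast_notMem_of_coprime hI T.cond_odd h

include T in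
theorem cond_notMem_of_two_mem {R : Type*} [CommRing R] {I : Ideal R} (hI : I ≠ ⊤)
    (h : (2 : R) ∈ I) : (c : R) ∉ I := fun hc => two_notMem hI T hc h

/-- The bad primes of `M`. -/
def badM : Finset (HeightOneSpectrum (𝓞 M)) :=
  (Ideal.finite_factors (I := Ideal.span {((c : ℕ) : 𝓞 M)})
    (by simpa using T.cond_ne)).toFinset

theorem mem_badM {Q : HeightOneSpectrum (𝓞 M)} : Q ∈ T.badM ↔ (c : 𝓞 M) ∈ Q.asIdeal := by
  rw [badM, Set.Finite.mem_toFinset]
  show Q.asIdeal ∣ _ ↔ _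
  rw [Ideal.dvd_span_singleton]

include T in
theorem natCast_notMem_of_under {R S : Type*} [CommRing R] [CommRing S] [Algebra R S]
    {P : Ideal S} {n : ℕ} (h : (n : R) ∉ P.under R) : (n : S) ∉ P := fun hP => h (by
  rw [Ideal.mem_comap, map_natCast]
  exact hP)

theorem unrAt_chiM {Q : HeightOneSpectrum (𝓞 M)} (hQ : Q ∉ T.badM) :
    Recip.UnrAt T.chiM Q.asIdeal := fun P hP hPQ h hh => by
  have hc : (c : 𝓞 L) ∉ P := T.natCast_notMem_of_under (R := 𝓞 M) (by
    rw [hPQ, ← T.mem_badM]; exact hQ)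
  have h1 : Recip.resHom K h ∈ P.inertia Gal(L/K) := fun x => hh x
  rw [T.inertia_eq P hP hc, Subgroup.mem_bot] at h1
  show c4Char (T.toC4 h) = 1
  rw [show T.toC4 h = 1 from Subtype.ext (by rw [T.coe_toC4, h1, map_one]; rfl), map_one]

/-- The value at the prime below a Frobenius element fixing `M`. -/
theorem symb_of_fixes {D : Quad K M} {P : Ideal (𝓞 L)} [P.IsMaximal] (hc : (c : 𝓞 L) ∉ P)
    {g : Gal(L/K)} (hg : IsArithFrobAt (𝓞 K) g P) (hmem : T.phi g ∈ c4Group) :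
    Recip.symb T.chiM (P.under (𝓞 M)) = c4Char ⟨T.phi g, hmem⟩ := by
  have hI := T.inertia_eq P ‹_› hc
  have hN := (conjI_ne_of_frob_fixes P D hI hg ((T.fixes_iff g).1 hmem)).2
  obtain ⟨h, hh⟩ := T.exists_gal_of_mem hmem
  have hQ : (P.under (𝓞 M)).IsMaximal := under_mid_isMaximal P
  have hbad : (⟨_, hQ.isPrime, under_mid_ne_bot P⟩ : HeightOneSpectrum (𝓞 M)) ∉ T.badM := by
    rw [mem_badM]
    intro h'
    apply hc
    have := Ideal.mem_comap.1 h'
    rwa [map_natCast] at this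
  have hfrob : IsArithFrobAt (𝓞 M) h P := by
    intro x
    have h' : g • x - x ^ Nat.card (𝓞 K ⧸ P.under (𝓞 K)) ∈ P := hg x
    rw [Ideal.absNorm_apply, Ideal.absNorm_apply, Submodule.cardQuot_apply,
      Submodule.cardQuot_apply] at hN
    rw [← hN, ← T.injective hh] at h'
    exact h'
  rw [Recip.symb_eq (T.unrAt_chiM hbad) ‹_› rfl hfrob]
  exact congrArg c4Char (Subtype.ext hh)

/-- The value at the prime below a Frobenius element moving `M`. -/
theorem symb_of_moves {D : Quad K M} (hD : ∀ g : Gal(L/K), T.phi g ∉ c4Group →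
      ∀ x : M, g (algebraMap M L x) = algebraMap M L (D.conj x))
    {P : Ideal (𝓞 L)} [P.IsMaximal] (hc : (c : 𝓞 L) ∉ P) {g : Gal(L/K)}
    (hg : IsArithFrobAt (𝓞 K) g P) (hmem : T.phi g ∉ c4Group) :
    ((Recip.symb T.chiM (P.under (𝓞 M)) : ℂˣ) : ℂ) = -1 := by
  have hI := T.inertia_eq P ‹_› hc
  have hN := (conjI_eq_of_frob_conj P D hI hg (hD g hmem)).2
  obtain ⟨hsq, hval⟩ := sq_of_notMem (T.mem_quat g) hmem
  obtain ⟨h, hh⟩ := T.exists_gal_of_mem hsq
  have hQ : (P.under (𝓞 M)).IsMaximal := under_mid_isMaximal P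
  have hbad : (⟨_, hQ.isPrime, under_mid_ne_bot P⟩ : HeightOneSpectrum (𝓞 M)) ∉ T.badM := by
    rw [mem_badM]
    intro h'
    apply hc
    have := Ideal.mem_comap.1 h'
    rwa [map_natCast] at this
  have hfrob : IsArithFrobAt (𝓞 M) h P := by
    intro x
    have h' := Recip.frob_pow_mk hg 2 x
    rw [← map_pow, Ideal.Quotient.eq, ← hN, Ideal.absNorm_apply, Submodule.cardQuot_apply,
      show g ^ 2 = Recip.resHom K h from T.injective (by rw [map_pow, sq]; exact hh.symm)] at h'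
    exact h'
  rw [Recip.symb_eq (T.unrAt_chiM hbad) ‹_› rfl hfrob, ← hval]
  exact congrArg (fun z : c4Group => (c4Char z : ℂ)) (Subtype.ext hh)

open Classical in
/-- The character on ideals, extended by zero. -/
def chiI : Ideal (𝓞 M) →* ℂ where
  toFun I := if I ≠ ⊥ ∧ I ⊔ Ideal.span {(c : 𝓞 M)} = ⊤ then
    ((Recip.idealSymb T.chiM I : ℂˣ) : ℂ) else 0
  map_one' := by
    rw [if_pos ⟨by rw [← Ideal.zero_eq_bot]; exact one_ne_zero, by
      rw [Ideal.one_eq_top, top_sup_eq]⟩, Recip.idealSymb_one, Units.val_one]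
  map_mul' I J := by
    have hiff : (I * J ≠ ⊥ ∧ I * J ⊔ Ideal.span {(c : 𝓞 M)} = ⊤) ↔
        (I ≠ ⊥ ∧ I ⊔ Ideal.span {(c : 𝓞 M)} = ⊤) ∧ (J ≠ ⊥ ∧ J ⊔ Ideal.span {(c : 𝓞 M)} = ⊤) := by
      simp only [← Ideal.isCoprime_iff_sup_eq, IsCoprime.mul_left_iff, ne_eq, Ideal.mul_eq_bot,
        not_or]
      tauto
    by_cases hI : I ≠ ⊥ ∧ I ⊔ Ideal.span {(c : 𝓞 M)} = ⊤
    · by_cases hJ : J ≠ ⊥ ∧ J ⊔ Ideal.span {(c : 𝓞 M)} = ⊤
      · rw [if_pos (hiff.2 ⟨hI, hJ⟩), if_pos hI, if_pos hJ,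
          Recip.idealSymb_mul _ hI.1 hJ.1, Units.val_mul]
      · rw [if_neg fun h => hJ (hiff.1 h).2, if_neg hJ, mul_zero]
    · rw [if_neg fun h => hI (hiff.1 h).1, if_neg hI, zero_mul]

theorem chiI_eq {I : Ideal (𝓞 M)} (h0 : I ≠ ⊥) (h : I ⊔ Ideal.span {(c : 𝓞 M)} = ⊤) :
    T.chiI I = ((Recip.idealSymb T.chiM I : ℂˣ) : ℂ) := if_pos ⟨h0, h⟩

theorem chiI_eq_zero {I : Ideal (𝓞 M)} (h : I ⊔ Ideal.span {(c : 𝓞 M)} ≠ ⊤) :
    T.chiI I = 0 := if_neg fun h' => h h'.2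

theorem chiI_prime {Q : Ideal (𝓞 M)} (hQ : Q.IsMaximal) (hc : (c : 𝓞 M) ∉ Q) :
    T.chiI Q = ((Recip.symb T.chiM Q : ℂˣ) : ℂ) := by
  have h0 : Q ≠ ⊥ := Ring.ne_bot_of_isMaximal_of_not_isField hQ (RingOfIntegers.not_isField M)
  have hsup : Q ⊔ Ideal.span {(c : 𝓞 M)} = ⊤ :=
    hQ.out.2 _ (lt_of_le_of_ne le_sup_left fun h =>
      hc (h ▸ Ideal.mem_sup_right (Ideal.mem_span_singleton_self _)))
  rw [T.chiI_eq h0 hsup, Recip.idealSymb_prime _ h0]

theorem norm_chiI [IsGalois ℚ L] {I : Ideal (𝓞 M)} (h0 : I ≠ ⊥) (h : I ⊔ Ideal.span {(c : 𝓞 M)} = ⊤) :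
    ‖T.chiI I‖ = 1 := by
  rw [T.chiI_eq h0 h]
  have hr : Recip.idealSymb T.chiM I ∈ T.chiM.range :=
    Subgroup.multiset_prod_mem T.chiM.range
      ((normalizedFactors I).map (Recip.symb T.chiM)) fun z hz => by
      obtain ⟨P, -, rfl⟩ := Multiset.mem_map.1 hz
      exact Recip.symb_mem_range T.chiM P
  obtain ⟨x, hx⟩ := hr
  rw [← hx]
  exact norm_c4Char _

include T in
theorem span_sup_cond_eq {p q : 𝓞 M} (h : (c : 𝓞 M) ∣ p - q) :
    Ideal.span {p} ⊔ Ideal.span {(c : 𝓞 M)} = Ideal.span {q} ⊔ Ideal.span {(c : 𝓞 M)} := by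
  obtain ⟨r, hr⟩ := h
  rw [← Ideal.span_insert, ← Ideal.span_insert, show p = q + r * (c : 𝓞 M) by linear_combination hr,
    Ideal.span_pair_comm, Ideal.span_pair_add_mul_left, Ideal.span_pair_comm]

theorem chiI_periodic [IsTotallyComplex M] [IsGalois ℚ L] (p q : 𝓞 M) (hp : p ≠ 0) (hq : q ≠ 0)
    (h : (c : 𝓞 M) ∣ p - q) : T.chiI (Ideal.span {p}) = T.chiI (Ideal.span {q}) := by
  have hsup := T.span_sup_cond_eq h
  by_cases hcop : Ideal.span {q} ⊔ Ideal.span {(c : 𝓞 M)} = ⊤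
  swap
  · rw [T.chiI_eq_zero (hsup ▸ hcop), T.chiI_eq_zero hcop]
  rw [T.chiI_eq (by simpa using hp) (hsup ▸ hcop), T.chiI_eq (by simpa using hq) hcop]
  congr 1
  have := T.isCyclic_range
  have hinj := IsFractionRing.injective (𝓞 M) M
  set pK : Mˣ := Units.mk0 (algebraMap (𝓞 M) M p) ((map_ne_zero_iff _ hinj).mpr hp)
  set qK : Mˣ := Units.mk0 (algebraMap (𝓞 M) M q) ((map_ne_zero_iff _ hinj).mpr hq)
  have hone : Recip.OneAt T.badM (Adelic.principalIdele (pK * qK⁻¹)) := by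
    intro v hv
    rw [T.mem_badM] at hv
    have hqv : q ∉ v.asIdeal := fun hq' => v.isPrime.ne_top (top_le_iff.1 (hcop ▸ sup_le
      ((Ideal.span_singleton_le_iff_mem _).2 hq') ((Ideal.span_singleton_le_iff_mem _).2 hv)))
    have hpq : p - q ∈ v.asIdeal := Ideal.mem_of_dvd _ h hv
    have hcoe : ((Adelic.principalIdele (R := 𝓞 M) (pK * qK⁻¹) :
        (FiniteAdeleRing (𝓞 M) M)ˣ) : FiniteAdeleRing (𝓞 M) M) =
        algebraMap M (FiniteAdeleRing (𝓞 M) M) ((pK * qK⁻¹ : Mˣ) : M) := rfl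
    rw [hcoe, ← Adelic.coe_apply_one v, ← map_one (algebraMap M (FiniteAdeleRing (𝓞 M) M)),
      ← Adelic.coe_apply_sub, ← map_sub, Adelic.valued_algebraMap]
    rw [show ((pK * qK⁻¹ : Mˣ) : M) - 1 =
        algebraMap (𝓞 M) M (p - q) / algebraMap (𝓞 M) M q by
      rw [Units.val_mul, Units.val_inv_eq_inv_val, Units.val_mk0, Units.val_mk0, map_sub,
        sub_div, div_self ((map_ne_zero_iff _ hinj).mpr hq), div_eq_mul_inv],
      map_div₀, v.valuation_of_algebraMap, v.valuation_of_algebraMap,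
      v.intValuation_eq_one_iff.2 hqv, div_one, v.intValuation_lt_one_iff_mem]
    exact hpq
  have h1 := Recip.ideleSymb_principal_eq_one (χ := T.chiM) T.chiM_pow_four
    (fun P hP => two_notMem P.isPrime.ne_top T (T.mem_badM.1 hP))
    (fun P hP => T.unrAt_chiM hP) hone
  have h2 : Adelic.principalIdele (R := 𝓞 M) pK =
      Adelic.principalIdele (pK * qK⁻¹) * Adelic.principalIdele qK := by
    rw [← Recip.principalIdele_mul, inv_mul_cancel_right]
  rw [← Recip.ideleSymb_principal_int T.chiM (k := pK) hp rfl,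
    ← Recip.ideleSymb_principal_int T.chiM (k := qK) hq rfl, h2, Recip.ideleSymb_mul, h1, one_mul]

theorem chiI_extI_inert {D : Quad K M} (hD : ∀ g : Gal(L/K), T.phi g ∉ c4Group →
      ∀ x : M, g (algebraMap M L x) = algebraMap M L (D.conj x))
    {P : Ideal (𝓞 L)} [P.IsMaximal] (hc : (c : 𝓞 L) ∉ P) {g : Gal(L/K)}
    (hg : IsArithFrobAt (𝓞 K) g P) (hmem : T.phi g ∉ c4Group) :
    extI K M (P.under (𝓞 K)) = P.under (𝓞 M) ∧
      T.chiI (P.under (𝓞 M)) = -1 := by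
  have hI := T.inertia_eq P ‹_› hc
  refine ⟨(extI_eq P D hI).1 (conjI_eq_of_frob_conj P D hI hg (hD g hmem)).1, ?_⟩
  rw [T.chiI_prime (under_mid_isMaximal P) (fun h => hc (by
    have := Ideal.mem_comap.1 h; rwa [map_natCast] at this)), T.symb_of_moves hD hc hg hmem]

theorem chiI_split {D : Quad K M} (hD : ∀ g : Gal(L/K), T.phi g ∉ c4Group →
      ∀ x : M, g (algebraMap M L x) = algebraMap M L (D.conj x))
    {P : Ideal (𝓞 L)} [P.IsMaximal] (hc : (c : 𝓞 L) ∉ P) {g : Gal(L/K)}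
    (hg : IsArithFrobAt (𝓞 K) g P) (hmem : T.phi g ∈ c4Group) :
    D.conjI (P.under (𝓞 M)) ≠ P.under (𝓞 M) ∧
    extI K M (P.under (𝓞 K)) = P.under (𝓞 M) * D.conjI (P.under (𝓞 M)) ∧
    T.chiI (P.under (𝓞 M)) = (c4Char ⟨T.phi g, hmem⟩ : ℂ) ∧
    T.chiI (D.conjI (P.under (𝓞 M))) = ((c4Char ⟨T.phi g, hmem⟩⁻¹ : ℂˣ) : ℂ) := by
  have hI := T.inertia_eq P ‹_› hc
  have hne := (conjI_ne_of_frob_fixes P D hI hg ((T.fixes_iff g).1 hmem)).1
  have hnotMem : ∀ R : Ideal (𝓞 L), (c : 𝓞 L) ∉ R → (c : 𝓞 M) ∉ R.under (𝓞 M) :=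
    fun R hR h => hR (by have := Ideal.mem_comap.1 h; rwa [map_natCast] at this)
  refine ⟨hne, (extI_eq P D hI).2 hne, ?_, ?_⟩
  · rw [T.chiI_prime (under_mid_isMaximal P) (hnotMem P hc),
      T.symb_of_fixes (D := D) hc hg hmem]
  obtain ⟨τ, hτ⟩ := T.exists_conjugation
  have hτn : T.phi τ ∉ c4Group := hτ ▸ quatJ_notMem
  have hmax : (τ • P).IsMaximal :=
    Ideal.map_isMaximal_of_equiv (MulSemiringAction.toRingEquiv Gal(L/K) (𝓞 L) τ)
  have hunder : (τ • P).under (𝓞 M) = D.conjI (P.under (𝓞 M)) := by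
    ext a
    rw [D.mem_conjI, Ideal.mem_comap, Ideal.mem_comap,
      Ideal.mem_pointwise_smul_iff_inv_smul_mem]
    have e : τ⁻¹ • algebraMap (𝓞 M) (𝓞 L) a = algebraMap (𝓞 M) (𝓞 L) (D.conjO a) := by
      rw [inv_smul_eq_iff, smul_algebraMap_of_conj D (hD τ hτn), D.conjO_conjO]
    rw [e]
  have hc' : (c : 𝓞 L) ∉ τ • P := fun h => hc (by
    rw [Ideal.mem_pointwise_smul_iff_inv_smul_mem] at h
    rwa [show τ⁻¹ • (c : 𝓞 L) = c from
      map_natCast (MulSemiringAction.toRingEquiv Gal(L/K) (𝓞 L) τ⁻¹) _] at h)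
  have hg' : IsArithFrobAt (𝓞 K) (τ * g * τ⁻¹) (τ • P) := hg.conj τ
  have hval : T.phi (τ * g * τ⁻¹) = (T.phi g)⁻¹ := by
    rw [map_mul, map_mul, map_inv, conj_c4 (T.mem_quat τ) hτn hmem]
  have hmem' : T.phi (τ * g * τ⁻¹) ∈ c4Group := hval ▸ inv_mem hmem
  rw [← hunder, T.chiI_prime (under_mid_isMaximal (τ • P)) (hnotMem _ hc'),
    T.symb_of_fixes (D := D) hc' hg' hmem']
  exact congrArg (fun z : c4Group => (c4Char z : ℂ)) (Subtype.ext hval)

end QuatTower

end Fermat.Agent.LT.Dihedral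

end
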