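import Fermat.Agent.LT.Dihedral.Data
import Fermat.Agent.LT.Recip.Ideles
import Fermat.Agent.Density.Finite

/-!
# Primes of a quadratic extension inside a Galois extension unramified at them
-/

set_option autoImplicit false
set_option linter.unusedSectionVars false

noncomputable section

namespace Fermat.Agent.LT.Dihedral

open NumberField IsDedekindDomain UniqueFactorizationMonoid
open scoped Pointwise

variable {K M L : Type} [Field K] [NumberField K] [Field M] [NumberField M] [Field L]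
  [NumberField L] [Algebra K M] [Algebra K L] [Algebra M L] [IsScalarTower K M L]
  [IsGalois K L] [IsGalois M L]

theorem smul_algebraMap_of_fixes {g : Gal(L/K)}
    (hg : ∀ x : M, g (algebraMap M L x) = algebraMap M L x) (a : 𝓞 M) :
    g • algebraMap (𝓞 M) (𝓞 L) a = algebraMap (𝓞 M) (𝓞 L) a :=
  RingOfIntegers.ext (hg (a : M))

theorem smul_algebraMap_of_conj (D : Quad K M) {g : Gal(L/K)}
    (hg : ∀ x : M, g (algebraMap M L x) = algebraMap M L (D.conj x)) (a : 𝓞 M) :
    g • algebraMap (𝓞 M) (𝓞 L) a = algebraMap (𝓞 M) (𝓞 L) (D.conjO a) :=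
  RingOfIntegers.ext (hg (a : M))

variable (P : Ideal (𝓞 L)) [hP : P.IsMaximal]

theorem under_mid_isMaximal : (P.under (𝓞 M)).IsMaximal := Ideal.IsMaximal.under (𝓞 M) P

theorem under_base_isMaximal : (P.under (𝓞 K)).IsMaximal := Ideal.IsMaximal.under (𝓞 K) P

theorem under_base_ne_bot : P.under (𝓞 K) ≠ ⊥ :=
  Ring.ne_bot_of_isMaximal_of_not_isField (under_base_isMaximal P) (RingOfIntegers.not_isField K)

theorem under_mid_ne_bot : P.under (𝓞 M) ≠ ⊥ :=
  Ring.ne_bot_of_isMaximal_of_not_isField (under_mid_isMaximal P) (RingOfIntegers.not_isField M)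

/-- A prime with trivial inertia is not squared in the extension of the prime below. -/
theorem extI_not_le_sq (hI : P.inertia Gal(L/K) = ⊥) :
    ¬ extI K M (P.under (𝓞 K)) ≤ P.under (𝓞 M) ^ 2 := by
  classical
  intro hle
  have hP0 : P ≠ ⊥ := Ring.ne_bot_of_isMaximal_of_not_isField hP (RingOfIntegers.not_isField L)
  set v := P.under (𝓞 K)
  have : v.IsMaximal := under_base_isMaximal P
  have : P.LiesOver v := ⟨rfl⟩
  have hinj := FaithfulSMul.algebraMap_injective (𝓞 K) (𝓞 L)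
  have hmap0 : v.map (algebraMap (𝓞 K) (𝓞 L)) ≠ ⊥ :=
    (Ideal.map_eq_bot_iff_of_injective hinj).not.mpr (under_base_ne_bot P)
  have : Finite (𝓞 K ⧸ v) := Recip.finite_quotient_of_max v
  have : Finite v.ResidueField := Finite.of_surjective _
    (Ideal.bijective_algebraMap_quotient_residueField v).2
  have : PerfectField v.ResidueField := PerfectField.ofFinite
  have he : (normalizedFactors (v.map (algebraMap (𝓞 K) (𝓞 L)))).count P =
      Nat.card (P.inertia Gal(L/K)) := by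
    rw [show Nat.card (P.inertia Gal(L/K)) = Ideal.ramificationIdxIn v (𝓞 L) from
        Ideal.card_inertia_eq_ramificationIdxIn v P,
      Ideal.ramificationIdxIn_eq_ramificationIdx v P Gal(L/K),
      Ideal.IsDedekindDomain.ramificationIdx_eq_normalizedFactors_count v P hmap0]
  rw [hI, Subgroup.card_bot] at he
  have h2 : P ^ 2 ∣ v.map (algebraMap (𝓞 K) (𝓞 L)) := by
    rw [Ideal.dvd_iff_le, IsScalarTower.algebraMap_eq (𝓞 K) (𝓞 M) (𝓞 L), ← Ideal.map_map]
    refine le_trans (Ideal.map_mono hle) ?_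
    rw [Ideal.map_pow]
    exact Ideal.pow_right_mono Ideal.map_comap_le 2
  rw [dvd_iff_normalizedFactors_le_normalizedFactors (pow_ne_zero 2 hP0) hmap0,
    normalizedFactors_pow, normalizedFactors_irreducible
      (Ideal.prime_of_isPrime hP0 hP.isPrime).irreducible, normalize_eq,
    Multiset.nsmul_singleton, ← Multiset.le_count_iff_replicate_le, he] at h2
  omega

variable (D : Quad K M)

theorem under_base_mid : (P.under (𝓞 M)).under (𝓞 K) = P.under (𝓞 K) := Ideal.under_under P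

theorem mul_conjO_eq_norm (a : 𝓞 M) :
    ∃ b : 𝓞 K, algebraMap (𝓞 K) (𝓞 M) b = a * D.conjO a :=
  ⟨⟨Algebra.norm K (a : M), Algebra.isIntegral_norm K a.isIntegral_coe⟩,
    RingOfIntegers.ext (D.norm_eq (a : M))⟩

theorem add_conjO_eq_trace (a : 𝓞 M) :
    ∃ b : 𝓞 K, algebraMap (𝓞 K) (𝓞 M) b = a + D.conjO a :=
  ⟨⟨Algebra.trace K M (a : M), Algebra.isIntegral_trace a.isIntegral_coe⟩,
    RingOfIntegers.ext (D.trace_eq (a : M))⟩

omit hP in
theorem conjI_isMaximal {Q : Ideal (𝓞 M)} (hQ : Q.IsMaximal) : (D.conjI Q).IsMaximal :=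
  haveI := hQ
  Ideal.map_isMaximal_of_equiv D.conjO

omit hP in
theorem absNorm_conjI (Q : Ideal (𝓞 M)) :
    Ideal.absNorm (D.conjI Q) = Ideal.absNorm Q := by
  rw [Ideal.absNorm_apply, Ideal.absNorm_apply, Submodule.cardQuot_apply, Submodule.cardQuot_apply]
  exact (Nat.card_congr (Ideal.quotientEquiv Q (D.conjI Q) D.conjO rfl).toEquiv).symm

omit hP in
theorem extI_conjI (v : Ideal (𝓞 K)) : D.conjI (extI K M v) = extI K M v := by
  rw [Quad.conjI, ← Ideal.map_coe, extI, Ideal.map_map]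
  refine congrArg (fun f => Ideal.map f v) (RingHom.ext fun b => RingOfIntegers.ext ?_)
  exact D.conj.commutes (b : K)

omit hP in
/-- The primes over the prime below are `Q` and its conjugate. -/
theorem eq_or_eq_conjI {v : Ideal (𝓞 K)} {Q R : Ideal (𝓞 M)} (hQ : Q.IsMaximal)
    (hR : R.IsMaximal) (hQv : Q.under (𝓞 K) = v) (hRv : R.under (𝓞 K) = v) :
    R = Q ∨ R = D.conjI Q := by
  by_contra h
  rw [not_or] at h
  obtain ⟨y, hyR, hyQ⟩ := SetLike.not_le_iff_exists.1 fun hle =>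
    h.1 (hR.eq_of_le hQ.ne_top hle)
  obtain ⟨z, hzR, hzQ⟩ := SetLike.not_le_iff_exists.1 fun hle =>
    h.2 (hR.eq_of_le (conjI_isMaximal D hQ).ne_top hle)
  obtain ⟨x, hxR, hxQ, hxQ'⟩ : ∃ x, x ∈ R ∧ x ∉ Q ∧ x ∉ D.conjI Q := by
    by_cases hy : y ∈ D.conjI Q
    · by_cases hz : z ∈ Q
      · exact ⟨y + z, R.add_mem hyR hzR, fun h' => hyQ (by simpa using Q.sub_mem h' hz),
          fun h' => hzQ (by simpa using (D.conjI Q).sub_mem h' hy)⟩
      · exact ⟨z, hzR, hz, hzQ⟩
    · exact ⟨y, hyR, hyQ, hy⟩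
  obtain ⟨b, hb⟩ := mul_conjO_eq_norm D x
  have hbR : b ∈ R.under (𝓞 K) := by
    rw [Ideal.mem_comap, hb]
    exact R.mul_mem_right _ hxR
  rw [hRv, ← hQv, Ideal.mem_comap, hb] at hbR
  rcases hQ.isPrime.mem_or_mem hbR with h' | h'
  · exact hxQ h'
  · exact hxQ' (D.mem_conjI.2 h')

omit hP in
theorem absNorm_extI (D : Quad K M) (v : Ideal (𝓞 K)) :
    Ideal.absNorm (extI K M v) = Ideal.absNorm v ^ 2 := by
  rw [← Ideal.absNorm_relNorm (𝓞 K) (𝓞 M) (extI K M v), extI, Ideal.relNorm_algebraMap, map_pow,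
    ← IsFractionRing.finrank_eq (𝓞 K) K (𝓞 M) M, D.finrank_two]

/-- The factorisation of an unramified prime. -/
theorem extI_eq (hI : P.inertia Gal(L/K) = ⊥) :
    (D.conjI (P.under (𝓞 M)) = P.under (𝓞 M) → extI K M (P.under (𝓞 K)) = P.under (𝓞 M)) ∧
    (D.conjI (P.under (𝓞 M)) ≠ P.under (𝓞 M) →
      extI K M (P.under (𝓞 K)) = P.under (𝓞 M) * D.conjI (P.under (𝓞 M))) := by
  set Q := P.under (𝓞 M)
  set v := P.under (𝓞 K)
  have hQ : Q.IsMaximal := under_mid_isMaximal P
  have hv : v.IsMaximal := under_base_isMaximal P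
  have hQv : Q.under (𝓞 K) = v := under_base_mid P
  have hle : extI K M v ≤ Q := Ideal.map_le_iff_le_comap.2 hQv.ge
  have hsq := extI_not_le_sq (K := K) (M := M) P hI
  have hle' : extI K M v ≤ D.conjI Q := by
    rw [← extI_conjI D v]; exact Ideal.map_mono hle
  have hsq' : ¬ extI K M v ≤ D.conjI Q ^ 2 := fun h => hsq (by
    rw [← extI_conjI D v]
    refine le_trans (Ideal.map_mono h) ?_
    rw [Ideal.map_pow]
    exact Ideal.pow_right_mono (le_of_eq (D.conjI_conjI Q)) 2)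
  -- a prime dividing what is left contains the extended ideal squared
  have key : ∀ R : Ideal (𝓞 M), R ∣ extI K M v → R ≠ ⊤ → ∃ N : Ideal (𝓞 M),
      N.IsMaximal ∧ R ≤ N ∧ (N = Q ∨ N = D.conjI Q) := by
    intro R hR hRtop
    obtain ⟨N, hN, hRN⟩ := Ideal.exists_le_maximal R hRtop
    refine ⟨N, hN, hRN, eq_or_eq_conjI D hQ hN hQv ?_⟩
    exact (hv.eq_of_le (Ideal.IsPrime.comap (hK := hN.isPrime) _).ne_top
      (Ideal.map_le_iff_le_comap.1 ((Ideal.le_of_dvd hR).trans hRN))).symm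
  constructor
  · intro hc
    obtain ⟨R, hR⟩ := Ideal.dvd_iff_le.2 hle
    by_cases hRtop : R = ⊤
    · rw [hR, hRtop, Ideal.mul_top]
    obtain ⟨N, -, hRN, hN'⟩ := key R ⟨Q, by rw [hR, mul_comm]⟩ hRtop
    rw [hc, or_self] at hN'
    subst hN'
    exact absurd (by rw [hR, sq]; exact Ideal.mul_mono_right hRN) hsq
  · intro hc
    have hcop : IsCoprime Q (D.conjI Q) := Ideal.isCoprime_iff_sup_eq.2
      (hQ.coprime_of_ne (conjI_isMaximal D hQ) (Ne.symm hc))
    obtain ⟨R, hR⟩ := hcop.mul_dvd (Ideal.dvd_iff_le.2 hle) (Ideal.dvd_iff_le.2 hle')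
    by_cases hRtop : R = ⊤
    · rw [hR, hRtop, Ideal.mul_top]
    obtain ⟨N, -, hRN, hN'⟩ := key R ⟨Q * D.conjI Q, by rw [hR, mul_comm]⟩ hRtop
    rcases hN' with rfl | rfl
    · refine absurd ?_ hsq
      rw [hR, sq]
      exact Ideal.mul_mono Ideal.mul_le_left hRN
    · refine absurd ?_ hsq'
      rw [hR, sq]
      exact Ideal.mul_mono Ideal.mul_le_right hRN

/-- Residue degree one at primes where a Frobenius element fixes `M`: the prime splits. -/
theorem conjI_ne_of_frob_fixes (hI : P.inertia Gal(L/K) = ⊥) {g : Gal(L/K)}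
    (hg : IsArithFrobAt (𝓞 K) g P) (hfix : ∀ x : M, g (algebraMap M L x) = algebraMap M L x) :
    D.conjI (P.under (𝓞 M)) ≠ P.under (𝓞 M) ∧
      Ideal.absNorm (P.under (𝓞 M)) = Ideal.absNorm (P.under (𝓞 K)) := by
  set Q := P.under (𝓞 M)
  set v := P.under (𝓞 K)
  have hQ : Q.IsMaximal := under_mid_isMaximal P
  have hv : v.IsMaximal := under_base_isMaximal P
  have hv1 : 1 < Ideal.absNorm v := by
    rw [Ideal.absNorm_apply, Submodule.cardQuot_apply]
    exact Finite.one_lt_card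
  have hle : Ideal.absNorm Q ≤ Ideal.absNorm v := by
    rw [Ideal.absNorm_apply Q, Submodule.cardQuot_apply]
    refine Fermat.Agent.Density.natCard_le_of_forall_pow_eq hv1 fun b => ?_
    obtain ⟨a, rfl⟩ := Ideal.Quotient.mk_surjective b
    rw [← map_pow, Ideal.Quotient.eq, Ideal.mem_comap, map_sub, map_pow, ← neg_mem_iff, neg_sub]
    have h : g • algebraMap (𝓞 M) (𝓞 L) a -
        algebraMap (𝓞 M) (𝓞 L) a ^ Nat.card (𝓞 K ⧸ v) ∈ P := hg _
    rw [smul_algebraMap_of_fixes hfix] at h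
    rw [Ideal.absNorm_apply, Submodule.cardQuot_apply]
    exact h
  have hne : D.conjI Q ≠ Q := fun hc => by
    have h := absNorm_extI D v
    rw [(extI_eq P D hI).1 hc] at h
    rw [h] at hle
    nlinarith
  refine ⟨hne, ?_⟩
  have h := absNorm_extI D v
  rw [(extI_eq P D hI).2 hne, map_mul, absNorm_conjI, ← sq] at h
  exact Nat.pow_left_injective two_ne_zero h

/-- A Frobenius element moving `M` fixes the prime of `M`. -/
theorem conjI_eq_of_frob_conj (hI : P.inertia Gal(L/K) = ⊥) {g : Gal(L/K)}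
    (hg : IsArithFrobAt (𝓞 K) g P)
    (hconj : ∀ x : M, g (algebraMap M L x) = algebraMap M L (D.conj x)) :
    D.conjI (P.under (𝓞 M)) = P.under (𝓞 M) ∧
      Ideal.absNorm (P.under (𝓞 M)) = Ideal.absNorm (P.under (𝓞 K)) ^ 2 := by
  set Q := P.under (𝓞 M)
  set v := P.under (𝓞 K)
  have hQ : Q.IsMaximal := under_mid_isMaximal P
  have hv : v.IsMaximal := under_base_isMaximal P
  have hv0 : Nat.card (𝓞 K ⧸ v) ≠ 0 := Nat.card_pos.ne'
  have hc : D.conjI Q = Q := by
    refine (conjI_isMaximal D hQ).eq_of_le hQ.ne_top fun a ha => ?_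
    rw [D.mem_conjI] at ha
    have h : g • algebraMap (𝓞 M) (𝓞 L) (D.conjO a) -
        algebraMap (𝓞 M) (𝓞 L) (D.conjO a) ^ Nat.card (𝓞 K ⧸ v) ∈ P := hg _
    have h2 : algebraMap (𝓞 M) (𝓞 L) (D.conjO a) ^ Nat.card (𝓞 K ⧸ v) ∈ P :=
      P.pow_mem_of_mem ha _ (Nat.pos_of_ne_zero hv0)
    have h3 := P.add_mem h h2
    rw [sub_add_cancel, smul_algebraMap_of_conj D hconj, D.conjO_conjO] at h3
    exact h3
  refine ⟨hc, ?_⟩
  rw [← absNorm_extI D v, (extI_eq P D hI).1 hc]

/-- The involution is nontrivial on the residue field of an inert prime and moves a split one. -/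
theorem exists_conjO_sub_notMem (hI : P.inertia Gal(L/K) = ⊥) {g : Gal(L/K)}
    (hg : IsArithFrobAt (𝓞 K) g P)
    (hg2 : (∀ x : M, g (algebraMap M L x) = algebraMap M L x) ∨
      ∀ x : M, g (algebraMap M L x) = algebraMap M L (D.conj x)) :
    ∃ a : 𝓞 M, D.conjO a - a ∉ P.under (𝓞 M) := by
  by_contra hall
  push Not at hall
  set Q := P.under (𝓞 M)
  set v := P.under (𝓞 K)
  have hQ : Q.IsMaximal := under_mid_isMaximal P
  have hv : v.IsMaximal := under_base_isMaximal P
  have hself : D.conjI Q = Q := by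
    refine (conjI_isMaximal D hQ).eq_of_le hQ.ne_top fun a ha => ?_
    have := Q.sub_mem (D.mem_conjI.1 ha) (hall a)
    simpa using this
  rcases hg2 with hfix | hconj
  · exact (conjI_ne_of_frob_fixes P D hI hg hfix).1 hself
  · have hN := (conjI_eq_of_frob_conj P D hI hg hconj).2
    have hv1 : 1 < Ideal.absNorm v := by
      rw [Ideal.absNorm_apply, Submodule.cardQuot_apply]
      exact Finite.one_lt_card
    have hle : Ideal.absNorm Q ≤ Ideal.absNorm v := by
      rw [Ideal.absNorm_apply Q, Submodule.cardQuot_apply]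
      refine Fermat.Agent.Density.natCard_le_of_forall_pow_eq hv1 fun b => ?_
      obtain ⟨a, rfl⟩ := Ideal.Quotient.mk_surjective b
      rw [← map_pow, Ideal.Quotient.eq]
      have h : g • algebraMap (𝓞 M) (𝓞 L) a -
          algebraMap (𝓞 M) (𝓞 L) a ^ Nat.card (𝓞 K ⧸ v) ∈ P := hg _
      rw [smul_algebraMap_of_conj D hconj, ← map_pow, ← map_sub] at h
      have h' := Q.sub_mem (hall a) (h : D.conjO a - a ^ Nat.card (𝓞 K ⧸ v) ∈ Q)
      rw [Ideal.absNorm_apply, Submodule.cardQuot_apply]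
      simpa using h'
    rw [hN] at hle
    nlinarith

end Fermat.Agent.LT.Dihedral

end
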