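import Fermat.Agent.LT.Dihedral.Data
import Fermat.Agent.LT.Data.Galois

/-!
# What the Galois side must supply to the dihedral construction
-/

set_option autoImplicit false

noncomputable section

namespace Fermat.Agent.LT.Dihedral

open Fermat.Agent.Galois WeierstrassCurve NumberField IsDedekindDomain
open scoped MatrixGroups

/-- The quadratic extension of `F'`, the character, the period `3 ^ m`, and the eigenvalues. -/
def HasDihData (W : WeierstrassCurve ℤ) (ρ : GalQ →* GL (Fin 2) (ZMod 3))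
    [NumberField (fieldF' ρ)] : Prop :=
  ∃ (_ : Adelic.Frame (fieldF' ρ) (Fin 3)) (M : Type) (_ : Field M) (_ : NumberField M)
    (_ : Algebra (fieldF' ρ) M) (D : DihData (fieldF' ρ) M) (m : ℕ),
    ((3 : ℤ) ∣ W.Δ → m = 0) ∧ D.cond = ((3 ^ m : ℕ) : 𝓞 (fieldF' ρ)) ∧
    ∀ w : HeightOneSpectrum (𝓞 (fieldF' ρ)), (3 : 𝓞 (fieldF' ρ)) ∉ w.asIdeal →
      ∀ σ, IsFrobOver (fieldF' ρ) w.asIdeal σ → D.eig w = octTrace ρ σ

/-- The Galois side of C1. -/
def StmtDihData : Prop :=
  ∀ (W : WeierstrassCurve ℤ) (ρ : GalQ →* GL (Fin 2) (ZMod 3)) [NumberField (fieldF' ρ)],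
    W.Δ ≠ 0 → W.IsSemistableModel → IsThreeRep W ρ → HasDihData W ρ

end Fermat.Agent.LT.Dihedral

end
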