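import Fermat.Agent.LT.Dihedral.GaloisData
import Fermat.Agent.LT.Dihedral.GaloisSpec
import Fermat.Agent.LT.Descent.Field

/-!
# The Galois side of C1

`M` is the fixed field of `ρ⁻¹ C₄` and `L` that of `ρ.ker`; over `F'` the group of `L` is `Q₈` and
inertia away from the period is trivial.
-/

set_option autoImplicit false
set_option maxHeartbeats 1600000
set_option linter.style.haveILetI false

noncomputable section

namespace Fermat.Agent.LT.Dihedral

open Fermat.Agent.Galois WeierstrassCurve NumberField IsDedekindDomain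
open S14.Cross (BridgeLevel.restrict)
open scoped MatrixGroups Pointwise

/-- The fixed field of `ρ⁻¹ C₄`. -/
def midField (ρ : GalQ →* GL (Fin 2) (ZMod 3)) : IntermediateField ℚ Qbar :=
  IntermediateField.fixedField (c4Group.comap ρ)

/-- The fixed field of the kernel. -/
def kerField (ρ : GalQ →* GL (Fin 2) (ZMod 3)) : IntermediateField ℚ Qbar :=
  IntermediateField.fixedField ((⊥ : Subgroup (GL (Fin 2) (ZMod 3))).comap ρ)

variable {W : WeierstrassCurve ℤ} {ρ : GalQ →* GL (Fin 2) (ZMod 3)}

theorem fieldF'_le_midField : fieldF' ρ ≤ midField ρ :=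
  IntermediateField.fixedField_le (Subgroup.comap_mono c4Group_le)

theorem midField_le_kerField : midField ρ ≤ kerField ρ :=
  IntermediateField.fixedField_le (Subgroup.comap_mono bot_le)

theorem fixes_kerField_iff (hρ : IsThreeRep W ρ) (σ : GalQ) :
    (∀ x : kerField ρ, σ (x : Qbar) = x) ↔ ρ σ = 1 :=
  (Density.fixing_iff_mem ρ hρ.factors ⊥ σ).trans Subgroup.mem_bot

theorem fixes_midField_iff (hρ : IsThreeRep W ρ) (σ : GalQ) :
    (∀ x : midField ρ, σ (x : Qbar) = x) ↔ ρ σ ∈ c4Group :=
  Density.fixing_iff_mem ρ hρ.factors c4Group σ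

theorem finiteDimensional_kerField (hρ : IsThreeRep W ρ) :
    FiniteDimensional ℚ (kerField ρ) := by
  obtain ⟨L, hL, hker⟩ := hρ.factors
  haveI := hL
  exact finiteDimensional_fixedField_of_le (L := L) fun σ hσ =>
    Subgroup.mem_bot.2 (hker σ ((IntermediateField.mem_fixingSubgroup_iff L σ).1 hσ))

theorem normal_kerField : Normal ℚ (kerField ρ) := by
  refine IntermediateField.normal_iff_forall_map_le'.2 fun g => ?_
  rintro _ ⟨x, hx, rfl⟩ ⟨h, hh⟩
  have hh' : ρ h = 1 := Subgroup.mem_bot.1 hh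
  have h1 : g⁻¹ * h * g ∈ (⊥ : Subgroup (GL (Fin 2) (ZMod 3))).comap ρ := by
    rw [Subgroup.mem_comap, map_mul, map_mul, hh', mul_one, ← map_mul, inv_mul_cancel, map_one]
    exact one_mem _
  have h2 := congrArg g (show (g⁻¹ * h * g) x = x from hx ⟨_, h1⟩)
  simp only [AlgEquiv.mul_apply, galQ_apply_inv] at h2
  exact h2

/-- Inertia fixing `F'` away from the period acts trivially. -/
theorem rho_inertia_eq_one (hρ : IsThreeRep W ρ) {q : ℕ} (hq : q.Prime)
    {A : ValuationSubring Qbar} (hA : A.LiesOverPrime q) {i : GalQ}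
    (hi : i ∈ A.inertiaSubgroupIn ℚ) (hquat : ρ i ∈ quatSubgroup)
    (h3 : q = 3 → (3 : ℤ) ∣ W.Δ) : ρ i = 1 := by
  rcases eq_or_ne q 3 with rfl | hne
  · refine hρ.unram_three (h3 rfl) A hA i hi ?_
    rw [← hρ.det]
    refine Units.ext ?_
    rw [Matrix.GeneralLinearGroup.val_det_apply, Matrix.det_fin_two, Units.val_one]
    exact (mem_quatSubgroup.1 hquat).1
  · exact eq_one_of_unipotent hquat (hρ.unipotent q hq hne A hA i hi)

/-- **The Galois side of C1.** -/
theorem stmtDihData : StmtDihData := by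
  intro W ρ _ _ _ hρ
  classical
  obtain ⟨g₀, hg₀⟩ := Descent.exists_lift hρ
  have hfinL := finiteDimensional_kerField hρ
  have : Normal ℚ (kerField ρ) := normal_kerField
  have : IsGalois ℚ (kerField ρ) := ⟨⟩
  have : NumberField (kerField ρ) :=
    { to_charZero := inferInstance, to_finiteDimensional := hfinL }
  have : FiniteDimensional ℚ (midField ρ) :=
    FiniteDimensional.of_injective
      (IntermediateField.inclusion midField_le_kerField).toLinearMap
      (IntermediateField.inclusion_injective midField_le_kerField)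
  have : NumberField (midField ρ) :=
    { to_charZero := inferInstance, to_finiteDimensional := this }
  letI : Algebra (fieldF' ρ) (midField ρ) :=
    (IntermediateField.inclusion fieldF'_le_midField).toRingHom.toAlgebra
  letI : Algebra (midField ρ) (kerField ρ) :=
    (IntermediateField.inclusion midField_le_kerField).toRingHom.toAlgebra
  letI : Algebra (fieldF' ρ) (kerField ρ) :=
    (IntermediateField.inclusion (fieldF'_le_midField.trans midField_le_kerField)).toRingHom.toAlgebra
  have : IsScalarTower (fieldF' ρ) (midField ρ) (kerField ρ) :=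
    IsScalarTower.of_algebraMap_eq fun _ => rfl
  have : IsGalois (fieldF' ρ) (kerField ρ) := IsGalois.tower_top_of_isGalois ℚ _ _
  have : IsGalois (midField ρ) (kerField ρ) := IsGalois.tower_top_of_isGalois ℚ _ _
  have : IsTotallyComplex (midField ρ) := ⟨fun v => by
    obtain ⟨i, hi⟩ := (Descent.frameF' hρ hg₀).bij.surjective
      (v.comap (algebraMap (fieldF' ρ) (midField ρ)))
    by_contra hv
    have hr := (InfinitePlace.not_isComplex_iff_isReal.1 hv).comap
      (algebraMap (fieldF' ρ) (midField ρ))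
    rw [← hi] at hr
    exact InfinitePlace.not_isReal_iff_isComplex.2 ((Descent.frameF' hρ hg₀).complex i) hr⟩
  -- the descent of `ρ` to the level
  set r := S14.Cross.BridgeLevel.restrict (kerField ρ)
  have hker : r.ker ≤ ρ.ker := fun σ hσ => (fixes_kerField_iff hρ σ).1 fun x => by
    rw [← S14.Cross.BridgeLevel.coe_restrict, show r σ = 1 from hσ]
    rfl
  let π : Gal((kerField ρ)/ℚ) →* GL (Fin 2) (ZMod 3) :=
    MonoidHom.liftOfSurjective r (S14.Cross.BridgeLevel.restrict_surjective _) ⟨ρ, hker⟩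
  have hπ : ∀ σ, π (r σ) = ρ σ := MonoidHom.liftOfRightInverse_comp_apply _ _ _ _
  have hfix : ∀ (g : Gal((kerField ρ)/(fieldF' ρ))), ∃ σ : GalQ,
      r σ = Recip.resHom ℚ g ∧ (∀ x : fieldF' ρ, σ (x : Qbar) = x) := fun g => by
    obtain ⟨σ, hσ⟩ := S14.Cross.BridgeLevel.restrict_surjective (kerField ρ) (Recip.resHom ℚ g)
    refine ⟨σ, hσ, fun x => ?_⟩
    have h := S14.Cross.BridgeLevel.coe_restrict (kerField ρ) σ
      (algebraMap (fieldF' ρ) (kerField ρ) x)
    rw [hσ] at h
    exact h.symm.trans (congrArg Subtype.val (g.commutes x))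
  have hlift : ∀ σ : GalQ, (∀ x : fieldF' ρ, σ (x : Qbar) = x) →
      ∃ g : Gal((kerField ρ)/(fieldF' ρ)), Recip.resHom ℚ g = r σ := fun σ hσ =>
    ⟨AlgEquiv.ofRingEquiv (f := (r σ).toRingEquiv) fun x => Subtype.ext
      ((S14.Cross.BridgeLevel.coe_restrict (kerField ρ) σ _).trans (hσ x)),
      AlgEquiv.ext fun _ => rfl⟩
  set m : ℕ := if (3 : ℤ) ∣ W.Δ then 0 else 1 with hm
  let T : QuatTower (fieldF' ρ) (midField ρ) (kerField ρ) (3 ^ m) :=
    { phi := π.comp (Recip.resHom ℚ)
      injective := fun g g' hgg => by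
        refine AlgEquiv.restrictScalars_injective ℚ ?_
        obtain ⟨σ, hσ⟩ := S14.Cross.BridgeLevel.restrict_surjective (kerField ρ) (Recip.resHom ℚ g)
        obtain ⟨σ', hσ'⟩ :=
          S14.Cross.BridgeLevel.restrict_surjective (kerField ρ) (Recip.resHom ℚ g')
        have h1 : ρ (σ'⁻¹ * σ) = 1 := by
          have h2 : π (Recip.resHom ℚ g) = π (Recip.resHom ℚ g') := hgg
          rw [← hσ, ← hσ', hπ, hπ] at h2
          rw [map_mul, map_inv, h2, inv_mul_cancel]
        have h3 : r (σ'⁻¹ * σ) = 1 := AlgEquiv.ext fun x => Subtype.ext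
          ((S14.Cross.BridgeLevel.coe_restrict (kerField ρ) _ x).trans
            ((fixes_kerField_iff hρ _).2 h1 x))
        rw [map_mul, map_inv, inv_mul_eq_one] at h3
        exact hσ.symm.trans (h3.symm.trans hσ')
      mem_quat := fun g => by
        obtain ⟨σ, hσ, hσx⟩ := hfix g
        show π (Recip.resHom ℚ g) ∈ _
        rw [← hσ, hπ]
        exact (Descent.fixing_fieldF'_iff hρ σ).1 hσx
      surj := fun q hq => by
        obtain ⟨σ, rfl⟩ := hρ.surjective q
        obtain ⟨g, hg⟩ := hlift σ ((Descent.fixing_fieldF'_iff hρ σ).2 hq)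
        exact ⟨g, (congrArg π hg).trans (hπ σ)⟩
      fixes_iff := fun g => by
        obtain ⟨σ, hσ, -⟩ := hfix g
        show π (Recip.resHom ℚ g) ∈ _ ↔ _
        rw [← hσ, hπ, ← fixes_midField_iff hρ]
        have e : ∀ x : midField ρ,
            ((g (algebraMap (midField ρ) (kerField ρ) x) : kerField ρ) : Qbar) = σ (x : Qbar) := by
          intro x
          have h := S14.Cross.BridgeLevel.coe_restrict (kerField ρ) σ
            (algebraMap (midField ρ) (kerField ρ) x)
          rw [show S14.Cross.BridgeLevel.restrict (kerField ρ) σ = Recip.resHom ℚ g from hσ] at h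
          exact h
        constructor
        · exact fun h x => Subtype.ext ((e x).trans (h x))
        · exact fun h x => (e x).symm.trans (congrArg Subtype.val (h x))
      cond_ne := pow_ne_zero m three_ne_zero
      cond_odd := Nat.Coprime.pow_left m (by norm_num)
      inertia_eq := fun P hP hc => by
        rw [Subgroup.eq_bot_iff_forall]
        intro g hg
        obtain ⟨q, hq, hqP⟩ := S14.Cross.BridgeLevel.exists_prime_mem P
        obtain ⟨A, i, hA, hi, hir⟩ := S14.Cross.BridgeLevel.exists_inertia_lift (kerField ρ) P hq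
          hqP (g := Recip.resHom ℚ g) (fun x => hg x)
        obtain ⟨σ, hσ, hσx⟩ := hfix g
        have hρi : ρ i = ρ σ := by rw [← hπ, ← hπ, hσ]; exact congrArg π hir
        have h1 : ρ i = 1 := rho_inertia_eq_one hρ hq hA hi
          (hρi ▸ (Descent.fixing_fieldF'_iff hρ σ).1 hσx) fun h3 => by
            by_contra hΔ
            rw [hm, if_neg hΔ, pow_one] at hc
            exact hc (h3 ▸ hqP)
        refine AlgEquiv.restrictScalars_injective ℚ ?_
        have h2 : r σ = 1 := AlgEquiv.ext fun x => Subtype.ext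
          ((S14.Cross.BridgeLevel.coe_restrict (kerField ρ) σ x).trans
            ((fixes_kerField_iff hρ σ).2 (hρi ▸ h1) x))
        exact (hσ.symm.trans h2).trans (AlgEquiv.ext fun _ => rfl) }
  obtain ⟨D, hcond, heig⟩ := T.exists_dihData
  refine ⟨Descent.frameF' hρ hg₀, ↥(midField ρ), inferInstance, inferInstance, inferInstance, D, m,
    fun h => if_pos h, hcond, fun w hw σ hσ => ?_⟩
  obtain ⟨hσF, A, hA, hdec, hfrob⟩ := hσ
  obtain ⟨q, hq, hqw⟩ : ∃ q : ℕ, q.Prime ∧ (q : 𝓞 (fieldF' ρ)) ∈ w.asIdeal :=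
    haveI := w.isMaximal
    S14.Cross.BridgeLevel.exists_prime_mem w.asIdeal
  have hAq : A.LiesOverPrime q := by
    have := (hA _).1 hqw
    simpa [ValuationSubring.LiesOverPrime] using this
  set P := levelPlaceIdeal (kerField ρ) A
  have hPK : P.under (𝓞 (fieldF' ρ)) = w.asIdeal := Ideal.ext fun x => by
    rw [Ideal.mem_comap, mem_levelPlaceIdeal_iff, hA]
    exact Iff.rfl
  have hPp : P.IsPrime := Ideal.IsPrime.comap _
  have hP0 : P ≠ ⊥ := fun h => w.ne_bot (by
    rw [← hPK, h]
    exact Ideal.comap_bot_of_injective _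
      (FaithfulSMul.algebraMap_injective (𝓞 (fieldF' ρ)) (𝓞 (kerField ρ))))
  have hP : P.IsMaximal := hPp.isMaximal hP0
  have hc : ((3 ^ m : ℕ) : 𝓞 (kerField ρ)) ∉ P := by
    intro h
    rw [Nat.cast_pow] at h
    have h3 : ((3 : ℕ) : 𝓞 (kerField ρ)) ∈ P := hPp.mem_of_pow_mem m h
    refine hw ?_
    rw [← hPK, Ideal.mem_comap, map_ofNat]
    simpa using h3
  obtain ⟨g, hg⟩ := hlift σ fun x => (IntermediateField.mem_fixingSubgroup_iff _ σ).1 hσF x x.2
  have hgfrob : IsArithFrobAt (𝓞 (fieldF' ρ)) g P := by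
    intro x
    show g • x - x ^ Nat.card (𝓞 (fieldF' ρ) ⧸ P.under (𝓞 (fieldF' ρ))) ∈ P
    rw [hPK, mem_levelPlaceIdeal_iff]
    have hx : ((x : kerField ρ) : Qbar) ∈ A := levelIntegerHom_mem (kerField ρ) A x
    have h := hfrob _ hx
    rw [← S14.Cross.BridgeLevel.coe_restrict (kerField ρ) σ (x : kerField ρ),
      show S14.Cross.BridgeLevel.restrict (kerField ρ) σ = Recip.resHom ℚ g from hg.symm] at h
    exact h
  rw [heig P hP hc g hgfrob w hPK.symm]
  show ((octRep (π (Recip.resHom ℚ g)) : GL (Fin 2) ℂ) : Matrix (Fin 2) (Fin 2) ℂ).trace = _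
  rw [hg, hπ]
  rfl

end Fermat.Agent.LT.Dihedral

end
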