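import Fermat.Agent.LT.Dihedral.Norms
import Fermat.Agent.LT.Adelic.IdeleClasses
import Fermat.Agent.LT.Adelic.Space
import Mathlib.RingTheory.DedekindDomain.Different

/-!
# The level of the dihedral form, the coefficients, and the hypotheses of the adelic glue

A family `F t τ` indexed by finite ideles `t` is turned into an automorphic function of level
`levelF n` with `φ (τ, diag (t, 1)) = F t τ` once it satisfies `GlueHyp`.
-/

set_option autoImplicit false
set_option maxHeartbeats 400000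

noncomputable section

namespace Fermat.Agent.LT.Dihedral

open NumberField IsDedekindDomain Adelic Matrix
open scoped nonZeroDivisors

variable {K : Type*} [Field K] [NumberField K]

/-- The fractional ideal of a finite idele. -/
abbrev idI (t : (FiniteAdeleRing (𝓞 K) K)ˣ) : FractionalIdeal (𝓞 K)⁰ K := ideleIdeal t

variable (K) in
/-- The inverse different. -/
abbrev invDiff : FractionalIdeal (𝓞 K)⁰ K :=
  FractionalIdeal.dual ℤ ℚ (1 : FractionalIdeal (𝓞 K)⁰ K)

/-- The ideal `(t) · 𝔡`. -/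
def tdI (t : (FiniteAdeleRing (𝓞 K) K)ˣ) : FractionalIdeal (𝓞 K)⁰ K :=
  idI t * (invDiff K)⁻¹

variable (K) in
/-- `GL₂(Ô)` matrices congruent to `[[*, 0], [0, 1]]` modulo `n`. -/
def levelF (n : 𝓞 K) : Subgroup (GfK K) where
  carrier := {g | g ∈ principalLevel K (1 : 𝓞 K) ∧
    MemMul n ((g : Matrix (Fin 2) (Fin 2) (FiniteAdeleRing (𝓞 K) K)) 0 1) ∧
    MemMul n ((g : Matrix (Fin 2) (Fin 2) (FiniteAdeleRing (𝓞 K) K)) 1 0) ∧
    MemMul n ((g : Matrix (Fin 2) (Fin 2) (FiniteAdeleRing (𝓞 K) K)) 1 1 - 1)}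
  one_mem' := ⟨one_mem _, by simpa using memMul_zero_right n, by simpa using memMul_zero_right n,
    by simpa using memMul_zero_right n⟩
  mul_mem' := by
    rintro g h ⟨hg, g01, g10, g11⟩ ⟨hh, h01, h10, h11⟩
    have gi := (matMemMul_one _).mp (mem_principalLevel_one.mp hg).1
    have hi := (matMemMul_one _).mp (mem_principalLevel_one.mp hh).1
    refine ⟨mul_mem hg hh, ?_, ?_, ?_⟩
    · rw [Units.val_mul, Matrix.mul_apply, Fin.sum_univ_two]
      exact (h01.int_mul (gi 0 0)).add (g01.mul_int (hi 1 1))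
    · rw [Units.val_mul, Matrix.mul_apply, Fin.sum_univ_two]
      exact (g10.mul_int (hi 0 0)).add (h10.int_mul (gi 1 1))
    · rw [Units.val_mul, Matrix.mul_apply, Fin.sum_univ_two]
      have := ((g10.mul_int (hi 0 1)).add (g11.mul_int (hi 1 1))).add h11
      convert! this using 1
      ring
  inv_mem' := by
    rintro g ⟨hg, g01, g10, g11⟩
    have gi := (matMemMul_one _).mp (mem_principalLevel_one.mp hg).2
    have e := congrArg (fun A : Matrix (Fin 2) (Fin 2) (FiniteAdeleRing (𝓞 K) K) => (A 1 1, A 0 1, A 1 0))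
      g.mul_inv
    have e' := congrArg (fun A : Matrix (Fin 2) (Fin 2) (FiniteAdeleRing (𝓞 K) K) => (A 0 1, A 1 0))
      g.inv_mul
    simp only [Matrix.mul_apply, Fin.sum_univ_two, Matrix.one_apply_eq, ne_eq,
      one_ne_zero, not_false_eq_true, Matrix.one_apply_ne, zero_ne_one, Prod.mk.injEq] at e e'
    obtain ⟨e11, -, e10⟩ := e
    obtain ⟨e01', -⟩ := e'
    refine ⟨inv_mem hg, ?_, ?_, ?_⟩
    · have := ((g11.int_mul (gi 0 1)).add (g01.int_mul (gi 0 0))).neg
      convert! this using 1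
      linear_combination e01'
    · have := ((g11.mul_int (gi 1 0)).add (g10.mul_int (gi 0 0))).neg
      convert! this using 1
      linear_combination e10
    · have := ((g11.mul_int (gi 1 1)).add (g10.mul_int (gi 0 1))).neg
      convert! this using 1
      linear_combination e11

theorem mem_levelF {n : 𝓞 K} {g : GfK K} :
    g ∈ levelF K n ↔ g ∈ principalLevel K (1 : 𝓞 K) ∧
      MemMul n ((g : Matrix (Fin 2) (Fin 2) (FiniteAdeleRing (𝓞 K) K)) 0 1) ∧
      MemMul n ((g : Matrix (Fin 2) (Fin 2) (FiniteAdeleRing (𝓞 K) K)) 1 0) ∧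
      MemMul n ((g : Matrix (Fin 2) (Fin 2) (FiniteAdeleRing (𝓞 K) K)) 1 1 - 1) := Iff.rfl

theorem levelF_le_one (n : 𝓞 K) : levelF K n ≤ principalLevel K (1 : 𝓞 K) := fun _ h => h.1

theorem principalLevel_le_levelF (n : 𝓞 K) : principalLevel K n ≤ levelF K n := fun g hg => by
  obtain ⟨h, -⟩ := mem_principalLevel.mp hg
  refine ⟨principalLevel_mono (one_dvd n) hg, ?_, ?_, ?_⟩
  · simpa using h 0 1
  · simpa using h 1 0
  · simpa using h 1 1

theorem isLevel_levelF {n : 𝓞 K} (hn : n ≠ 0) : IsLevel (levelF K n) :=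
  ⟨n, hn, principalLevel_le_levelF n, levelF_le_one n⟩

theorem diag2_mem_levelF (n : 𝓞 K) (u : (FiniteAdeleRing (𝓞 K) K)ˣ)
    (hu : diag2 u 1 ∈ principalLevel K (1 : 𝓞 K)) : diag2 u 1 ∈ levelF K n :=
  ⟨hu, by simpa using memMul_zero_right n, by simpa using memMul_zero_right n,
    by simpa using memMul_zero_right n⟩

/-- The point `diag(t, 1)` of the finite part. -/
def yPt (n : 𝓞 K) (t : (FiniteAdeleRing (𝓞 K) K)ˣ) : Yf (levelF K n) :=
  ((diag2 t 1 : GfK K) : Yf (levelF K n))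

variable {ι : Type*}

/-- The hypotheses under which the family `F` glues to an automorphic function of level
`levelF n`. -/
structure GlueHyp (Φ : Frame K ι) (n : 𝓞 K)
    (F : (FiniteAdeleRing (𝓞 K) K)ˣ → (ι → HSpace) → ℂ) : Prop where
  ideal_congr : ∀ t t', idI t = idI t' → F t = F t'
  diag : ∀ (x : Kˣ) t τ,
    F (principalIdele x * t) (fun i => Φ.toInf i (diag2 x 1) • τ i) = F t τ
  gamma : ∀ t τ (γ : GL (Fin 2) K) (a d : 𝓞 K) (b c : K),
    (γ : Matrix (Fin 2) (Fin 2) K) = !![(a : K), b; c, (d : K)] →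
    (a : K) * d - b * c = 1 → n ∣ a - 1 → n ∣ d - 1 →
    b ∈ FractionalIdeal.spanSingleton (𝓞 K)⁰ (n : K) * idI t →
    c ∈ FractionalIdeal.spanSingleton (𝓞 K)⁰ (n : K) * (idI t)⁻¹ →
    F t (fun i => Φ.toInf i γ • τ i) = F t τ
  step : ∀ t t' τ (v : HeightOneSpectrum (𝓞 K)) (γ : GL (Fin 2) K) (β c : K), n ∉ v.asIdeal →
    idI t' = idI t * (v.asIdeal : FractionalIdeal (𝓞 K)⁰ K) ^ 2 →
    β ∈ FractionalIdeal.spanSingleton (𝓞 K)⁰ (n : K) * idI t * (v.asIdeal : FractionalIdeal (𝓞 K)⁰ K) →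
    β ∉ FractionalIdeal.spanSingleton (𝓞 K)⁰ (n : K) * idI t' →
    c ∈ FractionalIdeal.spanSingleton (𝓞 K)⁰ (n : K) *
      (idI t * (v.asIdeal : FractionalIdeal (𝓞 K)⁰ K))⁻¹ →
    1 + β * c ∈ (v.asIdeal : FractionalIdeal (𝓞 K)⁰ K) →
    (γ : Matrix (Fin 2) (Fin 2) K) = !![1 + β * c, β; c, 1] →
    F t' (fun i => Φ.toInf i γ • τ i) = F t τ

namespace DihData

variable {M : Type*} [Field M] [NumberField M] [Algebra K M] (D : DihData K M)

/-- The coefficient attached to a fractional ideal of `K`. -/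
def bK (J : FractionalIdeal (𝓞 K)⁰ K) : ℂ :=
  ∑ᶠ I ∈ {I : Ideal (𝓞 M) | ((I * D.toQuad.conjI I : Ideal (𝓞 M)) : FractionalIdeal (𝓞 M)⁰ M) =
    FractionalIdeal.extendedHom M (𝓞 M) J}, D.chi I

/-- The coefficient of frequency `α` at `diag(t, 1)`, normalised. -/
def coef (t : (FiniteAdeleRing (𝓞 K) K)ˣ) (α : K) : ℂ :=
  ((Real.sqrt (FractionalIdeal.absNorm (idI t) : ℚ))⁻¹ : ℝ) *
    D.bK (FractionalIdeal.spanSingleton (𝓞 K)⁰ α * tdI t)

end DihData

end Fermat.Agent.LT.Dihedral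

end
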