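import Fermat.Agent.LT.Dihedral.Data
import Mathlib.NumberTheory.NumberField.Norm
import Mathlib.RingTheory.DedekindDomain.Factorization
import Mathlib.RingTheory.FractionalIdeal.Extended
import Mathlib.GroupTheory.Index

/-!
# Norms modulo ideals and the Gauss sum of the norm form at a good prime
-/

set_option autoImplicit false
set_option maxHeartbeats 400000

noncomputable section

namespace Fermat.Agent.LT.Dihedral

open NumberField IsDedekindDomain
open scoped nonZeroDivisors

variable {K M : Type*} [Field K] [NumberField K] [Field M] [NumberField M] [Algebra K M]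

variable (K) in
/-- The norm on integers. -/
abbrev nO (a : 𝓞 M) : 𝓞 K := RingOfIntegers.norm K a

theorem algebraMap_coe_int (r : 𝓞 K) :
    ((algebraMap (𝓞 K) (𝓞 M) r : 𝓞 M) : M) = algebraMap K M (r : K) :=
  (IsScalarTower.algebraMap_apply (𝓞 K) (𝓞 M) M r).symm.trans
    (IsScalarTower.algebraMap_apply (𝓞 K) K M r)

theorem algebraMap_int_injective : Function.Injective (algebraMap (𝓞 K) (𝓞 M)) := fun a b h =>
  RingOfIntegers.ext ((algebraMap K M).injective
    (by rw [← algebraMap_coe_int, ← algebraMap_coe_int, h]))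

theorem extI_injective : Function.Injective (fun I : Ideal (𝓞 K) => extI K M I) := fun I J h => by
  refine FractionalIdeal.coeIdeal_injective (R := 𝓞 K) (K := K) ?_
  refine FractionalIdeal.extendedHom_injective (L := M) (B := 𝓞 M) (𝓞 K) K ?_
  dsimp only
  rw [FractionalIdeal.extendedHom_coeIdeal_eq_map, FractionalIdeal.extendedHom_coeIdeal_eq_map]
  exact congrArg _ h

/-- Contraction undoes extension. -/
theorem mem_of_mem_extI {I : Ideal (𝓞 K)} {x : 𝓞 K}
    (hx : algebraMap (𝓞 K) (𝓞 M) x ∈ extI K M I) : x ∈ I := by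
  have h : extI K M (Ideal.span {x} ⊔ I) = extI K M I := by
    rw [extI, extI, Ideal.map_sup, Ideal.map_span, Set.image_singleton, sup_eq_right,
      Ideal.span_singleton_le_iff_mem]
    exact hx
  have h' := extI_injective (K := K) (M := M) h
  exact h' ▸ Ideal.mem_sup_left (Ideal.mem_span_singleton_self x)

namespace Quad

variable (D : Quad K M)

theorem algebraMap_nO (a : 𝓞 M) : algebraMap (𝓞 K) (𝓞 M) (nO K a) = a * D.conjO a := by
  apply RingOfIntegers.ext
  rw [algebraMap_coe_int, RingOfIntegers.coe_norm, D.norm_eq]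
  push_cast
  rfl

theorem conjO_algebraMap (r : 𝓞 K) :
    D.conjO (algebraMap (𝓞 K) (𝓞 M) r) = algebraMap (𝓞 K) (𝓞 M) r := by
  apply RingOfIntegers.ext
  rw [coe_conjO, algebraMap_coe_int, AlgEquiv.commutes]

theorem conjI_extI (I : Ideal (𝓞 K)) : D.conjI (extI K M I) = extI K M I := by
  rw [conjI, extI]
  show ((I.map (algebraMap (𝓞 K) (𝓞 M))).map D.conjO.toRingHom) = _
  rw [Ideal.map_map]
  congr 1
  exact RingHom.ext D.conjO_algebraMap

theorem conjO_mem_extI {I : Ideal (𝓞 K)} {a : 𝓞 M} (ha : a ∈ extI K M I) :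
    D.conjO a ∈ extI K M I := by
  rw [← D.conjI_extI I, mem_conjI, conjO_conjO]; exact ha

include D in
theorem nO_congr {I : Ideal (𝓞 K)} {a b : 𝓞 M} (h : a - b ∈ extI K M I) :
    nO K a - nO K b ∈ I := by
  refine mem_of_mem_extI (M := M) ?_
  rw [map_sub, D.algebraMap_nO, D.algebraMap_nO,
    show a * D.conjO a - b * D.conjO b = (a - b) * D.conjO a + b * D.conjO (a - b) by
      rw [map_sub]; ring]
  exact Ideal.add_mem _ (Ideal.mul_mem_right _ _ h) (Ideal.mul_mem_left _ _ (D.conjO_mem_extI h))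

include D in
theorem norm_one_add_theta {θ : 𝓞 M} (hθ : Algebra.trace K M (θ : M) = 1) (e : 𝓞 K) :
    nO K (1 + θ * algebraMap (𝓞 K) (𝓞 M) e) = 1 + e + e ^ 2 * nO K θ := by
  apply algebraMap_int_injective (M := M)
  rw [D.algebraMap_nO]
  simp only [map_add, map_mul, map_pow, map_one, D.algebraMap_nO, D.conjO_algebraMap]
  have h1 : θ + D.conjO θ = 1 := by
    apply RingOfIntegers.ext
    push_cast
    show (θ : M) + D.conj (θ : M) = 1
    rw [← D.trace_eq, hθ, map_one]
  linear_combination (algebraMap (𝓞 K) (𝓞 M) e) * h1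

end Quad

namespace DihData

variable (D : DihData K M)

theorem cover_isMaximal {v : HeightOneSpectrum (𝓞 K)} {Q : Ideal (𝓞 M)} (hQ : Q.IsPrime)
    (h : extI K M v.asIdeal ≤ Q) : Q.IsMaximal :=
  hQ.isMaximal fun hQ0 => v.ne_bot <| by
    have h' : extI K M v.asIdeal = extI K M ⊥ := by
      rw [extI, extI, Ideal.map_bot, ← le_bot_iff, ← hQ0]; exact h
    exact extI_injective (K := K) (M := M) h'

theorem extI_ne_bot {I : Ideal (𝓞 K)} (hI : I ≠ ⊥) : extI K M I ≠ ⊥ := fun h => hI <| by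
  have : extI K M I = extI K M ⊥ := by rw [h, extI, Ideal.map_bot]
  exact extI_injective (K := K) (M := M) this

/-- Norms are surjective modulo a good prime. -/
theorem exists_norm_sub_mem_prime {v : HeightOneSpectrum (𝓞 K)} (hv : D.cond ∉ v.asIdeal)
    {d : 𝓞 K} (hd : d ∉ v.asIdeal) : ∃ x : 𝓞 M, nO K x - d ∈ v.asIdeal := by
  rcases D.inert_or_split v hv with ⟨hprime, -, a, ha⟩ | ⟨Q, hQ, hne, hfac, -⟩
  · set w := extI K M v.asIdeal with hw
    haveI hmax : w.IsMaximal := cover_isMaximal hprime le_rfl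
    haveI : Finite (𝓞 M ⧸ w) :=
      Ring.HasFiniteQuotients.finiteQuotient (extI_ne_bot v.ne_bot)
    letI := Ideal.Quotient.field w
    let mk := Ideal.Quotient.mk w
    let σ : (𝓞 M ⧸ w) →+* (𝓞 M ⧸ w) := Ideal.Quotient.lift w
      (mk.comp D.toQuad.conjO.toRingHom) fun x hx =>
        Ideal.Quotient.eq_zero_iff_mem.mpr (D.toQuad.conjO_mem_extI hx)
    have hσmk : ∀ x, σ (mk x) = mk (D.toQuad.conjO x) := fun x => rfl
    have hσσ : ∀ z, σ (σ z) = z := fun z => by
      obtain ⟨x, rfl⟩ := Ideal.Quotient.mk_surjective z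
      rw [hσmk, hσmk, Quad.conjO_conjO]
    let σu : (𝓞 M ⧸ w)ˣ →* (𝓞 M ⧸ w)ˣ := Units.map σ.toMonoidHom
    let ν : (𝓞 M ⧸ w)ˣ →* (𝓞 M ⧸ w)ˣ :=
      { toFun := fun z => z * σu z
        map_one' := by simp
        map_mul' := fun y z => by rw [map_mul]; exact mul_mul_mul_comm _ _ _ _ }
    let η : (𝓞 M ⧸ w)ˣ →* (𝓞 M ⧸ w)ˣ :=
      { toFun := fun z => z / σu z
        map_one' := by simp
        map_mul' := fun y z => by rw [map_mul]; exact mul_div_mul_comm _ _ _ _ }
    have hker : ν.ker ≤ η.range := by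
      intro z hz
      have hz' : (z : 𝓞 M ⧸ w) * σ (z : 𝓞 M ⧸ w) = 1 := congrArg Units.val hz
      by_cases h1 : (1 : 𝓞 M ⧸ w) + (z : 𝓞 M ⧸ w) = 0
      · have hb : mk a - mk (D.toQuad.conjO a) ≠ 0 := by
          rw [← map_sub, Ne, Ideal.Quotient.eq_zero_iff_mem, ← neg_sub, neg_mem_iff]
          exact ha
        refine ⟨Units.mk0 _ hb, Units.ext ?_⟩
        show ((Units.mk0 _ hb / σu (Units.mk0 _ hb) : (𝓞 M ⧸ w)ˣ) : 𝓞 M ⧸ w) = z
        rw [Units.val_div_eq_div_val]
        show (mk a - mk (D.toQuad.conjO a)) / σ (mk a - mk (D.toQuad.conjO a)) = _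
        rw [map_sub σ, hσmk, hσmk, Quad.conjO_conjO, ← neg_sub (mk a) (mk (D.toQuad.conjO a)),
          div_neg, div_self hb]
        linear_combination -h1
      · refine ⟨Units.mk0 _ h1, Units.ext ?_⟩
        show ((Units.mk0 _ h1 / σu (Units.mk0 _ h1) : (𝓞 M ⧸ w)ˣ) : 𝓞 M ⧸ w) = z
        rw [Units.val_div_eq_div_val]
        show (1 + (z : 𝓞 M ⧸ w)) / σ (1 + z) = _
        have hσne : σ (1 + (z : 𝓞 M ⧸ w)) ≠ 0 := fun h =>
          h1 (by rw [← hσσ (1 + (z : 𝓞 M ⧸ w)), h, map_zero])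
        rw [div_eq_iff hσne, map_add, map_one, mul_add, mul_one, hz']
        ring
    have hrange : ν.range ≤ η.ker := by
      rintro _ ⟨z, rfl⟩
      show (z * σu z) / σu (z * σu z) = 1
      rw [map_mul, show σu (σu z) = z from Units.ext (hσσ z), mul_comm z, div_self']
    have hdu : mk (algebraMap (𝓞 K) (𝓞 M) d) ≠ 0 := fun h =>
      hd (mem_of_mem_extI (M := M) (Ideal.Quotient.eq_zero_iff_mem.mp h))
    have hmem : Units.mk0 _ hdu ∈ ν.range := by
      have heq : ν.range = η.ker := by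
        refine Subgroup.eq_of_le_of_card_ge hrange ?_
        have e1 := Subgroup.card_eq_card_quotient_mul_card_subgroup ν.ker
        have e2 := Subgroup.card_eq_card_quotient_mul_card_subgroup η.ker
        rw [Nat.card_congr (QuotientGroup.quotientKerEquivRange ν).toEquiv] at e1
        rw [Nat.card_congr (QuotientGroup.quotientKerEquivRange η).toEquiv] at e2
        have hle : Nat.card ν.ker ≤ Nat.card η.range :=
          Nat.card_le_card_of_injective (Subgroup.inclusion hker) (Subgroup.inclusion_injective hker)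
        have hpos : 0 < Nat.card η.range := Nat.card_pos
        have : Nat.card η.range * Nat.card η.ker ≤ Nat.card η.range * Nat.card ν.range := by
          rw [← e2, e1, mul_comm (Nat.card η.range)]
          exact Nat.mul_le_mul_left _ hle
        exact Nat.le_of_mul_le_mul_left this hpos
      rw [heq]
      show Units.mk0 _ hdu / σu (Units.mk0 _ hdu) = 1
      refine div_eq_one.mpr (Units.ext ?_)
      show _ = σ (mk _)
      rw [hσmk, Quad.conjO_algebraMap]
      rfl
    obtain ⟨z, hz⟩ := hmem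
    obtain ⟨x, hx⟩ := Ideal.Quotient.mk_surjective (z : 𝓞 M ⧸ w)
    refine ⟨x, mem_of_mem_extI (M := M) ?_⟩
    rw [map_sub]
    refine Ideal.Quotient.eq.mp ?_
    rw [D.toQuad.algebraMap_nO, map_mul]
    have hz' : (z : 𝓞 M ⧸ w) * σ z = mk (algebraMap (𝓞 K) (𝓞 M) d) := congrArg Units.val hz
    show mk x * mk (D.toQuad.conjO x) = _
    rw [← hσmk, show mk x = (z : 𝓞 M ⧸ w) from hx]
    exact hz'
  · set Q' := D.toQuad.conjI Q with hQ'
    have hQle : extI K M v.asIdeal ≤ Q := hfac ▸ Ideal.mul_le_left (I := Q) (J := Q')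
    haveI hQmax := cover_isMaximal hQ hQle
    have hQ'p : Q'.IsPrime := by
      rw [hQ', Quad.conjI]
      exact Ideal.map_isPrime_of_equiv _
    haveI hQ'max := cover_isMaximal hQ'p (hfac ▸ Ideal.mul_le_right (I := Q) (J := Q'))
    have hcop : IsCoprime Q Q' := Ideal.isCoprime_iff_sup_eq.mpr
      (hQmax.coprime_of_ne hQ'max (fun h => hne h.symm))
    obtain ⟨e, he, f, hf, hef⟩ := Ideal.isCoprime_iff_exists.mp hcop
    set δ := algebraMap (𝓞 K) (𝓞 M) d with hδ
    refine ⟨δ * f + e, mem_of_mem_extI (M := M) ?_⟩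
    have hef' : D.toQuad.conjO e + D.toQuad.conjO f = 1 := by rw [← map_add, hef, map_one]
    have he' : D.toQuad.conjO e ∈ Q' := by rw [hQ', Quad.mem_conjI, Quad.conjO_conjO]; exact he
    have hf' : D.toQuad.conjO f ∈ Q := by
      have := hf; rwa [hQ', Quad.mem_conjI] at this
    rw [map_sub, D.toQuad.algebraMap_nO, map_add, map_mul, hδ, D.toQuad.conjO_algebraMap, ← hδ,
      hfac, ← Ideal.inf_eq_mul_of_isCoprime hcop, Submodule.mem_inf]
    constructor
    · rw [show (δ * f + e) * (δ * D.toQuad.conjO f + D.toQuad.conjO e) - δ =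
          e * (D.toQuad.conjO e - δ + 2 * δ * D.toQuad.conjO f) +
            D.toQuad.conjO f * (δ * δ * f - δ) by
        linear_combination (δ * D.toQuad.conjO e) * hef + (δ * (1 - e)) * hef']
      exact Ideal.add_mem _ (Ideal.mul_mem_right _ _ he) (Ideal.mul_mem_right _ _ hf')
    · rw [show (δ * f + e) * (δ * D.toQuad.conjO f + D.toQuad.conjO e) - δ =
          f * (δ * δ * D.toQuad.conjO f + 2 * δ * D.toQuad.conjO e - δ) +
            D.toQuad.conjO e * (e - δ) by
        linear_combination (δ * D.toQuad.conjO f) * hef + (δ * (1 - f)) * hef']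
      exact Ideal.add_mem _ (Ideal.mul_mem_right _ _ hf) (Ideal.mul_mem_right _ _ he')

theorem exists_norm_sub_mem_pow {v : HeightOneSpectrum (𝓞 K)} {d : 𝓞 K} (hd : d ∉ v.asIdeal)
    (h : D.cond ∉ v.asIdeal ∨ d - 1 ∈ v.asIdeal) (k : ℕ) :
    ∃ x : 𝓞 M, nO K x - d ∈ v.asIdeal ^ (k + 1) := by
  induction k with
  | zero =>
    rw [zero_add, pow_one]
    rcases h with h | h
    · exact D.exists_norm_sub_mem_prime h hd
    · refine ⟨1, ?_⟩
      rw [show nO K (1 : 𝓞 M) = 1 from map_one (RingOfIntegers.norm K), ← neg_sub, neg_mem_iff]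
      exact h
  | succ k ih =>
    obtain ⟨x, hx⟩ := ih
    have hxv : nO K x ∉ v.asIdeal := fun hn => hd <| by
      have := v.asIdeal.sub_mem hn (Ideal.pow_le_self (Nat.succ_ne_zero k) hx)
      rwa [sub_sub_cancel] at this
    haveI := v.isMaximal
    obtain ⟨s, i, hi, hsi⟩ := v.isMaximal.exists_inv hxv
    set e := s * (d - nO K x) with he
    have he' : e ∈ v.asIdeal ^ (k + 1) :=
      Ideal.mul_mem_left _ _ (by rw [← neg_sub, neg_mem_iff]; exact hx)
    refine ⟨x * (1 + D.theta * algebraMap (𝓞 K) (𝓞 M) e), ?_⟩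
    rw [show nO K (x * (1 + D.theta * algebraMap (𝓞 K) (𝓞 M) e)) =
      nO K x * (1 + e + e ^ 2 * nO K D.theta) by
        rw [← D.toQuad.norm_one_add_theta D.trace_theta e]
        exact map_mul (RingOfIntegers.norm K) _ _,
      show nO K x * (1 + e + e ^ 2 * nO K D.theta) - d =
        (nO K x - d) * i + (nO K x * nO K D.theta * e) * e by
        rw [he]; linear_combination (d - nO K x) * hsi]
    refine Ideal.add_mem _ ?_ ?_
    · rw [pow_succ]; exact Ideal.mul_mem_mul hx hi
    · rw [pow_succ]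
      exact Ideal.mul_mem_mul (Ideal.mul_mem_left _ _ he') (Ideal.pow_le_self (Nat.succ_ne_zero k) he')
        |> fun h => by simpa [mul_comm] using h

/-- Every admissible class is a norm modulo an ideal. -/
theorem exists_norm_sub_mem {I : Ideal (𝓞 K)} (hI : I ≠ ⊥) {d : 𝓞 K}
    (h : ∀ v : HeightOneSpectrum (𝓞 K), I ≤ v.asIdeal →
      d ∉ v.asIdeal ∧ (D.cond ∉ v.asIdeal ∨ d - 1 ∈ v.asIdeal)) :
    ∃ x : 𝓞 M, nO K x - d ∈ I := by
  classical
  set s := (UniqueFactorizationMonoid.normalizedFactors I).toFinset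
  set c : Ideal (𝓞 K) → ℕ := fun P => (UniqueFactorizationMonoid.normalizedFactors I).count P
  have hprime : ∀ P ∈ s, Prime P := fun P hP =>
    UniqueFactorizationMonoid.prime_of_normalized_factor P (Multiset.mem_toFinset.mp hP)
  have hle : ∀ P ∈ s, I ≤ P := fun P hP =>
    Ideal.le_of_dvd (UniqueFactorizationMonoid.dvd_of_mem_normalizedFactors
      (Multiset.mem_toFinset.mp hP))
  have hprod : ∏ P ∈ s, P ^ c P = I := by
    rw [← Finset.prod_multiset_count]
    exact associated_iff_eq.mp (UniqueFactorizationMonoid.prod_normalizedFactors hI)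
  have hx : ∀ P : s, ∃ x : 𝓞 M, nO K x - d ∈ (P : Ideal (𝓞 K)) ^ c P := fun P => by
    have hP := hprime P P.2
    let v : HeightOneSpectrum (𝓞 K) := ⟨P, Ideal.isPrime_of_prime hP, hP.ne_zero⟩
    obtain ⟨hd, hh⟩ := h v (hle P P.2)
    obtain ⟨x, hx⟩ := D.exists_norm_sub_mem_pow hd hh (c P)
    exact ⟨x, Ideal.pow_le_pow_right (Nat.le_succ _) hx⟩
  choose x hx using hx
  obtain ⟨y, hy⟩ := Ideal.exists_forall_sub_mem_ideal
    (I := fun P : s => extI K M ((P : Ideal (𝓞 K)) ^ c P)) (fun P Q hPQ => by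
      show IsCoprime (extI K M _) (extI K M _)
      rw [Ideal.isCoprime_iff_sup_eq, extI, extI, ← Ideal.map_sup]
      have hmP := (Ideal.isPrime_of_prime (hprime P P.2)).isMaximal (hprime P P.2).ne_zero
      have hmQ := (Ideal.isPrime_of_prime (hprime Q Q.2)).isMaximal (hprime Q Q.2).ne_zero
      rw [Ideal.pow_sup_pow_eq_top (hmP.coprime_of_ne hmQ fun e => hPQ (Subtype.ext e)),
        Ideal.map_top]) x
  refine ⟨y, ?_⟩
  rw [← hprod, ← IsDedekindDomain.inf_pow_eq_prod_of_prime s (fun P => P) c hprime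
    (fun P _ Q _ hPQ => hPQ)]
  refine Submodule.mem_finsetInf.mpr fun P hP => ?_
  have h1 := D.toQuad.nO_congr (hy ⟨P, hP⟩)
  have h2 := Ideal.add_mem _ h1 (hx ⟨P, hP⟩)
  rwa [sub_add_sub_cancel] at h2

end DihData

end Fermat.Agent.LT.Dihedral

end
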