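import Fermat.Agent.LT.Poisson.Lattice
import Mathlib.FieldTheory.Galois.Basic
import Mathlib.RingTheory.Trace.Basic
import Mathlib.RingTheory.Norm.Transitivity
import Mathlib.RingTheory.FractionalIdeal.Norm
import Mathlib.RingTheory.DedekindDomain.Different
import Mathlib.NumberTheory.NumberField.Basic

/-!
# A quadratic extension of number fields with its norm form

`M/K` quadratic with involution `conj`; `bil ξ x y = ξ T(x ȳ)` is the polar form of `ξ N`, and
`psi a = e^{2πi Tr_{K/ℚ} a}`.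
-/

set_option autoImplicit false
set_option maxHeartbeats 400000

noncomputable section

namespace Fermat.Agent.LT.Dihedral

open NumberField
open Poisson (eC eC_add eC_zero)
open scoped nonZeroDivisors

variable {K M : Type*} [Field K] [NumberField K] [Field M] [NumberField M] [Algebra K M]

variable (K M) in
/-- A quadratic extension with its nontrivial automorphism. -/
structure Quad where
  /-- the involution -/
  conj : M ≃ₐ[K] M
  conj_ne : conj ≠ 1
  finrank_two : Module.finrank K M = 2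

namespace Quad

variable (D : Quad K M)

include D in
theorem isGalois : IsGalois K M := by
  refine IsGalois.of_card_aut_eq_finrank K M (le_antisymm ?_ ?_)
  · rw [Nat.card_eq_fintype_card]
    exact AlgEquiv.card_le
  · rw [D.finrank_two, Nat.succ_le_iff, Finite.one_lt_card_iff_nontrivial]
    exact ⟨⟨D.conj, 1, D.conj_ne⟩⟩

include D in
theorem card_aut : Nat.card Gal(M/K) = 2 := by
  haveI := D.isGalois
  rw [IsGalois.card_aut_eq_finrank, D.finrank_two]

theorem aut_eq (g : Gal(M/K)) : g = 1 ∨ g = D.conj := by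
  by_contra h
  rw [not_or] at h
  classical
  haveI := D.isGalois
  have h3 : ({1, D.conj, g} : Finset Gal(M/K)).card = 3 := by
    rw [Finset.card_insert_of_notMem (by simp [D.conj_ne.symm, Ne.symm h.1]),
      Finset.card_insert_of_notMem (by simp [Ne.symm h.2]), Finset.card_singleton]
  have h2 := Finset.card_le_univ ({1, D.conj, g} : Finset Gal(M/K))
  rw [h3, ← Nat.card_eq_fintype_card, D.card_aut] at h2
  omega

theorem univ_aut [Fintype Gal(M/K)] [DecidableEq Gal(M/K)] :
    (Finset.univ : Finset Gal(M/K)) = {1, D.conj} := by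
  ext g
  simpa using D.aut_eq g

@[simp] theorem conj_conj (x : M) : D.conj (D.conj x) = x := by
  have h : D.conj * D.conj = 1 := by
    rcases D.aut_eq (D.conj * D.conj) with h | h
    · exact h
    · exact absurd (mul_eq_left.mp h) D.conj_ne
  exact congrArg (fun g : M ≃ₐ[K] M => g x) h

theorem norm_eq (x : M) : algebraMap K M (Algebra.norm K x) = x * D.conj x := by
  classical
  haveI := D.isGalois
  rw [Algebra.norm_eq_prod_automorphisms, D.univ_aut, Finset.prod_pair D.conj_ne.symm]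
  rfl

theorem trace_eq (x : M) : algebraMap K M (Algebra.trace K M x) = x + D.conj x := by
  classical
  haveI := D.isGalois
  rw [trace_eq_sum_automorphisms, D.univ_aut, Finset.sum_pair D.conj_ne.symm]
  rfl

@[simp] theorem norm_conj (x : M) : Algebra.norm K (D.conj x) = Algebra.norm K x :=
  (algebraMap K M).injective (by rw [D.norm_eq, D.norm_eq, D.conj_conj, mul_comm])

@[simp] theorem trace_conj (x : M) : Algebra.trace K M (D.conj x) = Algebra.trace K M x :=
  (algebraMap K M).injective (by rw [D.trace_eq, D.trace_eq, D.conj_conj, add_comm])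

theorem norm_add (x y : M) :
    Algebra.norm K (x + y) =
      Algebra.norm K x + Algebra.norm K y + Algebra.trace K M (x * D.conj y) :=
  (algebraMap K M).injective (by
    simp only [map_add, D.norm_eq, D.trace_eq, map_mul, D.conj_conj]
    ring)

end Quad

/-- The additive character `e^{2πi Tr a}`. -/
def psi (a : K) : ℂ := eC ((Algebra.trace ℚ K a : ℚ) : ℝ)

theorem psi_add (a b : K) : psi (a + b) = psi a * psi b := by
  simp [psi, map_add, Rat.cast_add, eC_add]

@[simp] theorem psi_zero : psi (0 : K) = 1 := by simp [psi]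

theorem psi_neg (a : K) : psi (-a) = (psi a)⁻¹ :=
  eq_inv_of_mul_eq_one_left (by rw [← psi_add, neg_add_cancel, psi_zero])

theorem norm_psi (a : K) : ‖psi a‖ = 1 := by simp [psi, eC, Complex.norm_exp]

theorem psi_ne_zero (a : K) : psi a ≠ 0 := Complex.exp_ne_zero _

theorem psi_add_of_left {a : K} (b : K) (h : psi a = 1) : psi (a + b) = psi b := by
  rw [psi_add, h, one_mul]

theorem psi_eq_of_sub {a b : K} (h : psi (a - b) = 1) : psi a = psi b := by
  rw [← sub_add_cancel a b, psi_add, h, one_mul]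

theorem psi_nsmul {a : K} (h : psi a = 1) (n : ℕ) : psi ((n : K) * a) = 1 := by
  induction n with
  | zero => simp
  | succ k ih => rw [Nat.cast_succ, add_mul, psi_add, ih, one_mul, one_mul, h]

theorem psi_int_mul {a : K} (h : psi a = 1) (n : ℤ) : psi ((n : K) * a) = 1 := by
  obtain ⟨k, rfl | rfl⟩ := n.eq_nat_or_neg
  · simpa using psi_nsmul h k
  · rw [Int.cast_neg, Int.cast_natCast, neg_mul, psi_neg, psi_nsmul h k, inv_one]

theorem psi_eq_one_iff (a : K) : psi a = 1 ↔ ∃ m : ℤ, Algebra.trace ℚ K a = m := by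
  rw [psi, eC, Complex.exp_eq_one_iff]
  constructor
  · rintro ⟨m, hm⟩
    refine ⟨m, ?_⟩
    have h2 : (2 * (Real.pi : ℂ) * Complex.I) * (((Algebra.trace ℚ K a : ℚ) : ℝ) : ℂ) =
        (2 * (Real.pi : ℂ) * Complex.I) * (m : ℂ) := by
      rw [hm]; ring
    have h3 := mul_left_cancel₀ Complex.two_pi_I_ne_zero h2
    exact_mod_cast h3
  · rintro ⟨m, hm⟩
    exact ⟨m, by rw [hm]; push_cast; ring⟩

theorem psi_algebraInt (a : 𝓞 K) : psi (a : K) = 1 := by
  rw [psi_eq_one_iff]
  have h : IsIntegral ℤ (Algebra.trace ℚ K (a : K)) := Algebra.isIntegral_trace a.isIntegral_coe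
  obtain ⟨m, hm⟩ := IsIntegrallyClosed.isIntegral_iff.mp h
  exact ⟨m, by simpa using hm.symm⟩

namespace Quad

variable (D : Quad K M)

/-- The polar form of `ξ N`. -/
def bil (ξ : K) (x y : M) : K := ξ * Algebra.trace K M (x * D.conj y)

theorem bil_comm (ξ : K) (x y : M) : D.bil ξ x y = D.bil ξ y x := by
  rw [bil, bil, ← D.trace_conj (y * D.conj x), map_mul D.conj, D.conj_conj, mul_comm (D.conj y) x]

theorem bil_add_left (ξ : K) (x x' y : M) : D.bil ξ (x + x') y = D.bil ξ x y + D.bil ξ x' y := by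
  simp [bil, add_mul, mul_add]

theorem bil_add_right (ξ : K) (x y y' : M) : D.bil ξ x (y + y') = D.bil ξ x y + D.bil ξ x y' := by
  simp [bil, mul_add]

theorem bil_sub_left (ξ : K) (x x' y : M) : D.bil ξ (x - x') y = D.bil ξ x y - D.bil ξ x' y := by
  simp [bil, sub_mul, mul_sub]

theorem bil_sub_right (ξ : K) (x y y' : M) : D.bil ξ x (y - y') = D.bil ξ x y - D.bil ξ x y' := by
  simp [bil, mul_sub]

theorem bil_neg_right (ξ : K) (x y : M) : D.bil ξ x (-y) = -D.bil ξ x y := by
  simp [bil]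

theorem bil_neg_left (ξ : K) (x y : M) : D.bil ξ (-x) y = -D.bil ξ x y := by
  simp [bil]

theorem bil_mul_swap (ξ : K) (z x y : M) : D.bil ξ (z * x) y = D.bil ξ x (D.conj z * y) := by
  rw [bil, bil, map_mul D.conj, D.conj_conj]
  ring_nf

theorem bil_smul_left (ξ r : K) (x y : M) :
    D.bil ξ (algebraMap K M r * x) y = r * D.bil ξ x y := by
  rw [bil, bil, mul_assoc, ← Algebra.smul_def, map_smul, smul_eq_mul]
  ring

theorem bil_smul_right (ξ r : K) (x y : M) :
    D.bil ξ x (algebraMap K M r * y) = r * D.bil ξ x y := by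
  rw [D.bil_comm, D.bil_smul_left, D.bil_comm]

theorem bil_self (ξ : K) (x : M) : D.bil ξ x x = 2 * (ξ * Algebra.norm K x) := by
  rw [bil, ← D.norm_eq]
  rw [Algebra.trace_algebraMap, D.finrank_two, nsmul_eq_mul]
  ring

/-- An element of trace one turns the form into its polar form. -/
theorem bil_theta (ξ : K) {θ : M} (hθ : Algebra.trace K M θ = 1) (x : M) :
    D.bil ξ (θ * x) x = ξ * Algebra.norm K x := by
  rw [bil, mul_assoc, ← D.norm_eq, mul_comm θ, ← Algebra.smul_def, map_smul, hθ, smul_eq_mul,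
    mul_one]

/-- The dual of a set for `psi ∘ bil`. -/
def dualSet (ξ : K) (P : FractionalIdeal (𝓞 M)⁰ M) : Set M :=
  {y | ∀ x ∈ P, psi (D.bil ξ x y) = 1}

theorem dualSet_add {ξ : K} {P : FractionalIdeal (𝓞 M)⁰ M} {y y' : M}
    (h : y ∈ D.dualSet ξ P) (h' : y' ∈ D.dualSet ξ P) : y + y' ∈ D.dualSet ξ P := fun x hx => by
  rw [D.bil_add_right, psi_add, h x hx, h' x hx, one_mul]

theorem dualSet_zero (ξ : K) (P : FractionalIdeal (𝓞 M)⁰ M) : (0 : M) ∈ D.dualSet ξ P :=
  fun x _ => by simp [bil]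

theorem dualSet_neg {ξ : K} {P : FractionalIdeal (𝓞 M)⁰ M} {y : M}
    (h : y ∈ D.dualSet ξ P) : -y ∈ D.dualSet ξ P := fun x hx => by
  rw [D.bil_neg_right, psi_neg, h x hx, inv_one]

theorem dualSet_sub {ξ : K} {P : FractionalIdeal (𝓞 M)⁰ M} {y y' : M}
    (h : y ∈ D.dualSet ξ P) (h' : y' ∈ D.dualSet ξ P) : y - y' ∈ D.dualSet ξ P := by
  rw [sub_eq_add_neg]; exact D.dualSet_add h (D.dualSet_neg h')

theorem dualSet_smul {ξ : K} {P : FractionalIdeal (𝓞 M)⁰ M} {y : M}
    (h : y ∈ D.dualSet ξ P) (a : 𝓞 M) : (a : M) * y ∈ D.dualSet ξ P := fun x hx => by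
  rw [← D.conj_conj (a : M), ← D.bil_mul_swap]
  refine h _ ?_
  have hint : IsIntegral ℤ (D.conj (a : M)) :=
    a.isIntegral_coe.map ((D.conj : M →ₐ[K] M).toRingHom.toIntAlgHom)
  exact Submodule.smul_mem (P : Submodule (𝓞 M) M) (⟨D.conj (a : M), hint⟩ : 𝓞 M) hx

/-- The dual of a nonzero fractional ideal has bounded denominators. -/
theorem exists_den_dualSet {ξ : K} (hξ : ξ ≠ 0) {P : FractionalIdeal (𝓞 M)⁰ M} (hP : P ≠ 0) :
    ∃ e : 𝓞 M, e ≠ 0 ∧ ∀ y ∈ D.dualSet ξ P, ∃ b : 𝓞 M, (e : M) * y = (b : M) := by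
  obtain ⟨x₀, hx₀, hx0⟩ : ∃ x ∈ P, x ≠ 0 := by
    simpa [ne_eq, FractionalIdeal.eq_zero_iff] using hP
  set C := FractionalIdeal.dual ℤ ℚ (1 : FractionalIdeal (𝓞 M)⁰ M)
  obtain ⟨c, hc, hfrac⟩ := C.isFractional
  have hc0 : c ≠ 0 := nonZeroDivisors.ne_zero hc
  have hr : algebraMap K M ξ * x₀ ≠ 0 :=
    mul_ne_zero (by simpa using hξ) hx0
  have hmem : ∀ y ∈ D.dualSet ξ P, algebraMap K M ξ * x₀ * D.conj y ∈ C := by
    intro y hy
    rw [FractionalIdeal.mem_dual (show (1 : FractionalIdeal (𝓞 M)⁰ M) ≠ 0 from one_ne_zero)]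
    intro a ha
    obtain ⟨a, -, rfl⟩ := (FractionalIdeal.mem_one_iff _).mp ha
    have hax : (a : M) * x₀ ∈ P := Submodule.smul_mem (P : Submodule (𝓞 M) M) a hx₀
    obtain ⟨m, hm⟩ := (psi_eq_one_iff _).mp (hy _ hax)
    refine ⟨m, ?_⟩
    rw [bil, ← smul_eq_mul, ← map_smul, Algebra.trace_trace] at hm
    rw [Algebra.traceForm_apply, eq_intCast, ← hm, Algebra.smul_def]
    congr 1
    ring
  obtain ⟨u, w, hw0, hw⟩ := IsFractionRing.div_surjective (A := 𝓞 M) ((c : M) * (algebraMap K M ξ * x₀))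
  have hu0 : u ≠ 0 := by
    rintro rfl
    rw [map_zero, zero_div, eq_comm, mul_eq_zero] at hw
    rcases hw with h | h
    · exact hc0 (by exact_mod_cast h)
    · exact hr h
  have hconj : ∀ b : 𝓞 M, IsIntegral ℤ (D.conj (b : M)) := fun b =>
    b.isIntegral_coe.map ((D.conj : M →ₐ[K] M).toRingHom.toIntAlgHom)
  refine ⟨⟨D.conj (u : M), hconj u⟩, fun h => hu0 ?_, fun y hy => ?_⟩
  · have := congrArg (fun z : 𝓞 M => (z : M)) h
    simp at this
    exact_mod_cast this
  · obtain ⟨b, hb⟩ := hfrac _ (hmem y hy)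
    refine ⟨⟨D.conj ((w * b : 𝓞 M) : M), hconj _⟩, ?_⟩
    have hb' : (b : M) = (c : M) * (algebraMap K M ξ * x₀ * D.conj y) := by
      exact hb.trans (Algebra.smul_def _ _)
    show D.conj (u : M) * y = D.conj ((w * b : 𝓞 M) : M)
    have hwne : (w : M) ≠ 0 := by exact_mod_cast nonZeroDivisors.ne_zero hw0
    replace hw : (u : M) = (c : M) * (algebraMap K M ξ * x₀) * (w : M) := (div_eq_iff hwne).mp hw
    have : (u : M) * D.conj y = ((w * b : 𝓞 M) : M) := by
      rw [hw, show ((w * b : 𝓞 M) : M) = (w : M) * (b : M) from map_mul _ _ _, hb']; ring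
    rw [← this, map_mul, D.conj_conj]

end Quad

end Fermat.Agent.LT.Dihedral

end
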