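import Fermat.Agent.LT.Dihedral.Embed
import Fermat.Agent.LT.Dihedral.RelSys

/-!
The theta series `∑ a(x) G_τ(x)` of functions on `M` form a relation system.
-/

set_option autoImplicit false
set_option linter.unusedSectionVars false

noncomputable section

namespace Fermat.Agent.LT.Dihedral

open NumberField Adelic MeasureTheory Matrix
open Poisson (eC latVec)
open Theta (qGauss qConst qBil)
open scoped nonZeroDivisors

variable {K M : Type*} [Field K] [NumberField K] [Field M] [NumberField M] [Algebra K M]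
  {ι : Type*} [Fintype ι] (Φ : Frame K ι) (D : Quad K M)

/-- The action of `GL₂(K)` on points at the infinite places. -/
def act (g : GL (Fin 2) K) (τ : ι → HSpace) : ι → HSpace := fun i => Φ.toInf i g • τ i

theorem act_mul (g g' : GL (Fin 2) K) (τ : ι → HSpace) :
    act Φ (g * g') τ = act Φ g (act Φ g' τ) := funext fun i => by
  simp only [act, map_mul, mul_smul]

theorem toInf_unipotent (i : ι) (t : K) :
    Φ.toInf i (unipotent t) = unipotent (Φ.emb i t) := by
  refine Units.ext ?_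
  ext j k
  fin_cases j <;> fin_cases k <;> simp [Frame.toInf, GeneralLinearGroup.map]

theorem toInf_diag2 (i : ι) (a b : Kˣ) :
    Φ.toInf i (diag2 a b) =
      diag2 (Units.map (Φ.emb i : K →* ℂ) a) (Units.map (Φ.emb i : K →* ℂ) b) := by
  refine Units.ext ?_
  ext j k
  fin_cases j <;> fin_cases k <;> simp [Frame.toInf, GeneralLinearGroup.map]

theorem toInf_weyl (i : ι) : Φ.toInf i (weyl : GL (Fin 2) K) = weyl := by
  refine Units.ext ?_
  ext j k
  fin_cases j <;> fin_cases k <;> simp [Frame.toInf, GeneralLinearGroup.map]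

theorem act_weyl (τ : ι → HSpace) :
    act Φ (weyl : GL (Fin 2) K) τ = fun i => (weyl : GL (Fin 2) ℂ) • τ i :=
  funext fun i => by rw [act, toInf_weyl]

theorem act_weyl_weyl (τ : ι → HSpace) :
    act Φ (weyl : GL (Fin 2) K) (act Φ (weyl : GL (Fin 2) K) τ) = τ := by
  funext i
  simp only [act, toInf_weyl, Theta.weyl_smul_weyl]

/-- `e^{2πi Tr}` of a scalar through the frame. -/
theorem psi_eq_eC_sum (a : K) : psi a = eC (∑ i, 2 * (Φ.emb i a).re) := by
  rw [psi, trace_rat_eq_sum Φ]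

/-! ### Sums over lattices in `M` -/

variable {d : Type*} [Fintype d]

theorem latMap_injective (b : Module.Basis d ℚ M) :
    Function.Injective fun n : d → ℤ => ∑ i, n i • b i := by
  classical
  intro n m h
  funext i
  have h' := congrArg (fun z => b.repr z i) h
  simp only [map_sum, map_zsmul, Module.Basis.repr_self, Finsupp.coe_finsetSum, Finset.sum_apply,
    Finsupp.coe_smul, Pi.smul_apply, Finsupp.single_apply, smul_ite, smul_zero,
    Finset.sum_ite_eq', Finset.mem_univ, if_true] at h'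
  simpa using h'

theorem mPt_add_latMap (b : Module.Basis d ℚ M) (h : M) (n : d → ℤ) :
    mPt Φ D (h + ∑ i, n i • b i) = mPt Φ D h + latVec (realBasis Φ D b) n := by
  rw [map_add, latVec_realBasis]

/-- Theta series of admissible functions converge. -/
theorem summable_theta {ξ : K} (hξ : ξ ≠ 0) {a : M → ℂ} (ha : Adm a) (s : ι → ℝ)
    (τ : ι → HSpace) : Summable fun x => a x * qGauss (xiV Φ ξ) s τ (mPt Φ D x) := by
  classical
  obtain ⟨⟨C, hC⟩, e, he, hea⟩ := ha
  have he0 : (e : M) ≠ 0 := by exact_mod_cast he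
  let J : (FractionalIdeal (𝓞 M)⁰ M)ˣ := Units.mk0
    (FractionalIdeal.spanSingleton (𝓞 M)⁰ ((e : M)⁻¹))
    (FractionalIdeal.spanSingleton_ne_zero_iff.mpr (inv_ne_zero he0))
  set b := basisOfFractionalIdeal M J
  have hsupp : ∀ x ∉ Set.range (fun n : _ → ℤ => ∑ i, n i • b i),
      a x * qGauss (xiV Φ ξ) s τ (mPt Φ D x) = 0 := by
    intro x hx
    by_cases h : a x = 0
    · rw [h, zero_mul]
    refine absurd ((mem_span_int_iff b x).mp ?_) (fun ⟨n, hn⟩ => hx ⟨n, hn⟩)
    rw [mem_span_basisOfFractionalIdeal]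
    obtain ⟨c, hc⟩ := hea x h
    refine (FractionalIdeal.mem_spanSingleton _).mpr ⟨c, ?_⟩
    rw [Algebra.smul_def]
    show (c : M) * _ = x
    rw [← hc]
    field_simp
  refine ((latMap_injective b).summable_iff hsupp).mp ?_
  refine Summable.of_norm_bounded ((Theta.summable_qGauss_lattice (realBasis Φ D b) (xiV Φ ξ)
    (xiV_ne_zero Φ hξ) s τ (mPt Φ D 0)).norm.mul_left C) fun n => ?_
  simp only [Function.comp_apply, norm_mul]
  rw [← mPt_add_latMap, zero_add]
  exact mul_le_mul_of_nonneg_right (hC _) (norm_nonneg _)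

/-- The relation `Θ_a (g • τ) = Θ_b τ`. -/
def thetaRel (ξ : K) (g : GL (Fin 2) K) (a b : M → ℂ) : Prop :=
  ∀ (s : ι → ℝ) (τ : ι → HSpace), ∃ S : ℂ,
    HasSum (fun x => a x * qGauss (xiV Φ ξ) s (act Φ g τ) (mPt Φ D x)) S ∧
    HasSum (fun x => b x * qGauss (xiV Φ ξ) s τ (mPt Φ D x)) S

/-- The constant of the Fourier transform of cosets. -/
def kapTheta (ξ : K) : ℂ := ((qConst (xiV Φ ξ) / covolInt Φ D : ℝ) : ℂ)

theorem kapTheta_mul (c ξ : K) :
    kapTheta Φ D (c * ξ) = kapTheta Φ D ξ / ((|Algebra.norm ℚ c| : ℚ) : ℂ) := by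
  have h : xiV Φ (c * ξ) = fun i => Φ.emb i c * xiV Φ ξ i := funext fun i => map_mul _ _ _
  rw [kapTheta, kapTheta, h, Theta.qConst_mul, ← abs_norm_rat_eq_prod,
    ← Complex.ofReal_ratCast, ← Complex.ofReal_div]
  congr 1
  ring

theorem thetaRel_packet {ξ : K} (hξ : ξ ≠ 0) (P : FractionalIdeal (𝓞 M)⁰ M) (hP : P ≠ 0)
    (h k : M) :
    thetaRel Φ D ξ weyl
      (fun x => Set.indicator {x | x - h ∈ P} (fun x => psi (D.bil ξ x k)) x)
      (fun y => kapTheta Φ D ξ / ((FractionalIdeal.absNorm P : ℚ) : ℂ) *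
        Set.indicator {y | y - k ∈ D.dualSet ξ P} (fun y => psi (-(D.bil ξ h (y - k)))) y) := by
  classical
  intro s τ
  set J : (FractionalIdeal (𝓞 M)⁰ M)ˣ := Units.mk0 P hP with hJ
  set b := basisOfFractionalIdeal M J
  set b' := (ratForm D ξ).dualBasis (ratForm_nondegenerate D hξ) b
  have hb : ∀ x, x ∈ Submodule.span ℤ (Set.range b) ↔ x ∈ P := fun x =>
    mem_span_basisOfFractionalIdeal M
  have hu := xiV_ne_zero Φ hξ
  have key := Theta.tsum_qGauss_modulated (realBasis Φ D b) (realBasis Φ D b') (xiV Φ ξ) hu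
    (qBil_dualBasis Φ D hξ b) s τ (mPt Φ D h) (mPt Φ D k)
  rw [volume_basisOfFractionalIdeal] at key
  set S : ℂ := ∑' n, qGauss (xiV Φ ξ) s (fun i => (weyl : GL (Fin 2) ℂ) • τ i)
    (mPt Φ D h + latVec (realBasis Φ D b) n) *
      eC (qBil (xiV Φ ξ) (mPt Φ D h + latVec (realBasis Φ D b) n) (mPt Φ D k)) with hS
  refine ⟨S, ?_, ?_⟩
  · have hinj : Function.Injective fun n : _ → ℤ => h + ∑ i, n i • b i :=
      (add_right_injective h).comp (latMap_injective b)
    refine (hinj.hasSum_iff fun x hx => ?_).mp ?_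
    · show Set.indicator _ _ x * _ = 0
      rw [Set.indicator_of_notMem, zero_mul]
      intro hmem
      obtain ⟨n, hn⟩ := (mem_span_int_iff b _).mp ((hb _).mpr hmem)
      exact hx ⟨n, by show h + _ = x; rw [hn, add_sub_cancel]⟩
    have hterm : ((fun x => Set.indicator {x | x - h ∈ P} (fun x => psi (D.bil ξ x k)) x *
        qGauss (xiV Φ ξ) s (act Φ weyl τ) (mPt Φ D x)) ∘ fun n : _ → ℤ => h + ∑ i, n i • b i) =
        fun n => qGauss (xiV Φ ξ) s (fun i => (weyl : GL (Fin 2) ℂ) • τ i)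
          (mPt Φ D h + latVec (realBasis Φ D b) n) *
          eC (qBil (xiV Φ ξ) (mPt Φ D h + latVec (realBasis Φ D b) n) (mPt Φ D k)) := by
      funext n
      have hmem : h + ∑ i, n i • b i ∈ {x | x - h ∈ P} := by
        show h + ∑ i, n i • b i - h ∈ P
        rw [add_sub_cancel_left]
        exact (hb _).mp ((mem_span_int_iff b _).mpr ⟨n, rfl⟩)
      rw [Function.comp_apply, Set.indicator_of_mem hmem, psi_eq_eC_qBil Φ, act_weyl,
        mPt_add_latMap, mul_comm]
    rw [hterm]
    refine (Summable.of_norm_bounded ((Theta.summable_qGauss_lattice (realBasis Φ D b) (xiV Φ ξ)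
      hu s (fun i => (weyl : GL (Fin 2) ℂ) • τ i) (mPt Φ D h)).norm) fun n => ?_).hasSum
    rw [norm_mul, Poisson.norm_eC, mul_one]
  · have hinj : Function.Injective fun m : _ → ℤ => k + ∑ i, m i • b' i :=
      (add_right_injective k).comp (latMap_injective b')
    refine (hinj.hasSum_iff fun x hx => ?_).mp ?_
    · show (_ * Set.indicator _ _ x) * _ = 0
      rw [Set.indicator_of_notMem, mul_zero, zero_mul]
      intro hmem
      obtain ⟨n, hn⟩ := (mem_span_int_iff b' _).mp
        ((mem_dualSet_iff D hξ b hb (x - k)).mp hmem)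
      exact hx ⟨n, by show k + _ = x; rw [hn, add_sub_cancel]⟩
    set c : ℂ := kapTheta Φ D ξ / ((FractionalIdeal.absNorm P : ℚ) : ℂ)
    have hterm : ((fun x => c * Set.indicator {y | y - k ∈ D.dualSet ξ P}
        (fun y => psi (-(D.bil ξ h (y - k)))) x * qGauss (xiV Φ ξ) s τ (mPt Φ D x)) ∘
          fun m : _ → ℤ => k + ∑ i, m i • b' i) =
        fun m => c * (eC (-qBil (xiV Φ ξ) (mPt Φ D h) (latVec (realBasis Φ D b') m)) *
          qGauss (xiV Φ ξ) s τ (mPt Φ D k + latVec (realBasis Φ D b') m)) := by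
      funext m
      have hmem : k + ∑ i, m i • b' i ∈ {y | y - k ∈ D.dualSet ξ P} := by
        show k + ∑ i, m i • b' i - k ∈ D.dualSet ξ P
        rw [add_sub_cancel_left]
        exact (mem_dualSet_iff D hξ b hb _).mpr ((mem_span_int_iff b' _).mpr ⟨m, rfl⟩)
      rw [Function.comp_apply, Set.indicator_of_mem hmem, add_sub_cancel_left, mPt_add_latMap,
        mul_assoc, latVec_realBasis, qBil_mPt, psi, map_neg, Rat.cast_neg]
    rw [hterm]
    have hS' : S = c * ∑' m : _ → ℤ,
        eC (-qBil (xiV Φ ξ) (mPt Φ D h) (latVec (realBasis Φ D b') m)) *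
          qGauss (xiV Φ ξ) s τ (mPt Φ D k + latVec (realBasis Φ D b') m) := by
      rw [key]
      congr 1
      simp only [c, kapTheta, hJ, Units.val_mk0]
      have := covolInt_pos Φ D
      push_cast
      field_simp
    rw [hS']
    exact (Summable.of_norm_bounded ((Theta.summable_qGauss_lattice (realBasis Φ D b') (xiV Φ ξ)
      hu s τ (mPt Φ D k)).norm) fun m => by
        rw [norm_mul, Poisson.norm_eC, one_mul]).hasSum.mul_left c

/-- **The relation system of the theta series.** -/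
def thetaSys {ξ : K} (hξ : ξ ≠ 0) : RelSys K M D ξ where
  rel := thetaRel Φ D ξ
  kap := kapTheta Φ D ξ
  comp {g g' a b c} h h' s τ := by
    obtain ⟨S, h1, h2⟩ := h s (act Φ g' τ)
    obtain ⟨S', h1', h2'⟩ := h' s τ
    obtain rfl : S = S' := h2.unique h1'
    exact ⟨S, by rw [act_mul]; exact h1, h2'⟩
  add {g a b a' b'} h h' s τ := by
    obtain ⟨S, h1, h2⟩ := h s τ
    obtain ⟨S', h1', h2'⟩ := h' s τ
    refine ⟨S + S', ?_, ?_⟩
    · exact (h1.add h1').congr_fun fun x => add_mul _ _ _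
    · exact (h2.add h2').congr_fun fun x => add_mul _ _ _
  smul {g a b} r h s τ := by
    obtain ⟨S, h1, h2⟩ := h s τ
    refine ⟨r * S, ?_, ?_⟩
    · exact (h1.mul_left r).congr_fun fun x => mul_assoc _ _ _
    · exact (h2.mul_left r).congr_fun fun x => mul_assoc _ _ _
  zero g s τ := ⟨0, by simp [hasSum_zero], by simp [hasSum_zero]⟩
  neg_scalar {a} ha s τ := by
    have h : act Φ (diag2 (-1) (-1) : GL (Fin 2) K) τ = τ := funext fun i => by
      rw [act, toInf_diag2]
      refine HSpace.ext ?_ ?_ <;>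
        simp [HSpace.smul_z, HSpace.smul_r, HSpace.denSq, HSpace.absDet, Matrix.det_fin_two]
    rw [h]
    exact ⟨_, (summable_theta Φ D hξ ha s τ).hasSum, (summable_theta Φ D hξ ha s τ).hasSum⟩
  weyl_symm {a b} h s τ := by
    obtain ⟨S, h1, h2⟩ := h s (act Φ weyl τ)
    rw [act_weyl_weyl] at h1
    exact ⟨S, h2, h1⟩
  unip {a} t ha s τ := by
    have hs := summable_theta Φ D hξ ha s (act Φ (unipotent t) τ)
    refine ⟨_, hs.hasSum, ?_⟩
    convert hs.hasSum using 2 with x
    rw [show act Φ (unipotent t) τ = fun i => unipotent (Φ.emb i t) • τ i from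
      funext fun i => by rw [act, toInf_unipotent], Theta.qGauss_unipotent]
    show psi _ * a x * _ = _
    rw [psi_eq_eC_sum Φ]
    have e : ∀ i, Φ.emb i (t * (ξ * Algebra.norm K x)) =
        Φ.emb i t * xiV Φ ξ i * (mPt Φ D x i).1 * (mPt Φ D x i).2 := fun i => by
      rw [mul_assoc (_ * _), mPt_fst_mul_snd, map_mul, map_mul, xiV]
      ring
    simp only [e]
    ring
  dia {a} e ha s τ := by
    have hs := summable_theta Φ D hξ ha s (act Φ (diag2 e e⁻¹) τ)
    refine ⟨_, hs.hasSum, ?_⟩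
    have he : algebraMap K M (e : K) ≠ 0 := by simp
    rw [← (Equiv.mulLeft₀ (algebraMap K M (e : K)) he).hasSum_iff]
    convert hs.hasSum using 2 with x
    simp only [Function.comp_apply, Equiv.mulLeft₀_apply]
    rw [← mul_assoc (algebraMap K M _), ← map_mul, Units.inv_mul, map_one, one_mul,
      show act Φ (diag2 e e⁻¹) τ = fun i => diag2 (Units.map (Φ.emb i : K →* ℂ) e)
        (Units.map (Φ.emb i : K →* ℂ) e)⁻¹ • τ i from
        funext fun i => by rw [act, toInf_diag2, map_inv], Theta.qGauss_torus]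
    have hN : ((|Algebra.norm ℚ (e : K)| : ℚ) : ℂ) =
        ((∏ i, ‖(Units.map (Φ.emb i : K →* ℂ) e : ℂ)‖ ^ 2 : ℝ) : ℂ) := by
      rw [← Complex.ofReal_ratCast, abs_norm_rat_eq_prod Φ]
      rfl
    rw [← hN]
    have hm : (fun i => (Units.map (Φ.emb i : K →* ℂ) e : ℂ) • mPt Φ D x i) =
        mPt Φ D (algebraMap K M (e : K) * x) := funext fun i => by
      simp [mPt_apply, liftEmb_algebraMap]
    rw [hm]
    ring
  packet := thetaRel_packet Φ D hξ

end Fermat.Agent.LT.Dihedral
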